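import Mathlib
import Fermat.Prelude.Def_GaloisRep_Adic

set_option autoImplicit false

/-!
Schur / Burnside lemmas for residually absolutely irreducible representations over local rings.
Used by the S53 development (universal deformation ring).
-/

namespace Fermat.Agent.S53.SchurH19

open Module
open scoped TensorProduct

section Burnside

variable {K V G : Type*} [Field K] [IsAlgClosed K] [AddCommGroup V] [Module K V]
  [FiniteDimensional K V] [Nontrivial V] [Monoid G]

/-- Burnside: an irreducible finite-dimensional representation over an algebraically closed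
field spans the whole endomorphism algebra. -/
theorem span_range_eq_top_of_irreducible (ρ : G →* Module.End K V)
    (hirr : ∀ W : Submodule K V, (∀ g, ∀ x ∈ W, ρ g x ∈ W) → W = ⊥ ∨ W = ⊤) :
    Submodule.span K (Set.range ρ) = ⊤ := by
  classical
  set R : Subalgebra K (Module.End K V) := Algebra.adjoin K (Set.range ρ) with hR
  have hRspan : Subalgebra.toSubmodule R = Submodule.span K (Set.range ρ) := by
    rw [hR, Algebra.adjoin_eq_span]
    congr 1
    have : Submonoid.closure (Set.range ρ) = MonoidHom.mrange ρ := by
      rw [← MonoidHom.coe_mrange, Submonoid.closure_eq]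
    rw [this, MonoidHom.coe_mrange]
  have hρR : ∀ g, ρ g ∈ R := fun g => Algebra.subset_adjoin ⟨g, rfl⟩
  have smul_def : ∀ (r : R) (x : V), r • x = (r : Module.End K V) x := fun _ _ => rfl
  have hscal : ∀ (c : K) (x : V), c • x = (algebraMap K R c) • x := by
    intro c x
    rw [smul_def]
    simp [Algebra.algebraMap_eq_smul_one]
  -- V is a simple R-module
  have hsimple : IsSimpleModule R V := by
    have : IsSimpleOrder (Submodule R V) := by
      refine ⟨fun W' => ?_⟩
      let W : Submodule K V :=
        { carrier := W'
          add_mem' := W'.add_mem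
          zero_mem' := W'.zero_mem
          smul_mem' := fun c x hx => by
            show c • x ∈ W'
            rw [hscal]
            exact W'.smul_mem _ hx }
      have hW : ∀ g, ∀ x ∈ W, ρ g x ∈ W := fun g x hx =>
        W'.smul_mem (⟨ρ g, hρR g⟩ : R) hx
      rcases hirr W hW with h | h
      · left
        ext x
        have : x ∈ W ↔ x ∈ (⊥ : Submodule K V) := by rw [h]
        simpa [W] using this
      · right
        ext x
        have : x ∈ W ↔ x ∈ (⊤ : Submodule K V) := by rw [h]
        simpa [W] using this
    exact { toIsSimpleOrder := this }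
  -- every R-endomorphism is a scalar
  have hD : ∀ d : Module.End R V, ∃ μ : K, ∀ x, d x = μ • x := by
    intro d
    let d' : Module.End K V :=
      { toFun := d
        map_add' := d.map_add
        map_smul' := fun c x => by
          simp only [RingHom.id_apply]
          rw [hscal, d.map_smul, ← hscal] }
    obtain ⟨μ, hμ⟩ := Module.End.exists_eigenvalue d'
    have hstable : ∀ g, ∀ x ∈ Module.End.eigenspace d' μ, ρ g x ∈ Module.End.eigenspace d' μ := by
      intro g x hx
      rw [Module.End.mem_eigenspace_iff] at hx ⊢
      have h1 : d' (ρ g x) = ρ g (d' x) := by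
        show d ((⟨ρ g, hρR g⟩ : R) • x) = (⟨ρ g, hρR g⟩ : R) • d x
        exact d.map_smul _ _
      rw [h1, hx, map_smul]
    rcases hirr _ hstable with h | h
    · exact absurd h hμ
    · refine ⟨μ, fun x => ?_⟩
      have : x ∈ Module.End.eigenspace d' μ := by rw [h]; trivial
      exact Module.End.mem_eigenspace_iff.mp this
  -- density
  rw [← hRspan, eq_top_iff]
  intro f _
  let f' : Module.End (Module.End R V) V :=
    { toFun := f
      map_add' := f.map_add
      map_smul' := fun d x => by
        obtain ⟨μ, hμ⟩ := hD d
        simp only [RingHom.id_apply, Module.End.smul_def]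
        rw [hμ, hμ, map_smul] }
  let b := Module.finBasis K V
  obtain ⟨r, hr⟩ := jacobson_density (R := R) (M := V) f' (Finset.univ.image b)
  have : f = (r : Module.End K V) := by
    apply b.ext
    intro i
    exact hr (b i) (Finset.mem_image_of_mem _ (Finset.mem_univ i))
  rw [this]
  exact r.2

end Burnside

section Descent

variable {k K V G : Type*} [Field k] [Field K] [Algebra k K] [IsAlgClosed K]
  [AddCommGroup V] [Module k V] [FiniteDimensional k V] [Nontrivial V] [Monoid G]

theorem span_range_eq_top_of_baseChange_irreducible (ρ : G →* Module.End k V)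
    (hirr : ∀ W : Submodule K (K ⊗[k] V),
      (∀ g, ∀ x ∈ W, (ρ g).baseChange K x ∈ W) → W = ⊥ ∨ W = ⊤) :
    Submodule.span k (Set.range ρ) = ⊤ := by
  classical
  by_contra hne
  have hlt : Submodule.span k (Set.range ρ) < ⊤ := lt_top_iff_ne_top.mpr hne
  obtain ⟨lam, hlam0, hlam⟩ := Submodule.exists_le_ker_of_lt_top _ hlt
  let b := Module.finBasis k V
  let bK := Algebra.TensorProduct.basis K b
  let ρK : G →* Module.End K (K ⊗[k] V) :=
    ((Module.End.baseChangeHom k K V : Module.End k V →ₐ[k] Module.End K (K ⊗[k] V)) :
      Module.End k V →* Module.End K (K ⊗[k] V)).comp ρ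
  have hρK : ∀ g, ρK g = (ρ g).baseChange K := fun g => rfl
  have : Nontrivial (K ⊗[k] V) := by
    apply Module.nontrivial_of_finrank_pos (R := K)
    rw [Module.finrank_baseChange]
    exact Module.finrank_pos
  have hspan := span_range_eq_top_of_irreducible ρK (fun W hW => hirr W hW)
  -- the functional
  let Lam : Module.End K (K ⊗[k] V) →ₗ[K] K :=
    bK.end.constr K (fun ij => algebraMap k K (lam (b.end ij)))
  have hLam : ∀ f : Module.End k V, Lam (f.baseChange K) = algebraMap k K (lam f) := by
    intro f
    have h1 : (Lam.restrictScalars k).comp (LinearMap.baseChangeHom k K V V) =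
        (Algebra.linearMap k K).comp lam := by
      apply b.end.ext
      intro ij
      simp only [LinearMap.comp_apply, LinearMap.restrictScalars_apply,
        LinearMap.baseChangeHom_apply, Algebra.linearMap_apply]
      rw [Module.Basis.baseChange_end]
      exact bK.end.constr_basis K _ ij
    exact congrArg (fun φ => φ f) h1
  have hLam0 : Lam = 0 := by
    have : Submodule.span K (Set.range ρK) ≤ LinearMap.ker Lam := by
      rw [Submodule.span_le]
      rintro _ ⟨g, rfl⟩
      rw [SetLike.mem_coe, LinearMap.mem_ker, hρK, hLam]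
      have : ρ g ∈ LinearMap.ker lam := hlam (Submodule.subset_span ⟨g, rfl⟩)
      rw [LinearMap.mem_ker.mp this, map_zero]
    rw [hspan, top_le_iff, LinearMap.ker_eq_top] at this
    exact this
  apply hlam0
  apply b.end.ext
  intro ij
  have h2 : Lam (bK.end ij) = algebraMap k K (lam (b.end ij)) := bK.end.constr_basis K _ ij
  rw [hLam0, LinearMap.zero_apply] at h2
  rw [LinearMap.zero_apply]
  exact (FaithfulSMul.algebraMap_injective k K) (by rw [← h2, map_zero])

end Descent

section Nakayama

variable {A V G : Type*} [CommRing A] [IsLocalRing A] [AddCommGroup V] [Module A V]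
  [Module.Free A V] [Module.Finite A V] [Monoid G]

/-- An endomorphism of a finite free module over a local ring which vanishes modulo the maximal
ideal lies in `𝔪 • ⊤`. -/
theorem mem_maximalIdeal_smul_top_of_baseChange_eq_zero (f : Module.End A V)
    (hf : f.baseChange (IsLocalRing.ResidueField A) = 0) :
    f ∈ (IsLocalRing.maximalIdeal A) • (⊤ : Submodule A (Module.End A V)) := by
  classical
  let b := Module.Free.chooseBasis A V
  let bK := Algebra.TensorProduct.basis (IsLocalRing.ResidueField A) b
  have hrepr : ∀ ij, b.end.repr f ij ∈ IsLocalRing.maximalIdeal A := by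
    intro ij
    have h1 : ((bK.end.coord ij).restrictScalars A).comp
          (LinearMap.baseChangeHom A (IsLocalRing.ResidueField A) V V) =
        (Algebra.linearMap A (IsLocalRing.ResidueField A)).comp (b.end.coord ij) := by
      apply b.end.ext
      intro ij'
      simp only [LinearMap.comp_apply, LinearMap.restrictScalars_apply,
        LinearMap.baseChangeHom_apply, Algebra.linearMap_apply, Module.Basis.coord_apply,
        Module.Basis.repr_self]
      rw [Module.Basis.baseChange_end, Module.Basis.repr_self]
      simp only [Finsupp.single_apply]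
      split_ifs <;> simp
    have h2 := congrArg (fun φ => φ f) h1
    simp only [LinearMap.comp_apply, LinearMap.restrictScalars_apply,
      LinearMap.baseChangeHom_apply, Algebra.linearMap_apply, Module.Basis.coord_apply] at h2
    rw [hf, map_zero, Finsupp.zero_apply] at h2
    exact (IsLocalRing.residue_eq_zero_iff _).mp h2.symm
  rw [← b.end.sum_repr f]
  exact Submodule.sum_mem _ fun ij _ =>
    Submodule.smul_mem_smul (hrepr ij) Submodule.mem_top

theorem span_range_eq_top_of_residual (ρ : G →* Module.End A V)
    (hres : Submodule.span (IsLocalRing.ResidueField A)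
      (Set.range fun g => (ρ g).baseChange (IsLocalRing.ResidueField A)) = ⊤) :
    Submodule.span A (Set.range ρ) = ⊤ := by
  rw [eq_top_iff]
  refine Submodule.le_of_le_smul_of_le_jacobson_bot (I := IsLocalRing.maximalIdeal A)
    (Module.Finite.fg_top) (IsLocalRing.maximalIdeal_le_jacobson _) ?_
  intro f _
  -- lift the image of f
  have hlift : ∀ y ∈ Submodule.span (IsLocalRing.ResidueField A)
      (Set.range fun g => (ρ g).baseChange (IsLocalRing.ResidueField A)),
      ∃ e ∈ Submodule.span A (Set.range ρ), e.baseChange (IsLocalRing.ResidueField A) = y := by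
    intro y hy
    induction hy using Submodule.span_induction with
    | mem y hy =>
      obtain ⟨g, rfl⟩ := hy
      exact ⟨ρ g, Submodule.subset_span ⟨g, rfl⟩, rfl⟩
    | zero => exact ⟨0, Submodule.zero_mem _, LinearMap.baseChange_zero⟩
    | add y z _ _ hy hz =>
      obtain ⟨e, he, rfl⟩ := hy
      obtain ⟨e', he', rfl⟩ := hz
      exact ⟨e + e', Submodule.add_mem _ he he', LinearMap.baseChange_add _ _⟩
    | smul c y _ hy =>
      obtain ⟨e, he, rfl⟩ := hy
      obtain ⟨a, rfl⟩ := IsLocalRing.residue_surjective c
      refine ⟨a • e, Submodule.smul_mem _ _ he, ?_⟩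
      rw [LinearMap.baseChange_smul]
      ext x
      simp only [TensorProduct.AlgebraTensorModule.curry_apply, LinearMap.restrictScalars_apply,
        TensorProduct.curry_apply, LinearMap.smul_apply, LinearMap.baseChange_tmul]
      rw [← IsLocalRing.ResidueField.algebraMap_eq, algebraMap_smul]
  obtain ⟨e, he, hef⟩ := hlift (f.baseChange _) (by rw [hres]; trivial)
  have h0 : (f - e).baseChange (IsLocalRing.ResidueField A) = 0 := by
    rw [LinearMap.baseChange_sub, hef]
    exact sub_self (LinearMap.baseChange (IsLocalRing.ResidueField A) f)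
  have hsub : (f - e) ∈ (IsLocalRing.maximalIdeal A) • (⊤ : Submodule A (Module.End A V)) :=
    mem_maximalIdeal_smul_top_of_baseChange_eq_zero _ h0
  have : f = e + (f - e) := by abel
  rw [this]
  exact Submodule.add_mem_sup he hsub

omit [IsLocalRing A] [Module.Finite A V] in
/-- Schur: an endomorphism commuting with a family spanning `End A V` is a scalar. -/
theorem exists_eq_smul_one_of_commute (ρ : G →* Module.End A V)
    (hspan : Submodule.span A (Set.range ρ) = ⊤) (f : Module.End A V)
    (hf : ∀ g, f * ρ g = ρ g * f) : ∃ a : A, f = a • (1 : Module.End A V) := by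
  have hall : ∀ h : Module.End A V, f * h = h * f := by
    intro h
    have hh : h ∈ Submodule.span A (Set.range ρ) := by rw [hspan]; trivial
    induction hh using Submodule.span_induction with
    | mem y hy => obtain ⟨g, rfl⟩ := hy; exact hf g
    | zero => simp
    | add y z _ _ hy hz => rw [mul_add, add_mul, hy, hz]
    | smul c y _ hy => rw [mul_smul_comm, smul_mul_assoc, hy]
  have hc : f ∈ Set.center (Module.End A V) := by
    rw [Semigroup.mem_center_iff]
    intro h
    exact (hall h).symm
  obtain ⟨a, _, ha⟩ := Module.End.mem_center_iff.mp hc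
  exact ⟨a, by rw [ha]; rfl⟩

end Nakayama

section GaloisRep

variable {A : Type} [CommRing A] [IsLocalRing A]

/-- (A1) An absolutely irreducible residual representation spans the whole endomorphism algebra. -/
theorem residual_span_range_eq_top {k : Type} [Field k] (ρbar : ResidualGaloisRep k)
    (h : ρbar.IsAbsolutelyIrreducible) : Submodule.span k (Set.range ρbar.ρ) = ⊤ := by
  have : Nontrivial ρbar.V :=
    Module.nontrivial_of_finrank_pos (R := k) (by rw [ρbar.finrank_eq]; norm_num)
  exact span_range_eq_top_of_baseChange_irreducible (K := AlgebraicClosure k) ρbar.ρ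
    (fun W hW => h W hW)

/-- (A2) If the residual representation of `ρ` is absolutely irreducible then `ρ(G)` spans
`End A V` over `A`. -/
theorem adic_span_range_eq_top (ρ : GaloisRepAdic A) (h : ρ.residual.IsAbsolutelyIrreducible) :
    Submodule.span A (Set.range ρ.ρ) = ⊤ :=
  span_range_eq_top_of_residual ρ.ρ (residual_span_range_eq_top ρ.residual h)

/-- (A3) Schur's lemma over a local ring. -/
theorem adic_exists_eq_smul_one_of_commute (ρ : GaloisRepAdic A)
    (h : ρ.residual.IsAbsolutelyIrreducible) (f : Module.End A ρ.V)
    (hf : ∀ g, f * ρ.ρ g = ρ.ρ g * f) : ∃ a : A, f = a • (1 : Module.End A ρ.V) :=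
  exists_eq_smul_one_of_commute ρ.ρ (adic_span_range_eq_top ρ h) f hf

/-- (A4) Two equivalences between residually absolutely irreducible representations differ by a
unit scalar. -/
theorem adic_equiv_eq_unit_smul {ρ ρ' : GaloisRepAdic A} (h : ρ.residual.IsAbsolutelyIrreducible)
    (e e' : GaloisRepAdic.Equiv ρ ρ') :
    ∃ u : Aˣ, ∀ x, e'.toLinearEquiv x = u • e.toLinearEquiv x := by
  have hnt : Nontrivial ρ.V :=
    Module.nontrivial_of_finrank_pos (R := A) (by rw [ρ.finrank_eq]; norm_num)
  -- f = e⁻¹ ∘ e', f' = e'⁻¹ ∘ e
  let f : Module.End A ρ.V := (e.toLinearEquiv.symm : ρ'.V →ₗ[A] ρ.V) ∘ₗ (e'.toLinearEquiv : ρ.V →ₗ[A] ρ'.V)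
  let f' : Module.End A ρ.V := (e'.toLinearEquiv.symm : ρ'.V →ₗ[A] ρ.V) ∘ₗ (e.toLinearEquiv : ρ.V →ₗ[A] ρ'.V)
  have hf : ∀ g, f * ρ.ρ g = ρ.ρ g * f := by
    intro g
    ext x
    show e.toLinearEquiv.symm (e'.toLinearEquiv (ρ.ρ g x)) =
      ρ.ρ g (e.toLinearEquiv.symm (e'.toLinearEquiv x))
    rw [e'.map_apply]
    apply e.toLinearEquiv.injective
    rw [LinearEquiv.apply_symm_apply, e.map_apply, LinearEquiv.apply_symm_apply]
  have hf' : ∀ g, f' * ρ.ρ g = ρ.ρ g * f' := by
    intro g
    ext x
    show e'.toLinearEquiv.symm (e.toLinearEquiv (ρ.ρ g x)) =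
      ρ.ρ g (e'.toLinearEquiv.symm (e.toLinearEquiv x))
    rw [e.map_apply]
    apply e'.toLinearEquiv.injective
    rw [LinearEquiv.apply_symm_apply, e'.map_apply, LinearEquiv.apply_symm_apply]
  obtain ⟨a, ha⟩ := adic_exists_eq_smul_one_of_commute ρ h f hf
  obtain ⟨b, hb⟩ := adic_exists_eq_smul_one_of_commute ρ h f' hf'
  have hff' : f * f' = 1 := by
    ext x
    show e.toLinearEquiv.symm (e'.toLinearEquiv (e'.toLinearEquiv.symm (e.toLinearEquiv x))) = x
    rw [LinearEquiv.apply_symm_apply, LinearEquiv.symm_apply_apply]
  have hab : a * b = 1 := by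
    rw [ha, hb, smul_mul_smul_comm, one_mul] at hff'
    let bs := Module.Free.chooseBasis A ρ.V
    obtain ⟨i⟩ := bs.index_nonempty
    have h1 := congrArg (fun φ : Module.End A ρ.V => bs.repr (φ (bs i)) i) hff'
    simpa using h1
  refine ⟨Units.mkOfMulEqOne a b hab, fun x => ?_⟩
  have h1 := congrArg (fun φ : Module.End A ρ.V => φ x) ha
  simp only [LinearMap.smul_apply, Module.End.one_apply] at h1
  show e'.toLinearEquiv x = a • e.toLinearEquiv x
  rw [← map_smul, ← h1]
  show e'.toLinearEquiv x = e.toLinearEquiv (e.toLinearEquiv.symm (e'.toLinearEquiv x))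
  rw [LinearEquiv.apply_symm_apply]

end GaloisRep

end Fermat.Agent.S53.SchurH19
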