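import Mathlib
import Fermat.Prelude.Def_GaloisRep_Adic

/-!
Burnside's theorem in dimension two (elementary proof), descent of spanning sets along a
field extension, and the consequence for absolutely irreducible `ResidualGaloisRep`s:
the `k`-span of the image of the representation is the whole endomorphism ring.
-/

set_option autoImplicit false

namespace Fermat.Agent.S53.BurnsideTwo

open Module TensorProduct

section Burnside

variable {K V : Type*} [Field K] [AddCommGroup V] [Module K V]

/-- orbit of a nonzero vector under an irreducible subalgebra is everything -/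
theorem exists_mem_apply_eq
    (B : Subalgebra K (Module.End K V))
    (hirr : ∀ W : Submodule K V, (∀ b ∈ B, ∀ x ∈ W, b x ∈ W) → W = ⊥ ∨ W = ⊤)
    {x : V} (hx : x ≠ 0) (y : V) : ∃ b ∈ B, b x = y := by
  set W : Submodule K V := (Subalgebra.toSubmodule B).map (LinearMap.applyₗ x) with hW
  have hinv : ∀ b ∈ B, ∀ z ∈ W, b z ∈ W := by
    rintro b hb z ⟨b', hb', rfl⟩
    exact ⟨b * b', B.mul_mem hb hb', rfl⟩
  have hxW : x ∈ W := ⟨1, B.one_mem, rfl⟩
  rcases hirr W hinv with h | h
  · exact absurd ((Submodule.mem_bot K).mp (h ▸ hxW)) hx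
  · have : y ∈ W := h ▸ Submodule.mem_top
    obtain ⟨b, hb, rfl⟩ := this
    exact ⟨b, hb, rfl⟩

/-- dual version -/
theorem exists_mem_comp_eq [FiniteDimensional K V]
    (B : Subalgebra K (Module.End K V))
    (hirr : ∀ W : Submodule K V, (∀ b ∈ B, ∀ x ∈ W, b x ∈ W) → W = ⊥ ∨ W = ⊤)
    {φ : Dual K V} (hφ : φ ≠ 0) (ψ : Dual K V) : ∃ b ∈ B, φ ∘ₗ b = ψ := by
  set W' : Submodule K (Dual K V) :=
    (Subalgebra.toSubmodule B).map (LinearMap.llcomp K V V K φ) with hW'
  have hmem : ∀ b ∈ B, φ ∘ₗ b ∈ W' := fun b hb => ⟨b, hb, rfl⟩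
  set W0 : Submodule K V := W'.dualCoannihilator with hW0
  have hinv : ∀ b ∈ B, ∀ z ∈ W0, b z ∈ W0 := by
    intro b hb z hz
    rw [hW0, Submodule.mem_dualCoannihilator] at hz ⊢
    rintro _ ⟨b', hb', rfl⟩
    have := hz (φ ∘ₗ (b' * b)) (hmem _ (B.mul_mem hb' hb))
    simpa using this
  have hbot : W0 = ⊥ := by
    rcases hirr W0 hinv with h | h
    · exact h
    · exfalso
      apply hφ
      ext y
      have hy : y ∈ W0 := h ▸ Submodule.mem_top
      rw [hW0, Submodule.mem_dualCoannihilator] at hy
      have := hy (φ ∘ₗ (1 : Module.End K V)) (hmem 1 B.one_mem)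
      simpa using this
  have htop : W' = ⊤ := by
    apply Submodule.eq_top_of_finrank_eq
    have h1 := Subspace.finrank_add_finrank_dualCoannihilator_eq W'
    rw [← hW0, hbot, finrank_bot, add_zero] at h1
    rw [h1, Subspace.dual_finrank_eq]
  have : ψ ∈ W' := htop ▸ Submodule.mem_top
  obtain ⟨b, hb, rfl⟩ := this
  exact ⟨b, hb, rfl⟩

variable [IsAlgClosed K]

/-- Burnside in dimension two. -/
theorem subalgebra_eq_top_of_irreducible (hV : finrank K V = 2)
    (B : Subalgebra K (Module.End K V))
    (hirr : ∀ W : Submodule K V, (∀ b ∈ B, ∀ x ∈ W, b x ∈ W) → W = ⊥ ∨ W = ⊤) :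
    B = ⊤ := by
  have : FiniteDimensional K V := Module.finite_of_finrank_pos (by omega)
  have : Nontrivial V := Module.nontrivial_of_finrank_pos (R := K) (by omega)
  -- a rank one element
  obtain ⟨φ, w, hφ, hw, hφw⟩ : ∃ (φ : Dual K V) (w : V), φ ≠ 0 ∧ w ≠ 0 ∧ φ.smulRight w ∈ B := by
    obtain ⟨x, hx⟩ := exists_ne (0 : V)
    -- y outside span x
    obtain ⟨y, hy⟩ : ∃ y : V, y ∉ Submodule.span K {x} := by
      by_contra hcon
      push Not at hcon
      have : Submodule.span K {x} = ⊤ := by
        rw [eq_top_iff]; intro y _; exact hcon y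
      have h1 := finrank_span_singleton (K := K) hx
      rw [this, finrank_top, hV] at h1
      omega
    obtain ⟨T, hT, hTx⟩ := exists_mem_apply_eq B hirr hx y
    obtain ⟨c, hc⟩ := Module.End.exists_eigenvalue T
    obtain ⟨v, hv⟩ := hc.exists_hasEigenvector
    set T' : Module.End K V := T - c • 1 with hT'
    have hT'B : T' ∈ B := B.sub_mem hT (B.smul_mem B.one_mem c)
    have hT'v : T' v = 0 := by
      simp [hT', hv.apply_eq_smul]
    have hT'x : T' x ≠ 0 := by
      intro h
      apply hy
      have : y = c • x := by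
        have : T x - c • x = 0 := by simpa [hT'] using h
        rw [← hTx]; exact sub_eq_zero.mp this
      rw [this]
      exact Submodule.smul_mem _ _ (Submodule.mem_span_singleton_self x)
    -- v, x linearly independent
    have hv0 : v ≠ 0 := hv.2
    have hli : LinearIndependent K ![v, x] := by
      rw [LinearIndependent.pair_iff]
      intro s t hst
      have h2 := congrArg T' hst
      rw [map_add, map_smul, map_smul, hT'v, smul_zero, zero_add, map_zero] at h2
      have ht : t = 0 := by
        rcases smul_eq_zero.mp h2 with h | h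
        · exact h
        · exact absurd h hT'x
      rw [ht, zero_smul, add_zero] at hst
      rcases smul_eq_zero.mp hst with h | h
      · exact ⟨h, ht⟩
      · exact absurd h hv0
    let e : Basis (Fin 2) K V := basisOfLinearIndependentOfCardEqFinrank hli (by simp [hV])
    have he0 : e 0 = v := by simp [e]
    have he1 : e 1 = x := by simp [e]
    refine ⟨e.coord 1, T' x, ?_, hT'x, ?_⟩
    · intro h
      have := congrArg (fun f => f (e 1)) h
      simp at this
    · have : (e.coord 1).smulRight (T' x) = T' := by
        apply e.ext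
        intro i
        fin_cases i
        · show (e.coord 1).smulRight (T' x) (e 0) = T' (e 0)
          rw [LinearMap.smulRight_apply, Basis.coord_apply, Basis.repr_self, he0, hT'v]
          simp
        · show (e.coord 1).smulRight (T' x) (e 1) = T' (e 1)
          rw [LinearMap.smulRight_apply, Basis.coord_apply, Basis.repr_self, he1]
          simp
      rw [this]; exact hT'B
  rw [eq_top_iff]
  rintro S -
  let e : Basis (Fin (finrank K V)) K V := Module.finBasis K V
  have hS : S = ∑ i, (e.coord i).smulRight (S (e i)) := by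
    apply LinearMap.ext
    intro y
    have h := congrArg S (e.sum_repr y)
    rw [map_sum] at h
    simp only [map_smul] at h
    rw [← h]
    simp [LinearMap.sum_apply]
  rw [hS]
  refine B.sum_mem fun i _ => ?_
  obtain ⟨b, hb, hbw⟩ := exists_mem_apply_eq B hirr hw (S (e i))
  obtain ⟨b', hb', hb'φ⟩ := exists_mem_comp_eq B hirr hφ (e.coord i)
  have : (e.coord i).smulRight (S (e i)) = b * (φ.smulRight w) * b' := by
    apply LinearMap.ext
    intro y
    simp [← hb'φ, ← hbw]
  rw [this]
  exact B.mul_mem (B.mul_mem hb hφw) hb'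

end Burnside


section Descent

variable {k K V : Type*} [Field k] [Field K] [Algebra k K] [AddCommGroup V] [Module k V]
  [FiniteDimensional k V]

theorem span_eq_top_of_span_baseChange_eq_top (S : Set (Module.End k V))
    (h : Submodule.span K ((LinearMap.baseChangeHom k K V V) '' S) = ⊤) :
    Submodule.span k S = ⊤ := by
  set B : Submodule k (Module.End k V) := Submodule.span k S with hB
  set β := LinearMap.baseChangeHom k K V V with hβ
  let e : Basis (Fin (finrank k B)) k B := Module.finBasis k B
  have hsub : β '' S ⊆ Submodule.span K (Set.range fun i => β (e i : Module.End k V)) := by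
    rintro _ ⟨s, hs, rfl⟩
    have hsB : s ∈ B := Submodule.subset_span hs
    have h1 : (⟨s, hsB⟩ : B) = ∑ i, e.repr ⟨s, hsB⟩ i • e i := (e.sum_repr _).symm
    have h2 : s = ∑ i, e.repr ⟨s, hsB⟩ i • (e i : Module.End k V) := by
      have h3 := congrArg (Subtype.val) h1
      rw [Submodule.coe_sum] at h3
      simp only [Submodule.coe_smul] at h3
      exact h3
    rw [h2, map_sum]
    refine Submodule.sum_mem _ fun i _ => ?_
    rw [map_smul, ← algebraMap_smul K (e.repr ⟨s, hsB⟩ i)]
    exact Submodule.smul_mem _ _ (Submodule.subset_span ⟨i, rfl⟩)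
  have htop : (⊤ : Submodule K (Module.End K (K ⊗[k] V))) ≤
      Submodule.span K (Set.range fun i => β (e i : Module.End k V)) := by
    rw [← h]
    exact Submodule.span_le.mpr hsub
  have hle : finrank K (Module.End K (K ⊗[k] V)) ≤ finrank k B := by
    have h1 : finrank K (⊤ : Submodule K (Module.End K (K ⊗[k] V))) ≤
        finrank K (Submodule.span K (Set.range fun i => β (e i : Module.End k V))) :=
      Submodule.finrank_mono htop
    rw [finrank_top] at h1
    refine h1.trans ?_
    have := finrank_range_le_card (R := K) (fun i => β (e i : Module.End k V))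
    simpa [Set.finrank] using this
  have hdim : finrank K (Module.End K (K ⊗[k] V)) = finrank k (Module.End k V) := by
    rw [Module.finrank_linearMap, Module.finrank_linearMap, Module.finrank_baseChange]
  apply Submodule.eq_top_of_finrank_eq
  apply le_antisymm (Submodule.finrank_le _)
  rw [← hdim]; exact hle

end Descent


section Residual

/-- For an absolutely irreducible two-dimensional residual representation the `k`-span of the
image is all of `End_k V`. -/
theorem span_range_eq_top {k : Type} [Field k] (ρ : ResidualGaloisRep k)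
    (h : ρ.IsAbsolutelyIrreducible) : Submodule.span k (Set.range ρ.ρ) = ⊤ := by
  apply span_eq_top_of_span_baseChange_eq_top (K := AlgebraicClosure k)
  have hB : Algebra.adjoin (AlgebraicClosure k)
      (Set.range (ρ.baseChange (AlgebraicClosure k)).ρ) = ⊤ := by
    apply subalgebra_eq_top_of_irreducible (ρ.baseChange (AlgebraicClosure k)).finrank_eq
    intro W hW
    exact h W (fun σ x hx => hW _ (Algebra.subset_adjoin ⟨σ, rfl⟩) x hx)
  have h2 := Algebra.adjoin_eq_span (AlgebraicClosure k)
    (Set.range (ρ.baseChange (AlgebraicClosure k)).ρ)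
  rw [hB] at h2
  have h3 : (Submonoid.closure (Set.range (ρ.baseChange (AlgebraicClosure k)).ρ) : Set _) =
      Set.range (ρ.baseChange (AlgebraicClosure k)).ρ := by
    rw [← MonoidHom.coe_mrange, Submonoid.closure_eq]
  rw [h3] at h2
  have h4 : Set.range (ρ.baseChange (AlgebraicClosure k)).ρ =
      (LinearMap.baseChangeHom k (AlgebraicClosure k) ρ.V ρ.V) '' Set.range ρ.ρ := by
    ext f
    constructor
    · rintro ⟨σ, rfl⟩
      exact ⟨ρ.ρ σ, ⟨σ, rfl⟩, rfl⟩
    · rintro ⟨_, ⟨σ, rfl⟩, rfl⟩
      exact ⟨σ, rfl⟩
  rw [← h4, ← h2]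
  rfl

end Residual

end Fermat.Agent.S53.BurnsideTwo
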