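import Mathlib

/-!
# The limit ring of a directed family of quotients

Let `P` be a commutative `𝒪`-algebra and `F` a set of ideals of `P`. The ring
`limitRing 𝒪 F` is the ring of compatible families in the product of the `P ⧸ I`, `I ∈ F`
(i.e. the inverse limit of the quotients `P ⧸ I`).

This file contains the definitions and the formal API:

* `limitRing 𝒪 F : Subalgebra 𝒪 (∀ I : F, P ⧸ I.1)`
* `proj 𝒪 F I : limitRing 𝒪 F →ₐ[𝒪] P ⧸ I.1` (surjective: `proj_surjective`)
* `ofP 𝒪 F : P →ₐ[𝒪] limitRing 𝒪 F`, with `proj_ofP`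
* `ext` : two elements with the same projections are equal
* `lift` : a compatible family of algebra homs `A →ₐ[𝒪] P ⧸ I` gives `A →ₐ[𝒪] limitRing 𝒪 F`
* `IsProSystem 𝒪 F d` : the hypotheses on `F` under which `limitRing 𝒪 F` is a complete
  Noetherian local ring (proved in `LimitRingThms.lean`).
-/

set_option autoImplicit false

namespace Fermat.Agent.S53.LimitRing

section Defs

variable (𝒪 : Type*) [CommRing 𝒪] {P : Type*} [CommRing P] [Algebra 𝒪 P]

/-- The ring of compatible families in `∏_{I ∈ F} P ⧸ I`, i.e. the inverse limit of the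
quotients `P ⧸ I`, `I ∈ F`, as a subalgebra of the product. -/
def limitRing (F : Set (Ideal P)) : Subalgebra 𝒪 (∀ I : F, P ⧸ I.1) where
  carrier := {x | ∀ (I J : F) (h : I.1 ≤ J.1), Ideal.Quotient.factor h (x I) = x J}
  mul_mem' := by
    intro x y hx hy I J h
    rw [Pi.mul_apply, map_mul, hx I J h, hy I J h, Pi.mul_apply]
  one_mem' := by
    intro I J h
    rw [Pi.one_apply, map_one, Pi.one_apply]
  add_mem' := by
    intro x y hx hy I J h
    rw [Pi.add_apply, map_add, hx I J h, hy I J h, Pi.add_apply]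
  zero_mem' := by
    intro I J h
    rw [Pi.zero_apply, map_zero, Pi.zero_apply]
  algebraMap_mem' := by
    intro a I J h
    rw [Pi.algebraMap_apply, Pi.algebraMap_apply, ← Ideal.Quotient.factorₐ_apply 𝒪 h,
      AlgHom.commutes]

variable (F : Set (Ideal P))

variable {𝒪 F} in
theorem mem_limitRing {x : ∀ I : F, P ⧸ I.1} :
    x ∈ limitRing 𝒪 F ↔
      ∀ (I J : F) (h : I.1 ≤ J.1), Ideal.Quotient.factor h (x I) = x J :=
  Iff.rfl

/-- The projection from the limit ring to the quotient `P ⧸ I`. -/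
def proj (I : F) : limitRing 𝒪 F →ₐ[𝒪] P ⧸ I.1 :=
  (Pi.evalAlgHom 𝒪 (fun I : F => P ⧸ I.1) I).comp (limitRing 𝒪 F).val

variable {𝒪 F} in
theorem proj_apply (I : F) (x : limitRing 𝒪 F) : proj 𝒪 F I x = x.1 I := rfl

variable {𝒪 F} in
/-- The projections are compatible with the transition maps. -/
theorem factor_proj {I J : F} (h : I.1 ≤ J.1) (x : limitRing 𝒪 F) :
    Ideal.Quotient.factor h (proj 𝒪 F I x) = proj 𝒪 F J x :=
  x.2 I J h

variable {𝒪 F} in
/-- Two elements of the limit ring with the same projections are equal. -/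
theorem ext {x y : limitRing 𝒪 F} (h : ∀ I : F, proj 𝒪 F I x = proj 𝒪 F I y) : x = y :=
  Subtype.ext (funext h)

/-- The canonical map from `P` to the limit ring. -/
def ofP : P →ₐ[𝒪] limitRing 𝒪 F :=
  (AlgHom.pi (fun I : F => Ideal.Quotient.mkₐ 𝒪 I.1)).codRestrict
    (limitRing 𝒪 F) (fun _ _ _ _ => rfl)

variable {𝒪 F} in
@[simp] theorem proj_ofP (I : F) (p : P) :
    proj 𝒪 F I (ofP 𝒪 F p) = Ideal.Quotient.mk I.1 p := rfl

theorem proj_comp_ofP (I : F) :
    (proj 𝒪 F I).comp (ofP 𝒪 F) = Ideal.Quotient.mkₐ 𝒪 I.1 := rfl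

theorem proj_surjective (I : F) : Function.Surjective (proj 𝒪 F I) := by
  intro y
  obtain ⟨p, rfl⟩ := Ideal.Quotient.mk_surjective y
  exact ⟨ofP 𝒪 F p, proj_ofP I p⟩

variable {𝒪 F} in
/-- Every element of the limit ring agrees with an element of `P` at a given index. -/
theorem exists_proj_eq_proj_ofP (I : F) (x : limitRing 𝒪 F) :
    ∃ p : P, proj 𝒪 F I x = proj 𝒪 F I (ofP 𝒪 F p) := by
  obtain ⟨p, hp⟩ := Ideal.Quotient.mk_surjective (proj 𝒪 F I x)
  exact ⟨p, hp.symm⟩

variable {F} in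
/-- If `I ≤ J` then the kernel of the projection to `P ⧸ I` is contained in the kernel of the
projection to `P ⧸ J`. -/
theorem ker_proj_le_of_le {I J : F} (h : I.1 ≤ J.1) :
    RingHom.ker (proj 𝒪 F I) ≤ RingHom.ker (proj 𝒪 F J) := by
  intro x hx
  rw [RingHom.mem_ker] at hx ⊢
  rw [← factor_proj h, hx, map_zero]

/-- The universal property of the limit ring: a compatible family of algebra homomorphisms to
the quotients `P ⧸ I` lifts to the limit ring. -/
def lift {A : Type*} [Semiring A] [Algebra 𝒪 A] (f : ∀ I : F, A →ₐ[𝒪] P ⧸ I.1)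
    (hf : ∀ (I J : F) (h : I.1 ≤ J.1) (a : A), Ideal.Quotient.factor h (f I a) = f J a) :
    A →ₐ[𝒪] limitRing 𝒪 F :=
  (AlgHom.pi f).codRestrict (limitRing 𝒪 F) (fun a I J h => hf I J h a)

variable {𝒪 F} in
@[simp] theorem proj_lift {A : Type*} [Semiring A] [Algebra 𝒪 A] (f : ∀ I : F, A →ₐ[𝒪] P ⧸ I.1)
    (hf : ∀ (I J : F) (h : I.1 ≤ J.1) (a : A), Ideal.Quotient.factor h (f I a) = f J a)
    (I : F) (a : A) : proj 𝒪 F I (lift 𝒪 F f hf a) = f I a := rfl

theorem proj_comp_lift {A : Type*} [Semiring A] [Algebra 𝒪 A] (f : ∀ I : F, A →ₐ[𝒪] P ⧸ I.1)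
    (hf : ∀ (I J : F) (h : I.1 ≤ J.1) (a : A), Ideal.Quotient.factor h (f I a) = f J a)
    (I : F) : (proj 𝒪 F I).comp (lift 𝒪 F f hf) = f I := rfl

variable {𝒪 F} in
/-- Two algebra homomorphisms into the limit ring agreeing after all projections are equal. -/
theorem algHom_ext_proj {A : Type*} [Semiring A] [Algebra 𝒪 A]
    {g g' : A →ₐ[𝒪] limitRing 𝒪 F}
    (h : ∀ I : F, (proj 𝒪 F I).comp g = (proj 𝒪 F I).comp g') : g = g' := by
  refine AlgHom.ext fun a => ext fun I => ?_
  exact DFunLike.congr_fun (h I) a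

/-- The hypotheses on a family `F` of ideals of `P` making `limitRing 𝒪 F` a complete Noetherian
local `𝒪`-algebra which is a quotient of a power series ring in `d` variables:
`F` is nonempty and closed under finite intersections, each `P ⧸ I` is a finite nonzero ring
which is a quotient of the power series ring `𝒪⟦X₁, …, X_d⟧` (as `𝒪`-algebra). -/
structure IsProSystem (F : Set (Ideal P)) (d : ℕ) : Prop where
  nonempty : F.Nonempty
  inf_mem : ∀ I ∈ F, ∀ J ∈ F, I ⊓ J ∈ F
  finite : ∀ I ∈ F, Finite (P ⧸ I)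
  ne_top : ∀ I ∈ F, I ≠ ⊤
  gen : ∀ I ∈ F, ∃ φ : MvPowerSeries (Fin d) 𝒪 →ₐ[𝒪] P ⧸ I, Function.Surjective φ

end Defs

end Fermat.Agent.S53.LimitRing
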