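import Mathlib

/-!
# Power series over a complete local ring are complete for their maximal ideal

`Λ = MvPowerSeries σ 𝒪` with `σ` finite and `𝒪` a complete Noetherian local ring.
We describe the powers of the maximal ideal of `Λ` coefficientwise and deduce that `Λ` is
adically complete for its maximal ideal. We also construct the evaluation homomorphism
`Λ →ₐ[𝒪] A` at nilpotent elements of an `𝒪`-algebra `A`.
-/

set_option autoImplicit false

open MvPowerSeries

namespace Fermat.Agent.S53.LimitRing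

section VarIdeal

variable {σ : Type*} [Finite σ] {R : Type*} [CommRing R]

theorem map_toAdicCompletionAlgEquiv_span_X :
    Ideal.map (toAdicCompletionAlgEquiv σ R).toRingEquiv
        (Ideal.span (Set.range (X : σ → MvPowerSeries σ R))) =
      (MvPolynomial.idealOfVars σ R).map
        (algebraMap (MvPolynomial σ R)
          (AdicCompletion (MvPolynomial.idealOfVars σ R) (MvPolynomial σ R))) := by
  simp_rw [Ideal.map_span, ← Set.range_comp]
  congr 2; ext1
  simp [AdicCompletion.algebraMap_apply, ← MvPolynomial.coe_X, toAdicCompletion_coe]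

/-- A power series lies in the `n`-th power of the ideal generated by the variables iff all its
coefficients in total degree `< n` vanish. -/
theorem mem_pow_span_X_iff (n : ℕ) (f : MvPowerSeries σ R) :
    f ∈ (Ideal.span (Set.range (X : σ → MvPowerSeries σ R))) ^ n ↔
      ∀ x : σ →₀ ℕ, Finsupp.degree x < n → coeff x f = 0 := by
  set e := toAdicCompletionAlgEquiv σ R with he
  set J := Ideal.span (Set.range (X : σ → MvPowerSeries σ R)) with hJ
  have h1 : f ∈ J ^ n ↔ e f ∈ Ideal.map e.toRingEquiv (J ^ n) := by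
    constructor
    · intro h
      exact Ideal.mem_map_of_mem _ h
    · intro h
      rw [Ideal.mem_map_of_equiv] at h
      obtain ⟨g, hg, hgf⟩ := h
      have : g = f := e.injective hgf
      rwa [← this]
  rw [h1, Ideal.map_pow, map_toAdicCompletionAlgEquiv_span_X, ← Ideal.map_pow]
  have h2 : ∀ y : AdicCompletion (MvPolynomial.idealOfVars σ R) (MvPolynomial σ R),
      y ∈ Ideal.map (algebraMap (MvPolynomial σ R) _) (MvPolynomial.idealOfVars σ R ^ n) ↔
        y.val n = 0 := by
    intro y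
    have := AdicCompletion.pow_smul_top_eq_ker_eval (I := MvPolynomial.idealOfVars σ R)
      (M := MvPolynomial σ R) (n := n) (MvPolynomial.idealOfVars_fg σ R)
    rw [← Submodule.restrictScalars_mem (MvPolynomial σ R), ← Ideal.smul_top_eq_map, this]
    rfl
  rw [h2, he, toAdicCompletionAlgEquiv_apply, toAdicCompletion_apply_eq_mk_truncTotal,
    Ideal.Quotient.eq_zero_iff_mem, smul_eq_mul, Ideal.mul_top,
    MvPolynomial.mem_pow_idealOfVars_iff']
  constructor
  · intro h x hx
    rw [← coeff_truncTotal f hx]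
    exact h x hx
  · intro h x hx
    rw [coeff_truncTotal f hx]
    exact h x hx

theorem monomial_one_mem_pow_span_X (x : σ →₀ ℕ) :
    (monomial x (1 : R)) ∈
      (Ideal.span (Set.range (X : σ → MvPowerSeries σ R))) ^ (Finsupp.degree x) := by
  classical
  rw [mem_pow_span_X_iff]
  intro y hy
  rw [coeff_monomial, if_neg]
  rintro rfl
  exact lt_irrefl _ hy

end VarIdeal

section MaxIdeal

variable {σ : Type*} [Finite σ] {𝒪 : Type*} [CommRing 𝒪] [IsLocalRing 𝒪]

open IsLocalRing

omit [Finite σ] in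
theorem mem_maximalIdeal_iff_constantCoeff (f : MvPowerSeries σ 𝒪) :
    f ∈ maximalIdeal (MvPowerSeries σ 𝒪) ↔ constantCoeff f ∈ maximalIdeal 𝒪 := by
  rw [mem_maximalIdeal, mem_maximalIdeal, mem_nonunits_iff, mem_nonunits_iff,
    isUnit_iff_constantCoeff]

theorem X_mem_maximalIdeal (s : σ) :
    (X s : MvPowerSeries σ 𝒪) ∈ maximalIdeal (MvPowerSeries σ 𝒪) := by
  rw [mem_maximalIdeal_iff_constantCoeff, constantCoeff_X]
  exact zero_mem _

theorem span_X_le_maximalIdeal :
    Ideal.span (Set.range (X : σ → MvPowerSeries σ 𝒪)) ≤ maximalIdeal (MvPowerSeries σ 𝒪) := by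
  rw [Ideal.span_le]
  rintro _ ⟨s, rfl⟩
  exact X_mem_maximalIdeal s

theorem map_C_le_maximalIdeal :
    (maximalIdeal 𝒪).map (C : 𝒪 →+* MvPowerSeries σ 𝒪) ≤ maximalIdeal (MvPowerSeries σ 𝒪) := by
  rw [Ideal.map_le_iff_le_comap]
  intro a ha
  rw [Ideal.mem_comap, mem_maximalIdeal_iff_constantCoeff, constantCoeff_C]
  exact ha

/-- The ideal of power series whose coefficient at `x` lies in `𝔪 ^ (n - deg x)`. -/
def coeffIdeal (σ : Type*) [Finite σ] (𝒪 : Type*) [CommRing 𝒪] [IsLocalRing 𝒪] (n : ℕ) :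
    Ideal (MvPowerSeries σ 𝒪) where
  carrier := {f | ∀ x : σ →₀ ℕ, coeff x f ∈ maximalIdeal 𝒪 ^ (n - Finsupp.degree x)}
  add_mem' := by
    intro f g hf hg x
    rw [map_add]
    exact add_mem (hf x) (hg x)
  zero_mem' := by
    intro x
    rw [map_zero]
    exact zero_mem _
  smul_mem' := by
    classical
    intro c f hf x
    rw [smul_eq_mul, coeff_mul]
    refine Ideal.sum_mem _ fun p hp => ?_
    have hp' : p.1 + p.2 = x := by simpa using hp
    refine Ideal.mul_mem_left _ _ (Ideal.pow_le_pow_right ?_ (hf p.2))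
    have : Finsupp.degree p.2 ≤ Finsupp.degree x := by
      rw [← hp', map_add]
      exact Nat.le_add_left _ _
    omega

theorem mem_coeffIdeal {n : ℕ} {f : MvPowerSeries σ 𝒪} :
    f ∈ coeffIdeal σ 𝒪 n ↔
      ∀ x : σ →₀ ℕ, coeff x f ∈ maximalIdeal 𝒪 ^ (n - Finsupp.degree x) :=
  Iff.rfl

theorem coeffIdeal_zero : coeffIdeal σ 𝒪 0 = ⊤ := by
  rw [eq_top_iff]
  intro f _ x
  simp

theorem coeffIdeal_mul_le (a b : ℕ) :
    coeffIdeal σ 𝒪 a * coeffIdeal σ 𝒪 b ≤ coeffIdeal σ 𝒪 (a + b) := by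
  classical
  rw [Ideal.mul_le]
  intro f hf g hg x
  rw [coeff_mul]
  refine Ideal.sum_mem _ fun p hp => ?_
  have hp' : p.1 + p.2 = x := by simpa using hp
  have hdeg : Finsupp.degree p.1 + Finsupp.degree p.2 = Finsupp.degree x := by
    rw [← hp', map_add]
  have h1 := Ideal.mul_mem_mul (hf p.1) (hg p.2)
  rw [← pow_add] at h1
  refine Ideal.pow_le_pow_right ?_ h1
  omega

theorem maximalIdeal_le_coeffIdeal_one :
    maximalIdeal (MvPowerSeries σ 𝒪) ≤ coeffIdeal σ 𝒪 1 := by
  intro f hf x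
  rw [mem_maximalIdeal_iff_constantCoeff] at hf
  by_cases hx : x = 0
  · subst hx
    simpa using hf
  · have : 1 ≤ Finsupp.degree x := by
      rw [Nat.one_le_iff_ne_zero]
      intro h
      exact hx ((Finsupp.degree_eq_zero_iff x).mp h)
    rw [Nat.sub_eq_zero_of_le this, pow_zero, Ideal.one_eq_top]
    exact Submodule.mem_top

theorem maximalIdeal_pow_le_coeffIdeal (n : ℕ) :
    maximalIdeal (MvPowerSeries σ 𝒪) ^ n ≤ coeffIdeal σ 𝒪 n := by
  induction n with
  | zero => rw [coeffIdeal_zero]; exact le_top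
  | succ n ih =>
    rw [pow_succ]
    exact (Ideal.mul_mono ih maximalIdeal_le_coeffIdeal_one).trans (coeffIdeal_mul_le n 1)

theorem monomial_mem_maximalIdeal_pow {n : ℕ} (x : σ →₀ ℕ) (c : 𝒪)
    (hc : c ∈ maximalIdeal 𝒪 ^ (n - Finsupp.degree x)) (hx : Finsupp.degree x ≤ n) :
    monomial x c ∈ maximalIdeal (MvPowerSeries σ 𝒪) ^ n := by
  have h1 : monomial x c = C c * monomial x (1 : 𝒪) := by
    rw [← smul_eq_C_mul, ← map_smul, smul_eq_mul, mul_one]
  have h2 : C c ∈ maximalIdeal (MvPowerSeries σ 𝒪) ^ (n - Finsupp.degree x) := by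
    have : C c ∈ ((maximalIdeal 𝒪).map (C : 𝒪 →+* MvPowerSeries σ 𝒪)) ^ (n - Finsupp.degree x) := by
      rw [← Ideal.map_pow]
      exact Ideal.mem_map_of_mem _ hc
    exact Ideal.pow_right_mono map_C_le_maximalIdeal _ this
  have h3 : monomial x (1 : 𝒪) ∈ maximalIdeal (MvPowerSeries σ 𝒪) ^ (Finsupp.degree x) :=
    Ideal.pow_right_mono span_X_le_maximalIdeal _ (monomial_one_mem_pow_span_X x)
  have h4 := Ideal.mul_mem_mul h2 h3
  rw [← pow_add, Nat.sub_add_cancel hx] at h4
  rw [h1]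
  exact h4

theorem coeffIdeal_le_maximalIdeal_pow (n : ℕ) :
    coeffIdeal σ 𝒪 n ≤ maximalIdeal (MvPowerSeries σ 𝒪) ^ n := by
  intro f hf
  have hsplit : f = (f - ((truncTotal n f : MvPolynomial σ 𝒪) : MvPowerSeries σ 𝒪)) +
      ((truncTotal n f : MvPolynomial σ 𝒪) : MvPowerSeries σ 𝒪) := by ring
  rw [hsplit]
  refine add_mem ?_ ?_
  · refine Ideal.pow_right_mono span_X_le_maximalIdeal n ?_
    rw [mem_pow_span_X_iff]
    intro x hx
    rw [map_sub, MvPolynomial.coeff_coe, coeff_truncTotal f hx, sub_self]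
  · rw [← MvPolynomial.support_sum_monomial_coeff (truncTotal n f)]
    rw [← MvPolynomial.coeToMvPowerSeries.ringHom_apply, map_sum]
    refine Ideal.sum_mem _ fun x hx => ?_
    rw [MvPolynomial.coeToMvPowerSeries.ringHom_apply, MvPolynomial.coe_monomial]
    rw [MvPolynomial.mem_support_iff, coeff_truncTotal_eq_ite] at hx
    have hlt : Finsupp.degree x < n := by
      by_contra h
      rw [if_neg h] at hx
      exact hx rfl
    rw [coeff_truncTotal f hlt]
    exact monomial_mem_maximalIdeal_pow x _ (hf x) hlt.le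

/-- Coefficientwise description of the powers of the maximal ideal of a power series ring
over a local ring. -/
theorem maximalIdeal_pow_eq_coeffIdeal (n : ℕ) :
    maximalIdeal (MvPowerSeries σ 𝒪) ^ n = coeffIdeal σ 𝒪 n :=
  le_antisymm (maximalIdeal_pow_le_coeffIdeal n) (coeffIdeal_le_maximalIdeal_pow n)

theorem mem_maximalIdeal_pow_iff {n : ℕ} {f : MvPowerSeries σ 𝒪} :
    f ∈ maximalIdeal (MvPowerSeries σ 𝒪) ^ n ↔
      ∀ x : σ →₀ ℕ, coeff x f ∈ maximalIdeal 𝒪 ^ (n - Finsupp.degree x) := by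
  rw [maximalIdeal_pow_eq_coeffIdeal]
  exact Iff.rfl

theorem maximalIdeal_eq_sup :
    maximalIdeal (MvPowerSeries σ 𝒪) =
      Ideal.span (Set.range (X : σ → MvPowerSeries σ 𝒪)) ⊔
        (maximalIdeal 𝒪).map (C : 𝒪 →+* MvPowerSeries σ 𝒪) := by
  refine le_antisymm ?_ (sup_le span_X_le_maximalIdeal map_C_le_maximalIdeal)
  intro f hf
  rw [mem_maximalIdeal_iff_constantCoeff] at hf
  have hsplit : f = (f - C (constantCoeff f)) + C (constantCoeff f) := by ring
  rw [hsplit]
  refine add_mem (Ideal.mem_sup_left ?_) (Ideal.mem_sup_right (Ideal.mem_map_of_mem _ hf))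
  have := (mem_pow_span_X_iff (σ := σ) (R := 𝒪) 1 (f - C (constantCoeff f))).mpr ?_
  · simpa using this
  · intro x hx
    have hx0 : x = 0 := by
      rw [← Finsupp.degree_eq_zero_iff]
      omega
    subst hx0
    simp

end MaxIdeal

section Complete

variable {σ : Type*} [Finite σ] {𝒪 : Type*} [CommRing 𝒪] [IsLocalRing 𝒪]

open IsLocalRing

theorem isPrecomplete_maximalIdeal [IsPrecomplete (maximalIdeal 𝒪) 𝒪] :
    IsPrecomplete (maximalIdeal (MvPowerSeries σ 𝒪)) (MvPowerSeries σ 𝒪) := by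
  refine ⟨fun {f} hf => ?_⟩
  -- coefficientwise Cauchy sequences
  have hcoeff : ∀ x : σ →₀ ℕ, ∀ {k l : ℕ}, k ≤ l →
      coeff x (f (k + Finsupp.degree x)) ≡ coeff x (f (l + Finsupp.degree x))
        [SMOD (maximalIdeal 𝒪 ^ k • ⊤ : Submodule 𝒪 𝒪)] := by
    intro x k l hkl
    have h := hf (m := k + Finsupp.degree x) (n := l + Finsupp.degree x) (by omega)
    rw [SModEq.sub_mem, smul_eq_mul, Ideal.mul_top, mem_maximalIdeal_pow_iff] at h
    have hx := h x
    rw [map_sub, Nat.add_sub_cancel] at hx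
    rw [SModEq.sub_mem, smul_eq_mul, Ideal.mul_top]
    exact hx
  choose ℓ hℓ using fun x : σ →₀ ℕ =>
    IsPrecomplete.prec (I := maximalIdeal 𝒪) (M := 𝒪) inferInstance
      (f := fun k => coeff x (f (k + Finsupp.degree x))) (fun {k l} hkl => hcoeff x hkl)
  let L : MvPowerSeries σ 𝒪 := fun x => ℓ x
  have hL : ∀ x, coeff x L = ℓ x := fun x => rfl
  refine ⟨L, fun n => ?_⟩
  rw [SModEq.sub_mem, smul_eq_mul, Ideal.mul_top, mem_maximalIdeal_pow_iff]
  intro x
  by_cases hx : Finsupp.degree x ≤ n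
  · have h := hℓ x (n - Finsupp.degree x)
    rw [SModEq.sub_mem, smul_eq_mul, Ideal.mul_top] at h
    simp only [Nat.sub_add_cancel hx] at h
    rw [map_sub, hL]
    exact h
  · have : n - Finsupp.degree x = 0 := by omega
    rw [this, pow_zero, Ideal.one_eq_top]
    exact Submodule.mem_top

/-- Power series in finitely many variables over a complete Noetherian local ring are complete
for the maximal ideal. -/
theorem isAdicComplete_maximalIdeal [IsNoetherianRing 𝒪] [IsAdicComplete (maximalIdeal 𝒪) 𝒪] :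
    IsAdicComplete (maximalIdeal (MvPowerSeries σ 𝒪)) (MvPowerSeries σ 𝒪) :=
  have := isPrecomplete_maximalIdeal (σ := σ) (𝒪 := 𝒪)
  { }

theorem finite_quotient_maximalIdeal_pow [IsNoetherianRing 𝒪] [Finite (ResidueField 𝒪)]
    (n : ℕ) :
    Finite (MvPowerSeries σ 𝒪 ⧸ maximalIdeal (MvPowerSeries σ 𝒪) ^ n) := by
  haveI : Finite (ResidueField (MvPowerSeries σ 𝒪)) := by
    have hsurj : Function.Surjective
        (IsLocalRing.residue (MvPowerSeries σ 𝒪) ∘ (C : 𝒪 →+* MvPowerSeries σ 𝒪)) := by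
      intro y
      obtain ⟨f, rfl⟩ := IsLocalRing.residue_surjective y
      refine ⟨constantCoeff f, ?_⟩
      rw [Function.comp_apply, ← sub_eq_zero, ← map_sub, IsLocalRing.residue_eq_zero_iff,
        mem_maximalIdeal_iff_constantCoeff]
      simp
    have hker : ∀ a : 𝒪, a ∈ maximalIdeal 𝒪 →
        (IsLocalRing.residue (MvPowerSeries σ 𝒪)) (C a) = 0 := by
      intro a ha
      rw [IsLocalRing.residue_eq_zero_iff, mem_maximalIdeal_iff_constantCoeff, constantCoeff_C]
      exact ha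
    let φ : ResidueField 𝒪 →+* ResidueField (MvPowerSeries σ 𝒪) :=
      Ideal.Quotient.lift (maximalIdeal 𝒪)
        ((IsLocalRing.residue (MvPowerSeries σ 𝒪)).comp (C : 𝒪 →+* MvPowerSeries σ 𝒪)) hker
    refine Finite.of_surjective φ ?_
    intro y
    obtain ⟨a, ha⟩ := hsurj y
    exact ⟨IsLocalRing.residue 𝒪 a, ha⟩
  exact (IsLocalRing.finite_quotient_iff).mpr ⟨n, le_rfl⟩

end Complete

end Fermat.Agent.S53.LimitRing
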