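import Mathlib
import Fermat.Agent.S53.PowerSeriesComplete

/-!
# Evaluation of power series at nilpotent elements, and a compactness principle

* `exists_algHom_X_eq`, `algHom_ext_X`: for nilpotent elements `a s` of a commutative
  `𝒪`-algebra `A` there is a unique `𝒪`-algebra homomorphism `MvPowerSeries σ 𝒪 →ₐ[𝒪] A`
  mapping `X s` to `a s`.
* `exists_compatible_of_finite`: a directed inverse system of nonempty finite sets has a
  compatible family of elements.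
* `exists_mem_forall_of_directed`: compactness of a precomplete ring with finite quotients.
-/

set_option autoImplicit false

open MvPowerSeries

namespace Fermat.Agent.S53.LimitRing

section Eval

variable {σ : Type*} [Finite σ] {𝒪 : Type*} [CommRing 𝒪] {A : Type*} [CommRing A] [Algebra 𝒪 A]

theorem exists_pow_span_range_eq_bot (a : σ → A) (ha : ∀ s, IsNilpotent (a s)) :
    ∃ N : ℕ, Ideal.span (Set.range a) ^ N = ⊥ := by
  have hfg : (Ideal.span (Set.range a)).FG := ⟨(Set.finite_range a).toFinset, by simp⟩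
  have hle : Ideal.span (Set.range a) ≤ nilradical A := by
    rw [Ideal.span_le]
    rintro _ ⟨s, rfl⟩
    exact (mem_nilradical).mpr (ha s)
  obtain ⟨N, hN⟩ := (Ideal.FG.isNilpotent_iff_le_nilradical hfg).mpr hle
  exact ⟨N, hN⟩

/-- Evaluation of power series at nilpotent elements: existence. -/
theorem exists_algHom_X_eq (a : σ → A) (ha : ∀ s, IsNilpotent (a s)) :
    ∃ φ : MvPowerSeries σ 𝒪 →ₐ[𝒪] A, ∀ s, φ (X s) = a s := by
  obtain ⟨N, hN⟩ := exists_pow_span_range_eq_bot a ha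
  have hker : ∀ p ∈ MvPolynomial.idealOfVars σ 𝒪 ^ (N + 2), MvPolynomial.aeval a p = 0 := by
    intro p hp
    have h1 : MvPolynomial.aeval a p ∈
        Ideal.map (MvPolynomial.aeval (R := 𝒪) a) (MvPolynomial.idealOfVars σ 𝒪 ^ (N + 2)) :=
      Ideal.mem_map_of_mem _ hp
    rw [Ideal.map_pow, MvPolynomial.idealOfVars, Ideal.map_span, ← Set.range_comp] at h1
    have h2 : (⇑(MvPolynomial.aeval (R := 𝒪) a) ∘ MvPolynomial.X) = a := by
      ext s
      simp
    rw [h2, pow_add, hN, Ideal.bot_mul] at h1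
    simpa using h1
  let ψ : (MvPolynomial σ 𝒪 ⧸ MvPolynomial.idealOfVars σ 𝒪 ^ (N + 2)) →ₐ[𝒪] A :=
    Ideal.Quotient.liftₐ _ (MvPolynomial.aeval a) hker
  let τ : MvPowerSeries σ 𝒪 →ₐ[𝒪]
      (MvPolynomial σ 𝒪 ⧸ MvPolynomial.idealOfVars σ 𝒪 ^ (N + 2)) :=
    (truncTotalAlgHom σ 𝒪 (N + 2)).restrictScalars 𝒪
  refine ⟨ψ.comp τ, fun s => ?_⟩
  have h3 : τ (X s) = Ideal.Quotient.mk _ (MvPolynomial.X s) := by
    have : (X s : MvPowerSeries σ 𝒪) =
        ((MvPolynomial.X s : MvPolynomial σ 𝒪) : MvPowerSeries σ 𝒪) :=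
      (MvPolynomial.coe_X s).symm
    rw [this]
    exact (truncTotalAlgHom σ 𝒪 (N + 2)).commutes (MvPolynomial.X s)
  rw [AlgHom.comp_apply, h3]
  have h4 : ψ.comp (Ideal.Quotient.mkₐ 𝒪 _) = MvPolynomial.aeval a :=
    Ideal.Quotient.liftₐ_comp _ _ hker
  have h5 := DFunLike.congr_fun h4 (MvPolynomial.X s)
  rw [AlgHom.comp_apply, MvPolynomial.aeval_X] at h5
  exact h5

omit [Finite σ] in
theorem algHom_coe_eq {φ ψ : MvPowerSeries σ 𝒪 →ₐ[𝒪] A} (h : ∀ s, φ (X s) = ψ (X s))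
    (p : MvPolynomial σ 𝒪) : φ (p : MvPowerSeries σ 𝒪) = ψ p := by
  induction p using MvPolynomial.induction_on with
  | C a =>
    rw [MvPolynomial.coe_C]
    have : (C a : MvPowerSeries σ 𝒪) = algebraMap 𝒪 (MvPowerSeries σ 𝒪) a := rfl
    rw [this, AlgHom.commutes, AlgHom.commutes]
  | add p q hp hq => rw [MvPolynomial.coe_add, map_add, map_add, hp, hq]
  | mul_X p s hp => rw [MvPolynomial.coe_mul, MvPolynomial.coe_X, map_mul, map_mul, hp, h]

/-- Evaluation of power series at nilpotent elements: uniqueness. -/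
theorem algHom_ext_X {φ ψ : MvPowerSeries σ 𝒪 →ₐ[𝒪] A} (hφ : ∀ s, IsNilpotent (φ (X s)))
    (h : ∀ s, φ (X s) = ψ (X s)) : φ = ψ := by
  obtain ⟨N, hN⟩ := exists_pow_span_range_eq_bot (fun s => φ (X s)) hφ
  have hφ0 : ∀ g ∈ Ideal.span (Set.range (X : σ → MvPowerSeries σ 𝒪)) ^ N, φ g = 0 := by
    intro g hg
    have h1 : φ g ∈ Ideal.map φ (Ideal.span (Set.range (X : σ → MvPowerSeries σ 𝒪)) ^ N) :=
      Ideal.mem_map_of_mem _ hg
    rw [Ideal.map_pow, Ideal.map_span, ← Set.range_comp] at h1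
    have h2 : (⇑φ ∘ (X : σ → MvPowerSeries σ 𝒪)) = fun s => φ (X s) := rfl
    rw [h2, hN] at h1
    simpa using h1
  have hψ0 : ∀ g ∈ Ideal.span (Set.range (X : σ → MvPowerSeries σ 𝒪)) ^ N, ψ g = 0 := by
    intro g hg
    have h1 : ψ g ∈ Ideal.map ψ (Ideal.span (Set.range (X : σ → MvPowerSeries σ 𝒪)) ^ N) :=
      Ideal.mem_map_of_mem _ hg
    rw [Ideal.map_pow, Ideal.map_span, ← Set.range_comp] at h1
    have h2 : (⇑ψ ∘ (X : σ → MvPowerSeries σ 𝒪)) = fun s => φ (X s) := by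
      ext s
      exact (h s).symm
    rw [h2, hN] at h1
    simpa using h1
  refine AlgHom.ext fun f => ?_
  have hsplit : f = (f - ((truncTotal N f : MvPolynomial σ 𝒪) : MvPowerSeries σ 𝒪)) +
      ((truncTotal N f : MvPolynomial σ 𝒪) : MvPowerSeries σ 𝒪) := by ring
  have htail : (f - ((truncTotal N f : MvPolynomial σ 𝒪) : MvPowerSeries σ 𝒪)) ∈
      Ideal.span (Set.range (X : σ → MvPowerSeries σ 𝒪)) ^ N := by
    rw [mem_pow_span_X_iff]
    intro x hx
    rw [map_sub, MvPolynomial.coeff_coe, coeff_truncTotal f hx, sub_self]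
  rw [hsplit, map_add, map_add, hφ0 _ htail, hψ0 _ htail, algHom_coe_eq h]

end Eval

section Compactness

open CategoryTheory

universe u v

/-- A compactness principle: a directed inverse system of nonempty finite sets has a compatible
family of elements. -/
theorem exists_compatible_of_finite {ι : Type u} [Preorder ι] [IsDirectedOrder ι]
    (X : ι → Type v) (π : ∀ ⦃i j : ι⦄, i ≤ j → X j → X i)
    (π_id : ∀ (i : ι) (x : X i), π (le_refl i) x = x)
    (π_comp : ∀ ⦃i j k : ι⦄ (hij : i ≤ j) (hjk : j ≤ k) (x : X k),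
      π hij (π hjk x) = π (hij.trans hjk) x)
    (S : ∀ i, Set (X i)) (hfin : ∀ i, (S i).Finite) (hne : ∀ i, (S i).Nonempty)
    (hS : ∀ ⦃i j : ι⦄ (h : i ≤ j), ∀ x ∈ S j, π h x ∈ S i) :
    ∃ s : ∀ i, X i, (∀ i, s i ∈ S i) ∧ ∀ ⦃i j : ι⦄ (h : i ≤ j), π h (s j) = s i := by
  let G : ιᵒᵖ ⥤ Type v :=
    { obj := fun i => S i.unop
      map := fun {i j} f => TypeCat.ofHom
        (fun x : S i.unop => (⟨π (leOfHom f.unop) x.1, hS (leOfHom f.unop) x.1 x.2⟩ : S j.unop))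
      map_id := by
        intro i
        ext x
        exact π_id _ _
      map_comp := by
        intro i j k f g
        ext x
        exact (π_comp _ _ _).symm }
  have : ∀ j : ιᵒᵖ, Finite (G.obj j) := fun j => (hfin j.unop).to_subtype
  have : ∀ j : ιᵒᵖ, Nonempty (G.obj j) := fun j => (hne j.unop).to_subtype
  obtain ⟨s, hs⟩ := nonempty_sections_of_finite_inverse_system G
  refine ⟨fun i => (s (Opposite.op i)).1, fun i => (s (Opposite.op i)).2, fun i j h => ?_⟩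
  have := hs (homOfLE h).op
  exact congrArg Subtype.val this

/-- Compactness of a ring `Λ` which is precomplete for an ideal `𝔫` with finite quotients
`Λ ⧸ 𝔫 ^ m`: a directed decreasing family of nonempty open-closed subsets has nonempty
intersection. -/
theorem exists_mem_forall_of_directed {Λ : Type v} [CommRing Λ] (𝔫 : Ideal Λ)
    [IsPrecomplete 𝔫 Λ] (hfin : ∀ m : ℕ, Finite (Λ ⧸ 𝔫 ^ m))
    {ι : Type u} [Preorder ι] [IsDirectedOrder ι] [Nonempty ι]
    (C : ι → Set Λ) (hne : ∀ i, (C i).Nonempty) (hanti : ∀ ⦃i j : ι⦄, i ≤ j → C j ⊆ C i)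
    (hopen : ∀ i, ∃ m : ℕ, ∀ c ∈ C i, ∀ x ∈ 𝔫 ^ m, c + x ∈ C i) :
    ∃ g : Λ, ∀ i, g ∈ C i := by
  have : IsDirectedOrder (ι × ℕ) := ⟨fun a b => by
    obtain ⟨c, hac, hbc⟩ := exists_ge_ge a.1 b.1
    exact ⟨(c, max a.2 b.2), ⟨hac, le_max_left _ _⟩, ⟨hbc, le_max_right _ _⟩⟩⟩
  obtain ⟨s, hsS, hscomp⟩ := exists_compatible_of_finite (ι := ι × ℕ)
    (fun p => Λ ⧸ 𝔫 ^ p.2)
    (fun p q h => Ideal.Quotient.factor (Ideal.pow_le_pow_right (Prod.le_def.mp h).2))
    (by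
      intro p x
      obtain ⟨y, rfl⟩ := Ideal.Quotient.mk_surjective x
      rfl)
    (by
      intro p q r hpq hqr x
      obtain ⟨y, rfl⟩ := Ideal.Quotient.mk_surjective x
      rfl)
    (fun p => (Ideal.Quotient.mk (𝔫 ^ p.2)) '' (C p.1))
    (fun p => by
      have := hfin p.2
      exact Set.toFinite _)
    (fun p => (hne p.1).image _)
    (by
      rintro p q h _ ⟨c, hc, rfl⟩
      exact ⟨c, hanti h.1 hc, rfl⟩)
  obtain ⟨i₀⟩ := ‹Nonempty ι›
  have hindep : ∀ (i : ι) (m : ℕ), s (i, m) = s (i₀, m) := by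
    intro i m
    obtain ⟨k, hik, hi₀k⟩ := exists_ge_ge i i₀
    have h1 := hscomp (show ((i, m) : ι × ℕ) ≤ (k, m) from ⟨hik, le_refl m⟩)
    have h2 := hscomp (show ((i₀, m) : ι × ℕ) ≤ (k, m) from ⟨hi₀k, le_refl m⟩)
    obtain ⟨y, hy⟩ := Ideal.Quotient.mk_surjective (s (k, m))
    rw [← hy] at h1 h2
    rw [← h1, ← h2]
  choose f hf using fun m : ℕ => Ideal.Quotient.mk_surjective (s (i₀, m))
  have hcauchy : ∀ {m n : ℕ}, m ≤ n → f m ≡ f n [SMOD (𝔫 ^ m • ⊤ : Submodule Λ Λ)] := by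
    intro m n hmn
    rw [SModEq.sub_mem, smul_eq_mul, Ideal.mul_top, ← Ideal.Quotient.eq, hf m]
    have h1 := hscomp (show ((i₀, m) : ι × ℕ) ≤ (i₀, n) from ⟨le_refl _, hmn⟩)
    rw [← h1, ← hf n]
    rfl
  obtain ⟨L, hL⟩ := IsPrecomplete.prec (I := 𝔫) (M := Λ) inferInstance hcauchy
  refine ⟨L, fun i => ?_⟩
  obtain ⟨m, hm⟩ := hopen i
  obtain ⟨c, hc, hcs⟩ := hsS (i, m)
  have h1 : c - f m ∈ 𝔫 ^ m := by
    rw [← Ideal.Quotient.eq, hf m, ← hindep i m]
    exact hcs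
  have h2 : f m - L ∈ 𝔫 ^ m := by
    have := hL m
    rwa [SModEq.sub_mem, smul_eq_mul, Ideal.mul_top] at this
  have h3 : L = c + (-(c - f m) + -(f m - L)) := by ring
  rw [h3]
  exact hm c hc _ (add_mem (neg_mem h1) (neg_mem h2))

end Compactness

end Fermat.Agent.S53.LimitRing
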