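import Mathlib
import Fermat.Agent.S53.LimitRing
import Fermat.Agent.S53.PowerSeriesComplete
import Fermat.Agent.S53.PowerSeriesEval
import Fermat.Prelude.Thm_IsLocalRing_isAdicComplete_of_module_finite

/-!
# The limit ring of a pro-system is a complete Noetherian local ring

Let `𝒪` be a complete Noetherian local ring with finite residue field, `P` a commutative
`𝒪`-algebra and `F` a set of ideals of `P` with `hF : IsProSystem 𝒪 F d`. We prove, for
`R = limitRing 𝒪 F`: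

* `hF.exists_surjective` : `R` is a quotient of `MvPowerSeries (Fin d) 𝒪`;
* `hF.isLocalRing`, `hF.isNoetherianRing`, `hF.isLocalHom_algebraMap`, `hF.residue_surjective`,
  `hF.isAdicComplete`, `hF.finite_residueField`, `hF.finite_quotient_maximalIdeal_pow`;
* continuity: `hF.exists_ker_proj_le_maximalIdeal_pow`, `hF.exists_ker_proj_le`,
  `hF.exists_ker_proj_le_ker`, `hF.exists_factor_of_finite`, `hF.algHom_ext_of_finite`.
-/

set_option autoImplicit false

open MvPowerSeries IsLocalRing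

namespace Fermat.Agent.S53.LimitRing

section SurjFinite

variable {σ : Type*} {𝒪 : Type*} [CommRing 𝒪] [IsLocalRing 𝒪]
  {A : Type*} [CommRing A] [Algebra 𝒪 A] [Finite A] [Nontrivial A]

/-- A surjection from a power series ring over a local ring onto a finite nonzero ring kills a
power of the maximal ideal. -/
theorem exists_maximalIdeal_pow_le_ker (φ : MvPowerSeries σ 𝒪 →ₐ[𝒪] A)
    (hφ : Function.Surjective φ) :
    ∃ m : ℕ, maximalIdeal (MvPowerSeries σ 𝒪) ^ m ≤ RingHom.ker φ := by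
  have hloc : IsLocalRing A := IsLocalRing.of_surjective' φ.toRingHom hφ
  have hnil : IsNilpotent (maximalIdeal A) := by
    have h := IsArtinianRing.isNilpotent_jacobson_bot (R := A)
    rwa [IsLocalRing.jacobson_eq_maximalIdeal ⊥ bot_ne_top] at h
  obtain ⟨m, hm⟩ := hnil
  refine ⟨m, ?_⟩
  have hmap : (maximalIdeal (MvPowerSeries σ 𝒪)).map φ.toRingHom = maximalIdeal A :=
    IsLocalRing.map_maximalIdeal_of_surjective φ.toRingHom hφ
  intro f hf
  have h1 : φ.toRingHom f ∈ Ideal.map φ.toRingHom (maximalIdeal (MvPowerSeries σ 𝒪) ^ m) :=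
    Ideal.mem_map_of_mem _ hf
  rw [Ideal.map_pow, hmap, hm] at h1
  rw [RingHom.mem_ker]
  simpa using h1

theorem isNilpotent_apply_X_of_surjective [Finite σ] (φ : MvPowerSeries σ 𝒪 →ₐ[𝒪] A)
    (hφ : Function.Surjective φ) (s : σ) : IsNilpotent (φ (X s)) := by
  obtain ⟨m, hm⟩ := exists_maximalIdeal_pow_le_ker φ hφ
  refine ⟨m, ?_⟩
  have h1 : (X s : MvPowerSeries σ 𝒪) ^ m ∈ maximalIdeal (MvPowerSeries σ 𝒪) ^ m :=
    Ideal.pow_mem_pow (X_mem_maximalIdeal s) m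
  have h2 := hm h1
  rw [RingHom.mem_ker, map_pow] at h2
  exact h2

end SurjFinite

section Main

variable {𝒪 : Type*} [CommRing 𝒪] [IsLocalRing 𝒪]
  {P : Type*} [CommRing P] [Algebra 𝒪 P] {F : Set (Ideal P)} {d : ℕ}

omit [IsLocalRing 𝒪] in
theorem IsProSystem.isDirectedOrder (hF : IsProSystem 𝒪 F d) : IsDirectedOrder (↥F)ᵒᵈ := by
  refine ⟨fun a b => ⟨OrderDual.toDual ⟨(OrderDual.ofDual a).1 ⊓ (OrderDual.ofDual b).1,
    hF.inf_mem _ (OrderDual.ofDual a).2 _ (OrderDual.ofDual b).2⟩, ?_, ?_⟩⟩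
  · exact (inf_le_left : (OrderDual.ofDual a).1 ⊓ (OrderDual.ofDual b).1 ≤ _)
  · exact (inf_le_right : (OrderDual.ofDual a).1 ⊓ (OrderDual.ofDual b).1 ≤ _)

theorem IsProSystem.exists_compatible_surjections (hF : IsProSystem 𝒪 F d) :
    ∃ γ : ∀ I : F, MvPowerSeries (Fin d) 𝒪 →ₐ[𝒪] P ⧸ I.1,
      (∀ I, Function.Surjective (γ I)) ∧
      ∀ (I J : F) (h : I.1 ≤ J.1) (f : MvPowerSeries (Fin d) 𝒪),
        Ideal.Quotient.factor h (γ I f) = γ J f := by
  have hfin : ∀ I : F, Finite (P ⧸ I.1) := fun I => hF.finite I.1 I.2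
  have hnt : ∀ I : F, Nontrivial (P ⧸ I.1) :=
    fun I => Ideal.Quotient.nontrivial_iff.mpr (hF.ne_top I.1 I.2)
  have hdir : IsDirectedOrder (↥F)ᵒᵈ := hF.isDirectedOrder
  obtain ⟨t, htS, htcomp⟩ := exists_compatible_of_finite (ι := (↥F)ᵒᵈ)
    (fun I => Fin d → P ⧸ (OrderDual.ofDual I).1)
    (fun I J h t i => Ideal.Quotient.factor
      (show (OrderDual.ofDual J).1 ≤ (OrderDual.ofDual I).1 from h) (t i))
    (by
      intro I t
      funext i
      obtain ⟨y, hy⟩ := Ideal.Quotient.mk_surjective (t i)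
      rw [← hy]
      rfl)
    (by
      intro I J K hIJ hJK t
      funext i
      change Ideal.Quotient.factor _ (Ideal.Quotient.factor _ (t i)) =
        Ideal.Quotient.factor _ (t i)
      obtain ⟨y, hy⟩ := Ideal.Quotient.mk_surjective (t i)
      rw [← hy]
      rfl)
    (fun I => {t | ∃ φ : MvPowerSeries (Fin d) 𝒪 →ₐ[𝒪] P ⧸ (OrderDual.ofDual I).1,
      Function.Surjective φ ∧ ∀ i, φ (X i) = t i})
    (fun I => by
      have := hfin (OrderDual.ofDual I)
      exact Set.toFinite _)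
    (fun I => by
      obtain ⟨φ, hφ⟩ := hF.gen (OrderDual.ofDual I).1 (OrderDual.ofDual I).2
      exact ⟨fun i => φ (X i), φ, hφ, fun i => rfl⟩)
    (by
      rintro I J h t ⟨φ, hφ, hφt⟩
      refine ⟨(Ideal.Quotient.factorₐ 𝒪
        (show (OrderDual.ofDual J).1 ≤ (OrderDual.ofDual I).1 from h)).comp φ, ?_, ?_⟩
      · have h' : (OrderDual.ofDual J).1 ≤ (OrderDual.ofDual I).1 := h
        intro y
        obtain ⟨z, rfl⟩ := Ideal.Quotient.factor_surjective h' y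
        obtain ⟨f, rfl⟩ := hφ z
        exact ⟨f, rfl⟩
      · intro i
        rw [AlgHom.comp_apply, hφt i]
        rfl)
  have htS' : ∀ I : F, ∃ φ : MvPowerSeries (Fin d) 𝒪 →ₐ[𝒪] P ⧸ I.1,
      Function.Surjective φ ∧ ∀ i, φ (X i) = t (OrderDual.toDual I) i :=
    fun I => htS (OrderDual.toDual I)
  choose γ hγsurj hγt using htS'
  refine ⟨γ, hγsurj, fun I J h f => ?_⟩
  have hJ : Finite (P ⧸ J.1) := hfin J
  have hJ' : Nontrivial (P ⧸ J.1) := hnt J
  have key : γ J = (Ideal.Quotient.factorₐ 𝒪 h).comp (γ I) := by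
    refine algHom_ext_X (fun s => isNilpotent_apply_X_of_surjective (γ J) (hγsurj J) s) ?_
    intro s
    rw [AlgHom.comp_apply, hγt J s, hγt I s]
    have := htcomp (show OrderDual.toDual J ≤ OrderDual.toDual I from h)
    exact (congrFun this s).symm
  rw [key]
  rfl

variable [IsNoetherianRing 𝒪] [IsAdicComplete (maximalIdeal 𝒪) 𝒪] [Finite (ResidueField 𝒪)]

/-- The limit ring is a quotient of the power series ring in `d` variables. -/
theorem IsProSystem.exists_surjective (hF : IsProSystem 𝒪 F d) :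
    ∃ Γ : MvPowerSeries (Fin d) 𝒪 →ₐ[𝒪] limitRing 𝒪 F, Function.Surjective Γ := by
  obtain ⟨γ, hγsurj, hγcomp⟩ := hF.exists_compatible_surjections
  refine ⟨lift 𝒪 F γ hγcomp, fun r => ?_⟩
  have hdir := hF.isDirectedOrder
  have hne : Nonempty (↥F)ᵒᵈ := by
    obtain ⟨I, hI⟩ := hF.nonempty
    exact ⟨OrderDual.toDual ⟨I, hI⟩⟩
  have hprec : IsPrecomplete (maximalIdeal (MvPowerSeries (Fin d) 𝒪)) (MvPowerSeries (Fin d) 𝒪) :=
    isPrecomplete_maximalIdeal
  obtain ⟨g, hg⟩ := exists_mem_forall_of_directed (maximalIdeal (MvPowerSeries (Fin d) 𝒪))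
    (fun m => LimitRing.finite_quotient_maximalIdeal_pow m) (ι := (↥F)ᵒᵈ)
    (fun I => {f | γ (OrderDual.ofDual I) f = proj 𝒪 F (OrderDual.ofDual I) r})
    (fun I => by
      obtain ⟨f, hf⟩ := hγsurj (OrderDual.ofDual I) (proj 𝒪 F (OrderDual.ofDual I) r)
      exact ⟨f, hf⟩)
    (by
      intro I J h f hf
      have h' : (OrderDual.ofDual J).1 ≤ (OrderDual.ofDual I).1 := h
      simp only [Set.mem_ofPred_eq] at hf ⊢
      rw [← hγcomp _ _ h' f, hf, factor_proj])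
    (fun I => by
      have : Finite (P ⧸ (OrderDual.ofDual I).1) := hF.finite _ (OrderDual.ofDual I).2
      have : Nontrivial (P ⧸ (OrderDual.ofDual I).1) :=
        Ideal.Quotient.nontrivial_iff.mpr (hF.ne_top _ (OrderDual.ofDual I).2)
      obtain ⟨m, hm⟩ := exists_maximalIdeal_pow_le_ker (γ (OrderDual.ofDual I))
        (hγsurj (OrderDual.ofDual I))
      refine ⟨m, fun c hc x hx => ?_⟩
      have hx0 : γ (OrderDual.ofDual I) x = 0 := hm hx
      simp only [Set.mem_ofPred_eq] at hc ⊢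
      rw [map_add, hx0, add_zero, hc])
  exact ⟨g, ext fun I => by rw [proj_lift]; exact hg (OrderDual.toDual I)⟩

omit [IsLocalRing 𝒪] [IsNoetherianRing 𝒪] [IsAdicComplete (maximalIdeal 𝒪) 𝒪]
  [Finite (ResidueField 𝒪)] in
theorem IsProSystem.nontrivial (hF : IsProSystem 𝒪 F d) : Nontrivial (limitRing 𝒪 F) := by
  obtain ⟨I, hI⟩ := hF.nonempty
  have : Nontrivial (P ⧸ I) := Ideal.Quotient.nontrivial_iff.mpr (hF.ne_top I hI)
  exact (proj 𝒪 F ⟨I, hI⟩).toRingHom.domain_nontrivial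

theorem IsProSystem.isLocalRing (hF : IsProSystem 𝒪 F d) : IsLocalRing (limitRing 𝒪 F) := by
  obtain ⟨Γ, hΓ⟩ := hF.exists_surjective
  have := hF.nontrivial
  exact IsLocalRing.of_surjective' Γ.toRingHom hΓ

theorem IsProSystem.isNoetherianRing (hF : IsProSystem 𝒪 F d) :
    IsNoetherianRing (limitRing 𝒪 F) := by
  obtain ⟨Γ, hΓ⟩ := hF.exists_surjective
  exact isNoetherianRing_of_surjective _ _ Γ.toRingHom hΓ

theorem IsProSystem.isLocalHom_algebraMap (hF : IsProSystem 𝒪 F d) :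
    IsLocalHom (algebraMap 𝒪 (limitRing 𝒪 F)) := by
  obtain ⟨Γ, hΓ⟩ := hF.exists_surjective
  have := hF.nontrivial
  have hloc : IsLocalHom Γ.toRingHom := IsLocalHom.of_surjective Γ.toRingHom hΓ
  refine ⟨fun a ha => ?_⟩
  have h1 : algebraMap 𝒪 (limitRing 𝒪 F) a = Γ.toRingHom (C a) := by
    have : (C a : MvPowerSeries (Fin d) 𝒪) = algebraMap 𝒪 (MvPowerSeries (Fin d) 𝒪) a := rfl
    rw [this]
    exact (Γ.commutes a).symm
  rw [h1] at ha
  have h2 : IsUnit (C a : MvPowerSeries (Fin d) 𝒪) := hloc.map_nonunit _ ha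
  rw [MvPowerSeries.isUnit_iff_constantCoeff, constantCoeff_C] at h2
  exact h2

theorem IsProSystem.residue_surjective (hF : IsProSystem 𝒪 F d)
    [IsLocalRing (limitRing 𝒪 F)] :
    Function.Surjective (residue (limitRing 𝒪 F) ∘ algebraMap 𝒪 (limitRing 𝒪 F)) := by
  obtain ⟨Γ, hΓ⟩ := hF.exists_surjective
  have hloc : IsLocalHom Γ.toRingHom := IsLocalHom.of_surjective Γ.toRingHom hΓ
  intro y
  obtain ⟨x, rfl⟩ := IsLocalRing.residue_surjective y
  obtain ⟨f, rfl⟩ := hΓ x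
  refine ⟨constantCoeff f, ?_⟩
  rw [Function.comp_apply, ← sub_eq_zero, ← map_sub, residue_eq_zero_iff]
  have h1 : algebraMap 𝒪 (limitRing 𝒪 F) (constantCoeff f) = Γ (C (constantCoeff f)) := by
    have : (C (constantCoeff f) : MvPowerSeries (Fin d) 𝒪) =
        algebraMap 𝒪 (MvPowerSeries (Fin d) 𝒪) (constantCoeff f) := rfl
    rw [this]
    exact (Γ.commutes _).symm
  rw [h1, ← map_sub]
  have h2 : C (constantCoeff f) - f ∈ maximalIdeal (MvPowerSeries (Fin d) 𝒪) := by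
    rw [mem_maximalIdeal_iff_constantCoeff]
    simp
  have h3 := IsLocalRing.map_maximalIdeal_le Γ.toRingHom (Ideal.mem_map_of_mem _ h2)
  exact h3

theorem IsProSystem.isAdicComplete (hF : IsProSystem 𝒪 F d) [IsLocalRing (limitRing 𝒪 F)] :
    IsAdicComplete (maximalIdeal (limitRing 𝒪 F)) (limitRing 𝒪 F) := by
  obtain ⟨Γ, hΓ⟩ := hF.exists_surjective
  let _ : Algebra (MvPowerSeries (Fin d) 𝒪) (limitRing 𝒪 F) := Γ.toRingHom.toAlgebra
  have hfin : Module.Finite (MvPowerSeries (Fin d) 𝒪) (limitRing 𝒪 F) :=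
    Module.Finite.of_surjective (Algebra.linearMap (MvPowerSeries (Fin d) 𝒪) (limitRing 𝒪 F)) hΓ
  have hloc : IsLocalHom (algebraMap (MvPowerSeries (Fin d) 𝒪) (limitRing 𝒪 F)) :=
    IsLocalHom.of_surjective Γ.toRingHom hΓ
  have hcomp : IsAdicComplete (maximalIdeal (MvPowerSeries (Fin d) 𝒪))
      (MvPowerSeries (Fin d) 𝒪) := isAdicComplete_maximalIdeal
  exact IsLocalRing.isAdicComplete_of_module_finite (𝒪 := MvPowerSeries (Fin d) 𝒪)

theorem IsProSystem.finite_residueField (hF : IsProSystem 𝒪 F d)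
    [IsLocalRing (limitRing 𝒪 F)] : Finite (ResidueField (limitRing 𝒪 F)) := by
  have hloc := hF.isLocalHom_algebraMap
  refine Finite.of_surjective (ResidueField.map (algebraMap 𝒪 (limitRing 𝒪 F))) ?_
  intro y
  obtain ⟨a, ha⟩ := hF.residue_surjective y
  exact ⟨residue 𝒪 a, by rw [ResidueField.map_residue]; exact ha⟩

theorem IsProSystem.finite_quotient_maximalIdeal_pow (hF : IsProSystem 𝒪 F d)
    [IsLocalRing (limitRing 𝒪 F)] (n : ℕ) :
    Finite (limitRing 𝒪 F ⧸ maximalIdeal (limitRing 𝒪 F) ^ n) := by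
  have := hF.isNoetherianRing
  have := hF.finite_residueField
  exact (IsLocalRing.finite_quotient_iff).mpr ⟨n, le_rfl⟩

/-- Continuity: the `𝔪`-adic topology of the limit ring is the limit topology. -/
theorem IsProSystem.exists_ker_proj_le_maximalIdeal_pow (hF : IsProSystem 𝒪 F d)
    [IsLocalRing (limitRing 𝒪 F)] (n : ℕ) :
    ∃ I : F, RingHom.ker (proj 𝒪 F I) ≤ maximalIdeal (limitRing 𝒪 F) ^ n := by
  obtain ⟨Γ, hΓ⟩ := hF.exists_surjective
  have hloc : IsLocalHom Γ.toRingHom := IsLocalHom.of_surjective Γ.toRingHom hΓ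
  have hfinq : Finite (MvPowerSeries (Fin d) 𝒪 ⧸ maximalIdeal (MvPowerSeries (Fin d) 𝒪) ^ n) :=
    LimitRing.finite_quotient_maximalIdeal_pow n
  -- the kernels of the projections, pulled back to the power series ring
  set K : F → Ideal (MvPowerSeries (Fin d) 𝒪) :=
    fun I => RingHom.ker ((proj 𝒪 F I).comp Γ) with hK
  have hKmem : ∀ (I : F) (g : MvPowerSeries (Fin d) 𝒪), g ∈ K I ↔ proj 𝒪 F I (Γ g) = 0 :=
    fun I g => Iff.rfl
  have hKmono : ∀ {I J : F}, I.1 ≤ J.1 → K I ≤ K J := by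
    intro I J h g hg
    rw [hKmem] at hg ⊢
    exact ker_proj_le_of_le 𝒪 h hg
  set V : F → Set (MvPowerSeries (Fin d) 𝒪 ⧸ maximalIdeal (MvPowerSeries (Fin d) 𝒪) ^ n) :=
    fun I => (Ideal.Quotient.mk (maximalIdeal (MvPowerSeries (Fin d) 𝒪) ^ n)) '' (K I : Set _)
    with hV
  have hVmono : ∀ {I J : F}, I.1 ≤ J.1 → V I ⊆ V J := fun h => Set.image_mono (hKmono h)
  obtain ⟨I₁, hI₁⟩ := hF.nonempty
  obtain ⟨I₀, -, hI₀⟩ := (measure (fun I : F => (V I).ncard)).wf.has_min Set.univ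
    ⟨⟨I₁, hI₁⟩, trivial⟩
  have hmin : ∀ I : F, V I₀ ⊆ V I := by
    intro I
    set J : F := ⟨I₀.1 ⊓ I.1, hF.inf_mem _ I₀.2 _ I.2⟩ with hJ
    have h1 : V J ⊆ V I₀ := hVmono (show J.1 ≤ I₀.1 from inf_le_left)
    have h2 : V J ⊆ V I := hVmono (show J.1 ≤ I.1 from inf_le_right)
    have h3 : (V I₀).ncard ≤ (V J).ncard := by
      exact not_lt.mp (hI₀ J trivial)
    have h4 : V J = V I₀ := Set.eq_of_subset_of_ncard_le h1 h3 (Set.toFinite _)
    rw [← h4]
    exact h2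
  refine ⟨I₀, fun x hx => ?_⟩
  obtain ⟨f, rfl⟩ := hΓ x
  have hf : f ∈ K I₀ := hx
  have hdir := hF.isDirectedOrder
  have hne : Nonempty (↥F)ᵒᵈ := ⟨OrderDual.toDual ⟨I₁, hI₁⟩⟩
  have hprec : IsPrecomplete (maximalIdeal (MvPowerSeries (Fin d) 𝒪)) (MvPowerSeries (Fin d) 𝒪) :=
    isPrecomplete_maximalIdeal
  obtain ⟨g, hg⟩ := exists_mem_forall_of_directed (maximalIdeal (MvPowerSeries (Fin d) 𝒪))
    (fun m => LimitRing.finite_quotient_maximalIdeal_pow m) (ι := (↥F)ᵒᵈ)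
    (fun I => {g | g ∈ K (OrderDual.ofDual I) ∧
      g - f ∈ maximalIdeal (MvPowerSeries (Fin d) 𝒪) ^ n})
    (fun I => by
      have h1 : Ideal.Quotient.mk (maximalIdeal (MvPowerSeries (Fin d) 𝒪) ^ n) f ∈
          V (OrderDual.ofDual I) := hmin _ ⟨f, hf, rfl⟩
      obtain ⟨g, hgK, hgf⟩ := h1
      exact ⟨g, hgK, Ideal.Quotient.eq.mp hgf⟩)
    (by
      intro I J h g hg
      have h' : (OrderDual.ofDual J).1 ≤ (OrderDual.ofDual I).1 := h
      exact ⟨hKmono h' hg.1, hg.2⟩)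
    (fun I => by
      have : Finite (P ⧸ (OrderDual.ofDual I).1) := hF.finite _ (OrderDual.ofDual I).2
      have : Nontrivial (P ⧸ (OrderDual.ofDual I).1) :=
        Ideal.Quotient.nontrivial_iff.mpr (hF.ne_top _ (OrderDual.ofDual I).2)
      obtain ⟨m, hm⟩ := exists_maximalIdeal_pow_le_ker
        ((proj 𝒪 F (OrderDual.ofDual I)).comp Γ)
        ((proj_surjective 𝒪 F (OrderDual.ofDual I)).comp hΓ)
      refine ⟨max m n, fun c hc x hx => ⟨?_, ?_⟩⟩
      · exact add_mem hc.1 (hm (Ideal.pow_le_pow_right (le_max_left m n) hx))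
      · have : c + x - f = (c - f) + x := by ring
        rw [this]
        exact add_mem hc.2 (Ideal.pow_le_pow_right (le_max_right m n) hx))
  have hg0 : Γ g = 0 := ext fun I => by
    rw [map_zero]
    exact (hg (OrderDual.toDual I)).1
  have h1 : Γ f = Γ.toRingHom (f - g) := by
    change Γ f = Γ (f - g)
    rw [map_sub, hg0, sub_zero]
  rw [h1]
  have h2 : f - g ∈ maximalIdeal (MvPowerSeries (Fin d) 𝒪) ^ n := by
    have := neg_mem (hg (OrderDual.toDual I₀)).2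
    rwa [neg_sub] at this
  have h3 := Ideal.mem_map_of_mem Γ.toRingHom h2
  rw [Ideal.map_pow] at h3
  exact Ideal.pow_right_mono (IsLocalRing.map_maximalIdeal_le Γ.toRingHom) n h3

/-- Continuity: every ideal of finite index contains the kernel of some projection. -/
theorem IsProSystem.exists_ker_proj_le (hF : IsProSystem 𝒪 F d) (𝔞 : Ideal (limitRing 𝒪 F))
    [Finite (limitRing 𝒪 F ⧸ 𝔞)] : ∃ I : F, RingHom.ker (proj 𝒪 F I) ≤ 𝔞 := by
  have := hF.isLocalRing
  have := hF.isNoetherianRing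
  have := hF.finite_residueField
  obtain ⟨n, hn⟩ := (IsLocalRing.finite_quotient_iff (I := 𝔞)).mp inferInstance
  obtain ⟨I, hI⟩ := hF.exists_ker_proj_le_maximalIdeal_pow n
  exact ⟨I, hI.trans hn⟩

/-- The kernel of an algebra homomorphism from the limit ring to a finite ring contains the
kernel of some projection. -/
theorem IsProSystem.exists_ker_proj_le_ker (hF : IsProSystem 𝒪 F d) {A : Type*} [Ring A]
    [Algebra 𝒪 A] [Finite A] (φ : limitRing 𝒪 F →ₐ[𝒪] A) :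
    ∃ I : F, RingHom.ker (proj 𝒪 F I) ≤ RingHom.ker φ := by
  have : Finite (limitRing 𝒪 F ⧸ RingHom.ker φ) :=
    Finite.of_injective _ (RingHom.kerLift_injective φ.toRingHom)
  exact hF.exists_ker_proj_le (RingHom.ker φ)

/-- Every algebra homomorphism from the limit ring to a finite ring factors through some
projection. -/
theorem IsProSystem.exists_factor_of_finite (hF : IsProSystem 𝒪 F d) {A : Type*} [Ring A]
    [Algebra 𝒪 A] [Finite A] (φ : limitRing 𝒪 F →ₐ[𝒪] A) :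
    ∃ (I : F) (ψ : P ⧸ I.1 →ₐ[𝒪] A), φ = ψ.comp (proj 𝒪 F I) := by
  obtain ⟨I, hI⟩ := hF.exists_ker_proj_le_ker φ
  have h0 : ∀ p ∈ I.1, (φ.comp (ofP 𝒪 F)) p = 0 := by
    intro p hp
    have h1 : ofP 𝒪 F p ∈ RingHom.ker (proj 𝒪 F I) := by
      rw [RingHom.mem_ker, proj_ofP]
      exact Ideal.Quotient.eq_zero_iff_mem.mpr hp
    exact hI h1
  refine ⟨I, Ideal.Quotient.liftₐ I.1 (φ.comp (ofP 𝒪 F)) h0, AlgHom.ext fun x => ?_⟩
  obtain ⟨p, hp⟩ := exists_proj_eq_proj_ofP I x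
  have h2 : x - ofP 𝒪 F p ∈ RingHom.ker (proj 𝒪 F I) := by
    rw [RingHom.mem_ker, map_sub, hp, sub_self]
  have h3 : φ x = φ (ofP 𝒪 F p) := by
    have := hI h2
    rwa [RingHom.mem_ker, map_sub, sub_eq_zero] at this
  rw [AlgHom.comp_apply, hp, proj_ofP, h3]
  have h4 : (Ideal.Quotient.liftₐ I.1 (φ.comp (ofP 𝒪 F)) h0).comp (Ideal.Quotient.mkₐ 𝒪 I.1) =
      φ.comp (ofP 𝒪 F) := Ideal.Quotient.liftₐ_comp _ _ h0
  exact (DFunLike.congr_fun h4 p).symm

/-- Two algebra homomorphisms from the limit ring to a finite ring which agree on the image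
of `P` are equal. -/
theorem IsProSystem.algHom_ext_of_finite (hF : IsProSystem 𝒪 F d) {A : Type*} [Ring A]
    [Algebra 𝒪 A] [Finite A] {φ φ' : limitRing 𝒪 F →ₐ[𝒪] A}
    (h : ∀ p : P, φ (ofP 𝒪 F p) = φ' (ofP 𝒪 F p)) : φ = φ' := by
  obtain ⟨I, hI⟩ := hF.exists_ker_proj_le_ker (φ.prod φ')
  refine AlgHom.ext fun x => ?_
  obtain ⟨p, hp⟩ := exists_proj_eq_proj_ofP I x
  have h2 : x - ofP 𝒪 F p ∈ RingHom.ker (proj 𝒪 F I) := by
    rw [RingHom.mem_ker, map_sub, hp, sub_self]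
  have h3 := hI h2
  rw [RingHom.mem_ker, map_sub, sub_eq_zero] at h3
  have h4 : φ x = φ (ofP 𝒪 F p) := congrArg Prod.fst h3
  have h5 : φ' x = φ' (ofP 𝒪 F p) := congrArg Prod.snd h3
  rw [h4, h5, h]

end Main

end Fermat.Agent.S53.LimitRing
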