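import Fermat.Statements.S53

/-!
# S53 helper: base change of Galois representations is functorial up to equivalence

Everything is stated up to `GaloisRepAdic.Equiv` / `ResidualGaloisRep.Equiv`.
-/

set_option autoImplicit false

open scoped TensorProduct

namespace Fermat.Agent.S53

open GaloisRepAdic

section tensor

variable {A B C V W : Type} [CommRing A] [CommRing B] [CommRing C] [Algebra A B] [Algebra B C]
  [Algebra A C] [IsScalarTower A B C] [AddCommGroup V] [Module A V] [AddCommGroup W] [Module A W]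

theorem cancelBaseChange_baseChange (f : V →ₗ[A] W) (x : C ⊗[B] (B ⊗[A] V)) :
    TensorProduct.AlgebraTensorModule.cancelBaseChange A B C C W
      (((f.baseChange B).baseChange C) x) =
    f.baseChange C (TensorProduct.AlgebraTensorModule.cancelBaseChange A B C C V x) := by
  induction x using TensorProduct.induction_on with
  | zero => simp only [map_zero]
  | tmul c y =>
    induction y using TensorProduct.induction_on with
    | zero => simp only [TensorProduct.tmul_zero, map_zero]
    | tmul b v =>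
      simp only [LinearMap.baseChange_tmul,
        TensorProduct.AlgebraTensorModule.cancelBaseChange_tmul]
    | add y z hy hz => simp only [TensorProduct.tmul_add, map_add, hy, hz]
  | add x y hx hy => simp only [map_add, hx, hy]

theorem lid_baseChange_self (f : V →ₗ[A] V) (x : A ⊗[A] V) :
    TensorProduct.lid A V (f.baseChange A x) = f (TensorProduct.lid A V x) := by
  induction x using TensorProduct.induction_on with
  | zero => simp only [map_zero]
  | tmul a v => simp only [LinearMap.baseChange_tmul, TensorProduct.lid_tmul, map_smul]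
  | add x y hx hy => simp only [map_add, hx, hy]

end tensor

/-! ### `GaloisRepAdic` -/

section adic

variable {A B C : Type} [CommRing A] [IsLocalRing A] [CommRing B] [IsLocalRing B]
  [CommRing C] [IsLocalRing C]

omit [IsLocalRing A] [IsLocalRing B] [IsLocalRing C] in
theorem isLocalHom_comp' (f : A →+* B) (hf : IsLocalHom f) (g : B →+* C) (hg : IsLocalHom g) :
    IsLocalHom (g.comp f) :=
  ⟨fun a ha => hf.map_nonunit a (hg.map_nonunit (f a) ha)⟩

omit [IsLocalRing A] in
theorem isLocalHom_id' : IsLocalHom (RingHom.id A) := ⟨fun _ ha => ha⟩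

/-- Base change is transitive, up to equivalence. -/
noncomputable def baseChangeAlongComp (f : A →+* B) (hf : IsLocalHom f) (g : B →+* C)
    (hg : IsLocalHom g) (ρ : GaloisRepAdic A) :
    GaloisRepAdic.Equiv ((ρ.baseChangeAlong f hf).baseChangeAlong g hg)
      (ρ.baseChangeAlong (g.comp f) (isLocalHom_comp' f hf g hg)) :=
  letI : Algebra A B := f.toAlgebra
  letI : Algebra B C := g.toAlgebra
  letI : Algebra A C := (g.comp f).toAlgebra
  haveI : IsScalarTower A B C := IsScalarTower.of_algebraMap_eq (fun _ => rfl)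
  { toLinearEquiv := TensorProduct.AlgebraTensorModule.cancelBaseChange A B C C ρ.V
    map_apply := fun σ x => cancelBaseChange_baseChange (ρ.ρ σ) x }

/-- Equal ring homomorphisms give equivalent base changes. -/
noncomputable def baseChangeAlongCongr {f f' : A →+* B} (h : f = f') (hf : IsLocalHom f)
    (hf' : IsLocalHom f') (ρ : GaloisRepAdic A) :
    GaloisRepAdic.Equiv (ρ.baseChangeAlong f hf) (ρ.baseChangeAlong f' hf') := by
  subst h
  exact GaloisRepAdic.Equiv.refl _

/-- Base change along the identity is equivalent to the original representation. -/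
noncomputable def baseChangeAlongId (h : IsLocalHom (RingHom.id A)) (ρ : GaloisRepAdic A) :
    GaloisRepAdic.Equiv (ρ.baseChangeAlong (RingHom.id A) h) ρ :=
  { toLinearEquiv := TensorProduct.lid A ρ.V
    map_apply := fun σ x => lid_baseChange_self (ρ.ρ σ) x }

theorem isEquiv_refl (ρ : GaloisRepAdic A) : ρ.IsEquiv ρ := ⟨GaloisRepAdic.Equiv.refl ρ⟩

theorem isEquiv_symm {ρ₁ ρ₂ : GaloisRepAdic A} (h : ρ₁.IsEquiv ρ₂) : ρ₂.IsEquiv ρ₁ :=
  h.elim fun e => ⟨e.symm⟩

theorem isEquiv_trans {ρ₁ ρ₂ ρ₃ : GaloisRepAdic A} (h : ρ₁.IsEquiv ρ₂) (h' : ρ₂.IsEquiv ρ₃) :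
    ρ₁.IsEquiv ρ₃ :=
  h.elim fun e => h'.elim fun e' => ⟨e.trans e'⟩

theorem isEquiv_baseChangeAlong (f : A →+* B) (hf : IsLocalHom f) {ρ₁ ρ₂ : GaloisRepAdic A}
    (h : ρ₁.IsEquiv ρ₂) : (ρ₁.baseChangeAlong f hf).IsEquiv (ρ₂.baseChangeAlong f hf) :=
  h.elim fun e => ⟨e.baseChangeAlong f hf⟩

theorem isEquiv_baseChangeAlong_comp (f : A →+* B) (hf : IsLocalHom f) (g : B →+* C)
    (hg : IsLocalHom g) (hgf : IsLocalHom (g.comp f)) (ρ : GaloisRepAdic A) :
    ((ρ.baseChangeAlong f hf).baseChangeAlong g hg).IsEquiv (ρ.baseChangeAlong (g.comp f) hgf) :=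
  ⟨baseChangeAlongComp f hf g hg ρ⟩

theorem isEquiv_baseChangeAlong_congr {f f' : A →+* B} (h : f = f') (hf : IsLocalHom f)
    (hf' : IsLocalHom f') (ρ : GaloisRepAdic A) :
    (ρ.baseChangeAlong f hf).IsEquiv (ρ.baseChangeAlong f' hf') :=
  ⟨baseChangeAlongCongr h hf hf' ρ⟩

/-- If `g ∘ f = h` then base change along `f` and then `g` is base change along `h`. -/
theorem isEquiv_baseChangeAlong_of_comp_eq (f : A →+* B) (hf : IsLocalHom f) (g : B →+* C)
    (hg : IsLocalHom g) (k : A →+* C) (hk : IsLocalHom k) (h : g.comp f = k)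
    (ρ : GaloisRepAdic A) :
    ((ρ.baseChangeAlong f hf).baseChangeAlong g hg).IsEquiv (ρ.baseChangeAlong k hk) :=
  isEquiv_trans ⟨baseChangeAlongComp f hf g hg ρ⟩ (isEquiv_baseChangeAlong_congr h _ hk ρ)

theorem isEquiv_baseChangeAlong_id (h : IsLocalHom (RingHom.id A)) (ρ : GaloisRepAdic A) :
    (ρ.baseChangeAlong (RingHom.id A) h).IsEquiv ρ :=
  ⟨baseChangeAlongId h ρ⟩

end adic

/-! ### `ResidualGaloisRep` -/

section residual

variable {k k' k'' : Type} [Field k] [Field k'] [Field k'']

theorem res_isEquiv_refl (ρ : ResidualGaloisRep k) : ρ.IsEquiv ρ :=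
  ⟨ResidualGaloisRep.Equiv.refl ρ⟩

theorem res_isEquiv_symm {ρ₁ ρ₂ : ResidualGaloisRep k} (h : ρ₁.IsEquiv ρ₂) : ρ₂.IsEquiv ρ₁ :=
  h.elim fun e => ⟨e.symm⟩

theorem res_isEquiv_trans {ρ₁ ρ₂ ρ₃ : ResidualGaloisRep k} (h : ρ₁.IsEquiv ρ₂)
    (h' : ρ₂.IsEquiv ρ₃) : ρ₁.IsEquiv ρ₃ :=
  h.elim fun e => h'.elim fun e' => ⟨e.trans e'⟩

theorem res_isEquiv_baseChangeAlong (ψ : k →+* k') {ρ₁ ρ₂ : ResidualGaloisRep k}
    (h : ρ₁.IsEquiv ρ₂) : (ρ₁.baseChangeAlong ψ).IsEquiv (ρ₂.baseChangeAlong ψ) :=
  h.elim fun e => ⟨e.baseChangeAlong ψ⟩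

/-- Base change of residual representations is transitive, up to equivalence. -/
noncomputable def resBaseChangeAlongComp (φ : k →+* k') (ψ : k' →+* k'')
    (ρ : ResidualGaloisRep k) :
    ResidualGaloisRep.Equiv ((ρ.baseChangeAlong φ).baseChangeAlong ψ)
      (ρ.baseChangeAlong (ψ.comp φ)) :=
  letI : Algebra k k' := φ.toAlgebra
  letI : Algebra k' k'' := ψ.toAlgebra
  letI : Algebra k k'' := (ψ.comp φ).toAlgebra
  haveI : IsScalarTower k k' k'' := IsScalarTower.of_algebraMap_eq (fun _ => rfl)
  { toLinearEquiv := TensorProduct.AlgebraTensorModule.cancelBaseChange k k' k'' k'' ρ.V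
    map_apply := fun σ x => cancelBaseChange_baseChange (ρ.ρ σ) x }

noncomputable def resBaseChangeAlongCongr {φ φ' : k →+* k'} (h : φ = φ')
    (ρ : ResidualGaloisRep k) :
    ResidualGaloisRep.Equiv (ρ.baseChangeAlong φ) (ρ.baseChangeAlong φ') := by
  subst h
  exact ResidualGaloisRep.Equiv.refl _

noncomputable def resBaseChangeAlongId (ρ : ResidualGaloisRep k) :
    ResidualGaloisRep.Equiv (ρ.baseChangeAlong (RingHom.id k)) ρ :=
  { toLinearEquiv := TensorProduct.lid k ρ.V
    map_apply := fun σ x => lid_baseChange_self (ρ.ρ σ) x }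

theorem res_isEquiv_baseChangeAlong_of_comp_eq (φ : k →+* k') (ψ : k' →+* k'')
    (χ : k →+* k'') (h : ψ.comp φ = χ) (ρ : ResidualGaloisRep k) :
    ((ρ.baseChangeAlong φ).baseChangeAlong ψ).IsEquiv (ρ.baseChangeAlong χ) :=
  res_isEquiv_trans ⟨resBaseChangeAlongComp φ ψ ρ⟩ ⟨resBaseChangeAlongCongr h ρ⟩

theorem res_isEquiv_baseChangeAlong_id (ρ : ResidualGaloisRep k) :
    (ρ.baseChangeAlong (RingHom.id k)).IsEquiv ρ :=
  ⟨resBaseChangeAlongId ρ⟩

/-- Equivalence can be tested after base change along a ring isomorphism of fields. -/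
theorem res_isEquiv_of_baseChangeAlong_equiv (e : k ≃+* k') {ρ₁ ρ₂ : ResidualGaloisRep k}
    (h : (ρ₁.baseChangeAlong (e : k →+* k')).IsEquiv (ρ₂.baseChangeAlong (e : k →+* k'))) :
    ρ₁.IsEquiv ρ₂ := by
  have hid : ((e.symm : k' →+* k).comp (e : k →+* k')) = RingHom.id k := by
    ext x; simp
  have h1 := res_isEquiv_baseChangeAlong (e.symm : k' →+* k) h
  have a1 := res_isEquiv_trans
    (res_isEquiv_baseChangeAlong_of_comp_eq (e : k →+* k') (e.symm : k' →+* k) _ hid ρ₁)
    (res_isEquiv_baseChangeAlong_id ρ₁)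
  have a2 := res_isEquiv_trans
    (res_isEquiv_baseChangeAlong_of_comp_eq (e : k →+* k') (e.symm : k' →+* k) _ hid ρ₂)
    (res_isEquiv_baseChangeAlong_id ρ₂)
  exact res_isEquiv_trans (res_isEquiv_symm a1) (res_isEquiv_trans h1 a2)

end residual

/-! ### Residual representation of a base change -/

section doubleCancel

variable {A B kA kB V : Type} [CommRing A] [CommRing B] [CommRing kA] [CommRing kB]
  [iAB : Algebra A B] [iAkA : Algebra A kA] [iBkB : Algebra B kB] [ikAkB : Algebra kA kB]
  [iAkB : Algebra A kB] [t1 : IsScalarTower A B kB] [t2 : IsScalarTower A kA kB]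
  [AddCommGroup V] [Module A V]

/-- `kB ⊗[B] (B ⊗[A] V) ≃ kB ⊗[kA] (kA ⊗[A] V)`, both being `kB ⊗[A] V`. -/
noncomputable def doubleCancel : kB ⊗[B] (B ⊗[A] V) ≃ₗ[kB] kB ⊗[kA] (kA ⊗[A] V) :=
  (TensorProduct.AlgebraTensorModule.cancelBaseChange A B kB kB V).trans
    (TensorProduct.AlgebraTensorModule.cancelBaseChange A kA kB kB V).symm

theorem doubleCancel_baseChange (f : V →ₗ[A] V) (x : kB ⊗[B] (B ⊗[A] V)) :
    doubleCancel (kA := kA) ((f.baseChange B).baseChange kB x) =
      (f.baseChange kA).baseChange kB (doubleCancel (kA := kA) x) := by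
  apply (TensorProduct.AlgebraTensorModule.cancelBaseChange A kA kB kB V).injective
  rw [doubleCancel, LinearEquiv.trans_apply, LinearEquiv.apply_symm_apply,
    cancelBaseChange_baseChange, cancelBaseChange_baseChange, LinearEquiv.trans_apply,
    LinearEquiv.apply_symm_apply]

end doubleCancel

section residualBaseChange

variable {A B : Type} [CommRing A] [IsLocalRing A] [CommRing B] [IsLocalRing B]

/-- The residual representation of a base change is the base change of the residual
representation along the induced map of residue fields. -/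
noncomputable def residualBaseChangeAlong (f : A →+* B) (hf : IsLocalHom f)
    (ρ : GaloisRepAdic A) :
    ResidualGaloisRep.Equiv (ρ.baseChangeAlong f hf).residual
      (ρ.residual.baseChangeAlong (@IsLocalRing.ResidueField.map A B _ _ _ _ f hf)) :=
  { toLinearEquiv :=
      doubleCancel (A := A) (B := B) (kA := IsLocalRing.ResidueField A)
        (kB := IsLocalRing.ResidueField B) (V := ρ.V)
        (iAB := f.toAlgebra)
        (ikAkB := (@IsLocalRing.ResidueField.map A B _ _ _ _ f hf).toAlgebra)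
        (iAkB := ((IsLocalRing.residue B).comp f).toAlgebra)
        (t1 := @IsScalarTower.of_algebraMap_eq A B (IsLocalRing.ResidueField B) _ _ _
          f.toAlgebra _ ((IsLocalRing.residue B).comp f).toAlgebra (fun _ => rfl))
        (t2 := @IsScalarTower.of_algebraMap_eq A (IsLocalRing.ResidueField A)
          (IsLocalRing.ResidueField B) _ _ _ _
          (@IsLocalRing.ResidueField.map A B _ _ _ _ f hf).toAlgebra
          ((IsLocalRing.residue B).comp f).toAlgebra (fun _ => rfl))
    map_apply := fun σ x =>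
      doubleCancel_baseChange (A := A) (B := B) (kA := IsLocalRing.ResidueField A)
        (kB := IsLocalRing.ResidueField B) (V := ρ.V)
        (iAB := f.toAlgebra)
        (ikAkB := (@IsLocalRing.ResidueField.map A B _ _ _ _ f hf).toAlgebra)
        (iAkB := ((IsLocalRing.residue B).comp f).toAlgebra)
        (t1 := @IsScalarTower.of_algebraMap_eq A B (IsLocalRing.ResidueField B) _ _ _
          f.toAlgebra _ ((IsLocalRing.residue B).comp f).toAlgebra (fun _ => rfl))
        (t2 := @IsScalarTower.of_algebraMap_eq A (IsLocalRing.ResidueField A)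
          (IsLocalRing.ResidueField B) _ _ _ _
          (@IsLocalRing.ResidueField.map A B _ _ _ _ f hf).toAlgebra
          ((IsLocalRing.residue B).comp f).toAlgebra (fun _ => rfl))
        (ρ.ρ σ) x }

theorem isEquiv_residual_baseChangeAlong (f : A →+* B) (hf : IsLocalHom f)
    (ρ : GaloisRepAdic A) :
    (ρ.baseChangeAlong f hf).residual.IsEquiv
      (ρ.residual.baseChangeAlong (@IsLocalRing.ResidueField.map A B _ _ _ _ f hf)) :=
  ⟨residualBaseChangeAlong f hf ρ⟩

theorem isEquiv_residual {ρ₁ ρ₂ : GaloisRepAdic A} (h : ρ₁.IsEquiv ρ₂) :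
    ρ₁.residual.IsEquiv ρ₂.residual :=
  h.elim fun e => ⟨e.residual⟩

end residualBaseChange

end Fermat.Agent.S53
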