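import Fermat.Agent.S53.Nrm
import Fermat.Agent.S53.BaseChange

set_option autoImplicit false

/-!
# S53, piece ADM(2): the admissible ideals are closed under finite intersections

* `matContinuous_iff_level`: over a local ring with nilpotent maximal ideal, adic continuity of a
  matrix valued function means triviality on the absolute Galois group of a number field.
* `MatRep.fibreProd`: glue two matrix representations over a fibre product over `k`.
* `admissible_inf`, `admissible_nonempty`.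
-/

noncomputable section

namespace Fermat.Agent.S53

open IsLocalRing

section Level

variable {A : Type} [CommRing A] [IsLocalRing A]

theorem matContinuous_of_level {f : GQ → M2 A}
    (h : ∃ L : IntermediateField ℚ (AlgebraicClosure ℚ), FiniteDimensional ℚ L ∧
      ∀ σ : GQ, (∀ x ∈ L, σ x = x) → f σ = 1) : MatContinuous f := by
  intro n
  obtain ⟨L, hL, h1⟩ := h
  refine ⟨L, hL, fun σ hσ i j => ?_⟩
  rw [h1 σ hσ, sub_self]
  exact Ideal.zero_mem _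

theorem level_of_matContinuous (hA : IsNilpotent (maximalIdeal A)) {f : GQ → M2 A}
    (h : MatContinuous f) :
    ∃ L : IntermediateField ℚ (AlgebraicClosure ℚ), FiniteDimensional ℚ L ∧
      ∀ σ : GQ, (∀ x ∈ L, σ x = x) → f σ = 1 := by
  obtain ⟨n, hn⟩ := hA
  obtain ⟨L, hL, h1⟩ := h n
  refine ⟨L, hL, fun σ hσ => ?_⟩
  ext i j
  have h2 := h1 σ hσ i j
  rw [hn] at h2
  have h3 : (f σ - 1) i j = 0 := by simpa using h2
  have h4 : f σ i j - (1 : M2 A) i j = 0 := by simpa using h3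
  exact sub_eq_zero.mp h4

theorem matContinuous_iff_level (hA : IsNilpotent (maximalIdeal A)) (f : GQ → M2 A) :
    MatContinuous f ↔ ∃ L : IntermediateField ℚ (AlgebraicClosure ℚ), FiniteDimensional ℚ L ∧
      ∀ σ : GQ, (∀ x ∈ L, σ x = x) → f σ = 1 :=
  ⟨level_of_matContinuous hA, matContinuous_of_level⟩

end Level

section FibreProd

variable {𝒪 : Type} [CommRing 𝒪] [IsLocalRing 𝒪] [Finite (ResidueField 𝒪)]
variable {A₁ A₂ : TestAlg 𝒪}

/-- The augmentation of a test algebra, with the residue field regarded as a test algebra. -/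
abbrev toKT (A : TestAlg 𝒪) : A →ₐ[𝒪] TestAlg.resField 𝒪 := TestAlg.toK A

/-- The fibre product over `k` of two test algebras. -/
abbrev fibK (A₁ A₂ : TestAlg 𝒪) : TestAlg 𝒪 := TestAlg.fibreProd (toKT A₁) (toKT A₂)

/-- first projection -/
abbrev fibKFst (A₁ A₂ : TestAlg 𝒪) : fibK A₁ A₂ →ₐ[𝒪] A₁ := TestAlg.fibreProdFst (toKT A₁) (toKT A₂)

/-- second projection -/
abbrev fibKSnd (A₁ A₂ : TestAlg 𝒪) : fibK A₁ A₂ →ₐ[𝒪] A₂ := TestAlg.fibreProdSnd (toKT A₁) (toKT A₂)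

theorem fibK_ext {x y : fibK A₁ A₂} (h1 : fibKFst A₁ A₂ x = fibKFst A₁ A₂ y)
    (h2 : fibKSnd A₁ A₂ x = fibKSnd A₁ A₂ y) : x = y :=
  TestAlg.fibreProd_ext (toKT A₁) (toKT A₂) h1 h2

/-- An element of the fibre product from a compatible pair. -/
def fibKMk (a₁ : A₁) (a₂ : A₂) (h : TestAlg.toK A₁ a₁ = TestAlg.toK A₂ a₂) : fibK A₁ A₂ :=
  ⟨(a₁, a₂), h⟩

@[simp] theorem fibKFst_mk (a₁ : A₁) (a₂ : A₂) (h : TestAlg.toK A₁ a₁ = TestAlg.toK A₂ a₂) :
    fibKFst A₁ A₂ (fibKMk a₁ a₂ h) = a₁ := rfl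

@[simp] theorem fibKSnd_mk (a₁ : A₁) (a₂ : A₂) (h : TestAlg.toK A₁ a₁ = TestAlg.toK A₂ a₂) :
    fibKSnd A₁ A₂ (fibKMk a₁ a₂ h) = a₂ := rfl

/-- Matrices over the fibre product are determined by their two projections. -/
theorem fibK_matrix_ext {X Y : M2 (fibK A₁ A₂)}
    (h1 : X.map (fibKFst A₁ A₂) = Y.map (fibKFst A₁ A₂))
    (h2 : X.map (fibKSnd A₁ A₂) = Y.map (fibKSnd A₁ A₂)) : X = Y := by
  ext i j
  exact fibK_ext (congrFun (congrFun h1 i) j) (congrFun (congrFun h2 i) j)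

/-- Glue two matrix representations which agree modulo the maximal ideals. -/
def MatRep.fibreProd (r₁ : MatRep A₁) (r₂ : MatRep A₂)
    (h : ∀ σ i j, TestAlg.toK A₁ (r₁ σ i j) = TestAlg.toK A₂ (r₂ σ i j)) :
    MatRep (fibK A₁ A₂) where
  toHom :=
    { toFun := fun σ => Matrix.of fun i j => fibKMk (r₁ σ i j) (r₂ σ i j) (h σ i j)
      map_one' := by
        apply fibK_matrix_ext
        · ext i j
          simp [Matrix.one_apply]
        · ext i j
          simp [Matrix.one_apply]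
      map_mul' := fun σ τ => by
        apply fibK_matrix_ext
        · ext i j
          simp [Matrix.mul_apply]
        · ext i j
          simp [Matrix.mul_apply] }
  cont := by
    apply matContinuous_of_level
    obtain ⟨L₁, hL₁, h₁⟩ := level_of_matContinuous A₁.isNilpotent_maximalIdeal r₁.cont
    obtain ⟨L₂, hL₂, h₂⟩ := level_of_matContinuous A₂.isNilpotent_maximalIdeal r₂.cont
    refine ⟨L₁ ⊔ L₂, IntermediateField.finiteDimensional_sup L₁ L₂, fun σ hσ => ?_⟩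
    have e₁ : r₁ σ = 1 := h₁ σ fun x hx => hσ x ((le_sup_left : L₁ ≤ L₁ ⊔ L₂) hx)
    have e₂ : r₂ σ = 1 := h₂ σ fun x hx => hσ x ((le_sup_right : L₂ ≤ L₁ ⊔ L₂) hx)
    apply fibK_matrix_ext
    · ext i j
      simp [e₁, Matrix.one_apply]
    · ext i j
      simp [e₂, Matrix.one_apply]

theorem MatRep.fibreProd_map_fst (r₁ : MatRep A₁) (r₂ : MatRep A₂)
    (h : ∀ σ i j, TestAlg.toK A₁ (r₁ σ i j) = TestAlg.toK A₂ (r₂ σ i j)) :
    (MatRep.fibreProd r₁ r₂ h).map (fibKFst A₁ A₂ : fibK A₁ A₂ →+* A₁)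
      (TestAlg.isLocalHom_algHom _) = r₁ :=
  MatRep.ext fun σ => by ext i j; rfl

theorem MatRep.fibreProd_map_snd (r₁ : MatRep A₁) (r₂ : MatRep A₂)
    (h : ∀ σ i j, TestAlg.toK A₁ (r₁ σ i j) = TestAlg.toK A₂ (r₂ σ i j)) :
    (MatRep.fibreProd r₁ r₂ h).map (fibKSnd A₁ A₂ : fibK A₁ A₂ →+* A₂)
      (TestAlg.isLocalHom_algHom _) = r₂ :=
  MatRep.ext fun σ => by ext i j; rfl

omit [Finite (ResidueField 𝒪)] in
/-- Lifting the residual representation, in terms of the augmentation. -/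
theorem adm2_isLiftOf_iff_toK {A : TestAlg 𝒪} (r : MatRep A) (rb : GQ →* M2 (ResidueField 𝒪)) :
    r.IsLiftOf rb ↔ ∀ σ i j, TestAlg.toK A (r σ i j) = rb σ i j := by
  constructor
  · intro h σ i j
    rw [TestAlg.toK_apply, h σ i j, ← TestAlg.residueEquiv_apply, RingEquiv.symm_apply_apply]
  · intro h σ i j
    rw [← TestAlg.residueEquiv_toK, h σ i j, TestAlg.residueEquiv_apply]

theorem MatRep.fibreProd_ev (r₁ : MatRep A₁) (r₂ : MatRep A₂)
    (h : ∀ σ i j, TestAlg.toK A₁ (r₁ σ i j) = TestAlg.toK A₂ (r₂ σ i j)) :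
    RingHom.ker ((MatRep.fibreProd r₁ r₂ h).ev (𝒪 := 𝒪)) =
      RingHom.ker (r₁.ev (𝒪 := 𝒪)) ⊓ RingHom.ker (r₂.ev (𝒪 := 𝒪)) := by
  have e1 : (fibKFst A₁ A₂).comp ((MatRep.fibreProd r₁ r₂ h).ev (𝒪 := 𝒪)) = r₁.ev := by
    apply MvPolynomial.algHom_ext
    rintro ⟨σ, i, j⟩
    rw [AlgHom.comp_apply, MatRep.ev_X, MatRep.ev_X]
    rfl
  have e2 : (fibKSnd A₁ A₂).comp ((MatRep.fibreProd r₁ r₂ h).ev (𝒪 := 𝒪)) = r₂.ev := by
    apply MvPolynomial.algHom_ext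
    rintro ⟨σ, i, j⟩
    rw [AlgHom.comp_apply, MatRep.ev_X, MatRep.ev_X]
    rfl
  ext p
  rw [Ideal.mem_inf, RingHom.mem_ker, RingHom.mem_ker, RingHom.mem_ker, ← e1, ← e2]
  constructor
  · intro hp
    rw [AlgHom.comp_apply, AlgHom.comp_apply, hp, map_zero, map_zero]
    exact ⟨rfl, rfl⟩
  · rintro ⟨h1, h2⟩
    apply fibK_ext
    · rw [map_zero]; exact h1
    · rw [map_zero]; exact h2

variable {𝒟 : ∀ ⦃A : Type⦄ [CommRing A] [IsLocalRing A] [Algebra 𝒪 A], GaloisRepAdic A → Prop}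

/-- The glued representation satisfies a deformation condition as soon as both components do. -/
theorem MatRep.fibreProd_isOfType (h𝒟 : GaloisRep.IsDeformationCondition 𝒪 𝒟)
    (r₁ : MatRep A₁) (r₂ : MatRep A₂)
    (h : ∀ σ i j, TestAlg.toK A₁ (r₁ σ i j) = TestAlg.toK A₂ (r₂ σ i j))
    (h₁ : 𝒟 r₁.toAdic) (h₂ : 𝒟 r₂.toAdic) : 𝒟 (MatRep.fibreProd r₁ r₂ h).toAdic := by
  have hloc1 : IsLocalHom ((fibKFst A₁ A₂ : fibK A₁ A₂ →ₐ[𝒪] A₁) : fibK A₁ A₂ →+* A₁) :=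
    TestAlg.isLocalHom_algHom _
  have hloc2 : IsLocalHom ((fibKSnd A₁ A₂ : fibK A₁ A₂ →ₐ[𝒪] A₂) : fibK A₁ A₂ →+* A₂) :=
    TestAlg.isLocalHom_algHom _
  refine h𝒟.of_fibreProduct (A := A₁) (B := A₂) (C := TestAlg.resField 𝒪) (P := fibK A₁ A₂)
    A₁.isTest A₂.isTest (TestAlg.resField 𝒪).isTest (fibK A₁ A₂).isTest
    (toKT A₁) (toKT A₂) (fibKFst A₁ A₂) (fibKSnd A₁ A₂) hloc1 hloc2 ?_ ?_ ?_ ?_ ?_
  · ext x
    exact TestAlg.fibreProd_comm (toKT A₁) (toKT A₂) x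
  · intro x y hxy
    have h1 := congrArg Prod.fst hxy
    have h2 := congrArg Prod.snd hxy
    exact fibK_ext h1 h2
  · intro a b hab
    exact TestAlg.fibreProd_exists (toKT A₁) (toKT A₂) a b hab
  · have he := MatRep.isEquiv_baseChangeAlong_toAdic
      ((fibKFst A₁ A₂ : fibK A₁ A₂ →ₐ[𝒪] A₁) : fibK A₁ A₂ →+* A₁) hloc1
      (MatRep.fibreProd r₁ r₂ h)
    rw [MatRep.fibreProd_map_fst] at he
    exact h𝒟.of_isEquiv A₁.isTest (isEquiv_symm he) h₁
  · have he := MatRep.isEquiv_baseChangeAlong_toAdic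
      ((fibKSnd A₁ A₂ : fibK A₁ A₂ →ₐ[𝒪] A₂) : fibK A₁ A₂ →+* A₂) hloc2
      (MatRep.fibreProd r₁ r₂ h)
    rw [MatRep.fibreProd_map_snd] at he
    exact h𝒟.of_isEquiv A₂.isTest (isEquiv_symm he) h₂

/-- **ADM(2)**: the admissible ideals are closed under intersection. -/
theorem admissible_inf (D : RigidDatum 𝒪) (h𝒟 : GaloisRep.IsDeformationCondition 𝒪 𝒟)
    {I J : Ideal (EntryRing 𝒪)} (hI : I ∈ admissible D 𝒟) (hJ : J ∈ admissible D 𝒟) :
    I ⊓ J ∈ admissible D 𝒟 := by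
  obtain ⟨A₁, r₁, hl₁, hn₁, hd₁, rfl⟩ := hI
  obtain ⟨A₂, r₂, hl₂, hn₂, hd₂, rfl⟩ := hJ
  have h : ∀ σ i j, TestAlg.toK A₁ (r₁ σ i j) = TestAlg.toK A₂ (r₂ σ i j) := fun σ i j => by
    rw [(adm2_isLiftOf_iff_toK r₁ D.rb).mp hl₁, (adm2_isLiftOf_iff_toK r₂ D.rb).mp hl₂]
  refine ⟨fibK A₁ A₂, MatRep.fibreProd r₁ r₂ h, ?_, ?_, ?_, MatRep.fibreProd_ev r₁ r₂ h⟩
  · rw [adm2_isLiftOf_iff_toK]
    intro σ i j
    rw [← TestAlg.toK_map (fibKFst A₁ A₂)]
    exact (adm2_isLiftOf_iff_toK r₁ D.rb).mp hl₁ σ i j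
  · intro j
    apply fibK_ext
    · rw [AlgHom.commutes]
      exact hn₁ j
    · rw [AlgHom.commutes]
      exact hn₂ j
  · exact MatRep.fibreProd_isOfType h𝒟 r₁ r₂ h hd₁ hd₂

end FibreProd

section Nonempty

variable {𝒪 : Type} [CommRing 𝒪] [IsLocalRing 𝒪]
variable {𝒟 : ∀ ⦃A : Type⦄ [CommRing A] [IsLocalRing A] [Algebra 𝒪 A], GaloisRepAdic A → Prop}

/-- The residual matrix representation of a rigidification datum, over the residue field. -/
def RigidDatum.matRep (D : RigidDatum 𝒪) : MatRep (ResidueField 𝒪) where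
  toHom := D.rb
  cont := matContinuous_of_level D.level

@[simp] theorem RigidDatum.matRep_apply (D : RigidDatum 𝒪) (σ : GQ) : D.matRep σ = D.rb σ := rfl

theorem toK_resField (x : ResidueField 𝒪) : TestAlg.toK (TestAlg.resField 𝒪) x = x := by
  have h : AlgHom.id 𝒪 (ResidueField 𝒪) = TestAlg.toK (TestAlg.resField 𝒪) :=
    TestAlg.algHom_toK_unique (A := TestAlg.resField 𝒪) (AlgHom.id 𝒪 (ResidueField 𝒪))
  exact (congrArg (fun f : ResidueField 𝒪 →ₐ[𝒪] ResidueField 𝒪 => f x) h).symm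

/-- **ADM(2)**: the kernel of evaluation at the residual representation is admissible. -/
theorem admissible_residual (D : RigidDatum 𝒪) (h0 : 𝒟 D.matRep.toAdic) :
    RingHom.ker (D.matRep.ev (𝒪 := 𝒪)) ∈ admissible D 𝒟 :=
  ⟨TestAlg.resField 𝒪, D.matRep,
    (adm2_isLiftOf_iff_toK (A := TestAlg.resField 𝒪) D.matRep D.rb).mpr fun _ _ _ => toK_resField _,
    fun j => (D.hc j).symm, h0, rfl⟩

theorem admissible_nonempty (D : RigidDatum 𝒪) (h0 : 𝒟 D.matRep.toAdic) :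
    (admissible D 𝒟).Nonempty :=
  ⟨_, admissible_residual D h0⟩

end Nonempty

end Fermat.Agent.S53
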