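import Fermat.Agent.S53.TestAlg

set_option autoImplicit false

/-!
# S53: more constructions of test algebras

* `TestAlg.ofHom`: a finite `𝒪`-algebra `X` with a unit-reflecting hom to a test algebra.
* `TestAlg.ofInj`: the same for an injective hom (units are reflected automatically).
* `TestAlg.ofKer`: `P ⧸ ker ev` for `ev : P →ₐ[𝒪] B`, `B` a test algebra.
-/

namespace Fermat.Agent.S53

open IsLocalRing

namespace TestAlg

variable {𝒪 : Type} [CommRing 𝒪] [IsLocalRing 𝒪] [Finite (ResidueField 𝒪)]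

section OfHom

variable {B : TestAlg 𝒪} {X : Type} [CommRing X] [Algebra 𝒪 X] [Finite X]

theorem isLocalRing_of_hom (ρ : X →ₐ[𝒪] B) (hρ : ∀ x, IsUnit (ρ x) → IsUnit x) :
    IsLocalRing X :=
  haveI : IsLocalHom (ρ : X →+* B) := ⟨hρ⟩
  RingHom.domain_isLocalRing (ρ : X →+* B)

theorem isTest_of_hom [IsLocalRing X] (ρ : X →ₐ[𝒪] B) (hρ : ∀ x, IsUnit (ρ x) → IsUnit x) :
    GaloisRep.IsArtinianTestAlgebra 𝒪 X := by
  haveI hloc : IsLocalHom (ρ : X →+* B) := ⟨hρ⟩
  refine ⟨?_, ?_, inferInstance⟩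
  · have h : ((ρ : X →+* B).comp (algebraMap 𝒪 X)) = algebraMap 𝒪 B := by
      ext o; exact ρ.commutes o
    haveI : IsLocalHom ((ρ : X →+* B).comp (algebraMap 𝒪 X)) := by
      rw [h]; infer_instance
    exact isLocalHom_of_comp _ (ρ : X →+* B)
  · intro y
    obtain ⟨x, rfl⟩ := residue_surjective y
    obtain ⟨o, ho⟩ := exists_algebraMap_sub_mem B (ρ x)
    refine ⟨o, ?_⟩
    change residue _ (algebraMap 𝒪 X o) = residue _ x
    rw [← sub_eq_zero, ← map_sub, residue_eq_zero_iff, mem_maximalIdeal, mem_nonunits_iff]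
    intro hu
    have h1 : IsUnit (ρ (algebraMap 𝒪 X o - x)) := hu.map ρ
    rw [map_sub, AlgHom.commutes] at h1
    have h2 : algebraMap 𝒪 B o - ρ x ∈ maximalIdeal B := by
      have := neg_mem ho
      rwa [neg_sub] at this
    exact (mem_maximalIdeal _).mp h2 h1

/-- A finite `𝒪`-algebra with a unit-reflecting hom to a test algebra, as a test algebra. -/
def ofHom (X : Type) [CommRing X] [Algebra 𝒪 X] [Finite X] (ρ : X →ₐ[𝒪] B)
    (hρ : ∀ x, IsUnit (ρ x) → IsUnit x) : TestAlg 𝒪 :=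
  letI := isLocalRing_of_hom ρ hρ
  { carrier := X
    isTest := isTest_of_hom ρ hρ }

omit [IsLocalRing 𝒪] [Finite (ResidueField 𝒪)] in
/-- An injective hom out of a finite ring reflects units. -/
theorem isUnit_of_isUnit_map_of_injective {Y : Type} [CommRing Y] (ρ : X →+* Y)
    (hinj : Function.Injective ρ) (x : X) (h : IsUnit (ρ x)) : IsUnit x := by
  -- multiplication by `x` is injective on the finite set `X`, hence surjective
  have hmul : Function.Injective (fun y : X => x * y) := by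
    intro y z hyz
    apply hinj
    have : ρ x * ρ y = ρ x * ρ z := by rw [← map_mul, ← map_mul]; exact congrArg ρ hyz
    exact h.mul_left_cancel this
  obtain ⟨y, hy⟩ := (Finite.injective_iff_surjective.mp hmul) 1
  exact IsUnit.of_mul_eq_one y hy

/-- A finite `𝒪`-algebra with an injective hom to a test algebra, as a test algebra. -/
def ofInj (X : Type) [CommRing X] [Algebra 𝒪 X] [Finite X] (ρ : X →ₐ[𝒪] B)
    (hinj : Function.Injective ρ) : TestAlg 𝒪 :=
  ofHom X ρ (isUnit_of_isUnit_map_of_injective (ρ : X →+* B) hinj)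

end OfHom

section OfKer

variable {B : TestAlg 𝒪} {P : Type} [CommRing P] [Algebra 𝒪 P]

instance finite_quotient_ker (ev : P →ₐ[𝒪] B) : Finite (P ⧸ RingHom.ker (ev : P →+* B)) :=
  Finite.of_injective _ (Ideal.kerLiftAlg_injective ev)

/-- `P ⧸ ker ev` as a test algebra, for `ev : P →ₐ[𝒪] B` with `B` a test algebra. -/
def ofKer (ev : P →ₐ[𝒪] B) : TestAlg 𝒪 :=
  ofInj (P ⧸ RingHom.ker (ev : P →+* B)) (Ideal.kerLiftAlg ev) (Ideal.kerLiftAlg_injective ev)

/-- The canonical injection `P ⧸ ker ev → B`. -/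
def ofKerVal (ev : P →ₐ[𝒪] B) : ofKer ev →ₐ[𝒪] B := Ideal.kerLiftAlg ev

theorem ofKerVal_injective (ev : P →ₐ[𝒪] B) : Function.Injective (ofKerVal ev) :=
  Ideal.kerLiftAlg_injective ev

/-- The quotient map `P → P ⧸ ker ev`. -/
def ofKerMk (ev : P →ₐ[𝒪] B) : P →ₐ[𝒪] ofKer ev :=
  Ideal.Quotient.mkₐ 𝒪 (RingHom.ker (ev : P →+* B))

theorem ofKerMk_surjective (ev : P →ₐ[𝒪] B) : Function.Surjective (ofKerMk ev) :=
  Ideal.Quotient.mk_surjective

@[simp] theorem ofKerVal_mk (ev : P →ₐ[𝒪] B) (p : P) : ofKerVal ev (ofKerMk ev p) = ev p := rfl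

end OfKer

end TestAlg

end Fermat.Agent.S53
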