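import Fermat.Agent.S53.Nrm
import Fermat.Agent.S53.TestAlgSub
import Fermat.Prelude.Def_GaloisRep_DeformationCondition

/-!
# S53, piece ADM(1): the tautological lift over `EntryRing 𝒪 ⧸ ker r.ev`

For a test algebra `A` and a matrix representation `r : MatRep A`, the quotient
`TestAlg.ofKer r.ev` (carrier `EntryRing 𝒪 ⧸ ker r.ev`) carries the tautological matrix
representation `tautRep r`, whose entries are the classes of the variables.  It maps to `r` under
the injection `ofKerVal`, and inherits `IsLiftOf`, `IsNormalised` and the deformation condition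
(by `of_baseChangeAlong_injective`).  Hence every admissible ideal is realised by an
entry-generated pair.
-/

set_option autoImplicit false

noncomputable section

namespace Fermat.Agent.S53

open IsLocalRing

variable {𝒪 : Type} [CommRing 𝒪] [IsLocalRing 𝒪]

section LiftToK

variable {A : TestAlg 𝒪}

/-- `IsLiftOf` expressed through the augmentation `toK`. -/
theorem MatRep.isLiftOf_iff_toK (r : MatRep A) (rb : GQ →* M2 (ResidueField 𝒪)) :
    r.IsLiftOf rb ↔ ∀ σ i j, TestAlg.toK A (r σ i j) = rb σ i j := by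
  unfold MatRep.IsLiftOf
  refine forall_congr' fun σ => forall_congr' fun i => forall_congr' fun j => ?_
  rw [TestAlg.toK_apply, RingEquiv.symm_apply_eq, TestAlg.residueEquiv_apply]

end LiftToK

section Taut

variable [Finite (ResidueField 𝒪)] {A : TestAlg 𝒪} (r : MatRep A)

/-- The test algebra `EntryRing 𝒪 ⧸ ker r.ev`. -/
abbrev entryAlg : TestAlg 𝒪 := TestAlg.ofKer (r.ev (𝒪 := 𝒪))

/-- The injection `EntryRing 𝒪 ⧸ ker r.ev → A`. -/
abbrev entryVal : entryAlg r →ₐ[𝒪] A := TestAlg.ofKerVal (r.ev (𝒪 := 𝒪))

/-- The projection `EntryRing 𝒪 → EntryRing 𝒪 ⧸ ker r.ev`. -/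
abbrev entryMk : EntryRing 𝒪 →ₐ[𝒪] entryAlg r := TestAlg.ofKerMk (r.ev (𝒪 := 𝒪))

theorem entryVal_injective : Function.Injective (entryVal r) :=
  TestAlg.ofKerVal_injective _

theorem entryVal_mk_X (σ : GQ) (i j : Fin 2) :
    entryVal r (entryMk r (MvPolynomial.X (σ, i, j))) = r σ i j := by
  rw [TestAlg.ofKerVal_mk, MatRep.ev_X]

/-- The matrix of classes of the variables `x_{σ,i,j}`. -/
def tautMat (σ : GQ) : M2 (entryAlg r) :=
  Matrix.of fun i j => entryMk r (MvPolynomial.X (σ, i, j))

theorem tautMat_map (σ : GQ) :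
    (tautMat r σ).map (entryVal r) = r σ := by
  ext i j
  rw [Matrix.map_apply, tautMat, Matrix.of_apply, entryVal_mk_X]

theorem map_entryVal_injective :
    Function.Injective (fun X : M2 (entryAlg r) => X.map (entryVal r)) := by
  intro X Y h
  ext i j
  apply entryVal_injective r
  have := congrFun (congrFun h i) j
  simpa using this

/-- The tautological matrix representation over `EntryRing 𝒪 ⧸ ker r.ev`. -/
def tautRep : MatRep (entryAlg r) where
  toHom :=
    { toFun := tautMat r
      map_one' := by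
        apply map_entryVal_injective r
        change (tautMat r 1).map (entryVal r) = (1 : M2 (entryAlg r)).map (entryVal r)
        rw [tautMat_map, r.apply_one, Matrix.map_one _ (map_zero _) (map_one _)]
      map_mul' := fun σ τ => by
        apply map_entryVal_injective r
        change (tautMat r (σ * τ)).map (entryVal r) =
          (tautMat r σ * tautMat r τ).map (entryVal r)
        rw [tautMat_map, r.apply_mul, Matrix.map_mul, tautMat_map, tautMat_map] }
  cont := by
    intro n
    obtain ⟨N, hN⟩ := A.isNilpotent_maximalIdeal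
    obtain ⟨L, hL, h⟩ := r.cont N
    refine ⟨L, hL, fun σ hσ i j => ?_⟩
    have h1 : r σ = 1 := by
      ext i j
      have := h σ hσ i j
      rw [hN] at this
      have h0 : (r σ - 1) i j = 0 := by simpa using this
      rw [Matrix.sub_apply, sub_eq_zero] at h0
      exact h0
    have h2 : tautMat r σ = 1 := by
      apply map_entryVal_injective r
      change (tautMat r σ).map (entryVal r) = (1 : M2 (entryAlg r)).map (entryVal r)
      rw [tautMat_map, h1, Matrix.map_one _ (map_zero _) (map_one _)]
    change (tautMat r σ - 1) i j ∈ _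
    rw [h2, sub_self]
    exact Ideal.zero_mem _

@[simp] theorem tautRep_apply (σ : GQ) (i j : Fin 2) :
    tautRep r σ i j = entryMk r (MvPolynomial.X (σ, i, j)) := rfl

/-- The tautological representation maps to `r`. -/
theorem tautRep_map :
    (tautRep r).map (entryVal r : entryAlg r →+* A) (TestAlg.isLocalHom_algHom (entryVal r)) = r :=
  MatRep.ext fun σ => tautMat_map r σ

theorem entryVal_tautRep (σ : GQ) (i j : Fin 2) : entryVal r (tautRep r σ i j) = r σ i j :=
  entryVal_mk_X r σ i j

/-- The evaluation at the tautological representation is the quotient map. -/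
theorem tautRep_ev : (tautRep r).ev (𝒪 := 𝒪) = entryMk r := by
  apply MvPolynomial.algHom_ext
  rintro ⟨σ, i, j⟩
  rw [MatRep.ev_X, tautRep_apply]

theorem tautRep_ev_surjective : Function.Surjective ((tautRep r).ev (𝒪 := 𝒪)) := by
  rw [tautRep_ev]
  exact TestAlg.ofKerMk_surjective _

/-- The kernel of evaluation at the tautological representation is `ker r.ev`. -/
theorem ker_tautRep_ev :
    RingHom.ker ((tautRep r).ev (𝒪 := 𝒪)) = RingHom.ker (r.ev (𝒪 := 𝒪)) := by
  rw [tautRep_ev]
  ext p
  rw [RingHom.mem_ker, RingHom.mem_ker]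
  constructor
  · intro h
    have := congrArg (entryVal r) h
    rwa [TestAlg.ofKerVal_mk, map_zero] at this
  · intro h
    apply entryVal_injective r
    rw [TestAlg.ofKerVal_mk, map_zero]
    exact h

theorem tautRep_isLiftOf {rb : GQ →* M2 (ResidueField 𝒪)} (h : r.IsLiftOf rb) :
    (tautRep r).IsLiftOf rb := by
  rw [MatRep.isLiftOf_iff_toK] at h ⊢
  intro σ i j
  rw [← h σ i j, ← entryVal_tautRep r σ i j, TestAlg.toK_map]

theorem tautRep_isNormalised {D : RigidDatum 𝒪} (h : r.IsNormalised D) :
    (tautRep r).IsNormalised D := by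
  intro j
  apply entryVal_injective r
  rw [entryVal_tautRep, h j, AlgHom.commutes]

/-- The tautological representation satisfies the deformation condition as soon as `r` does. -/
theorem tautRep_isOfType
    {𝒟 : ∀ ⦃A : Type⦄ [CommRing A] [IsLocalRing A] [Algebra 𝒪 A], GaloisRepAdic A → Prop}
    (h𝒟 : GaloisRep.IsDeformationCondition 𝒪 𝒟) (h : 𝒟 r.toAdic) : 𝒟 (tautRep r).toAdic := by
  have hloc := TestAlg.isLocalHom_algHom (entryVal r)
  refine h𝒟.of_baseChangeAlong_injective (entryAlg r).isTest A.isTest (entryVal r) hloc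
    (entryVal_injective r) ?_
  have hE := MatRep.isEquiv_baseChangeAlong_toAdic (entryVal r : entryAlg r →+* A) hloc (tautRep r)
  rw [tautRep_map] at hE
  obtain ⟨e⟩ := hE
  exact h𝒟.of_isEquiv A.isTest ⟨e.symm⟩ h

/-- **ADM(1)**: every admissible ideal is realised by an entry-generated pair. -/
theorem exists_entryGenerated_of_mem_admissible {D : RigidDatum 𝒪}
    {𝒟 : ∀ ⦃A : Type⦄ [CommRing A] [IsLocalRing A] [Algebra 𝒪 A], GaloisRepAdic A → Prop}
    (h𝒟 : GaloisRep.IsDeformationCondition 𝒪 𝒟) {I : Ideal (EntryRing 𝒪)}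
    (hI : I ∈ admissible D 𝒟) :
    ∃ (B : TestAlg 𝒪) (t : MatRep B), t.IsLiftOf D.rb ∧ t.IsNormalised D ∧ 𝒟 t.toAdic ∧
      RingHom.ker (t.ev (𝒪 := 𝒪)) = I ∧ Function.Surjective (t.ev (𝒪 := 𝒪)) := by
  obtain ⟨A, r, h1, h2, h3, rfl⟩ := hI
  exact ⟨entryAlg r, tautRep r, tautRep_isLiftOf r h1, tautRep_isNormalised r h2,
    tautRep_isOfType r h𝒟 h3, ker_tautRep_ev r, tautRep_ev_surjective r⟩

end Taut

end Fermat.Agent.S53
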