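/-
S53, piece (B): matrix model of `GaloisRepAdic` and `ResidualGaloisRep`.
Definitions + basic translation lemmas.  Everything lives in `Fermat.Agent.S53`.
-/
import Mathlib
import Fermat.Prelude.Def_GaloisRep_Adic

set_option autoImplicit false

open scoped TensorProduct

noncomputable section

namespace Fermat.Agent.S53

/-- The absolute Galois group of `ℚ` (same term as in the Prelude). -/
abbrev GQ : Type := AlgebraicClosure ℚ ≃ₐ[ℚ] AlgebraicClosure ℚ

/-- Abbreviation for `2 × 2` matrices. -/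
abbrev M2 (A : Type) : Type := Matrix (Fin 2) (Fin 2) A

section MatRep

variable {A : Type} [CommRing A] [IsLocalRing A]

/-- Entrywise adic continuity of a matrix-valued function on `GQ`. -/
def MatContinuous (f : GQ → M2 A) : Prop :=
  ∀ n : ℕ, ∃ L : IntermediateField ℚ (AlgebraicClosure ℚ), FiniteDimensional ℚ L ∧
    ∀ σ : GQ, (∀ x ∈ L, σ x = x) →
      ∀ i j, (f σ - 1) i j ∈ IsLocalRing.maximalIdeal A ^ n

variable (A) in
/-- A continuous `2 × 2` matrix representation of `GQ` over the local ring `A`. -/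
structure MatRep where
  /-- the underlying monoid hom to matrices -/
  toHom : GQ →* M2 A
  /-- adic continuity -/
  cont : MatContinuous (A := A) toHom

namespace MatRep

instance : CoeFun (MatRep A) (fun _ => GQ → M2 A) := ⟨fun r => r.toHom⟩

@[ext]
theorem ext {r s : MatRep A} (h : ∀ σ, r σ = s σ) : r = s := by
  cases r; cases s
  congr
  exact MonoidHom.ext h

theorem ext_entries {r s : MatRep A} : r = s ↔ ∀ σ i j, r σ i j = s σ i j :=
  ⟨fun h _ _ _ => by rw [h], fun h => ext fun σ => Matrix.ext (h σ)⟩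

@[simp] theorem apply_one (r : MatRep A) : r 1 = 1 := r.toHom.map_one

@[simp] theorem apply_mul (r : MatRep A) (σ τ : GQ) : r (σ * τ) = r σ * r τ :=
  r.toHom.map_mul σ τ

theorem apply_mul_inv (r : MatRep A) (σ : GQ) : r σ * r σ⁻¹ = 1 := by
  rw [← r.apply_mul, mul_inv_cancel, r.apply_one]

theorem apply_inv_mul (r : MatRep A) (σ : GQ) : r σ⁻¹ * r σ = 1 := by
  rw [← r.apply_mul, inv_mul_cancel, r.apply_one]

/-- The values of a matrix representation are invertible matrices. -/
def toUnits (r : MatRep A) (σ : GQ) : (M2 A)ˣ :=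
  ⟨r σ, r σ⁻¹, r.apply_mul_inv σ, r.apply_inv_mul σ⟩

theorem isUnit_apply (r : MatRep A) (σ : GQ) : IsUnit (r σ) := ⟨r.toUnits σ, rfl⟩

omit [IsLocalRing A] in
/-- A vector all of whose entries lie in an ideal `I` lies in `I • ⊤`. -/
theorem mem_smul_top_of_forall_mem {I : Ideal A} {v : Fin 2 → A} (h : ∀ i, v i ∈ I) :
    v ∈ I • (⊤ : Submodule A (Fin 2 → A)) := by
  have hv : v = ∑ i, v i • (Pi.single i (1 : A) : Fin 2 → A) := by
    ext j
    simp [Finset.sum_apply, Pi.single_apply]
  rw [hv]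
  exact Submodule.sum_mem _ fun i _ => Submodule.smul_mem_smul (h i) Submodule.mem_top

omit [IsLocalRing A] in
/-- Conversely, a vector in `I • ⊤` has all entries in `I`. -/
theorem forall_mem_of_mem_smul_top {I : Ideal A} {v : Fin 2 → A}
    (h : v ∈ I • (⊤ : Submodule A (Fin 2 → A))) (i : Fin 2) : v i ∈ I := by
  refine Submodule.smul_induction_on h ?_ ?_
  · intro a ha w _
    simpa using I.mul_mem_right (w i) ha
  · intro x y hx hy
    simpa using I.add_mem hx hy

/-- The `GaloisRepAdic` attached to a matrix representation (on `V = A²`). -/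
def toAdic (r : MatRep A) : GaloisRepAdic A where
  V := Fin 2 → A
  finrank_eq := by simp
  ρ := (Matrix.toLinAlgEquiv' (R := A) (n := Fin 2) :
      M2 A →* Module.End A (Fin 2 → A)).comp r.toHom
  isAdicContinuous := by
    intro n
    obtain ⟨L, hL, h⟩ := r.cont n
    refine ⟨L, hL, fun σ hσ v => ?_⟩
    have h1 : ((Matrix.toLinAlgEquiv' (R := A) (n := Fin 2) :
        M2 A →* Module.End A (Fin 2 → A)).comp r.toHom) σ v - v
        = (r σ - 1).mulVec v := by
      rw [Matrix.sub_mulVec, Matrix.one_mulVec]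
      rfl
    rw [h1]
    refine mem_smul_top_of_forall_mem fun i => ?_
    simp only [Matrix.mulVec, dotProduct]
    exact Ideal.sum_mem _ fun j _ => Ideal.mul_mem_right _ _ (h σ hσ i j)

@[simp] theorem toAdic_ρ_apply (r : MatRep A) (σ : GQ) (v : Fin 2 → A) :
    r.toAdic.ρ σ v = (r σ).mulVec v := rfl

omit [IsLocalRing A] in
/-- Entries of `P * X * Q` lie in an ideal as soon as those of `X` do. -/
theorem mul_mul_mem_of_forall_mem {I : Ideal A} {X : M2 A} (h : ∀ i j, X i j ∈ I) (P Q : M2 A)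
    (i j : Fin 2) : (P * X * Q) i j ∈ I := by
  simp only [Matrix.mul_apply]
  refine Ideal.sum_mem _ fun l _ => Ideal.mul_mem_right _ _ ?_
  exact Ideal.sum_mem _ fun m _ => Ideal.mul_mem_left _ _ (h m l)

section Map

variable {B : Type} [CommRing B] [IsLocalRing B]

theorem map_maximalIdeal_pow_le (φ : A →+* B) (hφ : IsLocalHom φ) (n : ℕ) :
    (IsLocalRing.maximalIdeal A ^ n).map φ ≤ IsLocalRing.maximalIdeal B ^ n := by
  rw [Ideal.map_pow]
  exact Ideal.pow_right_mono (Ideal.map_le_iff_le_comap.mpr fun a ha =>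
    Ideal.mem_comap.mpr (haveI := hφ; map_nonunit φ a ha)) n

/-- Push a matrix representation forward along a local ring hom, entrywise. -/
def map (φ : A →+* B) (hφ : IsLocalHom φ) (r : MatRep A) : MatRep B where
  toHom := ((φ.mapMatrix : M2 A →+* M2 B) : M2 A →* M2 B).comp r.toHom
  cont := by
    intro n
    obtain ⟨L, hL, h⟩ := r.cont n
    refine ⟨L, hL, fun σ hσ i j => ?_⟩
    have h1 : ((((φ.mapMatrix : M2 A →+* M2 B) : M2 A →* M2 B).comp r.toHom) σ - 1) i j = φ ((r σ - 1) i j) := by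
      have : (((φ.mapMatrix : M2 A →+* M2 B) : M2 A →* M2 B).comp r.toHom) σ = φ.mapMatrix (r σ) := rfl
      rw [this, ← map_one (φ.mapMatrix (m := Fin 2)), ← map_sub]
      rfl
    rw [h1]
    exact map_maximalIdeal_pow_le φ hφ n (Ideal.mem_map_of_mem φ (h σ hσ i j))

@[simp] theorem map_apply (φ : A →+* B) (hφ : IsLocalHom φ) (r : MatRep A) (σ : GQ) :
    r.map φ hφ σ = (r σ).map φ := rfl

theorem map_apply_apply (φ : A →+* B) (hφ : IsLocalHom φ) (r : MatRep A) (σ : GQ) (i j : Fin 2) :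
    r.map φ hφ σ i j = φ (r σ i j) := rfl

theorem map_map {C : Type} [CommRing C] [IsLocalRing C] (φ : A →+* B) (hφ : IsLocalHom φ)
    (ψ : B →+* C) (hψ : IsLocalHom ψ) (hψφ : IsLocalHom (ψ.comp φ)) (r : MatRep A) :
    (r.map φ hφ).map ψ hψ = r.map (ψ.comp φ) hψφ :=
  ext fun _ => Matrix.ext fun _ _ => rfl

theorem map_id (h : IsLocalHom (RingHom.id A)) (r : MatRep A) : r.map (RingHom.id A) h = r :=
  ext fun _ => Matrix.ext fun _ _ => rfl

end Map

/-- Conjugate a matrix representation: `(r.conj M) σ = M⁻¹ * r σ * M`. -/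
def conj (M : (M2 A)ˣ) (r : MatRep A) : MatRep A where
  toHom :=
    { toFun := fun σ => ((M⁻¹ : (M2 A)ˣ) : M2 A) * r σ * (M : M2 A)
      map_one' := by simp
      map_mul' := fun σ τ => by
        simp only [apply_mul]
        calc ((M⁻¹ : (M2 A)ˣ) : M2 A) * (r σ * r τ) * (M : M2 A)
            = ((M⁻¹ : (M2 A)ˣ) : M2 A) * r σ * ((M : M2 A) * ((M⁻¹ : (M2 A)ˣ) : M2 A)) * r τ
                * (M : M2 A) := by
              rw [Units.mul_inv, mul_one]; simp only [mul_assoc]
          _ = _ := by simp only [mul_assoc] }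
  cont := by
    intro n
    obtain ⟨L, hL, h⟩ := r.cont n
    refine ⟨L, hL, fun σ hσ i j => ?_⟩
    have h1 : (((M⁻¹ : (M2 A)ˣ) : M2 A) * r σ * (M : M2 A) - 1)
        = ((M⁻¹ : (M2 A)ˣ) : M2 A) * (r σ - 1) * (M : M2 A) := by
      rw [mul_sub, sub_mul, mul_one, Units.inv_mul]
    show (((M⁻¹ : (M2 A)ˣ) : M2 A) * r σ * (M : M2 A) - 1) i j ∈ _
    rw [h1]
    exact mul_mul_mem_of_forall_mem (h σ hσ) _ _ i j

@[simp] theorem conj_apply (M : (M2 A)ˣ) (r : MatRep A) (σ : GQ) :
    r.conj M σ = ((M⁻¹ : (M2 A)ˣ) : M2 A) * r σ * (M : M2 A) := rfl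

theorem conj_one (r : MatRep A) : r.conj 1 = r := ext fun σ => by simp

theorem conj_conj (M N : (M2 A)ˣ) (r : MatRep A) : (r.conj M).conj N = r.conj (M * N) :=
  ext fun σ => by simp [mul_assoc]

end MatRep

end MatRep

/-! ### Translation lemmas between matrix representations and the Prelude structures -/

theorem piScalarRight_baseChange_toLin' {A B : Type} [CommRing A] [CommRing B] [Algebra A B]
    (M : M2 A) (x : B ⊗[A] (Fin 2 → A)) :
    TensorProduct.piScalarRight A B B (Fin 2) ((Matrix.toLin' M).baseChange B x)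
      = (M.map (algebraMap A B)).mulVec (TensorProduct.piScalarRight A B B (Fin 2) x) := by
  induction x using TensorProduct.induction_on with
  | zero => simp
  | tmul b v =>
    rw [LinearMap.baseChange_tmul, TensorProduct.piScalarRight_apply,
      TensorProduct.piScalarRightHom_tmul, TensorProduct.piScalarRight_apply,
      TensorProduct.piScalarRightHom_tmul]
    ext i
    simp only [Matrix.toLin'_apply, Matrix.mulVec, dotProduct, Fin.sum_univ_two, Matrix.map_apply,
      Algebra.smul_def, map_add, map_mul]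
    ring
  | add x y hx hy => simp only [map_add, hx, hy, Matrix.mulVec_add]

namespace MatRep

variable {A : Type} [CommRing A] [IsLocalRing A]

theorem toAdic_ρ_eq_toLin' (r : MatRep A) (σ : GQ) : r.toAdic.ρ σ = Matrix.toLin' (r σ) := rfl

section
variable {B : Type} [CommRing B] [IsLocalRing B]

/-- Base change of `toAdic` is `toAdic` of the entrywise image. -/
def baseChangeEquiv (φ : A →+* B) (hφ : IsLocalHom φ) (r : MatRep A) :
    GaloisRepAdic.Equiv (r.toAdic.baseChangeAlong φ hφ) (r.map φ hφ).toAdic :=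
  letI : Algebra A B := φ.toAlgebra
  { toLinearEquiv := TensorProduct.piScalarRight A B B (Fin 2)
    map_apply := fun σ x => piScalarRight_baseChange_toLin' (r σ) x }

theorem isEquiv_baseChangeAlong_toAdic (φ : A →+* B) (hφ : IsLocalHom φ) (r : MatRep A) :
    (r.toAdic.baseChangeAlong φ hφ).IsEquiv (r.map φ hφ).toAdic :=
  ⟨baseChangeEquiv φ hφ r⟩

end

/-- The linear automorphism of `A²` given by an invertible matrix. -/
def unitsLinearEquiv (M : (M2 A)ˣ) : (Fin 2 → A) ≃ₗ[A] (Fin 2 → A) :=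
  LinearEquiv.ofLinearMap (Matrix.toLin' (M : M2 A)) (Matrix.toLin' ((M⁻¹ : (M2 A)ˣ) : M2 A))
    (by rw [← Matrix.toLin'_mul, Units.mul_inv, Matrix.toLin'_one])
    (by rw [← Matrix.toLin'_mul, Units.inv_mul, Matrix.toLin'_one])

omit [IsLocalRing A] in
@[simp] theorem unitsLinearEquiv_apply (M : (M2 A)ˣ) (v : Fin 2 → A) :
    unitsLinearEquiv M v = (M : M2 A).mulVec v := rfl

theorem conj_mulVec_aux (M : (M2 A)ˣ) (r : MatRep A) (σ : GQ) (v : Fin 2 → A) :
    (M : M2 A).mulVec ((r.conj M σ).mulVec v) = (r σ).mulVec ((M : M2 A).mulVec v) := by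
  rw [Matrix.mulVec_mulVec, Matrix.mulVec_mulVec, conj_apply, ← mul_assoc, ← mul_assoc,
    Units.mul_inv, one_mul]

/-- Conjugate matrix representations give equivalent `GaloisRepAdic`s. -/
def conjEquiv (M : (M2 A)ˣ) (r : MatRep A) : GaloisRepAdic.Equiv (r.conj M).toAdic r.toAdic where
  toLinearEquiv := unitsLinearEquiv M
  map_apply := fun σ v => conj_mulVec_aux M r σ v

theorem isEquiv_conj (M : (M2 A)ˣ) (r : MatRep A) : (r.conj M).toAdic.IsEquiv r.toAdic :=
  ⟨conjEquiv M r⟩

/-- Equivalent `toAdic`s come from conjugate matrix representations. -/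
theorem exists_conj_of_isEquiv {r s : MatRep A} (h : r.toAdic.IsEquiv s.toAdic) :
    ∃ M : (M2 A)ˣ, r = s.conj M := by
  obtain ⟨e⟩ := h
  let el : (Fin 2 → A) ≃ₗ[A] (Fin 2 → A) := e.toLinearEquiv
  let P : M2 A := LinearMap.toMatrix' (el : (Fin 2 → A) →ₗ[A] (Fin 2 → A))
  let Q : M2 A := LinearMap.toMatrix' (el.symm : (Fin 2 → A) →ₗ[A] (Fin 2 → A))
  have hPQ : P * Q = 1 := by
    rw [← LinearMap.toMatrix'_comp]
    simp
  have hQP : Q * P = 1 := by
    rw [← LinearMap.toMatrix'_comp]
    simp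
  refine ⟨⟨P, Q, hPQ, hQP⟩, ext fun σ => ?_⟩
  have hcomm : P * r σ = s σ * P := by
    have h1 : (el : (Fin 2 → A) →ₗ[A] (Fin 2 → A)) ∘ₗ Matrix.toLin' (r σ)
        = Matrix.toLin' (s σ) ∘ₗ (el : (Fin 2 → A) →ₗ[A] (Fin 2 → A)) := by
      refine LinearMap.ext fun v => ?_
      exact e.map_apply σ v
    have h2 := congrArg LinearMap.toMatrix' h1
    rw [LinearMap.toMatrix'_comp, LinearMap.toMatrix'_comp, LinearMap.toMatrix'_toLin',
      LinearMap.toMatrix'_toLin'] at h2
    exact h2
  show r σ = Q * s σ * P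
  rw [mul_assoc, ← hcomm, ← mul_assoc, hQP, one_mul]


omit [IsLocalRing A] in
theorem repr_mem_of_mem_smul_top {V : Type} [AddCommGroup V] [Module A V]
    (b : Module.Basis (Fin 2) A V) {I : Ideal A} {x : V}
    (h : x ∈ I • (⊤ : Submodule A V)) (i : Fin 2) : b.repr x i ∈ I := by
  refine Submodule.smul_induction_on h ?_ ?_
  · intro a ha w _
    simpa using I.mul_mem_right (b.repr w i) ha
  · intro x y hx hy
    simpa using I.add_mem hx hy

/-- The matrix representation of an adic representation in a given basis. -/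
def ofBasis (ρ : GaloisRepAdic A) (b : Module.Basis (Fin 2) A ρ.V) : MatRep A where
  toHom := ((LinearMap.toMatrixAlgEquiv b : Module.End A ρ.V ≃ₐ[A] M2 A) :
      Module.End A ρ.V →* M2 A).comp ρ.ρ
  cont := by
    intro n
    obtain ⟨L, hL, h⟩ := ρ.isAdicContinuous n
    refine ⟨L, hL, fun σ hσ i j => ?_⟩
    have h1 : ((((LinearMap.toMatrixAlgEquiv b : Module.End A ρ.V ≃ₐ[A] M2 A) :
        Module.End A ρ.V →* M2 A).comp ρ.ρ) σ - 1) i j = b.repr (ρ.ρ σ (b j) - b j) i := by
      have : (((LinearMap.toMatrixAlgEquiv b : Module.End A ρ.V ≃ₐ[A] M2 A) :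
        Module.End A ρ.V →* M2 A).comp ρ.ρ) σ = LinearMap.toMatrix b b (ρ.ρ σ) := rfl
      rw [this, Matrix.sub_apply, LinearMap.toMatrix_apply, map_sub, Finsupp.sub_apply,
        Matrix.one_apply, b.repr_self, Finsupp.single_apply]
      simp only [eq_comm]
    rw [h1]
    exact repr_mem_of_mem_smul_top b (h σ hσ (b j)) i

theorem ofBasis_apply (ρ : GaloisRepAdic A) (b : Module.Basis (Fin 2) A ρ.V) (σ : GQ) :
    ofBasis ρ b σ = LinearMap.toMatrix b b (ρ.ρ σ) := rfl

theorem ofBasis_equiv_aux (ρ : GaloisRepAdic A) (b : Module.Basis (Fin 2) A ρ.V) (σ : GQ)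
    (v : Fin 2 → A) :
    b.equivFun.symm ((LinearMap.toMatrix b b (ρ.ρ σ)).mulVec v) = ρ.ρ σ (b.equivFun.symm v) := by
  apply b.equivFun.injective
  rw [LinearEquiv.apply_symm_apply]
  have := LinearMap.toMatrix_mulVec_repr b b (ρ.ρ σ) (b.equivFun.symm v)
  rw [show (b.repr (b.equivFun.symm v) : Fin 2 → A) = v from b.equivFun.apply_symm_apply v] at this
  rw [this]
  rfl

/-- `ofBasis ρ b` is a matrix model of `ρ`. -/
def ofBasisEquiv (ρ : GaloisRepAdic A) (b : Module.Basis (Fin 2) A ρ.V) :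
    GaloisRepAdic.Equiv (ofBasis ρ b).toAdic ρ where
  toLinearEquiv := b.equivFun.symm
  map_apply := fun σ v => ofBasis_equiv_aux ρ b σ v

theorem isEquiv_ofBasis (ρ : GaloisRepAdic A) (b : Module.Basis (Fin 2) A ρ.V) :
    (ofBasis ρ b).toAdic.IsEquiv ρ := ⟨ofBasisEquiv ρ b⟩

/-- Every adic representation has a matrix model. -/
theorem exists_isEquiv_toAdic (ρ : GaloisRepAdic A) : ∃ r : MatRep A, r.toAdic.IsEquiv ρ :=
  ⟨ofBasis ρ (Module.finBasisOfFinrankEq A ρ.V ρ.finrank_eq), isEquiv_ofBasis _ _⟩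

section Residual

/-- A matrix representation over a field, viewed as a `ResidualGaloisRep`. -/
def toResidual {k : Type} [Field k] (r : MatRep k) : ResidualGaloisRep k :=
  r.toAdic.toResidualGaloisRep

@[simp] theorem toResidual_ρ_apply {k : Type} [Field k] (r : MatRep k) (σ : GQ) (v : Fin 2 → k) :
    r.toResidual.ρ σ v = (r σ).mulVec v := rfl

/-- The entrywise residue of a matrix representation. -/
def res (r : MatRep A) : MatRep (IsLocalRing.ResidueField A) :=
  r.map (IsLocalRing.residue A) inferInstance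

theorem res_apply_apply (r : MatRep A) (σ : GQ) (i j : Fin 2) :
    r.res σ i j = IsLocalRing.residue A (r σ i j) := rfl

/-- The residual representation of `toAdic` is the entrywise residue. -/
def residualEquiv (r : MatRep A) : ResidualGaloisRep.Equiv r.toAdic.residual r.res.toResidual where
  toLinearEquiv := TensorProduct.piScalarRight A (IsLocalRing.ResidueField A)
    (IsLocalRing.ResidueField A) (Fin 2)
  map_apply := fun σ x => piScalarRight_baseChange_toLin' (r σ) x

theorem isEquiv_residual_toAdic (r : MatRep A) : r.toAdic.residual.IsEquiv r.res.toResidual :=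
  ⟨residualEquiv r⟩

end Residual


section Fields

variable {k k' : Type} [Field k] [Field k']

/-- Base change of a residual matrix representation is the entrywise image. -/
def resBaseChangeEquiv (ψ : k →+* k') (rb : MatRep k) :
    ResidualGaloisRep.Equiv (rb.toResidual.baseChangeAlong ψ)
      (rb.map ψ inferInstance).toResidual :=
  letI : Algebra k k' := ψ.toAlgebra
  { toLinearEquiv := TensorProduct.piScalarRight k k' k' (Fin 2)
    map_apply := fun σ x => piScalarRight_baseChange_toLin' (rb σ) x }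

theorem isEquiv_resBaseChange (ψ : k →+* k') (rb : MatRep k) :
    (rb.toResidual.baseChangeAlong ψ).IsEquiv (rb.map ψ inferInstance).toResidual :=
  ⟨resBaseChangeEquiv ψ rb⟩

/-- Matrix form of a residual representation in a basis. -/
def ofResidual (ρ : ResidualGaloisRep k) (b : Module.Basis (Fin 2) k ρ.V) : MatRep k :=
  ofBasis (GaloisRepAdic.ofResidualGaloisRep ρ) b

theorem ofResidual_apply (ρ : ResidualGaloisRep k) (b : Module.Basis (Fin 2) k ρ.V) (σ : GQ) :
    ofResidual ρ b σ = LinearMap.toMatrix b b (ρ.ρ σ) := rfl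

theorem ofResidual_equiv_aux (ρ : ResidualGaloisRep k) (b : Module.Basis (Fin 2) k ρ.V) (σ : GQ)
    (v : Fin 2 → k) :
    b.equivFun.symm ((LinearMap.toMatrix b b (ρ.ρ σ)).mulVec v) = ρ.ρ σ (b.equivFun.symm v) := by
  apply b.equivFun.injective
  rw [LinearEquiv.apply_symm_apply]
  have := LinearMap.toMatrix_mulVec_repr b b (ρ.ρ σ) (b.equivFun.symm v)
  rw [show (b.repr (b.equivFun.symm v) : Fin 2 → k) = v from b.equivFun.apply_symm_apply v] at this
  rw [this]
  rfl

def ofResidualEquiv (ρ : ResidualGaloisRep k) (b : Module.Basis (Fin 2) k ρ.V) :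
    ResidualGaloisRep.Equiv (ofResidual ρ b).toResidual ρ where
  toLinearEquiv := b.equivFun.symm
  map_apply := fun σ v => ofResidual_equiv_aux ρ b σ v

theorem isEquiv_ofResidual (ρ : ResidualGaloisRep k) (b : Module.Basis (Fin 2) k ρ.V) :
    (ofResidual ρ b).toResidual.IsEquiv ρ := ⟨ofResidualEquiv ρ b⟩

/-- Every residual representation has a matrix model. -/
theorem exists_isEquiv_toResidual (ρ : ResidualGaloisRep k) :
    ∃ rb : MatRep k, rb.toResidual.IsEquiv ρ :=
  ⟨ofResidual ρ (Module.finBasisOfFinrankEq k ρ.V ρ.finrank_eq), isEquiv_ofResidual _ _⟩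

end Fields

/-- FRAME LIFTING: an adic representation whose residual representation is equivalent to the
matrix representation `rb` has a matrix model reducing *exactly* to `rb`. -/
theorem exists_lift_of_residual_isEquiv (ρ : GaloisRepAdic A)
    (rb : MatRep (IsLocalRing.ResidueField A)) (h : ρ.residual.IsEquiv rb.toResidual) :
    ∃ r : MatRep A, r.toAdic.IsEquiv ρ ∧ r.res = rb := by
  classical
  obtain ⟨e⟩ := h
  let kA := IsLocalRing.ResidueField A
  let el : kA ⊗[A] ρ.V ≃ₗ[kA] (Fin 2 → kA) := e.toLinearEquiv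
  -- lift the standard basis
  have hsurj : Function.Surjective (TensorProduct.mk A kA ρ.V 1) :=
    TensorProduct.mk_surjective A ρ.V kA IsLocalRing.residue_surjective
  choose v hv' using fun i : Fin 2 => hsurj (el.symm (Pi.single i 1))
  have hv : ∀ i, (1 : kA) ⊗ₜ[A] v i = el.symm (Pi.single i 1) := hv'
  let bk : Module.Basis (Fin 2) kA (kA ⊗[A] ρ.V) := (Pi.basisFun kA (Fin 2)).map el.symm
  have hbk : ∀ i, (1 : kA) ⊗ₜ[A] v i = bk i := by
    intro i
    rw [Module.Basis.map_apply, Pi.basisFun_apply]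
    exact hv i
  have hli : LinearIndependent A v := by
    apply Module.IsLocalRing.linearIndependent_of_flat
    have : (TensorProduct.mk A kA ρ.V 1 ∘ v) = bk := funext fun i => hbk i
    rw [this]
    exact bk.linearIndependent
  have hsp : ⊤ ≤ Submodule.span A (Set.range v) :=
    (IsLocalRing.span_eq_top_of_tmul_eq_basis v bk hbk).ge
  let b : Module.Basis (Fin 2) A ρ.V := Module.Basis.mk hli hsp
  have hb : ∀ i, b i = v i := fun i => Module.Basis.mk_apply hli hsp i
  refine ⟨ofBasis ρ b, isEquiv_ofBasis ρ b, ?_⟩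
  refine ext fun σ => Matrix.ext fun i j => ?_
  rw [res_apply_apply, ofBasis_apply, LinearMap.toMatrix_apply]
  -- use equivariance of `e` at `1 ⊗ b j`
  have h1 := e.map_apply σ ((1 : kA) ⊗ₜ[A] b j)
  have h2 : el ((1 : kA) ⊗ₜ[A] b j) = Pi.single j 1 := by
    rw [hb, hv j, LinearEquiv.apply_symm_apply]
  have h3 : ρ.residual.ρ σ ((1 : kA) ⊗ₜ[A] b j) = (1 : kA) ⊗ₜ[A] (ρ.ρ σ (b j)) :=
    LinearMap.baseChange_tmul _ _ _
  have h4 : (1 : kA) ⊗ₜ[A] (ρ.ρ σ (b j))
      = ∑ l, IsLocalRing.residue A (b.repr (ρ.ρ σ (b j)) l) • ((1 : kA) ⊗ₜ[A] b l) := by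
    conv_lhs => rw [← b.sum_repr (ρ.ρ σ (b j))]
    rw [TensorProduct.tmul_sum]
    refine Finset.sum_congr rfl fun l _ => ?_
    rw [TensorProduct.tmul_smul, TensorProduct.smul_tmul', Algebra.smul_def, mul_one,
      TensorProduct.smul_tmul', IsLocalRing.ResidueField.algebraMap_eq, smul_eq_mul, mul_one]
  have h5 : ∀ l, el ((1 : kA) ⊗ₜ[A] b l) = Pi.single l 1 := by
    intro l
    rw [hb, hv l, LinearEquiv.apply_symm_apply]
  have h6 : el (ρ.residual.ρ σ ((1 : kA) ⊗ₜ[A] b j)) i
      = IsLocalRing.residue A (b.repr (ρ.ρ σ (b j)) i) := by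
    rw [h3, h4, map_sum]
    simp only [map_smul, h5, Finset.sum_apply, Pi.smul_apply, Pi.single_apply, smul_eq_mul,
      mul_ite, mul_one, mul_zero, Finset.sum_ite_eq, Finset.mem_univ, if_true]
  rw [← h6]
  have h7 : el (ρ.residual.ρ σ ((1 : kA) ⊗ₜ[A] b j)) = (rb σ).mulVec (Pi.single j 1) := by
    rw [← h2]
    exact h1
  rw [h7, Matrix.mulVec_single_one]
  rfl

end MatRep

end Fermat.Agent.S53
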