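import Fermat.Agent.S53.TestAlg
import Fermat.Agent.S53.MatModel
import Fermat.Prelude.Def_GaloisRep_DeformationRingData

set_option autoImplicit false

/-!
# S53: shared definitions for the rigidified (normalised) matrix lifts

* `RigidDatum 𝒪`: a matrix form `rb` of the residual representation together with three
  positions `(s j, a j, b j)` and lifts `c j` of the corresponding entries, such that a matrix
  whose commutators with the `rb (s j)` vanish at the positions is a scalar.
* `MatRep.IsLiftOf`, `MatRep.IsNormalised`.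
* `EntryRing 𝒪`, `MatRep.ev`, `admissible`.
-/

noncomputable section

namespace Fermat.Agent.S53

open IsLocalRing

/-- Rigidification datum. -/
structure RigidDatum (𝒪 : Type) [CommRing 𝒪] [IsLocalRing 𝒪] where
  /-- matrix form of the residual representation -/
  rb : GQ →* M2 (ResidueField 𝒪)
  /-- the three group elements -/
  s : Fin 3 → GQ
  /-- row positions -/
  a : Fin 3 → Fin 2
  /-- column positions -/
  b : Fin 3 → Fin 2
  /-- lifts to `𝒪` of the three distinguished entries -/
  c : Fin 3 → 𝒪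
  hc : ∀ j, residue 𝒪 (c j) = rb (s j) (a j) (b j)
  hker : ∀ X : M2 (ResidueField 𝒪),
    (∀ j, (X * rb (s j) - rb (s j) * X) (a j) (b j) = 0) → ∃ z : ResidueField 𝒪, X = z • 1
  level : ∃ L : IntermediateField ℚ (AlgebraicClosure ℚ), FiniteDimensional ℚ L ∧
    ∀ σ : GQ, (∀ x ∈ L, σ x = x) → rb σ = 1

variable {𝒪 : Type} [CommRing 𝒪] [IsLocalRing 𝒪]

section Lift

variable {A : Type} [CommRing A] [IsLocalRing A] [Algebra 𝒪 A] [IsLocalHom (algebraMap 𝒪 A)]

/-- `r` lifts the residual matrix representation `rb` (entrywise, via `k → ResidueField A`). -/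
def MatRep.IsLiftOf (r : MatRep A) (rb : GQ →* M2 (ResidueField 𝒪)) : Prop :=
  ∀ σ i j, residue A (r σ i j) = ResidueField.map (algebraMap 𝒪 A) (rb σ i j)

/-- `r` is normalised with respect to the rigidification datum `D`. -/
def MatRep.IsNormalised (r : MatRep A) (D : RigidDatum 𝒪) : Prop :=
  ∀ j, r (D.s j) (D.a j) (D.b j) = algebraMap 𝒪 A (D.c j)

end Lift

/-- The polynomial ring on the matrix entries `x_{σ,i,j}`. -/
abbrev EntryRing (𝒪 : Type) [CommRing 𝒪] : Type := MvPolynomial (GQ × Fin 2 × Fin 2) 𝒪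

/-- Evaluation of the entry variables at the entries of a matrix representation. -/
def MatRep.ev {A : Type} [CommRing A] [IsLocalRing A] [Algebra 𝒪 A] (r : MatRep A) :
    EntryRing 𝒪 →ₐ[𝒪] A :=
  MvPolynomial.aeval (fun x : GQ × Fin 2 × Fin 2 => r x.1 x.2.1 x.2.2)

@[simp] theorem MatRep.ev_X {A : Type} [CommRing A] [IsLocalRing A] [Algebra 𝒪 A] (r : MatRep A)
    (σ : GQ) (i j : Fin 2) :
    r.ev (𝒪 := 𝒪) (MvPolynomial.X (σ, i, j)) = r σ i j := by
  simp [MatRep.ev]

/-- The admissible ideals of the entry ring: kernels of evaluation at normalised lifts of type `𝒟`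
over Artinian test algebras. -/
def admissible (D : RigidDatum 𝒪)
    (𝒟 : ∀ ⦃A : Type⦄ [CommRing A] [IsLocalRing A] [Algebra 𝒪 A], GaloisRepAdic A → Prop) :
    Set (Ideal (EntryRing 𝒪)) :=
  {I | ∃ (A : TestAlg 𝒪) (r : MatRep A), r.IsLiftOf D.rb ∧ r.IsNormalised D ∧ 𝒟 r.toAdic ∧
    RingHom.ker (r.ev (𝒪 := 𝒪)) = I}

end Fermat.Agent.S53
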