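/-
S53, piece (B), applied part: frame lifting in terms of `MatRep.IsLiftOf` (file `Nrm.lean`),
matrix forms of residual representations, and the converse (residual of a lift).
-/
import Fermat.Agent.S53.Nrm
import Fermat.Agent.S53.BaseChange

set_option autoImplicit false

open scoped TensorProduct

noncomputable section

namespace Fermat.Agent.S53

open IsLocalRing

section MatrixForm

variable {k : Type} [Field k]

/-- `rb` is a matrix form of the residual representation `ρbar`: the matrices of `ρbar.ρ σ`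
in some basis of `ρbar.V`. -/
def IsMatrixFormOf (rb : GQ →* M2 k) (ρbar : ResidualGaloisRep k) : Prop :=
  ∃ b : Module.Basis (Fin 2) k ρbar.V, ∀ σ, rb σ = LinearMap.toMatrix b b (ρbar.ρ σ)

/-- Every residual representation has a matrix form. -/
theorem exists_isMatrixFormOf (ρbar : ResidualGaloisRep k) :
    ∃ rb : GQ →* M2 k, IsMatrixFormOf rb ρbar :=
  ⟨(MatRep.ofResidual ρbar (Module.finBasisOfFinrankEq k ρbar.V ρbar.finrank_eq)).toHom,
    Module.finBasisOfFinrankEq k ρbar.V ρbar.finrank_eq, fun _ => rfl⟩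

/-- The matrix form in a given basis. -/
theorem isMatrixFormOf_ofResidual (ρbar : ResidualGaloisRep k)
    (b : Module.Basis (Fin 2) k ρbar.V) : IsMatrixFormOf (MatRep.ofResidual ρbar b).toHom ρbar :=
  ⟨b, fun _ => rfl⟩

/-- A matrix form factors through a finite level. -/
theorem IsMatrixFormOf.level {rb : GQ →* M2 k} {ρbar : ResidualGaloisRep k}
    (h : IsMatrixFormOf rb ρbar) :
    ∃ L : IntermediateField ℚ (AlgebraicClosure ℚ), FiniteDimensional ℚ L ∧
      ∀ σ : GQ, (∀ x ∈ L, σ x = x) → rb σ = 1 := by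
  obtain ⟨b, hb⟩ := h
  obtain ⟨L, hL, h1⟩ := ρbar.factorsThroughFiniteLevel
  refine ⟨L, hL, fun σ hσ => ?_⟩
  rw [hb σ, h1 σ hσ]
  exact LinearMap.toMatrix_one b

/-- A monoid hom `GQ →* M2 k` which is trivial on an open subgroup is a matrix representation. -/
def matRepOfLevel (rb : GQ →* M2 k)
    (hlevel : ∃ L : IntermediateField ℚ (AlgebraicClosure ℚ), FiniteDimensional ℚ L ∧
      ∀ σ : GQ, (∀ x ∈ L, σ x = x) → rb σ = 1) : MatRep k where
  toHom := rb
  cont := by
    intro n
    obtain ⟨L, hL, h⟩ := hlevel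
    refine ⟨L, hL, fun σ hσ i j => ?_⟩
    rw [h σ hσ, sub_self]
    exact Ideal.zero_mem _

@[simp] theorem matRepOfLevel_apply (rb : GQ →* M2 k)
    (hlevel : ∃ L : IntermediateField ℚ (AlgebraicClosure ℚ), FiniteDimensional ℚ L ∧
      ∀ σ : GQ, (∀ x ∈ L, σ x = x) → rb σ = 1) (σ : GQ) :
    matRepOfLevel rb hlevel σ = rb σ := rfl

/-- The matrix representation attached to a matrix form is equivalent to `ρbar`. -/
theorem IsMatrixFormOf.isEquiv_toResidual {rb : GQ →* M2 k} {ρbar : ResidualGaloisRep k}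
    (h : IsMatrixFormOf rb ρbar) : (matRepOfLevel rb h.level).toResidual.IsEquiv ρbar := by
  obtain ⟨b, hb⟩ := h
  have : matRepOfLevel rb (IsMatrixFormOf.level ⟨b, hb⟩) = MatRep.ofResidual ρbar b :=
    MatRep.ext fun σ => hb σ
  rw [this]
  exact MatRep.isEquiv_ofResidual ρbar b

/-- An equivalence `(matRepOfLevel rb _).toResidual ≃ ρbar` exhibits `rb` as a matrix form. -/
theorem isMatrixFormOf_of_isEquiv {rb : GQ →* M2 k} {ρbar : ResidualGaloisRep k}
    (hlevel : ∃ L : IntermediateField ℚ (AlgebraicClosure ℚ), FiniteDimensional ℚ L ∧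
      ∀ σ : GQ, (∀ x ∈ L, σ x = x) → rb σ = 1)
    (h : (matRepOfLevel rb hlevel).toResidual.IsEquiv ρbar) : IsMatrixFormOf rb ρbar := by
  obtain ⟨e⟩ := h
  let el : (Fin 2 → k) ≃ₗ[k] ρbar.V := e.toLinearEquiv
  refine ⟨(Pi.basisFun k (Fin 2)).map el, fun σ => ?_⟩
  ext i j
  rw [LinearMap.toMatrix_apply, Module.Basis.map_apply, Pi.basisFun_apply, Module.Basis.map_repr,
    LinearEquiv.trans_apply, Pi.basisFun_repr]
  have h1 : ρbar.ρ σ (el (Pi.single j 1)) = el ((rb σ).mulVec (Pi.single j 1)) :=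
    (e.map_apply σ (Pi.single j 1)).symm
  rw [h1, LinearEquiv.symm_apply_apply, Matrix.mulVec_single_one]
  rfl

end MatrixForm

section Lift

variable {𝒪 : Type} [CommRing 𝒪] [IsLocalRing 𝒪]
variable {A : Type} [CommRing A] [IsLocalRing A] [Algebra 𝒪 A] [IsLocalHom (algebraMap 𝒪 A)]

/-- `IsLiftOf` says that the entrywise residue is the image of `rb` under `k → ResidueField A`. -/
theorem MatRep.isLiftOf_iff_res_eq (r : MatRep A) (rb : GQ →* M2 (ResidueField 𝒪))
    (hlevel : ∃ L : IntermediateField ℚ (AlgebraicClosure ℚ), FiniteDimensional ℚ L ∧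
      ∀ σ : GQ, (∀ x ∈ L, σ x = x) → rb σ = 1) :
    r.IsLiftOf rb ↔
      r.res = (matRepOfLevel rb hlevel).map (ResidueField.map (algebraMap 𝒪 A)) inferInstance := by
  rw [MatRep.ext_entries]
  exact Iff.rfl

/-- FRAME LIFTING (applied form, hypothesis as an equivalence): a `GaloisRepAdic A` whose residual
representation is equivalent to the base change of `ρbar` has a matrix model lifting `rb`, where
`rb` (trivial on an open subgroup) is equivalent to `ρbar` as a residual representation. -/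
theorem exists_isLiftOf_of_residual_isEquiv' {rb : GQ →* M2 (ResidueField 𝒪)}
    (hlevel : ∃ L : IntermediateField ℚ (AlgebraicClosure ℚ), FiniteDimensional ℚ L ∧
      ∀ σ : GQ, (∀ x ∈ L, σ x = x) → rb σ = 1)
    {ρbar : ResidualGaloisRep (ResidueField 𝒪)}
    (hrb : (matRepOfLevel rb hlevel).toResidual.IsEquiv ρbar)
    (ρ : GaloisRepAdic A)
    (h : ρ.residual.IsEquiv (ρbar.baseChangeAlong (ResidueField.map (algebraMap 𝒪 A)))) :
    ∃ r : MatRep A, r.IsLiftOf rb ∧ r.toAdic.IsEquiv ρ := by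
  set ψ : ResidueField 𝒪 →+* ResidueField A := ResidueField.map (algebraMap 𝒪 A) with hψ
  set rbRep : MatRep (ResidueField 𝒪) := matRepOfLevel rb hlevel with hrbRep
  have h1 : (ρbar.baseChangeAlong ψ).IsEquiv (rbRep.toResidual.baseChangeAlong ψ) :=
    res_isEquiv_baseChangeAlong ψ (res_isEquiv_symm hrb)
  have h2 : (rbRep.toResidual.baseChangeAlong ψ).IsEquiv (rbRep.map ψ inferInstance).toResidual :=
    MatRep.isEquiv_resBaseChange ψ rbRep
  obtain ⟨r, hr, hres⟩ := MatRep.exists_lift_of_residual_isEquiv ρ (rbRep.map ψ inferInstance)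
    (res_isEquiv_trans h (res_isEquiv_trans h1 h2))
  exact ⟨r, (MatRep.isLiftOf_iff_res_eq r rb hlevel).mpr hres, hr⟩

/-- FRAME LIFTING (applied form): a `GaloisRepAdic A` whose residual representation is equivalent
to the base change of `ρbar` has a matrix model lifting a given matrix form `rb` of `ρbar`. -/
theorem exists_isLiftOf_of_residual_isEquiv {rb : GQ →* M2 (ResidueField 𝒪)}
    {ρbar : ResidualGaloisRep (ResidueField 𝒪)} (hrb : IsMatrixFormOf rb ρbar)
    (ρ : GaloisRepAdic A)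
    (h : ρ.residual.IsEquiv (ρbar.baseChangeAlong (ResidueField.map (algebraMap 𝒪 A)))) :
    ∃ r : MatRep A, r.IsLiftOf rb ∧ r.toAdic.IsEquiv ρ :=
  exists_isLiftOf_of_residual_isEquiv' hrb.level hrb.isEquiv_toResidual ρ h

/-- Conversely (hypothesis as an equivalence), the residual representation of a lift of `rb` is
the base change of `ρbar`. -/
theorem MatRep.IsLiftOf.residual_isEquiv' {rb : GQ →* M2 (ResidueField 𝒪)}
    (hlevel : ∃ L : IntermediateField ℚ (AlgebraicClosure ℚ), FiniteDimensional ℚ L ∧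
      ∀ σ : GQ, (∀ x ∈ L, σ x = x) → rb σ = 1)
    {ρbar : ResidualGaloisRep (ResidueField 𝒪)}
    (hrb : (matRepOfLevel rb hlevel).toResidual.IsEquiv ρbar)
    {r : MatRep A} (hr : r.IsLiftOf rb) :
    r.toAdic.residual.IsEquiv (ρbar.baseChangeAlong (ResidueField.map (algebraMap 𝒪 A))) := by
  set ψ : ResidueField 𝒪 →+* ResidueField A := ResidueField.map (algebraMap 𝒪 A) with hψ
  set rbRep : MatRep (ResidueField 𝒪) := matRepOfLevel rb hlevel with hrbRep
  have h0 : r.toAdic.residual.IsEquiv r.res.toResidual := MatRep.isEquiv_residual_toAdic r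
  rw [(MatRep.isLiftOf_iff_res_eq r rb hlevel).mp hr] at h0
  have h1 : (rbRep.toResidual.baseChangeAlong ψ).IsEquiv (ρbar.baseChangeAlong ψ) :=
    res_isEquiv_baseChangeAlong ψ hrb
  have h2 : (rbRep.map ψ inferInstance).toResidual.IsEquiv (rbRep.toResidual.baseChangeAlong ψ) :=
    res_isEquiv_symm (MatRep.isEquiv_resBaseChange ψ rbRep)
  exact res_isEquiv_trans h0 (res_isEquiv_trans h2 h1)

/-- Conversely, the residual representation of a lift of a matrix form of `ρbar` is the base
change of `ρbar`. -/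
theorem MatRep.IsLiftOf.residual_isEquiv {rb : GQ →* M2 (ResidueField 𝒪)}
    {ρbar : ResidualGaloisRep (ResidueField 𝒪)} (hrb : IsMatrixFormOf rb ρbar)
    {r : MatRep A} (hr : r.IsLiftOf rb) :
    r.toAdic.residual.IsEquiv (ρbar.baseChangeAlong (ResidueField.map (algebraMap 𝒪 A))) :=
  MatRep.IsLiftOf.residual_isEquiv' hrb.level hrb.isEquiv_toResidual hr

/-- The residual representation of a lift of `rb`, with `ρbar := rb` itself. -/
theorem MatRep.IsLiftOf.residual_isEquiv_self {rb : GQ →* M2 (ResidueField 𝒪)}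
    (hlevel : ∃ L : IntermediateField ℚ (AlgebraicClosure ℚ), FiniteDimensional ℚ L ∧
      ∀ σ : GQ, (∀ x ∈ L, σ x = x) → rb σ = 1)
    {r : MatRep A} (hr : r.IsLiftOf rb) :
    r.toAdic.residual.IsEquiv ((matRepOfLevel rb hlevel).toResidual.baseChangeAlong
      (ResidueField.map (algebraMap 𝒪 A))) :=
  MatRep.IsLiftOf.residual_isEquiv' hlevel (res_isEquiv_refl _) hr

/-- Lifts are stable under push-forward along local `𝒪`-algebra homs. -/
theorem MatRep.IsLiftOf.map {B : Type} [CommRing B] [IsLocalRing B] [Algebra 𝒪 B]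
    [IsLocalHom (algebraMap 𝒪 B)] {rb : GQ →* M2 (ResidueField 𝒪)} {r : MatRep A}
    (hr : r.IsLiftOf rb) (φ : A →ₐ[𝒪] B) (hφ : IsLocalHom (φ : A →+* B)) :
    (r.map (φ : A →+* B) hφ).IsLiftOf rb := by
  intro σ i j
  haveI := hφ
  have h1 : residue B ((r.map (φ : A →+* B) hφ) σ i j)
      = ResidueField.map (φ : A →+* B) (residue A (r σ i j)) := by
    rw [MatRep.map_apply_apply]
    rfl
  rw [h1, hr σ i j]
  have h2 : (ResidueField.map (φ : A →+* B)).comp (ResidueField.map (algebraMap 𝒪 A))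
      = ResidueField.map (algebraMap 𝒪 B) := by
    rw [← ResidueField.map_comp]
    congr 1
    exact φ.comp_algebraMap
  exact congrFun (congrArg DFunLike.coe h2) _

/-- Normalisation is stable under push-forward along `𝒪`-algebra homs. -/
theorem MatRep.IsNormalised.map {B : Type} [CommRing B] [IsLocalRing B] [Algebra 𝒪 B]
    [IsLocalHom (algebraMap 𝒪 B)] {D : RigidDatum 𝒪} {r : MatRep A}
    (hr : r.IsNormalised D) (φ : A →ₐ[𝒪] B) (hφ : IsLocalHom (φ : A →+* B)) :
    (r.map (φ : A →+* B) hφ).IsNormalised D := by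
  intro j
  rw [MatRep.map_apply_apply, hr j]
  exact φ.commutes _

end Lift

section Conj

variable {A : Type} [CommRing A] [IsLocalRing A]

/-- Two matrix representations give equivalent `GaloisRepAdic`s iff they are conjugate. -/
theorem MatRep.isEquiv_toAdic_iff {r r' : MatRep A} :
    r.toAdic.IsEquiv r'.toAdic ↔ ∃ g : (M2 A)ˣ, r' = r.conj g := by
  constructor
  · intro h
    obtain ⟨M, hM⟩ := MatRep.exists_conj_of_isEquiv h
    refine ⟨M⁻¹, ?_⟩
    rw [hM, MatRep.conj_conj, mul_inv_cancel, MatRep.conj_one]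
  · rintro ⟨g, rfl⟩
    exact isEquiv_symm (MatRep.isEquiv_conj g r)

end Conj

end Fermat.Agent.S53
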