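import Mathlib

/-!
# S53, piece POS: choice of rigidification positions

From "the centralizer of a family of matrices consists of scalars" we extract `card n ^ 2 - 1`
positions `(s j, a j, b j)` such that a matrix `X` whose commutators `[X, M (s j)]` vanish at the
entries `(a j, b j)` is already a scalar.  This is the hypothesis `hker` of the rigidification lemma.
-/

set_option autoImplicit false

namespace Fermat.Agent.S53

open Module

/-- The linear functional `X ↦ (X * B - B * X) a b` on matrices. -/
noncomputable def commEntry {k n : Type*} [Field k] [Fintype n] [DecidableEq n]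
    (B : Matrix n n k) (a b : n) : Module.Dual k (Matrix n n k) :=
  (Matrix.entryLinearMap k k a b) ∘ₗ (LinearMap.mulRight k B - LinearMap.mulLeft k B)

@[simp] theorem commEntry_apply {k n : Type*} [Field k] [Fintype n] [DecidableEq n]
    (B : Matrix n n k) (a b : n) (X : Matrix n n k) :
    commEntry B a b X = (X * B - B * X) a b := rfl

/-- If the image of `M` spans the matrix algebra then its centralizer consists of scalars. -/
theorem centralizer_of_span {k G n : Type*} [Field k] [Fintype n] [DecidableEq n]
    (M : G → Matrix n n k) (hspan : Submodule.span k (Set.range M) = ⊤) :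
    ∀ X : Matrix n n k, (∀ g, X * M g = M g * X) → ∃ z : k, X = z • (1 : Matrix n n k) := by
  intro X hX
  have hall : ∀ Y : Matrix n n k, Commute Y X := by
    intro Y
    have hY : Y ∈ Submodule.span k (Set.range M) := by rw [hspan]; trivial
    induction hY using Submodule.span_induction with
    | mem x hx =>
      obtain ⟨g, rfl⟩ := hx
      exact (hX g).symm
    | zero => exact Commute.zero_left X
    | add x y _ _ hx hy => exact hx.add_left hy
    | smul c x _ hx => exact hx.smul_left c
  have : X ∈ Set.range (Matrix.scalar n) := by
    rw [Matrix.mem_range_scalar_iff_commute_single']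
    intro i j
    exact hall _
  obtain ⟨z, hz⟩ := this
  refine ⟨z, ?_⟩
  rw [← hz]
  ext i j
  simp [Matrix.scalar_apply, Matrix.diagonal_apply, Matrix.one_apply]

/-- **Positions.**  If the centralizer of the family `M` consists of scalars, there are
`card n ^ 2 - 1` triples (group element, row, column) that already detect scalar matrices. -/
theorem exists_positions {k G n : Type*} [Field k] [Fintype n] [DecidableEq n] [Nonempty n]
    (M : G → Matrix n n k)
    (hcent : ∀ X : Matrix n n k, (∀ g, X * M g = M g * X) → ∃ z : k, X = z • (1 : Matrix n n k)) :
    ∃ (s : Fin (Fintype.card n ^ 2 - 1) → G) (a b : Fin (Fintype.card n ^ 2 - 1) → n),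
      ∀ X : Matrix n n k, (∀ j, (X * M (s j) - M (s j) * X) (a j) (b j) = 0) →
        ∃ z : k, X = z • (1 : Matrix n n k) := by
  classical
  let φ : G × n × n → Module.Dual k (Matrix n n k) := fun t => commEntry (M t.1) t.2.1 t.2.2
  set W : Submodule k (Module.Dual k (Matrix n n k)) := Submodule.span k (Set.range φ) with hW
  -- the common kernel of all the functionals is the line of scalar matrices
  have hco : W.dualCoannihilator = Submodule.span k {(1 : Matrix n n k)} := by
    ext X
    rw [Submodule.mem_dualCoannihilator, Submodule.mem_span_singleton]
    constructor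
    · intro h
      have hX : ∀ g, X * M g = M g * X := by
        intro g
        ext a b
        have := h (φ (g, a, b)) (Submodule.subset_span ⟨(g, a, b), rfl⟩)
        simp only [φ, commEntry_apply, Matrix.sub_apply] at this
        exact sub_eq_zero.mp this
      obtain ⟨z, hz⟩ := hcent X hX
      exact ⟨z, hz.symm⟩
    · rintro ⟨z, rfl⟩ ψ hψ
      induction hψ using Submodule.span_induction with
      | mem x hx =>
        obtain ⟨t, rfl⟩ := hx
        simp [φ, commEntry_apply]
      | zero => rw [LinearMap.zero_apply]
      | add x y _ _ hx hy => rw [LinearMap.add_apply, hx, hy, add_zero]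
      | smul c x _ hx => rw [LinearMap.smul_apply, hx, smul_zero]
  have hone : (1 : Matrix n n k) ≠ 0 := one_ne_zero
  have hfin : finrank k W = Fintype.card n ^ 2 - 1 := by
    have h1 := Subspace.finrank_add_finrank_dualCoannihilator_eq W
    rw [hco, finrank_span_singleton hone, Module.finrank_matrix, Module.finrank_self, mul_one] at h1
    rw [pow_two]
    omega
  obtain ⟨f, hfmem, hfspan, -⟩ := Submodule.exists_fun_fin_finrank_span_eq k (Set.range φ)
  choose t ht using hfmem
  refine ⟨fun j => (t (Fin.cast hfin.symm j)).1, fun j => (t (Fin.cast hfin.symm j)).2.1,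
    fun j => (t (Fin.cast hfin.symm j)).2.2, fun X hX => ?_⟩
  have hXW : X ∈ W.dualCoannihilator := by
    rw [Submodule.mem_dualCoannihilator]
    intro ψ hψ
    rw [hW, ← hfspan] at hψ
    induction hψ using Submodule.span_induction with
    | mem x hx =>
      obtain ⟨i, rfl⟩ := hx
      rw [← ht i]
      have := hX (Fin.cast hfin i)
      simpa [φ, commEntry_apply] using this
    | zero => rw [LinearMap.zero_apply]
    | add x y _ _ hx hy => rw [LinearMap.add_apply, hx, hy, add_zero]
    | smul c x _ hx => rw [LinearMap.smul_apply, hx, smul_zero]
  rw [hco, Submodule.mem_span_singleton] at hXW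
  obtain ⟨z, hz⟩ := hXW
  exact ⟨z, hz.symm⟩

end Fermat.Agent.S53
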