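/-
S53, piece RIGID: a slice lemma for simultaneous conjugation of tuples of matrices over a
complete local ring.  Pure matrix algebra; imports Mathlib only.
-/
import Mathlib

set_option autoImplicit false
set_option linter.unusedSectionVars false

namespace Fermat.Agent.S53.Rigid

open IsLocalRing Matrix

section EntriesIn

variable {A : Type*} [CommRing A]
variable {n : Type*} [Fintype n] [DecidableEq n]

/-- All entries of the matrix lie in the ideal `I`. -/
def EntriesIn (I : Ideal A) (Y : Matrix n n A) : Prop := ∀ i j, Y i j ∈ I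

theorem EntriesIn.zero (I : Ideal A) : EntriesIn I (0 : Matrix n n A) := fun _ _ => I.zero_mem

theorem EntriesIn.add {I : Ideal A} {Y Z : Matrix n n A} (hY : EntriesIn I Y) (hZ : EntriesIn I Z) :
    EntriesIn I (Y + Z) := fun i j => I.add_mem (hY i j) (hZ i j)

theorem EntriesIn.neg {I : Ideal A} {Y : Matrix n n A} (hY : EntriesIn I Y) :
    EntriesIn I (-Y) := fun i j => I.neg_mem (hY i j)

theorem EntriesIn.sub {I : Ideal A} {Y Z : Matrix n n A} (hY : EntriesIn I Y) (hZ : EntriesIn I Z) :
    EntriesIn I (Y - Z) := fun i j => I.sub_mem (hY i j) (hZ i j)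

theorem EntriesIn.mono {I I' : Ideal A} (h : I ≤ I') {Y : Matrix n n A} (hY : EntriesIn I Y) :
    EntriesIn I' Y := fun i j => h (hY i j)

theorem EntriesIn.smul {I : Ideal A} (c : A) {Y : Matrix n n A} (hY : EntriesIn I Y) :
    EntriesIn I (c • Y) := fun i j => by
  rw [Matrix.smul_apply, smul_eq_mul]; exact I.mul_mem_left c (hY i j)

theorem EntriesIn.smul_of_mem {I : Ideal A} {c : A} (hc : c ∈ I) (Y : Matrix n n A) :
    EntriesIn I (c • Y) := fun i j => by
  rw [Matrix.smul_apply, smul_eq_mul]; exact I.mul_mem_right _ hc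

theorem EntriesIn.sum {I : Ideal A} {ι : Type*} (s : Finset ι) (f : ι → Matrix n n A)
    (h : ∀ i ∈ s, EntriesIn I (f i)) : EntriesIn I (∑ i ∈ s, f i) := fun a b => by
  rw [Matrix.sum_apply]; exact I.sum_mem fun i hi => h i hi a b

theorem EntriesIn.mul_left {I : Ideal A} (Z : Matrix n n A) {Y : Matrix n n A}
    (hY : EntriesIn I Y) : EntriesIn I (Z * Y) := fun i j => by
  rw [Matrix.mul_apply]; exact I.sum_mem fun l _ => I.mul_mem_left _ (hY l j)

theorem EntriesIn.mul_right {I : Ideal A} {Y : Matrix n n A} (hY : EntriesIn I Y)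
    (Z : Matrix n n A) : EntriesIn I (Y * Z) := fun i j => by
  rw [Matrix.mul_apply]; exact I.sum_mem fun l _ => I.mul_mem_right _ (hY i l)

theorem EntriesIn.mul {I I' : Ideal A} {Y Z : Matrix n n A} (hY : EntriesIn I Y)
    (hZ : EntriesIn I' Z) : EntriesIn (I * I') (Y * Z) := fun i j => by
  rw [Matrix.mul_apply]; exact (I * I').sum_mem fun l _ => Ideal.mul_mem_mul (hY i l) (hZ l j)

theorem entriesIn_iff_map_eq_zero (I : Ideal A) (Y : Matrix n n A) :
    EntriesIn I Y ↔ (Ideal.Quotient.mk I).mapMatrix Y = 0 := by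
  constructor
  · intro h
    ext i j
    simpa [Ideal.Quotient.eq_zero_iff_mem] using h i j
  · intro h i j
    have := congrFun (congrFun h i) j
    simpa [Ideal.Quotient.eq_zero_iff_mem] using this

end EntriesIn

section Local

variable {A : Type*} [CommRing A] [IsLocalRing A]
variable {n : Type*} [Fintype n] [DecidableEq n]

theorem entriesIn_maximalIdeal_iff (Y : Matrix n n A) :
    EntriesIn (maximalIdeal A) Y ↔ (residue A).mapMatrix Y = 0 := by
  constructor
  · intro h
    ext i j
    simpa [residue_eq_zero_iff] using h i j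
  · intro h i j
    have := congrFun (congrFun h i) j
    simpa [residue_eq_zero_iff] using this

/-- A matrix over a local ring whose reduction is invertible is invertible. -/
theorem isUnit_of_isUnit_map_residue (g : Matrix n n A)
    (h : IsUnit ((residue A).mapMatrix g)) : IsUnit g := by
  rw [Matrix.isUnit_iff_isUnit_det] at h ⊢
  rw [← RingHom.map_det] at h
  by_contra hg
  have : g.det ∈ maximalIdeal A := (mem_maximalIdeal _).mpr hg
  rw [← residue_eq_zero_iff] at this
  rw [this] at h
  exact not_isUnit_zero h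

theorem isUnit_one_add_of_entriesIn (Y : Matrix n n A) (hY : EntriesIn (maximalIdeal A) Y) :
    IsUnit (1 + Y) := by
  apply isUnit_of_isUnit_map_residue
  rw [map_add, map_one, (entriesIn_maximalIdeal_iff Y).mp hY, add_zero]
  exact isUnit_one

end Local

section FieldLevel

variable {k : Type*} [Field k]
variable {n : Type*} [Fintype n] [DecidableEq n]
variable {J : Type*} [Fintype J] [DecidableEq J]

/-- The linear map `X ↦ ([X, r j] (a j) (b j))_j`. -/
def commEntry (a b : J → n) (r : J → Matrix n n k) : Matrix n n k →ₗ[k] (J → k) where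
  toFun X j := (X * r j - r j * X) (a j) (b j)
  map_add' X Y := by
    funext j
    simp [add_mul, mul_add]
    ring
  map_smul' z X := by
    funext j
    simp [mul_sub]

theorem commEntry_surjective (a b : J → n) (r : J → Matrix n n k)
    (hcard : Fintype.card J + 1 = Fintype.card n ^ 2)
    (hker : ∀ X : Matrix n n k, (∀ j, (X * r j - r j * X) (a j) (b j) = 0) → ∃ z : k, X = z • 1) :
    Function.Surjective (commEntry a b r) := by
  rw [← LinearMap.range_eq_top]
  apply Submodule.eq_top_of_finrank_eq
  have hrn := LinearMap.finrank_range_add_finrank_ker (commEntry a b r)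
  have hker' : LinearMap.ker (commEntry a b r) ≤ Submodule.span k {(1 : Matrix n n k)} := by
    intro X hX
    rw [LinearMap.mem_ker] at hX
    obtain ⟨z, rfl⟩ := hker X (fun j => congrFun hX j)
    exact Submodule.smul_mem _ _ (Submodule.subset_span rfl)
  have h1 : Module.finrank k (LinearMap.ker (commEntry a b r)) ≤ 1 := by
    calc Module.finrank k (LinearMap.ker (commEntry a b r))
        ≤ Module.finrank k (Submodule.span k {(1 : Matrix n n k)}) :=
          Submodule.finrank_mono hker'
      _ ≤ 1 := by
          have := finrank_span_le_card (R := k) ({(1 : Matrix n n k)} : Set (Matrix n n k))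
          simpa using this
  have hdom : Module.finrank k (Matrix n n k) = Fintype.card n ^ 2 := by
    rw [Module.finrank_matrix, Module.finrank_self, mul_one, sq]
  have hcod : Module.finrank k (J → k) = Fintype.card J := by
    simp
  have hle : Module.finrank k (LinearMap.range (commEntry a b r)) ≤ Fintype.card J := by
    rw [← hcod]; exact Submodule.finrank_le _
  rw [hcod]
  omega

theorem exists_dual_family (a b : J → n) (r : J → Matrix n n k)
    (hcard : Fintype.card J + 1 = Fintype.card n ^ 2)
    (hker : ∀ X : Matrix n n k, (∀ j, (X * r j - r j * X) (a j) (b j) = 0) → ∃ z : k, X = z • 1) :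
    ∃ X : J → Matrix n n k,
      (∀ i j, (X i * r j - r j * X i) (a j) (b j) = if i = j then 1 else 0) ∧
      ∀ Z : Matrix n n k, ∃ (x : J → k) (z : k), Z = ∑ i, x i • X i + z • 1 := by
  have hs := commEntry_surjective a b r hcard hker
  choose X hX using fun i : J => hs (Pi.single i 1)
  refine ⟨X, ?_, ?_⟩
  · intro i j
    have := congrFun (hX i) j
    simp only [commEntry, LinearMap.coe_mk, AddHom.coe_mk] at this
    rw [this, Pi.single_apply]
    by_cases h : i = j
    · subst h; simp
    · simp [h, Ne.symm h]
  · intro Z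
    set x : J → k := commEntry a b r Z with hx
    have hz : commEntry a b r (Z - ∑ i, x i • X i) = 0 := by
      rw [map_sub, map_sum]
      simp only [map_smul, hX]
      funext j
      simp [Finset.sum_apply, Pi.single_apply, hx]
    obtain ⟨z, hz'⟩ := hker (Z - ∑ i, x i • X i) (fun j => by
      have := congrFun hz j
      simpa [commEntry] using this)
    exact ⟨x, z, by rw [← hz']; abel⟩

end FieldLevel

section Lifting

variable {A : Type*} [CommRing A] [IsLocalRing A]
variable {n : Type*} [Fintype n] [DecidableEq n]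

/-- A set-theoretic section of the residue map. -/
noncomputable def liftK (x : ResidueField A) : A := Function.surjInv residue_surjective x

@[simp] theorem residue_liftK (x : ResidueField A) : residue A (liftK x) = x :=
  Function.surjInv_eq residue_surjective x

/-- Entrywise lift of a matrix over the residue field. -/
noncomputable def liftMat (X : Matrix n n (ResidueField A)) : Matrix n n A := X.map liftK

@[simp] theorem map_liftMat (X : Matrix n n (ResidueField A)) :
    (residue A).mapMatrix (liftMat X) = X := by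
  ext i j
  simp [liftMat]

@[simp] theorem map_liftMat' (X : Matrix n n (ResidueField A)) :
    (liftMat X).map (residue A) = X := map_liftMat X

theorem entriesIn_mem_smul_top (Y : Matrix n n A) (hY : EntriesIn (maximalIdeal A) Y) :
    Y ∈ (maximalIdeal A) • (⊤ : Submodule A (Matrix n n A)) := by
  rw [matrix_eq_sum_single Y]
  refine Submodule.sum_mem _ fun i _ => Submodule.sum_mem _ fun j _ => ?_
  have : single i j (Y i j) = (Y i j) • single i j (1 : A) := by
    rw [Matrix.smul_single, smul_eq_mul, mul_one]
  rw [this]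
  exact Submodule.smul_mem_smul (hY i j) Submodule.mem_top

/-- If the reductions of a finite family of matrices span the matrices over the residue field,
then the family spans the matrices over `A` (Nakayama). -/
theorem span_eq_top_of_residue_span {ι : Type*} [Fintype ι] (F : ι → Matrix n n A)
    (hspan : ∀ Z : Matrix n n (ResidueField A), ∃ x : ι → ResidueField A,
      Z = ∑ o, x o • (residue A).mapMatrix (F o)) :
    Submodule.span A (Set.range F) = ⊤ := by
  rw [eq_top_iff]
  apply Submodule.le_of_le_smul_of_le_jacobson_bot (I := maximalIdeal A)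
    (Module.Finite.fg_top) (maximalIdeal_le_jacobson _)
  intro Y _
  obtain ⟨x, hx⟩ := hspan ((residue A).mapMatrix Y)
  set Y' : Matrix n n A := ∑ o, liftK (x o) • F o with hY'
  have h1 : Y' ∈ Submodule.span A (Set.range F) :=
    Submodule.sum_mem _ fun o _ => Submodule.smul_mem _ _ (Submodule.subset_span ⟨o, rfl⟩)
  have h2 : EntriesIn (maximalIdeal A) (Y - Y') := by
    rw [entriesIn_maximalIdeal_iff, map_sub, hx, hY', map_sum, sub_eq_zero]
    refine Finset.sum_congr rfl fun o _ => ?_
    ext i j
    simp
  have : Y = Y' + (Y - Y') := by abel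
  rw [this]
  exact Submodule.add_mem_sup h1 (entriesIn_mem_smul_top _ h2)

/-- Coefficients with ideal control. -/
theorem exists_coeffs_mem_ideal {ι : Type*} [Fintype ι] (F : ι → Matrix n n A)
    (hspan : ∀ Z : Matrix n n (ResidueField A), ∃ x : ι → ResidueField A,
      Z = ∑ o, x o • (residue A).mapMatrix (F o))
    (I : Ideal A) (Y : Matrix n n A) (hY : EntriesIn I Y) :
    ∃ x : ι → A, (∀ o, x o ∈ I) ∧ Y = ∑ o, x o • F o := by
  have htop := span_eq_top_of_residue_span F hspan
  have hE : ∀ i j : n, ∃ c : ι → A, ∑ o, c o • F o = single i j (1 : A) := by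
    intro i j
    have : single i j (1 : A) ∈ Submodule.span A (Set.range F) := by rw [htop]; trivial
    exact (Submodule.mem_span_range_iff_exists_fun A).mp this
  choose c hc using hE
  refine ⟨fun o => ∑ i, ∑ j, Y i j * c i j o, fun o => ?_, ?_⟩
  · exact I.sum_mem fun i _ => I.sum_mem fun j _ => I.mul_mem_right _ (hY i j)
  · conv_lhs => rw [matrix_eq_sum_single Y]
    have : ∀ i j, single i j (Y i j) = ∑ o, (Y i j * c i j o) • F o := by
      intro i j
      have h : single i j (Y i j) = (Y i j) • single i j (1 : A) := by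
        rw [Matrix.smul_single, smul_eq_mul, mul_one]
      rw [h, ← hc i j, Finset.smul_sum]
      simp [mul_smul]
    calc ∑ i, ∑ j, single i j (Y i j)
        = ∑ i, ∑ j, ∑ o, (Y i j * c i j o) • F o := by simp_rw [this]
      _ = ∑ i, ∑ o, ∑ j, (Y i j * c i j o) • F o :=
          Finset.sum_congr rfl fun i _ => Finset.sum_comm
      _ = ∑ o, ∑ i, ∑ j, (Y i j * c i j o) • F o := Finset.sum_comm
      _ = ∑ o, (∑ i, ∑ j, Y i j * c i j o) • F o := by simp_rw [Finset.sum_smul]

end Lifting

section ConjSub

variable {A : Type*} [CommRing A]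
variable {n : Type*} [Fintype n] [DecidableEq n]

/-- Lemma A: if `S' (1+Y) = (1+Y) S` with `Y` having entries in `I`, then `S' - S` has entries in
`I` and `S' - S - [Y, S]` has entries in `I * I`. -/
theorem conj_sub_entriesIn {I : Ideal A} {Y S S' : Matrix n n A} (hY : EntriesIn I Y)
    (h : S' * (1 + Y) = (1 + Y) * S) :
    EntriesIn I (S' - S) ∧ EntriesIn (I * I) (S' - S - (Y * S - S * Y)) := by
  have h1 : S' - S = Y * S - S' * Y := by
    have : S' + S' * Y = S + Y * S := by
      simpa [mul_add, add_mul] using h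
    calc S' - S = (S' + S' * Y) - S - S' * Y := by abel
      _ = (S + Y * S) - S - S' * Y := by rw [this]
      _ = Y * S - S' * Y := by abel
  have hI : EntriesIn I (S' - S) := by
    rw [h1]; exact (hY.mul_right S).sub (hY.mul_left S')
  refine ⟨hI, ?_⟩
  have h2 : S' - S - (Y * S - S * Y) = -((S' - S) * Y) := by
    rw [sub_mul]
    calc S' - S - (Y * S - S * Y) = (S' - S) - Y * S + S * Y := by abel
      _ = (Y * S - S' * Y) - Y * S + S * Y := by rw [h1]
      _ = -(S' * Y - S * Y) := by abel
  rw [h2]
  exact (hI.mul hY).neg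

end ConjSub

section Slice

variable {A : Type*} [CommRing A] [IsLocalRing A]
variable {n : Type*} [Fintype n] [DecidableEq n]
variable {J : Type*} [Fintype J] [DecidableEq J]

/-- Normalisation data: positions `(a j, b j)`, targets `c j`, residual matrices `rbar j`, subject to
a Schur-type condition. -/
structure SliceData (A : Type*) [CommRing A] [IsLocalRing A] (n : Type*) [Fintype n]
    [DecidableEq n] (J : Type*) [Fintype J] where
  a : J → n
  b : J → n
  c : J → A
  rbar : J → Matrix n n (ResidueField A)
  hc : ∀ j, residue A (c j) = rbar j (a j) (b j)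
  hcard : Fintype.card J + 1 = Fintype.card n ^ 2
  hker : ∀ X : Matrix n n (ResidueField A),
    (∀ j, (X * rbar j - rbar j * X) (a j) (b j) = 0) → ∃ z : ResidueField A, X = z • 1

namespace SliceData

variable (D : SliceData A n J)

/-- The tuple `R` reduces to `rbar`. -/
def Lifts (R : J → Matrix n n A) : Prop := ∀ j, (residue A).mapMatrix (R j) = D.rbar j

/-- The tuple `R` has the prescribed entries. -/
def Normalised (R : J → Matrix n n A) : Prop := ∀ j, R j (D.a j) (D.b j) = D.c j

end SliceData


namespace SliceData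

variable (D : SliceData A n J)

theorem exists_dual : ∃ X : J → Matrix n n (ResidueField A),
      (∀ i j, (X i * D.rbar j - D.rbar j * X i) (D.a j) (D.b j) = if i = j then 1 else 0) ∧
      ∀ Z : Matrix n n (ResidueField A), ∃ (x : J → ResidueField A) (z : ResidueField A),
        Z = ∑ i, x i • X i + z • 1 :=
  exists_dual_family D.a D.b D.rbar D.hcard D.hker

/-- The dual family over the residue field. -/
noncomputable def dual : J → Matrix n n (ResidueField A) := D.exists_dual.choose

theorem dual_spec (i j : J) :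
    (D.dual i * D.rbar j - D.rbar j * D.dual i) (D.a j) (D.b j) = if i = j then 1 else 0 :=
  D.exists_dual.choose_spec.1 i j

theorem dual_span (Z : Matrix n n (ResidueField A)) :
    ∃ (x : J → ResidueField A) (z : ResidueField A), Z = ∑ i, x i • D.dual i + z • 1 :=
  D.exists_dual.choose_spec.2 Z

/-- The lifted family, indexed by `Option J`: `none ↦ 1`, `some i ↦` a lift of `dual i`. -/
noncomputable def fam : Option J → Matrix n n A
  | none => 1
  | some i => liftMat (D.dual i)

theorem fam_span (Z : Matrix n n (ResidueField A)) : ∃ x : Option J → ResidueField A,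
    Z = ∑ o, x o • (residue A).mapMatrix (D.fam o) := by
  obtain ⟨x, z, hZ⟩ := D.dual_span Z
  refine ⟨fun o => o.elim z x, ?_⟩
  rw [Fintype.sum_option, hZ, add_comm]
  simp [fam]

/-- Decomposition with ideal control. -/
theorem exists_coeffs (I : Ideal A) (Y : Matrix n n A) (hY : EntriesIn I Y) :
    ∃ x : Option J → A, (∀ o, x o ∈ I) ∧ Y = ∑ o, x o • D.fam o :=
  exists_coeffs_mem_ideal D.fam D.fam_span I Y hY

variable {D}

theorem residue_comm_fam_some {R : J → Matrix n n A} (hR : D.Lifts R) (i j : J) :
    residue A ((D.fam (some i) * R j - R j * D.fam (some i)) (D.a j) (D.b j)) =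
      if i = j then 1 else 0 := by
  have h : residue A ((D.fam (some i) * R j - R j * D.fam (some i)) (D.a j) (D.b j)) =
      ((residue A).mapMatrix (D.fam (some i) * R j - R j * D.fam (some i))) (D.a j) (D.b j) := by
    simp
  rw [h, map_sub, map_mul, map_mul, hR j]
  simp only [fam, map_liftMat]
  exact D.dual_spec i j

/-- The commutator entry of `∑ x o • fam o` with `R j` at the `j`-th position is `x (some j)`
modulo `I * 𝔪`. -/
theorem comm_entry_sub_mem {R : J → Matrix n n A} (hR : D.Lifts R) {I : Ideal A}
    (x : Option J → A) (hx : ∀ o, x o ∈ I) (j : J) :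
    ((∑ o, x o • D.fam o) * R j - R j * (∑ o, x o • D.fam o)) (D.a j) (D.b j) - x (some j)
      ∈ I * maximalIdeal A := by
  have h1 : ((∑ o, x o • D.fam o) * R j - R j * (∑ o, x o • D.fam o)) =
      ∑ o, x o • (D.fam o * R j - R j * D.fam o) := by
    rw [Finset.sum_mul, Finset.mul_sum, ← Finset.sum_sub_distrib]
    refine Finset.sum_congr rfl fun o _ => ?_
    rw [smul_mul_assoc, mul_smul_comm, smul_sub]
  rw [h1, Fintype.sum_option]
  have h2 : D.fam none * R j - R j * D.fam none = 0 := by simp [fam]
  rw [h2, smul_zero, zero_add, Matrix.sum_apply]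
  simp only [Matrix.smul_apply, smul_eq_mul]
  have h3 : x (some j) = ∑ i, x (some i) * (if i = j then 1 else 0) := by simp
  rw [h3, ← Finset.sum_sub_distrib]
  refine Ideal.sum_mem _ fun i _ => ?_
  rw [← mul_sub]
  refine Ideal.mul_mem_mul (hx _) ?_
  rw [← residue_eq_zero_iff, map_sub, residue_comm_fam_some hR i j]
  split_ifs <;> simp

end SliceData


namespace SliceData

variable (D : SliceData A n J)

/-- The defect of normalisation of the tuple `S`. -/
def err (S : J → Matrix n n A) (j : J) : A := S j (D.a j) (D.b j) - D.c j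

/-- The Newton correction attached to the tuple `S`. -/
noncomputable def corr (S : J → Matrix n n A) : Matrix n n A :=
  -∑ i, D.err S i • D.fam (some i)

variable {D}

theorem normalised_iff_err {S : J → Matrix n n A} : D.Normalised S ↔ ∀ j, D.err S j = 0 := by
  simp only [Normalised, err, sub_eq_zero]

theorem err_mem_maximalIdeal {S : J → Matrix n n A} (hS : D.Lifts S) (j : J) :
    D.err S j ∈ maximalIdeal A := by
  rw [← residue_eq_zero_iff, err, map_sub, D.hc j, ← hS j]
  simp

theorem corr_entriesIn {S : J → Matrix n n A} {I : Ideal A} (h : ∀ j, D.err S j ∈ I) :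
    EntriesIn I (D.corr S) :=
  (EntriesIn.sum _ _ fun i _ => EntriesIn.smul_of_mem (h i) _).neg

theorem corr_eq_sum (S : J → Matrix n n A) :
    D.corr S = ∑ o, (Option.elim o 0 fun i => -D.err S i) • D.fam o := by
  rw [Fintype.sum_option]
  simp [corr]

theorem lifts_of_conj {S S' : J → Matrix n n A} (hS : D.Lifts S) {Y : Matrix n n A}
    (hY : EntriesIn (maximalIdeal A) Y) (h : ∀ j, S' j * (1 + Y) = (1 + Y) * S j) :
    D.Lifts S' := by
  intro j
  have := congrArg (residue A).mapMatrix (h j)
  rw [map_mul, map_mul, map_add, map_one, (entriesIn_maximalIdeal_iff Y).mp hY, add_zero, mul_one,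
    one_mul] at this
  rw [this, hS j]

theorem newton_step {S S' : J → Matrix n n A} (hS : D.Lifts S) {t : ℕ} (ht : 1 ≤ t)
    (herr : ∀ j, D.err S j ∈ maximalIdeal A ^ t)
    (h : ∀ j, S' j * (1 + D.corr S) = (1 + D.corr S) * S j) :
    ∀ j, D.err S' j ∈ maximalIdeal A ^ (t + 1) := by
  intro j
  have hY := corr_entriesIn herr
  obtain ⟨-, h2⟩ := conj_sub_entriesIn hY (h j)
  have h3 := comm_entry_sub_mem hS (I := maximalIdeal A ^ t)
    (fun o => Option.elim o 0 fun i => -D.err S i)
    (fun o => by
      cases o with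
      | none => exact Ideal.zero_mem _
      | some i => exact neg_mem (herr i)) j
  rw [← corr_eq_sum] at h3
  have hle : maximalIdeal A ^ t * maximalIdeal A ^ t ≤ maximalIdeal A ^ (t + 1) := by
    rw [← pow_add]
    exact Ideal.pow_le_pow_right (by omega)
  have h2' := hle (h2 (D.a j) (D.b j))
  rw [← pow_succ] at h3
  have : D.err S' j =
      (S' j - S j - (D.corr S * S j - S j * D.corr S)) (D.a j) (D.b j) +
        ((D.corr S * S j - S j * D.corr S) (D.a j) (D.b j) -
          (Option.elim (some j) 0 fun i => -D.err S i)) := by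
    simp only [err, Option.elim, Matrix.sub_apply]
    ring
  rw [this]
  exact Ideal.add_mem _ h2' h3

end SliceData


/-- Simultaneous conjugation of a tuple of matrices by an invertible matrix. -/
def conjT (g : (Matrix n n A)ˣ) (R : J → Matrix n n A) : J → Matrix n n A :=
  fun j => (g : Matrix n n A) * R j * ((g⁻¹ : (Matrix n n A)ˣ) : Matrix n n A)

theorem conjT_one (R : J → Matrix n n A) : conjT 1 R = R := by
  funext j; simp [conjT]

theorem conjT_mul (g h : (Matrix n n A)ˣ) (R : J → Matrix n n A) :
    conjT (h * g) R = conjT h (conjT g R) := by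
  funext j
  simp only [conjT, Units.val_mul, _root_.mul_inv_rev, mul_assoc]

theorem conjT_rel (g : (Matrix n n A)ˣ) (R : J → Matrix n n A) (j : J) :
    conjT g R j * (g : Matrix n n A) = (g : Matrix n n A) * R j := by
  simp [conjT, mul_assoc]

/-- Invertible matrices reducing to the identity. -/
abbrev ResOne (A : Type*) [CommRing A] [IsLocalRing A] (n : Type*) [Fintype n] [DecidableEq n] :=
  {g : (Matrix n n A)ˣ // (residue A).mapMatrix (g : Matrix n n A) = 1}

theorem entriesIn_sub_one_of_resOne (g : ResOne A n) :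
    EntriesIn (maximalIdeal A) ((g.1 : Matrix n n A) - 1) := by
  rw [entriesIn_maximalIdeal_iff, map_sub, g.2, map_one, sub_self]

namespace SliceData

variable {D : SliceData A n J}

theorem lifts_conjT {R : J → Matrix n n A} (hR : D.Lifts R) (g : ResOne A n) :
    D.Lifts (conjT g.1 R) := by
  refine lifts_of_conj hR (entriesIn_sub_one_of_resOne g) fun j => ?_
  have : (1 : Matrix n n A) + ((g.1 : Matrix n n A) - 1) = g.1 := by abel
  rw [this]
  exact conjT_rel g.1 R j

theorem corr_conjT_entriesIn {R : J → Matrix n n A} (hR : D.Lifts R) (g : ResOne A n) :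
    EntriesIn (maximalIdeal A) (D.corr (conjT g.1 R)) :=
  corr_entriesIn fun j => err_mem_maximalIdeal (lifts_conjT hR g) j

variable (D) in
/-- One Newton step on the conjugating matrix. -/
noncomputable def next (R : J → Matrix n n A) (hR : D.Lifts R) (g : ResOne A n) : ResOne A n :=
  ⟨(isUnit_one_add_of_entriesIn _ (corr_conjT_entriesIn hR g)).unit * g.1, by
    rw [Units.val_mul, map_mul, IsUnit.unit_spec, map_add, map_one,
      (entriesIn_maximalIdeal_iff _).mp (corr_conjT_entriesIn hR g), add_zero, one_mul, g.2]⟩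

theorem next_val (R : J → Matrix n n A) (hR : D.Lifts R) (g : ResOne A n) :
    (((D.next R hR g).1 : (Matrix n n A)ˣ) : Matrix n n A) =
      (1 + D.corr (conjT g.1 R)) * (g.1 : Matrix n n A) := by
  simp [next]

variable (D) in
/-- The Newton sequence of conjugating matrices. -/
noncomputable def gseq (R : J → Matrix n n A) (hR : D.Lifts R) : ℕ → ResOne A n
  | 0 => ⟨1, by simp⟩
  | t + 1 => D.next R hR (gseq R hR t)

theorem err_gseq (R : J → Matrix n n A) (hR : D.Lifts R) (t : ℕ) (j : J) :
    D.err (conjT (D.gseq R hR t).1 R) j ∈ maximalIdeal A ^ (t + 1) := by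
  induction t generalizing j with
  | zero =>
    simp only [gseq, conjT_one, zero_add, pow_one]
    exact err_mem_maximalIdeal hR j
  | succ t ih =>
    have hS := lifts_conjT hR (D.gseq R hR t)
    refine newton_step hS (by omega) ih (fun j => ?_) j
    have h1 : (D.gseq R hR (t + 1)).1 =
        (isUnit_one_add_of_entriesIn _ (corr_conjT_entriesIn hR (D.gseq R hR t))).unit *
          (D.gseq R hR t).1 := rfl
    rw [h1, conjT_mul]
    have := conjT_rel (isUnit_one_add_of_entriesIn _
      (corr_conjT_entriesIn hR (D.gseq R hR t))).unit (conjT (D.gseq R hR t).1 R) j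
    rwa [IsUnit.unit_spec] at this

theorem gseq_succ_sub (R : J → Matrix n n A) (hR : D.Lifts R) (t : ℕ) :
    EntriesIn (maximalIdeal A ^ (t + 1))
      (((D.gseq R hR (t + 1)).1 : Matrix n n A) - ((D.gseq R hR t).1 : Matrix n n A)) := by
  have h1 : ((D.gseq R hR (t + 1)).1 : Matrix n n A) =
      (1 + D.corr (conjT (D.gseq R hR t).1 R)) * ((D.gseq R hR t).1 : Matrix n n A) :=
    next_val R hR _
  rw [h1, add_mul, one_mul, add_sub_cancel_left]
  exact (corr_entriesIn (err_gseq R hR t)).mul_right _

end SliceData


/-- Limits of sequences with small successive differences. -/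
theorem exists_limit_of_succ_sub_mem [IsPrecomplete (maximalIdeal A) A] (f : ℕ → A)
    (hf : ∀ t, f (t + 1) - f t ∈ maximalIdeal A ^ (t + 1)) :
    ∃ L : A, ∀ t, f t - L ∈ maximalIdeal A ^ t := by
  have hC : ∀ m k, f (m + k) - f m ∈ maximalIdeal A ^ m := by
    intro m k
    induction k with
    | zero => simp
    | succ k ih =>
      have h1 : f (m + (k + 1)) - f m = (f (m + k + 1) - f (m + k)) + (f (m + k) - f m) := by
        rw [← add_assoc]; ring
      rw [h1]
      refine Ideal.add_mem _ (Ideal.pow_le_pow_right (by omega) (hf (m + k))) ih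
  obtain ⟨L, hL⟩ := IsPrecomplete.prec' (I := maximalIdeal A) f (fun {m k} hmk => by
    obtain ⟨d, rfl⟩ := Nat.exists_eq_add_of_le hmk
    rw [SModEq.sub_mem, smul_eq_mul, Ideal.mul_top]
    have := hC m d
    rw [← neg_sub]
    exact neg_mem this)
  refine ⟨L, fun t => ?_⟩
  have := hL t
  rwa [SModEq.sub_mem, smul_eq_mul, Ideal.mul_top] at this

theorem exists_limit_matrix [IsPrecomplete (maximalIdeal A) A] (f : ℕ → Matrix n n A)
    (hf : ∀ t, EntriesIn (maximalIdeal A ^ (t + 1)) (f (t + 1) - f t)) :
    ∃ L : Matrix n n A, ∀ t, EntriesIn (maximalIdeal A ^ t) (f t - L) := by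
  have : ∀ i j, ∃ L : A, ∀ t, f t i j - L ∈ maximalIdeal A ^ t := fun i j =>
    exists_limit_of_succ_sub_mem (fun t => f t i j) fun t => hf t i j
  choose L hL using this
  exact ⟨Matrix.of L, fun t i j => hL i j t⟩

theorem eq_zero_of_forall_mem_pow [IsHausdorff (maximalIdeal A) A] {x : A}
    (h : ∀ t, x ∈ maximalIdeal A ^ t) : x = 0 := by
  apply IsHausdorff.haus' (I := maximalIdeal A) x
  intro t
  rw [SModEq.sub_mem, smul_eq_mul, Ideal.mul_top, sub_zero]
  exact h t


namespace SliceData

variable {D : SliceData A n J}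

/-- **Existence of a normalising conjugation.** -/
theorem exists_normalising [IsAdicComplete (maximalIdeal A) A] {R : J → Matrix n n A}
    (hR : D.Lifts R) :
    ∃ g : (Matrix n n A)ˣ, (residue A).mapMatrix (g : Matrix n n A) = 1 ∧
      D.Normalised (conjT g R) := by
  obtain ⟨L, hL⟩ := exists_limit_matrix (fun t => ((D.gseq R hR t).1 : Matrix n n A))
    (gseq_succ_sub R hR)
  -- `L` reduces to the identity
  have hL1 : (residue A).mapMatrix L = 1 := by
    have h := hL 1
    rw [pow_one, entriesIn_maximalIdeal_iff, map_sub, (D.gseq R hR 1).2, sub_eq_zero] at h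
    exact h.symm
  have hLu : IsUnit L := isUnit_of_isUnit_map_residue L (by rw [hL1]; exact isUnit_one)
  refine ⟨hLu.unit, by rw [IsUnit.unit_spec]; exact hL1, ?_⟩
  rw [normalised_iff_err]
  intro j
  apply eq_zero_of_forall_mem_pow
  intro t
  -- compare with the `t`-th approximation
  set g := (D.gseq R hR t).1 with hg
  set Y : Matrix n n A := (L - (g : Matrix n n A)) * ((g⁻¹ : (Matrix n n A)ˣ) : Matrix n n A)
    with hYdef
  have hY : EntriesIn (maximalIdeal A ^ t) Y := by
    have := (hL t).neg
    rw [neg_sub] at this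
    exact this.mul_right _
  have h1Y : (1 : Matrix n n A) + Y = L * ((g⁻¹ : (Matrix n n A)ˣ) : Matrix n n A) := by
    rw [hYdef, sub_mul, Units.mul_inv]; abel
  have hrel : conjT hLu.unit R j * (1 + Y) = (1 + Y) * conjT g R j := by
    rw [h1Y]
    simp only [conjT, IsUnit.unit_spec]
    have e1 : ((hLu.unit⁻¹ : (Matrix n n A)ˣ) : Matrix n n A) * L = 1 := by
      have := hLu.unit.inv_mul
      rwa [IsUnit.unit_spec] at this
    calc L * R j * ((hLu.unit⁻¹ : (Matrix n n A)ˣ) : Matrix n n A) * (L * ↑g⁻¹)
        = L * R j * ((((hLu.unit⁻¹ : (Matrix n n A)ˣ) : Matrix n n A) * L) * ↑g⁻¹) := by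
          simp only [mul_assoc]
      _ = L * R j * ↑g⁻¹ := by rw [e1, one_mul]
      _ = L * ((↑g⁻¹ * ↑g) * R j * ↑g⁻¹) := by rw [Units.inv_mul, one_mul, mul_assoc]
      _ = L * ↑g⁻¹ * (↑g * R j * ↑g⁻¹) := by simp only [mul_assoc]
  obtain ⟨h2, -⟩ := conj_sub_entriesIn hY hrel
  have h3 : D.err (conjT hLu.unit R) j =
      (conjT hLu.unit R j - conjT g R j) (D.a j) (D.b j) + D.err (conjT g R) j := by
    simp only [err, Matrix.sub_apply]; ring
  rw [h3]
  exact Ideal.add_mem _ (h2 _ _) (Ideal.pow_le_pow_right (by omega) (err_gseq R hR t j))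

end SliceData


namespace SliceData

variable {D : SliceData A n J}

theorem nonempty_index (D : SliceData A n J) : Nonempty n := by
  by_contra h
  rw [not_nonempty_iff] at h
  have := D.hcard
  rw [Fintype.card_eq_zero (α := n)] at this
  simp at this

/-- Base case of the uniqueness argument: an intertwiner is a unit scalar modulo `𝔪`. -/
theorem intertwiner_scalar_mod_max {R R' : J → Matrix n n A} (hR : D.Lifts R) (hR' : D.Lifts R')
    (g : (Matrix n n A)ˣ) (hg : ∀ j, (g : Matrix n n A) * R j = R' j * (g : Matrix n n A)) :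
    ∃ u : Aˣ, EntriesIn (maximalIdeal A) ((g : Matrix n n A) - (u : A) • 1) := by
  obtain ⟨z, hz⟩ := D.hker ((residue A).mapMatrix (g : Matrix n n A)) (fun j => by
    have := congrArg (residue A).mapMatrix (hg j)
    rw [map_mul, map_mul, hR j, hR' j] at this
    rw [this, sub_self]; rfl)
  have hz0 : z ≠ 0 := by
    rintro rfl
    rw [zero_smul] at hz
    have hu : IsUnit ((residue A).mapMatrix (g : Matrix n n A)) := (g.isUnit).map _
    rw [hz] at hu
    obtain ⟨i⟩ := D.nonempty_index
    have : Nontrivial (Matrix n n (ResidueField A)) := ⟨⟨1, 0, fun h => by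
      have := congrFun (congrFun h i) i
      simp at this⟩⟩
    exact not_isUnit_zero hu
  have hu : IsUnit (liftK z : A) := by
    by_contra h
    have : (liftK z : A) ∈ maximalIdeal A := (mem_maximalIdeal _).mpr h
    rw [← residue_eq_zero_iff, residue_liftK] at this
    exact hz0 this
  refine ⟨hu.unit, ?_⟩
  rw [entriesIn_maximalIdeal_iff, map_sub, hz, IsUnit.unit_spec]
  ext i j
  by_cases hij : i = j <;> simp [Matrix.smul_apply, Matrix.one_apply, hij]

end SliceData


namespace SliceData

variable {D : SliceData A n J}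

theorem isUnit_add_of_mem_maximalIdeal {u x : A} (hu : IsUnit u) (hx : x ∈ maximalIdeal A) :
    IsUnit (u + x) := by
  by_contra h
  have h1 : u + x ∈ maximalIdeal A := (mem_maximalIdeal _).mpr h
  have h2 : u ∈ maximalIdeal A := by
    have := Ideal.sub_mem _ h1 hx
    simpa using this
  exact (mem_maximalIdeal _).mp h2 hu

/-- Inductive step of the uniqueness argument. -/
theorem intertwiner_scalar_step {R R' : J → Matrix n n A} (hR : D.Lifts R)
    (hN : D.Normalised R) (hN' : D.Normalised R')
    (g : Matrix n n A) (hg : ∀ j, g * R j = R' j * g) {t : ℕ} (ht : 1 ≤ t)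
    (u : Aˣ) (hu : EntriesIn (maximalIdeal A ^ t) (g - (u : A) • 1)) :
    ∃ u' : Aˣ, EntriesIn (maximalIdeal A ^ (t + 1)) (g - (u' : A) • 1) := by
  set Y : Matrix n n A := ((u⁻¹ : Aˣ) : A) • (g - (u : A) • 1) with hYdef
  have hY : EntriesIn (maximalIdeal A ^ t) Y := hu.smul _
  have h1Y : (1 : Matrix n n A) + Y = ((u⁻¹ : Aˣ) : A) • g := by
    rw [hYdef, smul_sub, smul_smul, Units.inv_mul, one_smul]; abel
  have hgY : g = (u : A) • (1 + Y) := by
    rw [h1Y, smul_smul, Units.mul_inv, one_smul]
  -- decompose `Y`
  obtain ⟨x, hx, hYx⟩ := D.exists_coeffs (maximalIdeal A ^ t) Y hY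
  have hle : maximalIdeal A ^ t * maximalIdeal A ^ t ≤ maximalIdeal A ^ (t + 1) := by
    rw [← pow_add]
    exact Ideal.pow_le_pow_right (by omega)
  have hxs : ∀ j, x (some j) ∈ maximalIdeal A ^ (t + 1) := by
    intro j
    have hrel : R' j * (1 + Y) = (1 + Y) * R j := by
      rw [h1Y, mul_smul_comm, smul_mul_assoc, hg j]
    obtain ⟨-, h2⟩ := conj_sub_entriesIn hY hrel
    have h2' := hle (h2 (D.a j) (D.b j))
    have h3 := comm_entry_sub_mem hR (I := maximalIdeal A ^ t) x hx j
    rw [← hYx, ← pow_succ] at h3
    have h4 : (R' j - R j) (D.a j) (D.b j) = 0 := by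
      rw [Matrix.sub_apply, hN j, hN' j, sub_self]
    have h5 : x (some j) =
        -((R' j - R j - (Y * R j - R j * Y)) (D.a j) (D.b j)) -
          ((Y * R j - R j * Y) (D.a j) (D.b j) - x (some j)) := by
      have h6 : (R' j - R j - (Y * R j - R j * Y)) (D.a j) (D.b j) =
          (R' j - R j) (D.a j) (D.b j) - (Y * R j - R j * Y) (D.a j) (D.b j) :=
        Matrix.sub_apply _ _ _ _
      rw [h6, h4]; ring
    rw [h5]
    exact Ideal.sub_mem _ (neg_mem h2') h3
  -- the new scalar
  have hxn : x none ∈ maximalIdeal A := by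
    have := hx none
    exact Ideal.pow_le_self (by omega) this
  have hu' : IsUnit ((u : A) * (1 + x none)) :=
    u.isUnit.mul (isUnit_add_of_mem_maximalIdeal isUnit_one hxn)
  refine ⟨hu'.unit, ?_⟩
  have hdec : g - ((hu'.unit : Aˣ) : A) • 1 = (u : A) • ∑ i, x (some i) • D.fam (some i) := by
    rw [IsUnit.unit_spec]
    have e : ((u : A) * (1 + x none)) • (1 : Matrix n n A) =
        (u : A) • ((1 : Matrix n n A) + x none • 1) := by
      rw [mul_smul, add_smul, one_smul]
    rw [e]
    conv_lhs => rw [hgY, hYx, Fintype.sum_option]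
    rw [← smul_sub]
    congr 1
    simp only [fam]
    abel
  rw [hdec]
  exact (EntriesIn.sum _ _ fun i _ => EntriesIn.smul_of_mem (hxs i) _).smul _

/-- **Uniqueness**: an invertible matrix intertwining two normalised lifts is a unit scalar. -/
theorem scalar_of_intertwiner [IsHausdorff (maximalIdeal A) A] {R R' : J → Matrix n n A}
    (hR : D.Lifts R) (hR' : D.Lifts R') (hN : D.Normalised R) (hN' : D.Normalised R')
    (g : (Matrix n n A)ˣ) (hg : ∀ j, (g : Matrix n n A) * R j = R' j * (g : Matrix n n A)) :
    ∃ u : Aˣ, (g : Matrix n n A) = (u : A) • 1 := by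
  have hall : ∀ t : ℕ, ∃ u : Aˣ,
      EntriesIn (maximalIdeal A ^ (t + 1)) ((g : Matrix n n A) - (u : A) • 1) := by
    intro t
    induction t with
    | zero =>
      obtain ⟨u, hu⟩ := intertwiner_scalar_mod_max hR hR' g hg
      exact ⟨u, by simpa using hu⟩
    | succ t ih =>
      obtain ⟨u, hu⟩ := ih
      exact intertwiner_scalar_step hR hN hN' g hg (by omega) u hu
  obtain ⟨i₀⟩ := D.nonempty_index
  -- off-diagonal entries vanish, diagonal entries agree
  have hoff : ∀ i j, i ≠ j → (g : Matrix n n A) i j = 0 := by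
    intro i j hij
    apply eq_zero_of_forall_mem_pow
    intro t
    obtain ⟨u, hu⟩ := hall t
    have := hu i j
    simp only [Matrix.sub_apply, Matrix.smul_apply, Matrix.one_apply_ne hij, smul_zero,
      sub_zero] at this
    exact Ideal.pow_le_pow_right (by omega) this
  have hdiag : ∀ i, (g : Matrix n n A) i i = (g : Matrix n n A) i₀ i₀ := by
    intro i
    rw [← sub_eq_zero]
    apply eq_zero_of_forall_mem_pow
    intro t
    obtain ⟨u, hu⟩ := hall t
    have h1 := hu i i
    have h2 := hu i₀ i₀
    simp only [Matrix.sub_apply, Matrix.smul_apply, Matrix.one_apply_eq, smul_eq_mul,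
      mul_one] at h1 h2
    have := Ideal.sub_mem _ h1 h2
    rw [sub_sub_sub_cancel_right] at this
    exact Ideal.pow_le_pow_right (by omega) this
  have hg_eq : (g : Matrix n n A) = ((g : Matrix n n A) i₀ i₀) • 1 := by
    ext i j
    by_cases hij : i = j
    · subst hij; simp [hdiag i]
    · simp [hoff i j hij, hij]
  have hunit : IsUnit ((g : Matrix n n A) i₀ i₀) := by
    obtain ⟨u, hu⟩ := hall 0
    have h1 := hu i₀ i₀
    simp only [Matrix.sub_apply, Matrix.smul_apply, Matrix.one_apply_eq, smul_eq_mul,
      mul_one, zero_add, pow_one] at h1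
    have := isUnit_add_of_mem_maximalIdeal u.isUnit h1
    simpa using this
  exact ⟨hunit.unit, by rw [IsUnit.unit_spec]; exact hg_eq⟩

/-- Consequently two normalised lifts that are conjugate are equal. -/
theorem eq_of_intertwiner [IsHausdorff (maximalIdeal A) A] {R R' : J → Matrix n n A}
    (hR : D.Lifts R) (hR' : D.Lifts R') (hN : D.Normalised R) (hN' : D.Normalised R')
    (g : (Matrix n n A)ˣ) (hg : ∀ j, (g : Matrix n n A) * R j = R' j * (g : Matrix n n A)) :
    ∃ u : Aˣ, (g : Matrix n n A) = (u : A) • 1 ∧ R = R' := by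
  obtain ⟨u, hu⟩ := scalar_of_intertwiner hR hR' hN hN' g hg
  refine ⟨u, hu, funext fun j => ?_⟩
  have := hg j
  rw [hu, smul_mul_assoc, one_mul, mul_smul_comm, mul_one] at this
  have h2 := congrArg (fun M => ((u⁻¹ : Aˣ) : A) • M) this
  simpa [smul_smul] using h2

end SliceData


end Slice

end Fermat.Agent.S53.Rigid
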