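import Mathlib
import Fermat.Prelude.Def_GaloisRep_Adic

/-!
# S53, piece (A): Burnside / Schur for lifts of absolutely irreducible residual representations

Main results (all in `namespace Fermat.Agent.S53`):

* `span_range_eq_top_of_irreducible_algClosed` : Burnside over an algebraically closed field.
* `span_range_eq_top_of_absIrr` : Burnside for absolutely irreducible representations over any field.
* `span_baseChange_eq_top` : spanning `End` is stable under base change (finite free modules).
* `span_eq_top_of_span_baseChange_residue_eq_top` : Nakayama lifting of spanning over a local ring.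
* `residual_span_range_eq_top` : (A1) for `ResidualGaloisRep`.
* `span_range_eq_top_of_residual_isEquiv` : (A2) for `GaloisRepAdic` over any local ring.
* `exists_eq_smul_one_of_commute` : (A3) centralizer = scalars.
* `equiv_eq_unit_smul` : (A4) two `GaloisRepAdic.Equiv`s differ by a unit.
-/

set_option autoImplicit false

namespace Fermat.Agent.S53

open Module
open scoped TensorProduct

/-- Burnside over an algebraically closed field: an irreducible family of operators closed under
multiplication spans the whole endomorphism algebra. -/
theorem span_range_eq_top_of_irreducible_algClosed {K M G : Type*} [Field K] [IsAlgClosed K]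
    [AddCommGroup M] [Module K M] [FiniteDimensional K M] [Nontrivial M] [Monoid G]
    (ρ : G →* Module.End K M)
    (hirr : ∀ W : Submodule K M, (∀ g, ∀ x ∈ W, ρ g x ∈ W) → W = ⊥ ∨ W = ⊤) :
    Submodule.span K (Set.range ρ) = ⊤ := by
  classical
  -- the subalgebra generated by the image
  set S : Subalgebra K (Module.End K M) := Algebra.adjoin K (Set.range ρ) with hS
  have hSspan : Subalgebra.toSubmodule S = Submodule.span K (Set.range ρ) := by
    rw [hS, Algebra.adjoin_eq_span]
    congr 1
    have : (Submonoid.closure (Set.range ρ) : Set (Module.End K M)) = Set.range ρ := by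
      rw [← MonoidHom.coe_mrange, Submonoid.closure_eq]
    exact this
  have hρS : ∀ g, ρ g ∈ S := fun g => Algebra.subset_adjoin ⟨g, rfl⟩
  have hsmulK : ∀ (c : K) (x : M), (algebraMap K S c) • x = c • x := fun c x => by
    rw [Subalgebra.smul_def]
    simp
  -- `M` is a simple `S`-module
  have hsimple : IsSimpleModule S M := by
    rw [isSimpleModule_iff]
    have : Nontrivial (Submodule S M) := inferInstance
    refine ⟨fun W' => ?_⟩
    let W : Submodule K M :=
      { carrier := W'
        add_mem' := W'.add_mem
        zero_mem' := W'.zero_mem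
        smul_mem' := fun c x hx => by
          have h1 : (algebraMap K S c) • x ∈ W' := W'.smul_mem _ hx
          rwa [hsmulK] at h1 }
    have hW : ∀ g, ∀ x ∈ W, ρ g x ∈ W := fun g x hx => by
      have h1 : (⟨ρ g, hρS g⟩ : S) • x ∈ W' := W'.smul_mem _ hx
      exact h1
    rcases hirr W hW with h | h
    · left
      ext x
      have : x ∈ W ↔ x ∈ (⊥ : Submodule K M) := by rw [h]
      simpa [W] using this
    · right
      ext x
      have : x ∈ W ↔ x ∈ (⊤ : Submodule K M) := by rw [h]
      simpa [W] using this
  -- Schur: every `S`-endomorphism is a scalar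
  have hschur : ∀ f : Module.End S M, ∃ c : K, ∀ m, f m = c • m := by
    intro f
    -- view `f` as a `K`-linear map
    let fK : Module.End K M :=
      { toFun := f
        map_add' := f.map_add
        map_smul' := fun c x => by
          have := f.map_smul (algebraMap K S c) x
          rw [hsmulK, hsmulK] at this
          exact this }
    obtain ⟨c, hc⟩ := Module.End.exists_eigenvalue fK
    refine ⟨c, ?_⟩
    -- the eigenspace is an `S`-submodule
    let E : Submodule S M :=
      { carrier := {m | f m = c • m}
        add_mem' := fun {a b} ha hb => by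
          change f a = c • a at ha; change f b = c • b at hb; change f (a + b) = c • (a + b)
          rw [map_add, ha, hb, smul_add]
        zero_mem' := by simp
        smul_mem' := fun s x hx => by
          change f x = c • x at hx; change f (s • x) = c • (s • x)
          rw [map_smul, hx, Subalgebra.smul_def, Subalgebra.smul_def, Module.End.smul_def,
            Module.End.smul_def, map_smul] }
    have hE : E = ⊤ := by
      rcases hsimple.eq_bot_or_eq_top E with h | h
      · exfalso
        obtain ⟨v, hv⟩ := hc.exists_hasEigenvector
        have hvE : v ∈ E := by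
          have := hv.apply_eq_smul
          exact this
        rw [h] at hvE
        exact hv.2 ((Submodule.mem_bot S).1 hvE)
      · exact h
    intro m
    have : m ∈ E := by rw [hE]; trivial
    exact this
  -- every `K`-endomorphism is in `S`
  rw [← hSspan]
  rw [eq_top_iff]
  intro g _
  -- `g` as an `End (End S M) M`
  let g' : Module.End (Module.End S M) M :=
    { toFun := g
      map_add' := g.map_add
      map_smul' := fun f m => by
        obtain ⟨c, hc⟩ := hschur f
        simp only [Module.End.smul_def, RingHom.id_apply]
        rw [hc, hc, map_smul] }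
  let b := Module.finBasis K M
  obtain ⟨r, hr⟩ := jacobson_density (R := S) g' (Finset.univ.image b)
  have : g = (r : Module.End K M) := by
    apply b.ext
    intro i
    have := hr (b i) (Finset.mem_image_of_mem _ (Finset.mem_univ i))
    exact this
  rw [this]
  exact r.2

/-- Base change of a monoid representation. -/
noncomputable def baseChangeRep {k V G : Type*} [CommRing k] [AddCommGroup V] [Module k V] [Monoid G]
    (K : Type*) [CommRing K] [Algebra k K] (ρ : G →* Module.End k V) :
    G →* Module.End K (K ⊗[k] V) where
  toFun g := (ρ g).baseChange K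
  map_one' := by rw [map_one, LinearMap.baseChange_one]
  map_mul' g h := by rw [map_mul, LinearMap.baseChange_mul]

@[simp] theorem baseChangeRep_apply {k V G : Type*} [CommRing k] [AddCommGroup V] [Module k V]
    [Monoid G] (K : Type*) [CommRing K] [Algebra k K] (ρ : G →* Module.End k V) (g : G) :
    baseChangeRep K ρ g = (ρ g).baseChange K := rfl

/-- Burnside for absolutely irreducible representations over an arbitrary field. -/
theorem span_range_eq_top_of_absIrr {k V G : Type*} [Field k] [AddCommGroup V] [Module k V]
    [FiniteDimensional k V] [Nontrivial V] [Monoid G] (ρ : G →* Module.End k V)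
    (K : Type*) [Field K] [Algebra k K] [IsAlgClosed K]
    (hirr : ∀ W : Submodule K (K ⊗[k] V),
      (∀ g, ∀ x ∈ W, (ρ g).baseChange K x ∈ W) → W = ⊥ ∨ W = ⊤) :
    Submodule.span k (Set.range ρ) = ⊤ := by
  classical
  by_contra hne
  set T : Submodule k (Module.End k V) := Submodule.span k (Set.range ρ) with hT
  have hlt : finrank k T < finrank k (Module.End k V) := Submodule.finrank_lt hne
  let bT := Module.finBasis k T
  let β : Module.End k V →ₗ[k] Module.End K (K ⊗[k] V) := LinearMap.baseChangeHom k K V V
  let v : Fin (finrank k T) → Module.End K (K ⊗[k] V) := fun i => β (bT i : Module.End k V)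
  have hnt : Nontrivial (K ⊗[k] V) := by
    have h1 : finrank K (K ⊗[k] V) = finrank k V := Module.finrank_baseChange
    have h2 : 0 < finrank k V := Module.finrank_pos
    exact Module.nontrivial_of_finrank_pos (R := K) (by omega)
  have htop : Submodule.span K (Set.range (baseChangeRep K ρ)) = ⊤ :=
    span_range_eq_top_of_irreducible_algClosed (baseChangeRep K ρ) hirr
  have hle : Submodule.span K (Set.range (baseChangeRep K ρ)) ≤ Submodule.span K (Set.range v) := by
    rw [Submodule.span_le]
    rintro _ ⟨g, rfl⟩
    have hg : ρ g ∈ T := Submodule.subset_span ⟨g, rfl⟩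
    have hrepr : (ρ g) = ∑ i, (bT.repr ⟨ρ g, hg⟩ i) • (bT i : Module.End k V) := by
      have := congrArg (Subtype.val) (bT.sum_repr ⟨ρ g, hg⟩)
      simp only [Submodule.coe_sum, Submodule.coe_smul] at this
      exact this.symm
    have : baseChangeRep K ρ g = ∑ i, (algebraMap k K (bT.repr ⟨ρ g, hg⟩ i)) • v i := by
      change β (ρ g) = _
      conv_lhs => rw [hrepr]
      rw [map_sum]
      refine Finset.sum_congr rfl fun i _ => ?_
      rw [map_smul, algebraMap_smul]
    rw [this]
    exact Submodule.sum_mem _ fun i _ => Submodule.smul_mem _ _ (Submodule.subset_span ⟨i, rfl⟩)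
  have hv : Submodule.span K (Set.range v) = ⊤ := top_le_iff.mp (htop ▸ hle)
  have h1 : finrank K (Module.End K (K ⊗[k] V)) ≤ finrank k T := by
    have := finrank_range_le_card (R := K) v
    rw [Set.finrank, hv, finrank_top, Fintype.card_fin] at this
    exact this
  have h2 : finrank K (Module.End K (K ⊗[k] V)) = finrank k V * finrank k V := by
    rw [Module.finrank_linearMap, Module.finrank_baseChange]
  have h3 : finrank k (Module.End k V) = finrank k V * finrank k V := by
    rw [Module.finrank_linearMap]
  omega

/-- An endomorphism of a finite free module over a local ring whose reduction modulo the maximal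
ideal vanishes lies in `𝔪 • ⊤`. -/
theorem mem_maximalIdeal_smul_top_of_baseChange_eq_zero {A V : Type*} [CommRing A] [IsLocalRing A]
    [AddCommGroup V] [Module A V] [Module.Free A V] [Module.Finite A V]
    (h : Module.End A V) (h0 : h.baseChange (IsLocalRing.ResidueField A) = 0) :
    h ∈ IsLocalRing.maximalIdeal A • (⊤ : Submodule A (Module.End A V)) := by
  classical
  let b := Module.Free.chooseBasis A V
  let X := LinearMap.toMatrix b b h
  have hX : X.map (algebraMap A (IsLocalRing.ResidueField A)) = 0 := by
    rw [← LinearMap.toMatrix_baseChange, h0, map_zero]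
  have hXm : ∀ i j, X i j ∈ IsLocalRing.maximalIdeal A := by
    intro i j
    have := congrFun (congrFun hX i) j
    rw [Matrix.map_apply, Matrix.zero_apply, IsLocalRing.ResidueField.algebraMap_eq,
      IsLocalRing.residue_eq_zero_iff] at this
    exact this
  have hh : h = ∑ i, ∑ j, X i j • Matrix.toLin b b (Matrix.single i j (1 : A)) := by
    have h1 : h = Matrix.toLin b b X := (Matrix.toLin_toMatrix b b h).symm
    conv_lhs => rw [h1, Matrix.matrix_eq_sum_single X]
    rw [map_sum]
    refine Finset.sum_congr rfl fun i _ => ?_
    rw [map_sum]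
    refine Finset.sum_congr rfl fun j _ => ?_
    rw [← map_smul]
    congr 1
    rw [Matrix.smul_single, smul_eq_mul, mul_one]
  rw [hh]
  exact Submodule.sum_mem _ fun i _ => Submodule.sum_mem _ fun j _ =>
    Submodule.smul_mem_smul (hXm i j) Submodule.mem_top

/-- Nakayama: a set of endomorphisms of a finite free module over a local ring spans the
endomorphism ring as soon as its reduction spans modulo the maximal ideal. -/
theorem span_eq_top_of_span_baseChange_residue_eq_top {A V : Type*} [CommRing A] [IsLocalRing A]
    [AddCommGroup V] [Module A V] [Module.Free A V] [Module.Finite A V]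
    (T : Set (Module.End A V))
    (hT : Submodule.span (IsLocalRing.ResidueField A)
      ((fun t : Module.End A V => t.baseChange (IsLocalRing.ResidueField A)) '' T) = ⊤) :
    Submodule.span A T = ⊤ := by
  classical
  rw [eq_top_iff]
  refine Submodule.le_of_le_smul_of_le_jacobson_bot (I := IsLocalRing.maximalIdeal A)
    (Module.Finite.fg_top) (IsLocalRing.maximalIdeal_le_jacobson ⊥) ?_
  intro f _
  have hf : f.baseChange (IsLocalRing.ResidueField A) ∈
      Submodule.span (IsLocalRing.ResidueField A)
        ((fun t : Module.End A V => t.baseChange (IsLocalRing.ResidueField A)) '' T) := by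
    rw [hT]; trivial
  rw [Submodule.mem_span_image_iff_exists_fun] at hf
  obtain ⟨s, hsT, c, hc⟩ := hf
  choose c' hc' using fun i : s => IsLocalRing.residue_surjective (c i)
  set g : Module.End A V := ∑ i : s, c' i • (i : Module.End A V) with hg
  have hgmem : g ∈ Submodule.span A T :=
    Submodule.sum_mem _ fun i _ => Submodule.smul_mem _ _ (Submodule.subset_span (hsT i.2))
  have hgbc : g.baseChange (IsLocalRing.ResidueField A) =
      f.baseChange (IsLocalRing.ResidueField A) := by
    rw [← hc, hg]
    have : (∑ i : s, c' i • (i : Module.End A V)).baseChange (IsLocalRing.ResidueField A) =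
        ∑ i : s, (c' i • (i : Module.End A V)).baseChange (IsLocalRing.ResidueField A) :=
      map_sum (LinearMap.baseChangeHom A (IsLocalRing.ResidueField A) V V) _ _
    rw [this]
    refine Finset.sum_congr rfl fun i _ => ?_
    rw [LinearMap.baseChange_smul, ← hc' i, ← IsLocalRing.ResidueField.algebraMap_eq, algebraMap_smul]
  have hfg : (f - g).baseChange (IsLocalRing.ResidueField A) = 0 := by
    rw [LinearMap.baseChange_sub, hgbc]
    exact sub_self (f.baseChange (IsLocalRing.ResidueField A))
  have := mem_maximalIdeal_smul_top_of_baseChange_eq_zero (f - g) hfg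
  have hfeq : f = g + (f - g) := by abel
  rw [hfeq]
  exact Submodule.add_mem_sup hgmem this

/-- If a set of endomorphisms of a finite free module spans the endomorphism ring, then so do the
base changes, over any commutative algebra. -/
theorem span_baseChange_eq_top {R V : Type*} (S : Type*) [CommRing R] [CommRing S] [Algebra R S]
    [AddCommGroup V] [Module R V] [Module.Free R V] [Module.Finite R V]
    (T : Set (Module.End R V)) (hT : Submodule.span R T = ⊤) :
    Submodule.span S ((fun t : Module.End R V => t.baseChange S) '' T) = ⊤ := by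
  classical
  set P : Submodule S (Module.End S (S ⊗[R] V)) :=
    Submodule.span S ((fun t : Module.End R V => t.baseChange S) '' T) with hP
  -- all base changes are in `P`
  have h1 : ∀ f : Module.End R V, f.baseChange S ∈ P := by
    intro f
    have hf : f ∈ Submodule.span R T := by rw [hT]; trivial
    induction hf using Submodule.span_induction with
    | mem x hx => exact Submodule.subset_span ⟨x, hx, rfl⟩
    | zero => rw [LinearMap.baseChange_zero]; exact Submodule.zero_mem _
    | add x y _ _ hx hy => rw [LinearMap.baseChange_add]; exact Submodule.add_mem _ hx hy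
    | smul c x _ hx =>
      rw [LinearMap.baseChange_smul, ← algebraMap_smul S c]
      exact Submodule.smul_mem _ _ hx
  rw [eq_top_iff]
  intro F _
  let b := Module.Free.chooseBasis R V
  let bS := Algebra.TensorProduct.basis S b
  let X := LinearMap.toMatrix bS bS F
  have hF : F = ∑ i, ∑ j, X i j • (Matrix.toLin b b (Matrix.single i j (1 : R))).baseChange S := by
    apply (LinearMap.toMatrix bS bS).injective
    rw [map_sum]
    conv_lhs => rw [show LinearMap.toMatrix bS bS F = X from rfl, Matrix.matrix_eq_sum_single X]
    refine Finset.sum_congr rfl fun i _ => ?_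
    rw [map_sum]
    refine Finset.sum_congr rfl fun j _ => ?_
    rw [map_smul, LinearMap.toMatrix_baseChange, LinearMap.toMatrix_toLin, Matrix.map_single,
      Matrix.smul_single, map_one, smul_eq_mul, mul_one]
  rw [hF]
  exact Submodule.sum_mem _ fun i _ => Submodule.sum_mem _ fun j _ =>
    Submodule.smul_mem _ _ (h1 _)

/-- An endomorphism of a finite free module commuting with all endomorphisms is a scalar. -/
theorem exists_eq_smul_one_of_forall_commute {A V : Type*} [CommRing A] [AddCommGroup V]
    [Module A V] [Module.Free A V] [Module.Finite A V] (f : Module.End A V)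
    (hf : ∀ g : Module.End A V, Commute g f) : ∃ a : A, f = a • (1 : Module.End A V) := by
  classical
  let b := Module.Free.chooseBasis A V
  let e := LinearMap.toMatrixAlgEquiv b
  have h1 : e f ∈ Set.range (Matrix.scalar (Module.Free.ChooseBasisIndex A V)) := by
    rw [Matrix.mem_range_scalar_iff_commute_single']
    intro i j
    have := (hf (e.symm (Matrix.single i j 1))).map e
    rwa [AlgEquiv.apply_symm_apply] at this
  obtain ⟨a, ha⟩ := h1
  refine ⟨a, e.injective ?_⟩
  rw [← ha, map_smul, map_one]
  ext i j
  simp [Matrix.scalar_apply, Matrix.diagonal_apply, Matrix.one_apply]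

/-- Schur's lemma in the form we need: if the image of a representation spans the endomorphism
ring of a finite free module, then its centralizer consists of scalars. -/
theorem exists_eq_smul_one_of_commute_of_span_eq_top {A V G : Type*} [CommRing A]
    [AddCommGroup V] [Module A V] [Module.Free A V] [Module.Finite A V] [Monoid G]
    (ρ : G →* Module.End A V) (hspan : Submodule.span A (Set.range ρ) = ⊤)
    (f : Module.End A V) (hf : ∀ g, f * ρ g = ρ g * f) :
    ∃ a : A, f = a • (1 : Module.End A V) := by
  apply exists_eq_smul_one_of_forall_commute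
  intro x
  have hx : x ∈ Submodule.span A (Set.range ρ) := by rw [hspan]; trivial
  induction hx using Submodule.span_induction with
  | mem x hx =>
    obtain ⟨g, rfl⟩ := hx
    exact (hf g).symm
  | zero => exact Commute.zero_left f
  | add x y _ _ hx hy => exact hx.add_left hy
  | smul c x _ hx => exact hx.smul_left c

/-- The span of a family of endomorphisms is transported by conjugation with a linear equivalence. -/
theorem span_range_eq_top_of_equiv {k V₁ V₂ G : Type*} [CommRing k] [AddCommGroup V₁] [Module k V₁]
    [AddCommGroup V₂] [Module k V₂] (ρ₁ : G → Module.End k V₁) (ρ₂ : G → Module.End k V₂)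
    (e : V₁ ≃ₗ[k] V₂) (he : ∀ g x, e (ρ₁ g x) = ρ₂ g (e x))
    (h₂ : Submodule.span k (Set.range ρ₂) = ⊤) : Submodule.span k (Set.range ρ₁) = ⊤ := by
  have hconj : ∀ g, ρ₁ g = e.symm.conj (ρ₂ g) := by
    intro g
    ext x
    rw [LinearEquiv.conj_apply_apply, LinearEquiv.symm_symm, ← he, LinearEquiv.symm_apply_apply]
  have hr : Set.range ρ₁ = (e.symm.conj : Module.End k V₂ →ₗ[k] Module.End k V₁) '' Set.range ρ₂ := by
    ext x
    constructor
    · rintro ⟨g, rfl⟩
      exact ⟨ρ₂ g, ⟨g, rfl⟩, (hconj g).symm⟩
    · rintro ⟨_, ⟨g, rfl⟩, rfl⟩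
      exact ⟨g, hconj g⟩
  rw [hr, ← Submodule.map_span, h₂, Submodule.map_top, LinearMap.range_eq_top]
  exact e.symm.conj.surjective

/-- (A1) Burnside for an absolutely irreducible residual representation. -/
theorem residual_span_range_eq_top {k : Type} [Field k] (ρbar : ResidualGaloisRep k)
    (habs : ρbar.IsAbsolutelyIrreducible) : Submodule.span k (Set.range ρbar.ρ) = ⊤ := by
  have : Nontrivial ρbar.V :=
    Module.nontrivial_of_finrank_pos (R := k) (by rw [ρbar.finrank_eq]; norm_num)
  exact span_range_eq_top_of_absIrr ρbar.ρ (AlgebraicClosure k) habs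

/-- Spanning is inherited by base change of residual representations along any ring hom. -/
theorem residual_baseChangeAlong_span_range_eq_top {k k' : Type} [Field k] [Field k']
    (φ : k →+* k') (ρbar : ResidualGaloisRep k)
    (h : Submodule.span k (Set.range ρbar.ρ) = ⊤) :
    Submodule.span k' (Set.range (ρbar.baseChangeAlong φ).ρ) = ⊤ := by
  let _ : Algebra k k' := φ.toAlgebra
  have := span_baseChange_eq_top k' (Set.range ρbar.ρ) h
  rw [← Set.range_comp] at this
  exact this

/-- (A2) For a lift `ρ` (over a local ring) of an absolutely irreducible residual representation,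
the image of `ρ` spans the endomorphism ring. -/
theorem span_range_eq_top_of_residual_isEquiv {A : Type} [CommRing A] [IsLocalRing A]
    (ρ : GaloisRepAdic A) {k : Type} [Field k] (ρbar : ResidualGaloisRep k)
    (habs : ρbar.IsAbsolutelyIrreducible) (φ : k →+* IsLocalRing.ResidueField A)
    (hres : ρ.residual.IsEquiv (ρbar.baseChangeAlong φ)) :
    Submodule.span A (Set.range ρ.ρ) = ⊤ := by
  obtain ⟨e⟩ := hres
  have h1 := residual_baseChangeAlong_span_range_eq_top φ ρbar (residual_span_range_eq_top ρbar habs)
  have h2 : Submodule.span (IsLocalRing.ResidueField A) (Set.range ρ.residual.ρ) = ⊤ :=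
    span_range_eq_top_of_equiv _ _ e.toLinearEquiv e.map_apply h1
  apply span_eq_top_of_span_baseChange_residue_eq_top
  rw [← Set.range_comp]
  exact h2

/-- (A3) Schur's lemma for lifts of absolutely irreducible residual representations. -/
theorem exists_eq_smul_one_of_commute {A : Type} [CommRing A] [IsLocalRing A]
    (ρ : GaloisRepAdic A) {k : Type} [Field k] (ρbar : ResidualGaloisRep k)
    (habs : ρbar.IsAbsolutelyIrreducible) (φ : k →+* IsLocalRing.ResidueField A)
    (hres : ρ.residual.IsEquiv (ρbar.baseChangeAlong φ))
    (f : Module.End A ρ.V) (hf : ∀ σ, f * ρ.ρ σ = ρ.ρ σ * f) :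
    ∃ a : A, f = a • (1 : Module.End A ρ.V) :=
  exists_eq_smul_one_of_commute_of_span_eq_top ρ.ρ
    (span_range_eq_top_of_residual_isEquiv ρ ρbar habs φ hres) f hf

/-- A scalar acting as the identity on a free module of rank two is `1`. -/
theorem eq_one_of_smul_one_eq_one {A : Type} [CommRing A] [IsLocalRing A] (ρ : GaloisRepAdic A)
    (c : A) (hc : c • (1 : Module.End A ρ.V) = 1) : c = 1 := by
  let b : Basis (Fin 2) A ρ.V := Module.finBasisOfFinrankEq A ρ.V ρ.finrank_eq
  have h1 : c • b 0 = b 0 := by
    have := congrArg (fun f : Module.End A ρ.V => f (b 0)) hc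
    simpa using this
  have h2 := congrArg (fun v => b.repr v 0) h1
  simpa using h2

/-- (A4) Two equivalences between lifts of an absolutely irreducible residual representation
differ by a unit scalar. -/
theorem equiv_eq_unit_smul {A : Type} [CommRing A] [IsLocalRing A] {ρ ρ₂ : GaloisRepAdic A}
    {k : Type} [Field k] (ρbar : ResidualGaloisRep k)
    (habs : ρbar.IsAbsolutelyIrreducible) (φ : k →+* IsLocalRing.ResidueField A)
    (hres : ρ.residual.IsEquiv (ρbar.baseChangeAlong φ))
    (e e' : GaloisRepAdic.Equiv ρ ρ₂) :
    ∃ u : Aˣ, ∀ x, e'.toLinearEquiv x = u • e.toLinearEquiv x := by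
  -- `f = e⁻¹ ∘ e'` and `f' = e'⁻¹ ∘ e` commute with `ρ`
  let f : Module.End A ρ.V := (e.toLinearEquiv.symm : ρ₂.V →ₗ[A] ρ.V) ∘ₗ (e'.toLinearEquiv : ρ.V →ₗ[A] ρ₂.V)
  let f' : Module.End A ρ.V := (e'.toLinearEquiv.symm : ρ₂.V →ₗ[A] ρ.V) ∘ₗ (e.toLinearEquiv : ρ.V →ₗ[A] ρ₂.V)
  have hf : ∀ σ, f * ρ.ρ σ = ρ.ρ σ * f := by
    intro σ
    ext x
    change e.toLinearEquiv.symm (e'.toLinearEquiv (ρ.ρ σ x)) =
      ρ.ρ σ (e.toLinearEquiv.symm (e'.toLinearEquiv x))
    rw [e'.map_apply]
    exact (e.symm.map_apply σ (e'.toLinearEquiv x))
  have hf' : ∀ σ, f' * ρ.ρ σ = ρ.ρ σ * f' := by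
    intro σ
    ext x
    change e'.toLinearEquiv.symm (e.toLinearEquiv (ρ.ρ σ x)) =
      ρ.ρ σ (e'.toLinearEquiv.symm (e.toLinearEquiv x))
    rw [e.map_apply]
    exact (e'.symm.map_apply σ (e.toLinearEquiv x))
  obtain ⟨a, ha⟩ := exists_eq_smul_one_of_commute ρ ρbar habs φ hres f hf
  obtain ⟨a', ha'⟩ := exists_eq_smul_one_of_commute ρ ρbar habs φ hres f' hf'
  have hff' : f * f' = 1 := by
    ext x
    change e.toLinearEquiv.symm (e'.toLinearEquiv (e'.toLinearEquiv.symm (e.toLinearEquiv x))) = x
    rw [LinearEquiv.apply_symm_apply, LinearEquiv.symm_apply_apply]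
  have haa' : a * a' = 1 := by
    apply eq_one_of_smul_one_eq_one ρ
    calc (a * a') • (1 : Module.End A ρ.V) = (a • 1) * (a' • 1) := by
          rw [smul_mul_smul_comm, mul_one]
      _ = f * f' := by rw [ha, ha']
      _ = 1 := hff'
  refine ⟨⟨a, a', haa', by rw [mul_comm]; exact haa'⟩, fun x => ?_⟩
  have hx : f x = a • x := by rw [ha]; rfl
  have : e'.toLinearEquiv x = e.toLinearEquiv (f x) := by
    change _ = e.toLinearEquiv (e.toLinearEquiv.symm (e'.toLinearEquiv x))
    rw [LinearEquiv.apply_symm_apply]
  rw [this, hx, map_smul]
  rfl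

end Fermat.Agent.S53
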