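/-
S53, piece RIGAPP: the rigidification slice lemma (`Rigid.lean`) applied to matrix
representations (`MatModel.lean`, `Nrm.lean`).
-/
import Fermat.Agent.S53.Rigid
import Fermat.Agent.S53.Nrm
import Fermat.Agent.S53.Positions
import Fermat.Agent.S53.Schur

set_option autoImplicit false
set_option linter.unusedSectionVars false

noncomputable section

namespace Fermat.Agent.S53

open IsLocalRing Matrix

section Slice

variable {𝒪 : Type} [CommRing 𝒪] [IsLocalRing 𝒪]
variable {A : Type} [CommRing A] [IsLocalRing A] [Algebra 𝒪 A] [IsLocalHom (algebraMap 𝒪 A)]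

/-- The slice data over `A` induced by a rigidification datum over `𝒪`, when the residue fields
agree. -/
def RigidDatum.toSlice (D : RigidDatum 𝒪)
    (hbij : Function.Bijective (ResidueField.map (algebraMap 𝒪 A))) :
    Rigid.SliceData A (Fin 2) (Fin 3) where
  a := D.a
  b := D.b
  c j := algebraMap 𝒪 A (D.c j)
  rbar j := (D.rb (D.s j)).map (ResidueField.map (algebraMap 𝒪 A))
  hc j := by
    rw [Matrix.map_apply, ← D.hc j, ResidueField.map_residue]
  hcard := by simp
  hker X hX := by
    set e : ResidueField 𝒪 ≃+* ResidueField A := RingEquiv.ofBijective _ hbij with he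
    have heq : ∀ M : M2 (ResidueField 𝒪),
        M.map (ResidueField.map (algebraMap 𝒪 A)) = (e : ResidueField 𝒪 →+* ResidueField A).mapMatrix M :=
      fun M => rfl
    obtain ⟨z, hz⟩ := D.hker ((e.symm : ResidueField A →+* ResidueField 𝒪).mapMatrix X) (fun j => by
      have h := congrArg (e.symm : ResidueField A →+* ResidueField 𝒪) (hX j)
      rw [map_zero] at h
      have h2 : (e.symm : ResidueField A →+* ResidueField 𝒪)
          ((X * (D.rb (D.s j)).map (ResidueField.map (algebraMap 𝒪 A)) -
            (D.rb (D.s j)).map (ResidueField.map (algebraMap 𝒪 A)) * X) (D.a j) (D.b j)) =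
          ((e.symm : ResidueField A →+* ResidueField 𝒪).mapMatrix
            (X * (D.rb (D.s j)).map (ResidueField.map (algebraMap 𝒪 A)) -
            (D.rb (D.s j)).map (ResidueField.map (algebraMap 𝒪 A)) * X)) (D.a j) (D.b j) := rfl
      rw [h2, map_sub, map_mul, map_mul, heq] at h
      have h3 : (e.symm : ResidueField A →+* ResidueField 𝒪).mapMatrix
          ((e : ResidueField 𝒪 →+* ResidueField A).mapMatrix (D.rb (D.s j))) = D.rb (D.s j) := by
        ext i l
        simp
      rw [h3] at h
      exact h)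
    refine ⟨e z, ?_⟩
    have h4 := congrArg (e : ResidueField 𝒪 →+* ResidueField A).mapMatrix hz
    have h5 : (e : ResidueField 𝒪 →+* ResidueField A).mapMatrix
        ((e.symm : ResidueField A →+* ResidueField 𝒪).mapMatrix X) = X := by
      ext i l
      simp
    rw [h5] at h4
    rw [h4]
    ext i l
    by_cases hil : i = l <;> simp [Matrix.smul_apply, hil]

theorem RigidDatum.toSlice_lifts (D : RigidDatum 𝒪)
    (hbij : Function.Bijective (ResidueField.map (algebraMap 𝒪 A)))
    {r : MatRep A} (hr : r.IsLiftOf D.rb) :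
    (D.toSlice hbij).Lifts fun j => r (D.s j) := by
  intro j
  ext i l
  exact hr (D.s j) i l

theorem RigidDatum.toSlice_normalised (D : RigidDatum 𝒪)
    (hbij : Function.Bijective (ResidueField.map (algebraMap 𝒪 A)))
    {r : MatRep A} : (D.toSlice hbij).Normalised (fun j => r (D.s j)) ↔ r.IsNormalised D :=
  Iff.rfl

/-- Conjugation by a matrix reducing to the identity preserves the lifting property. -/
theorem MatRep.isLiftOf_conj {r : MatRep A} {rb : GQ →* M2 (ResidueField 𝒪)} (hr : r.IsLiftOf rb)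
    (g : (M2 A)ˣ) (hg : (residue A).mapMatrix (g : M2 A) = 1) : (r.conj g).IsLiftOf rb := by
  intro σ i j
  have hginv : (residue A).mapMatrix ((g⁻¹ : (M2 A)ˣ) : M2 A) = 1 := by
    have := congrArg (residue A).mapMatrix (g.inv_mul)
    rw [map_mul, hg, mul_one, map_one] at this
    exact this
  have h1 : residue A (r.conj g σ i j) = ((residue A).mapMatrix (r.conj g σ)) i j := rfl
  rw [h1, MatRep.conj_apply, map_mul, map_mul, hg, hginv, one_mul, mul_one]
  exact hr σ i j

/-- **RIGAPP (ii)**: every lift of `D.rb` over a complete local `𝒪`-algebra with residue field `k`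
is conjugate, by a matrix reducing to the identity, to a normalised lift. -/
theorem exists_conj_isNormalised (D : RigidDatum 𝒪)
    [IsAdicComplete (maximalIdeal A) A]
    (hbij : Function.Bijective (ResidueField.map (algebraMap 𝒪 A)))
    {r : MatRep A} (hr : r.IsLiftOf D.rb) :
    ∃ g : (M2 A)ˣ, (∀ i j, ((g : M2 A) - 1) i j ∈ maximalIdeal A) ∧
      (r.conj g).IsNormalised D ∧ (r.conj g).IsLiftOf D.rb := by
  obtain ⟨g₀, hg₀, hN⟩ :=
    Rigid.SliceData.exists_normalising (D := D.toSlice hbij) (D.toSlice_lifts hbij hr)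
  have hginv : (residue A).mapMatrix ((g₀⁻¹ : (M2 A)ˣ) : M2 A) = 1 := by
    have := congrArg (residue A).mapMatrix (g₀.inv_mul)
    rw [map_mul, hg₀, mul_one, map_one] at this
    exact this
  refine ⟨g₀⁻¹, ?_, ?_, MatRep.isLiftOf_conj hr _ hginv⟩
  · have : Rigid.EntriesIn (maximalIdeal A) (((g₀⁻¹ : (M2 A)ˣ) : M2 A) - 1) := by
      rw [Rigid.entriesIn_maximalIdeal_iff, map_sub, hginv, map_one, sub_self]
    exact this
  · intro j
    have e : (r.conj g₀⁻¹) (D.s j) = Rigid.conjT g₀ (fun j => r (D.s j)) j := by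
      simp only [Rigid.conjT, MatRep.conj_apply, inv_inv]
    show (r.conj g₀⁻¹) (D.s j) (D.a j) (D.b j) = algebraMap 𝒪 A (D.c j)
    rw [e]
    exact hN j

/-- **RIGAPP (iii)**: two normalised lifts of `D.rb` which are conjugate are equal. -/
theorem eq_of_conj_of_isNormalised (D : RigidDatum 𝒪)
    [IsHausdorff (maximalIdeal A) A]
    (hbij : Function.Bijective (ResidueField.map (algebraMap 𝒪 A)))
    {r r' : MatRep A} (hr : r.IsLiftOf D.rb) (hr' : r'.IsLiftOf D.rb)
    (hN : r.IsNormalised D) (hN' : r'.IsNormalised D) (g : (M2 A)ˣ) (h : r' = r.conj g) :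
    r' = r := by
  have hg : ∀ j : Fin 3, (g : M2 A) * r' (D.s j) = r (D.s j) * (g : M2 A) := by
    intro j
    rw [h, MatRep.conj_apply, ← mul_assoc, ← mul_assoc, Units.mul_inv, one_mul]
  obtain ⟨u, hu, -⟩ := Rigid.SliceData.eq_of_intertwiner (D := D.toSlice hbij)
    (D.toSlice_lifts hbij hr') (D.toSlice_lifts hbij hr)
    ((D.toSlice_normalised hbij).mpr hN') ((D.toSlice_normalised hbij).mpr hN) g hg
  rw [h]
  apply MatRep.ext
  intro σ
  have h1 : (g : M2 A) * (r.conj g σ) = r σ * (g : M2 A) := by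
    rw [MatRep.conj_apply, ← mul_assoc, ← mul_assoc, Units.mul_inv, one_mul]
  rw [hu, smul_mul_assoc, one_mul, mul_smul_comm, mul_one] at h1
  have h2 := congrArg (fun M => ((u⁻¹ : Aˣ) : A) • M) h1
  simpa [smul_smul] using h2

/-- Two normalised lifts of `D.rb` whose adic representations are equivalent are equal. -/
theorem eq_of_isEquiv_of_isNormalised (D : RigidDatum 𝒪)
    [IsHausdorff (maximalIdeal A) A]
    (hbij : Function.Bijective (ResidueField.map (algebraMap 𝒪 A)))
    {r r' : MatRep A} (hr : r.IsLiftOf D.rb) (hr' : r'.IsLiftOf D.rb)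
    (hN : r.IsNormalised D) (hN' : r'.IsNormalised D) (h : r'.toAdic.IsEquiv r.toAdic) :
    r' = r := by
  obtain ⟨M, hM⟩ := MatRep.exists_conj_of_isEquiv h
  exact eq_of_conj_of_isNormalised D hbij hr hr' hN hN' M hM

end Slice

section TestAlgVersions

variable {𝒪 : Type} [CommRing 𝒪] [IsLocalRing 𝒪]

/-- RIGAPP (ii) over an Artinian test algebra. -/
theorem TestAlg.exists_conj_isNormalised (D : RigidDatum 𝒪) (A : TestAlg 𝒪) {r : MatRep A}
    (hr : r.IsLiftOf D.rb) :
    ∃ g : (M2 A)ˣ, (∀ i j, ((g : M2 A) - 1) i j ∈ maximalIdeal A) ∧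
      (r.conj g).IsNormalised D ∧ (r.conj g).IsLiftOf D.rb :=
  Fermat.Agent.S53.exists_conj_isNormalised D A.residueMap_bijective hr

/-- RIGAPP (iii) over an Artinian test algebra. -/
theorem TestAlg.eq_of_isEquiv_of_isNormalised (D : RigidDatum 𝒪) (A : TestAlg 𝒪)
    {r r' : MatRep A} (hr : r.IsLiftOf D.rb) (hr' : r'.IsLiftOf D.rb)
    (hN : r.IsNormalised D) (hN' : r'.IsNormalised D) (h : r'.toAdic.IsEquiv r.toAdic) :
    r' = r :=
  Fermat.Agent.S53.eq_of_isEquiv_of_isNormalised D A.residueMap_bijective hr hr' hN hN' h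

end TestAlgVersions

section Datum

variable {𝒪 : Type} [CommRing 𝒪] [IsLocalRing 𝒪]

/-- The matrices of an absolutely irreducible residual representation span the matrix algebra. -/
theorem span_range_ofResidual_eq_top (ρbar : ResidualGaloisRep (ResidueField 𝒪))
    (habs : ρbar.IsAbsolutelyIrreducible) (b : Module.Basis (Fin 2) (ResidueField 𝒪) ρbar.V) :
    Submodule.span (ResidueField 𝒪) (Set.range (MatRep.ofResidual ρbar b).toHom) = ⊤ := by
  have h := residual_span_range_eq_top ρbar habs
  set e : Module.End (ResidueField 𝒪) ρbar.V ≃ₐ[ResidueField 𝒪] M2 (ResidueField 𝒪) :=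
    LinearMap.toMatrixAlgEquiv b with he
  have hrange : Set.range (MatRep.ofResidual ρbar b).toHom = e '' Set.range ρbar.ρ := by
    ext M
    constructor
    · rintro ⟨σ, rfl⟩
      exact ⟨ρbar.ρ σ, ⟨σ, rfl⟩, rfl⟩
    · rintro ⟨_, ⟨σ, rfl⟩, rfl⟩
      exact ⟨σ, rfl⟩
  rw [hrange]
  have h2 : Submodule.span (ResidueField 𝒪) (e '' Set.range ρbar.ρ) =
      Submodule.map e.toLinearEquiv.toLinearMap
        (Submodule.span (ResidueField 𝒪) (Set.range ρbar.ρ)) := by
    rw [Submodule.map_span]
    rfl
  rw [h2, h, Submodule.map_top, LinearMap.range_eq_top]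
  exact e.toLinearEquiv.surjective

/-- **RIGAPP (i)**: an absolutely irreducible residual representation admits a rigidification
datum whose matrix form `D.rb` is a matrix model of it. -/
theorem exists_rigidDatum (ρbar : ResidualGaloisRep (ResidueField 𝒪))
    (habs : ρbar.IsAbsolutelyIrreducible) :
    ∃ (D : RigidDatum 𝒪) (rbM : MatRep (ResidueField 𝒪)),
      rbM.toHom = D.rb ∧ rbM.toResidual.IsEquiv ρbar := by
  classical
  set b : Module.Basis (Fin 2) (ResidueField 𝒪) ρbar.V :=
    Module.finBasisOfFinrankEq (ResidueField 𝒪) ρbar.V ρbar.finrank_eq with hb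
  set rbM : MatRep (ResidueField 𝒪) := MatRep.ofResidual ρbar b with hrbM
  have hspan := span_range_ofResidual_eq_top ρbar habs b
  have hcent := centralizer_of_span (fun σ => rbM.toHom σ) hspan
  obtain ⟨s, a, b', hpos⟩ := exists_positions (fun σ => rbM.toHom σ) hcent
  have h3 : 3 = Fintype.card (Fin 2) ^ 2 - 1 := by simp
  have hlift : ∀ j : Fin 3, ∃ c : 𝒪, residue 𝒪 c =
      rbM.toHom (s (Fin.cast h3 j)) (a (Fin.cast h3 j)) (b' (Fin.cast h3 j)) :=
    fun j => residue_surjective _
  choose c hc using hlift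
  refine ⟨{ rb := rbM.toHom
            s := fun j => s (Fin.cast h3 j)
            a := fun j => a (Fin.cast h3 j)
            b := fun j => b' (Fin.cast h3 j)
            c := c
            hc := hc
            hker := fun X hX => hpos X (fun j => by
              have := hX (Fin.cast h3.symm j)
              simpa using this)
            level := ?_ }, rbM, rfl, MatRep.isEquiv_ofResidual ρbar b⟩
  obtain ⟨L, hL, h1⟩ := ρbar.factorsThroughFiniteLevel
  refine ⟨L, hL, fun σ hσ => ?_⟩
  show MatRep.ofResidual ρbar b σ = 1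
  rw [MatRep.ofResidual_apply, h1 σ hσ]
  exact LinearMap.toMatrix_one b

end Datum

end Fermat.Agent.S53
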