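import Mathlib
import Fermat.Prelude.Def_GaloisRep_DeformationCondition

set_option autoImplicit false

/-!
# S53 infrastructure: bundled Artinian test algebras

`TestAlg 𝒪` bundles a type with its `CommRing`, `IsLocalRing`, `Algebra 𝒪` structures and a proof of
`GaloisRep.IsArtinianTestAlgebra 𝒪`.
-/

namespace Fermat.Agent.S53

open IsLocalRing

/-- Any ring hom out of a local ring with nilpotent maximal ideal into a nontrivial ring is local. -/
theorem isLocalHom_of_isNilpotent_maximalIdeal {A B : Type*} [CommRing A] [IsLocalRing A]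
    [CommRing B] [Nontrivial B] (hA : IsNilpotent (maximalIdeal A)) (f : A →+* B) :
    IsLocalHom f := by
  refine ⟨fun a ha => ?_⟩
  by_contra hna
  have hmem : a ∈ maximalIdeal A := (mem_maximalIdeal a).mpr hna
  obtain ⟨n, hn⟩ := hA
  have : a ^ n = 0 := by
    have h1 : a ^ n ∈ maximalIdeal A ^ n := Ideal.pow_mem_pow hmem n
    rw [hn] at h1
    simpa using h1
  have h2 : f a ^ n = 0 := by rw [← map_pow, this, map_zero]
  have h3 : IsUnit (f a ^ n) := ha.pow n
  rw [h2] at h3
  exact not_isUnit_zero h3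

theorem isNilpotent_maximalIdeal_of_isArtinianRing (A : Type*) [CommRing A] [IsLocalRing A]
    [IsArtinianRing A] : IsNilpotent (maximalIdeal A) := by
  have h := IsArtinianRing.isNilpotent_jacobson_bot (R := A)
  rwa [IsLocalRing.jacobson_eq_maximalIdeal ⊥ bot_ne_top] at h

theorem finite_of_isFiniteLength_of_finite_residueField {A : Type*} [CommRing A] [IsLocalRing A]
    [Finite (ResidueField A)] (M : Type*) [AddCommGroup M] [Module A M]
    (h : IsFiniteLength A M) : Finite M := by
  induction h with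
  | of_subsingleton => infer_instance
  | @of_simple_quotient M _ _ N hs _ ih =>
    obtain ⟨I, hI, ⟨e⟩⟩ := isSimpleModule_iff_quot_maximal.mp hs
    have hIm : I = maximalIdeal A := IsLocalRing.eq_maximalIdeal hI
    subst hIm
    have : Finite (M ⧸ N) := Finite.of_equiv (ResidueField A) e.symm.toEquiv
    have e2 : M ≃ (M ⧸ N.toAddSubgroup) × N.toAddSubgroup :=
      AddSubgroup.addGroupEquivQuotientProdAddSubgroup
    have : Finite (M ⧸ N.toAddSubgroup) := ‹Finite (M ⧸ N)›
    have : Finite N.toAddSubgroup := ih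
    exact Finite.of_equiv _ e2.symm

/-- An Artinian local ring with finite residue field is finite. -/
theorem finite_of_artinianLocal_of_finite_residueField (A : Type*) [CommRing A] [IsLocalRing A]
    [IsArtinianRing A] [Finite (ResidueField A)] : Finite A :=
  finite_of_isFiniteLength_of_finite_residueField A
    ((isFiniteLength_iff_isNoetherian_isArtinian (R := A) (M := A)).mpr
      ⟨inferInstance, inferInstance⟩)

variable (𝒪 : Type) [CommRing 𝒪] [IsLocalRing 𝒪]

/-- Bundled Artinian test algebra over `𝒪`. -/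
structure TestAlg : Type 1 where
  carrier : Type
  [commRing : CommRing carrier]
  [isLocalRing : IsLocalRing carrier]
  [algebra : Algebra 𝒪 carrier]
  isTest : GaloisRep.IsArtinianTestAlgebra 𝒪 carrier

attribute [instance] TestAlg.commRing TestAlg.isLocalRing TestAlg.algebra

namespace TestAlg

instance : CoeSort (TestAlg 𝒪) Type := ⟨TestAlg.carrier⟩

variable {𝒪}
variable (A B C : TestAlg 𝒪)

instance : IsArtinianRing A := A.isTest.isArtinian

instance : IsLocalHom (algebraMap 𝒪 A) := A.isTest.isLocalHom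

theorem isNilpotent_maximalIdeal : IsNilpotent (maximalIdeal A) :=
  isNilpotent_maximalIdeal_of_isArtinianRing A

variable {A B C}

/-- Every `𝒪`-algebra hom between test algebras is a local hom. -/
theorem isLocalHom_algHom (f : A →ₐ[𝒪] B) : IsLocalHom (f : A →+* B) :=
  isLocalHom_of_isNilpotent_maximalIdeal A.isNilpotent_maximalIdeal _

instance (f : A →ₐ[𝒪] B) : IsLocalHom (f : A →+* B) := isLocalHom_algHom f

instance (f : A →ₐ[𝒪] B) : IsLocalHom f := ⟨(isLocalHom_algHom f).map_nonunit⟩

theorem map_mem_maximalIdeal (f : A →ₐ[𝒪] B) {a : A} (ha : a ∈ maximalIdeal A) :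
    f a ∈ maximalIdeal B := by
  rw [mem_maximalIdeal] at ha ⊢
  exact fun h => ha ((isLocalHom_algHom f).map_nonunit a h)

/-! ### The residue field -/

variable (A)

theorem residueMap_bijective :
    Function.Bijective (ResidueField.map (algebraMap 𝒪 A)) := by
  refine ⟨RingHom.injective _, fun y => ?_⟩
  obtain ⟨o, ho⟩ := A.isTest.residue_surjective y
  exact ⟨residue 𝒪 o, by rw [ResidueField.map_residue]; exact ho⟩

/-- The canonical isomorphism `k ≃ ResidueField A`. -/
noncomputable def residueEquiv : ResidueField 𝒪 ≃+* ResidueField A :=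
  RingEquiv.ofBijective _ (residueMap_bijective A)

@[simp] theorem residueEquiv_apply (x : ResidueField 𝒪) :
    residueEquiv A x = ResidueField.map (algebraMap 𝒪 A) x := rfl

/-- The canonical augmentation `A → k`, as an `𝒪`-algebra hom. -/
noncomputable def toK : A →ₐ[𝒪] ResidueField 𝒪 where
  toRingHom := ((residueEquiv A).symm : ResidueField A →+* ResidueField 𝒪).comp (residue A)
  commutes' o := by
    change (residueEquiv A).symm (residue A (algebraMap 𝒪 A o)) = algebraMap 𝒪 (ResidueField 𝒪) o
    rw [RingEquiv.symm_apply_eq, residueEquiv_apply, ResidueField.algebraMap_eq,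
      ResidueField.map_residue]

theorem toK_apply (a : A) : toK A a = (residueEquiv A).symm (residue A a) := rfl

theorem residueEquiv_toK (a : A) : residueEquiv A (toK A a) = residue A a := by
  rw [toK_apply, RingEquiv.apply_symm_apply]

theorem toK_eq_zero_iff (a : A) : toK A a = 0 ↔ a ∈ maximalIdeal A := by
  rw [toK_apply, map_eq_zero_iff _ (residueEquiv A).symm.injective, residue_eq_zero_iff]

theorem toK_surjective : Function.Surjective (toK A) := by
  intro x
  obtain ⟨a, ha⟩ := residue_surjective (residueEquiv A x)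
  exact ⟨a, by rw [toK_apply, ha, RingEquiv.symm_apply_apply]⟩

theorem toK_algebraMap (o : 𝒪) : toK A (algebraMap 𝒪 A o) = residue 𝒪 o := by
  rw [AlgHom.commutes, ResidueField.algebraMap_eq]

/-- Every element of a test algebra is congruent to an element of `𝒪` modulo the maximal ideal. -/
theorem exists_algebraMap_sub_mem (a : A) : ∃ o : 𝒪, a - algebraMap 𝒪 A o ∈ maximalIdeal A := by
  obtain ⟨o, ho⟩ := residue_surjective (toK A a)
  refine ⟨o, ?_⟩
  rw [← toK_eq_zero_iff, map_sub, toK_algebraMap, ho, sub_self]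

variable {A}

/-- Any `𝒪`-algebra hom from a test algebra to `k` is the canonical augmentation. -/
theorem algHom_toK_unique (φ : A →ₐ[𝒪] ResidueField 𝒪) : φ = toK A := by
  ext a
  obtain ⟨o, ho⟩ := exists_algebraMap_sub_mem A a
  have h1 : φ (a - algebraMap 𝒪 A o) = 0 := by
    obtain ⟨n, hn⟩ := A.isNilpotent_maximalIdeal
    have h2 : (a - algebraMap 𝒪 A o) ^ n = 0 := by
      have := Ideal.pow_mem_pow ho n
      rw [hn] at this
      simpa using this
    have h3 : φ (a - algebraMap 𝒪 A o) ^ n = 0 := by rw [← map_pow, h2, map_zero]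
    exact pow_eq_zero_iff (M₀ := ResidueField 𝒪) (n := n) (by
      rintro rfl
      simp at h3) |>.mp h3
  have h2 : toK A (a - algebraMap 𝒪 A o) = 0 := (toK_eq_zero_iff A _).mpr ho
  rw [map_sub, sub_eq_zero] at h1 h2
  rw [h1, h2, AlgHom.commutes, AlgHom.commutes]

theorem toK_comp (f : A →ₐ[𝒪] B) : (toK B).comp f = toK A := algHom_toK_unique _

@[simp] theorem toK_map (f : A →ₐ[𝒪] B) (a : A) : toK B (f a) = toK A a :=
  congrArg (fun g : A →ₐ[𝒪] ResidueField 𝒪 => g a) (toK_comp f)

/-! ### The residue field as a test algebra -/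

variable (𝒪) in
/-- The residue field `k` of `𝒪`, as a test algebra. -/
noncomputable def resField : TestAlg 𝒪 where
  carrier := ResidueField 𝒪
  isTest :=
    { isLocalHom := by
        rw [ResidueField.algebraMap_eq]; infer_instance
      residue_surjective := by
        rw [ResidueField.algebraMap_eq]
        exact residue_surjective.comp residue_surjective
      isArtinian := inferInstance }

/-! ### Quotients -/

section Quot

variable {S : Type} [CommRing S] [IsLocalRing S] [Algebra 𝒪 S]

/-- A proper quotient of a local ring is local. -/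
theorem isLocalRing_quotient (J : Ideal S) (hJ : J ≠ ⊤) : IsLocalRing (S ⧸ J) :=
  haveI : Nontrivial (S ⧸ J) := Ideal.Quotient.nontrivial_iff.mpr hJ
  IsLocalRing.of_surjective' (Ideal.Quotient.mk J) Ideal.Quotient.mk_surjective

theorem isArtinianTestAlgebra_quotient [IsNoetherianRing S]
    (hloc : IsLocalHom (algebraMap 𝒪 S))
    (hres : Function.Surjective (residue S ∘ algebraMap 𝒪 S))
    (J : Ideal S) (hJ : J ≠ ⊤) (n : ℕ) (hn : maximalIdeal S ^ n ≤ J) :
    letI := isLocalRing_quotient J hJ
    GaloisRep.IsArtinianTestAlgebra 𝒪 (S ⧸ J) := by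
  letI := isLocalRing_quotient J hJ
  haveI hmk : IsLocalHom (Ideal.Quotient.mk J) :=
    IsLocalHom.of_surjective _ Ideal.Quotient.mk_surjective
  refine ⟨?_, ?_, ?_⟩
  · have : algebraMap 𝒪 (S ⧸ J) = (Ideal.Quotient.mk J).comp (algebraMap 𝒪 S) := rfl
    rw [this]
    exact RingHom.isLocalHom_comp _ _
  · intro y
    obtain ⟨x, rfl⟩ := residue_surjective y
    obtain ⟨s, rfl⟩ := Ideal.Quotient.mk_surjective x
    obtain ⟨o, ho⟩ := hres (residue S s)
    refine ⟨o, ?_⟩
    have h1 : residue S (algebraMap 𝒪 S o) = residue S s := ho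
    have h2 : algebraMap 𝒪 S o - s ∈ maximalIdeal S := by
      rw [← residue_eq_zero_iff, map_sub, h1, sub_self]
    have h3 : Ideal.Quotient.mk J (algebraMap 𝒪 S o - s) ∈ maximalIdeal (S ⧸ J) :=
      map_nonunit (Ideal.Quotient.mk J) _ h2
    change residue (S ⧸ J) (Ideal.Quotient.mk J (algebraMap 𝒪 S o)) =
      residue (S ⧸ J) (Ideal.Quotient.mk J s)
    rw [← sub_eq_zero, ← map_sub, ← map_sub, residue_eq_zero_iff]
    exact h3
  · rw [isArtinianRing_iff_isNilpotent_maximalIdeal]
    refine ⟨n, ?_⟩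
    rw [← map_maximalIdeal_of_surjective (Ideal.Quotient.mk J) Ideal.Quotient.mk_surjective,
      ← Ideal.map_pow, Ideal.zero_eq_bot, Ideal.map_eq_bot_iff_le_ker, Ideal.mk_ker]
    exact hn

/-- The quotient of a Noetherian local `𝒪`-algebra (local structure map, residue field `k`)
by a proper ideal containing a power of the maximal ideal, as a test algebra. -/
noncomputable def ofQuot [IsNoetherianRing S]
    (hloc : IsLocalHom (algebraMap 𝒪 S))
    (hres : Function.Surjective (residue S ∘ algebraMap 𝒪 S))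
    (J : Ideal S) (hJ : J ≠ ⊤) (hn : ∃ n : ℕ, maximalIdeal S ^ n ≤ J) : TestAlg 𝒪 :=
  letI := isLocalRing_quotient J hJ
  { carrier := S ⧸ J
    isTest := isArtinianTestAlgebra_quotient hloc hres J hJ hn.choose hn.choose_spec }

end Quot

/-! ### Finiteness -/

section Finite

variable [Finite (ResidueField 𝒪)]

instance finite_residueField (A : TestAlg 𝒪) : Finite (ResidueField A) :=
  Finite.of_equiv _ (residueEquiv A).toEquiv

instance finite (A : TestAlg 𝒪) : Finite A :=
  finite_of_artinianLocal_of_finite_residueField A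

end Finite

/-! ### Fibre products -/

section FibreProd

variable {A B C : TestAlg 𝒪} (f : A →ₐ[𝒪] C) (g : B →ₐ[𝒪] C)

/-- The fibre product `A ×_C B` as a subalgebra of `A × B`. -/
def fibreProdSubalg : Subalgebra 𝒪 (A × B) :=
  AlgHom.equalizer (f.comp (AlgHom.fst 𝒪 A B)) (g.comp (AlgHom.snd 𝒪 A B))

theorem mem_fibreProdSubalg {x : A × B} : x ∈ fibreProdSubalg f g ↔ f x.1 = g x.2 := Iff.rfl

/-- First projection from the fibre product. -/
def fibreProdFst : fibreProdSubalg f g →ₐ[𝒪] A :=
  (AlgHom.fst 𝒪 A B).comp (fibreProdSubalg f g).val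

/-- Second projection from the fibre product. -/
def fibreProdSnd : fibreProdSubalg f g →ₐ[𝒪] B :=
  (AlgHom.snd 𝒪 A B).comp (fibreProdSubalg f g).val

theorem fibreProd_comm (x : fibreProdSubalg f g) :
    f (fibreProdFst f g x) = g (fibreProdSnd f g x) := x.2

theorem isUnit_fibreProd_of_isUnit_fst (x : fibreProdSubalg f g)
    (hx : IsUnit (fibreProdFst f g x)) : IsUnit x := by
  obtain ⟨⟨a, b⟩, hab⟩ := x
  change IsUnit a at hx
  have hab' : f a = g b := hab
  have hb : IsUnit b := by
    have h1 : IsUnit (g b) := hab' ▸ hx.map f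
    exact (isLocalHom_algHom g).map_nonunit b h1
  obtain ⟨u, rfl⟩ := hx
  obtain ⟨v, rfl⟩ := hb
  have hinv : f (↑u⁻¹ : A) = g (↑v⁻¹ : B) := by
    have h1 : f (↑u⁻¹ : A) * f (u : A) = 1 := by rw [← map_mul, Units.inv_mul, map_one]
    have h2 : g (↑v⁻¹ : B) * g (v : B) = 1 := by rw [← map_mul, Units.inv_mul, map_one]
    rw [hab'] at h1
    calc f (↑u⁻¹ : A) = f ↑u⁻¹ * (g ↑v * g ↑v⁻¹) := by
          rw [← map_mul, Units.mul_inv, map_one, mul_one]
      _ = (f ↑u⁻¹ * g ↑v) * g ↑v⁻¹ := by ring
      _ = g ↑v⁻¹ := by rw [h1, one_mul]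
  refine isUnit_iff_exists_inv.mpr ⟨⟨((↑u⁻¹ : A), (↑v⁻¹ : B)), hinv⟩, ?_⟩
  apply Subtype.ext
  change ((u : A), (v : B)) * ((↑u⁻¹ : A), (↑v⁻¹ : B)) = 1
  rw [Prod.mk_mul_mk, Units.mul_inv, Units.mul_inv]
  rfl

instance : Nontrivial (fibreProdSubalg f g) :=
  ⟨⟨0, 1, fun h => by
    have := congrArg (fun x : fibreProdSubalg f g => (x : A × B).1) h
    exact zero_ne_one this⟩⟩

instance fibreProd_isLocalHom_fst : IsLocalHom (fibreProdFst f g : fibreProdSubalg f g →+* A) :=
  ⟨fun x hx => isUnit_fibreProd_of_isUnit_fst f g x hx⟩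

instance fibreProd_isLocalRing : IsLocalRing (fibreProdSubalg f g) :=
  RingHom.domain_isLocalRing (fibreProdFst f g : fibreProdSubalg f g →+* A)

theorem fibreProd_isArtinianTestAlgebra [Finite (ResidueField 𝒪)] :
    GaloisRep.IsArtinianTestAlgebra 𝒪 (fibreProdSubalg f g) := by
  refine ⟨?_, ?_, ?_⟩
  · have h : ((fibreProdFst f g : fibreProdSubalg f g →+* A).comp
        (algebraMap 𝒪 (fibreProdSubalg f g))) = algebraMap 𝒪 A := by
      ext o; rfl
    haveI : IsLocalHom ((fibreProdFst f g : fibreProdSubalg f g →+* A).comp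
        (algebraMap 𝒪 (fibreProdSubalg f g))) := by
      rw [h]; infer_instance
    exact isLocalHom_of_comp _ (fibreProdFst f g : fibreProdSubalg f g →+* A)
  · intro y
    obtain ⟨x, rfl⟩ := residue_surjective y
    obtain ⟨o, ho⟩ := exists_algebraMap_sub_mem A (fibreProdFst f g x)
    refine ⟨o, ?_⟩
    change residue _ (algebraMap 𝒪 (fibreProdSubalg f g) o) = residue _ x
    rw [← sub_eq_zero, ← map_sub, residue_eq_zero_iff, mem_maximalIdeal, mem_nonunits_iff]
    intro hu
    have h1 : IsUnit (fibreProdFst f g (algebraMap 𝒪 (fibreProdSubalg f g) o - x)) :=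
      hu.map (fibreProdFst f g)
    rw [map_sub, AlgHom.commutes] at h1
    have h2 : algebraMap 𝒪 A o - fibreProdFst f g x ∈ maximalIdeal A := by
      have := neg_mem ho
      rwa [neg_sub] at this
    exact (mem_maximalIdeal _).mp h2 h1
  · haveI : Finite (fibreProdSubalg f g) :=
      Finite.of_injective (fun x => (x : A × B)) Subtype.val_injective
    infer_instance

/-- The fibre product of test algebras, as a test algebra. -/
def fibreProd [Finite (ResidueField 𝒪)] : TestAlg 𝒪 where
  carrier := fibreProdSubalg f g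
  isTest := fibreProd_isArtinianTestAlgebra f g

/-- The map into the fibre product induced by a compatible pair of maps. -/
def fibreProdLift {S : Type} [CommRing S] [Algebra 𝒪 S] (u : S →ₐ[𝒪] A) (v : S →ₐ[𝒪] B)
    (h : f.comp u = g.comp v) : S →ₐ[𝒪] fibreProdSubalg f g :=
  AlgHom.codRestrict (AlgHom.prod u v) (fibreProdSubalg f g) fun x => by
    rw [mem_fibreProdSubalg]
    exact congrArg (fun w : S →ₐ[𝒪] C => w x) h

@[simp] theorem fibreProdFst_lift {S : Type} [CommRing S] [Algebra 𝒪 S] (u : S →ₐ[𝒪] A)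
    (v : S →ₐ[𝒪] B) (h : f.comp u = g.comp v) (x : S) :
    fibreProdFst f g (fibreProdLift f g u v h x) = u x := rfl

@[simp] theorem fibreProdSnd_lift {S : Type} [CommRing S] [Algebra 𝒪 S] (u : S →ₐ[𝒪] A)
    (v : S →ₐ[𝒪] B) (h : f.comp u = g.comp v) (x : S) :
    fibreProdSnd f g (fibreProdLift f g u v h x) = v x := rfl

theorem fibreProd_ext {x y : fibreProdSubalg f g} (h1 : fibreProdFst f g x = fibreProdFst f g y)
    (h2 : fibreProdSnd f g x = fibreProdSnd f g y) : x = y :=
  Subtype.ext (Prod.ext h1 h2)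

theorem fibreProd_exists (a : A) (b : B) (h : f a = g b) :
    ∃ x : fibreProdSubalg f g, fibreProdFst f g x = a ∧ fibreProdSnd f g x = b :=
  ⟨⟨(a, b), h⟩, rfl, rfl⟩

end FibreProd

/-! ### Dual numbers -/

section DualNumber

variable (𝒪)

/-- The `𝒪`-algebra structure on `k[ε]` used by the prelude's `TangentFinite`. -/
@[reducible] noncomputable def dualNumberAlgebra : Algebra 𝒪 (DualNumber (ResidueField 𝒪)) :=
  ((algebraMap (ResidueField 𝒪) (DualNumber (ResidueField 𝒪))).comp
      (algebraMap 𝒪 (ResidueField 𝒪))).toAlgebra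

theorem dualNumber_isArtinianTestAlgebra :
    letI := dualNumberAlgebra 𝒪
    GaloisRep.IsArtinianTestAlgebra 𝒪 (DualNumber (ResidueField 𝒪)) := by
  letI := dualNumberAlgebra 𝒪
  refine ⟨?_, ?_, ?_⟩
  · have : algebraMap 𝒪 (DualNumber (ResidueField 𝒪)) =
        (algebraMap (ResidueField 𝒪) (DualNumber (ResidueField 𝒪))).comp
          (algebraMap 𝒪 (ResidueField 𝒪)) := rfl
    rw [this, ResidueField.algebraMap_eq]
    exact RingHom.isLocalHom_comp _ _
  · intro y
    obtain ⟨x, rfl⟩ := residue_surjective y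
    obtain ⟨o, ho⟩ := residue_surjective (TrivSqZeroExt.fst x)
    refine ⟨o, ?_⟩
    change residue _ (algebraMap 𝒪 (DualNumber (ResidueField 𝒪)) o) = residue _ x
    rw [← sub_eq_zero, ← map_sub, residue_eq_zero_iff, mem_maximalIdeal, mem_nonunits_iff,
      TrivSqZeroExt.isUnit_iff_isUnit_fst]
    have : (algebraMap 𝒪 (DualNumber (ResidueField 𝒪)) o - x).fst = 0 := by
      change (TrivSqZeroExt.inl (residue 𝒪 o) - x).fst = 0
      rw [TrivSqZeroExt.fst_sub, TrivSqZeroExt.fst_inl, ho, sub_self]
    rw [this]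
    exact not_isUnit_zero
  · haveI : Module.Finite (ResidueField 𝒪) (DualNumber (ResidueField 𝒪)) :=
      inferInstanceAs (Module.Finite (ResidueField 𝒪) (ResidueField 𝒪 × ResidueField 𝒪))
    exact IsArtinianRing.of_finite (ResidueField 𝒪) (DualNumber (ResidueField 𝒪))

/-- The dual numbers `k[ε]` as a test algebra (with the prelude's algebra structure). -/
noncomputable def dualNumber : TestAlg 𝒪 :=
  letI := dualNumberAlgebra 𝒪
  { carrier := DualNumber (ResidueField 𝒪)
    isTest := dualNumber_isArtinianTestAlgebra 𝒪 }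


end DualNumber

end TestAlg

end Fermat.Agent.S53
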