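import Mathlib
import Fermat.Prelude.Def_GaloisRep_DeformationCondition
import Fermat.Agent.S53.TestAlg

set_option autoImplicit false
set_option linter.style.haveILetI false
set_option linter.unusedSectionVars false

namespace Fermat.Agent.S53.Tangent

open IsLocalRing TrivSqZeroExt

/-! ### Square-zero augmented algebras over a field -/

section SqZero

variable {k : Type} [Field k] {B : Type} [CommRing B] [Algebra k B]

/-- `𝔪` is a square-zero augmentation ideal of the `k`-algebra `B`. -/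
structure IsSqZeroAug (𝔪 : Ideal B) : Prop where
  sq_zero : ∀ x ∈ 𝔪, ∀ y ∈ 𝔪, x * y = 0
  aug : ∀ b : B, ∃ c : k, b - algebraMap k B c ∈ 𝔪
  ne_top : 𝔪 ≠ ⊤

namespace IsSqZeroAug

variable {𝔪 : Ideal B} (h : IsSqZeroAug (k := k) 𝔪)

include h in
theorem algebraMap_mem_iff (c : k) : algebraMap k B c ∈ 𝔪 ↔ c = 0 := by
  constructor
  · intro hc
    by_contra hne
    apply h.ne_top
    rw [Ideal.eq_top_iff_one]
    have : (1 : B) = algebraMap k B c⁻¹ * algebraMap k B c := by
      rw [← map_mul, inv_mul_cancel₀ hne, map_one]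
    rw [this]
    exact 𝔪.mul_mem_left _ hc
  · rintro rfl
    rw [map_zero]
    exact 𝔪.zero_mem

/-- The retraction `B → k`. -/
noncomputable def retr (b : B) : k := Classical.choose (h.aug b)

theorem sub_retr_mem (b : B) : b - algebraMap k B (h.retr b) ∈ 𝔪 :=
  Classical.choose_spec (h.aug b)

theorem retr_eq_of_mem {b : B} {c : k} (hc : b - algebraMap k B c ∈ 𝔪) : h.retr b = c := by
  have h1 := h.sub_retr_mem b
  have h2 : algebraMap k B (h.retr b - c) ∈ 𝔪 := by
    have : algebraMap k B (h.retr b - c) = (b - algebraMap k B c) - (b - algebraMap k B (h.retr b)) := by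
      rw [map_sub]; ring
    rw [this]
    exact 𝔪.sub_mem hc h1
  exact sub_eq_zero.mp ((h.algebraMap_mem_iff _).mp h2)

theorem retr_algebraMap (c : k) : h.retr (algebraMap k B c) = c :=
  h.retr_eq_of_mem (by rw [sub_self]; exact 𝔪.zero_mem)

theorem retr_add (a b : B) : h.retr (a + b) = h.retr a + h.retr b :=
  h.retr_eq_of_mem (by
    have : a + b - algebraMap k B (h.retr a + h.retr b) =
        (a - algebraMap k B (h.retr a)) + (b - algebraMap k B (h.retr b)) := by
      rw [map_add]; ring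
    rw [this]
    exact 𝔪.add_mem (h.sub_retr_mem a) (h.sub_retr_mem b))

theorem retr_mul (a b : B) : h.retr (a * b) = h.retr a * h.retr b :=
  h.retr_eq_of_mem (by
    have : a * b - algebraMap k B (h.retr a * h.retr b) =
        (a - algebraMap k B (h.retr a)) * b + algebraMap k B (h.retr a) * (b - algebraMap k B (h.retr b)) := by
      rw [map_mul]; ring
    rw [this]
    exact 𝔪.add_mem (𝔪.mul_mem_right _ (h.sub_retr_mem a)) (𝔪.mul_mem_left _ (h.sub_retr_mem b)))

theorem retr_eq_zero_of_mem {b : B} (hb : b ∈ 𝔪) : h.retr b = 0 :=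
  h.retr_eq_of_mem (by rw [map_zero, sub_zero]; exact hb)

/-- The `𝔪`-part of an element. -/
noncomputable def part (b : B) : 𝔪.restrictScalars k :=
  ⟨b - algebraMap k B (h.retr b), h.sub_retr_mem b⟩

theorem part_add (a b : B) : h.part (a + b) = h.part a + h.part b := by
  apply Subtype.ext
  show a + b - algebraMap k B (h.retr (a + b)) =
    (a - algebraMap k B (h.retr a)) + (b - algebraMap k B (h.retr b))
  rw [h.retr_add, map_add]; ring

theorem part_mul (a b : B) :
    h.part (a * b) = h.retr a • h.part b + h.retr b • h.part a := by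
  apply Subtype.ext
  show a * b - algebraMap k B (h.retr (a * b)) =
    h.retr a • (b - algebraMap k B (h.retr b)) + h.retr b • (a - algebraMap k B (h.retr a))
  rw [h.retr_mul, map_mul, Algebra.smul_def, Algebra.smul_def]
  have hz := h.sq_zero _ (h.sub_retr_mem a) _ (h.sub_retr_mem b)
  have : a * b - algebraMap k B (h.retr a) * algebraMap k B (h.retr b) =
      (a - algebraMap k B (h.retr a)) * (b - algebraMap k B (h.retr b)) +
      (algebraMap k B (h.retr a) * (b - algebraMap k B (h.retr b)) +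
        algebraMap k B (h.retr b) * (a - algebraMap k B (h.retr a))) := by ring
  rw [this, hz, zero_add]

theorem part_algebraMap (c : k) : h.part (algebraMap k B c) = 0 := by
  apply Subtype.ext
  show algebraMap k B c - algebraMap k B (h.retr (algebraMap k B c)) = 0
  rw [h.retr_algebraMap, sub_self]

theorem part_of_mem {b : B} (hb : b ∈ 𝔪) : (h.part b : B) = b := by
  show b - algebraMap k B (h.retr b) = b
  rw [h.retr_eq_zero_of_mem hb, map_zero, sub_zero]

/-- The algebra hom `B → k[ε]` attached to a functional on `𝔪`. -/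
noncomputable def toDual (D : 𝔪.restrictScalars k →ₗ[k] k) : B →ₐ[k] DualNumber k where
  toFun b := inl (h.retr b) + inr (D (h.part b))
  map_one' := by
    have h1 : h.retr (1 : B) = 1 := by
      have := h.retr_algebraMap 1
      rwa [map_one] at this
    have h2 : h.part (1 : B) = 0 := by
      have := h.part_algebraMap 1
      rwa [map_one] at this
    rw [h1, h2, map_zero, inr_zero, add_zero, inl_one]
  map_mul' a b := by
    apply TrivSqZeroExt.ext
    · simp [h.retr_mul]
    · simp only [snd_add, snd_inl, snd_inr, zero_add, snd_mul, fst_add, fst_inl, fst_inr, add_zero,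
        h.part_mul, map_add, map_smul, smul_eq_mul, MulOpposite.smul_eq_mul_unop,
        MulOpposite.unop_op]
      ring
  map_zero' := by
    have h1 : h.retr (0 : B) = 0 := by
      have := h.retr_algebraMap 0
      rwa [map_zero] at this
    have h2 : h.part (0 : B) = 0 := by
      have := h.part_algebraMap 0
      rwa [map_zero] at this
    rw [h1, h2, map_zero, inr_zero, add_zero, inl_zero]
  map_add' a b := by
    rw [h.retr_add, h.part_add, map_add, inl_add, inr_add]
    abel
  commutes' c := by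
    rw [h.retr_algebraMap, h.part_algebraMap, map_zero, inr_zero, add_zero]
    rfl

theorem snd_toDual (D : 𝔪.restrictScalars k →ₗ[k] k) (b : B) :
    (h.toDual D b).snd = D (h.part b) := by
  show (inl (h.retr b) + inr (D (h.part b)) : DualNumber k).snd = _
  simp

theorem toDual_injective : Function.Injective h.toDual := by
  intro D D' hDD
  ext ⟨x, hx⟩
  have := congrArg (fun f => (f x).snd) hDD
  simp only [snd_toDual] at this
  have hp : h.part x = ⟨x, hx⟩ := Subtype.ext (h.part_of_mem hx)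
  rwa [hp] at this

end IsSqZeroAug

end SqZero


/-! ### Local `𝒪`-algebras with residue field `k` -/

section TestAlg

variable {𝒪 : Type} [CommRing 𝒪] [IsLocalRing 𝒪]

variable (𝒪) (A : Type) [CommRing A] [IsLocalRing A] [Algebra 𝒪 A]

/-- Ring homs `A → k[ε]` compatible with `𝒪 → k → k[ε]`; this is the set of `𝒪`-algebra homs for
the `𝒪`-algebra structure on `k[ε]` used in `GaloisRep.TangentFinite`, phrased without instances. -/
def DualHom : Type :=
  {f : A →+* DualNumber (ResidueField 𝒪) //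
    ∀ x : 𝒪, f (algebraMap 𝒪 A x) = TrivSqZeroExt.inl (residue 𝒪 x)}

/-- The ideal `m_A ^ 2 + m_𝒪 A`. -/
def cotIdeal : Ideal A :=
  maximalIdeal A ^ 2 ⊔ (maximalIdeal 𝒪).map (algebraMap 𝒪 A)

/-- The quotient `A / (m_A ^ 2 + m_𝒪 A)`. -/
abbrev CotQuot : Type := A ⧸ cotIdeal 𝒪 A

variable {𝒪 A}

theorem DualHom.ext {f g : DualHom 𝒪 A} (h : ∀ a, f.1 a = g.1 a) : f = g :=
  Subtype.ext (RingHom.ext h)

instance [Finite A] [Finite (ResidueField 𝒪)] : Finite (DualHom 𝒪 A) := by
  haveI : Finite (DualNumber (ResidueField 𝒪)) := by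
    unfold DualNumber TrivSqZeroExt
    infer_instance
  exact Finite.of_injective (fun f : DualHom 𝒪 A => (f.1 : A → DualNumber (ResidueField 𝒪)))
    fun f g h => Subtype.ext (DFunLike.coe_injective h)

theorem cotIdeal_le [IsLocalHom (algebraMap 𝒪 A)] : cotIdeal 𝒪 A ≤ maximalIdeal A := by
  refine sup_le ?_ ?_
  · exact Ideal.pow_le_self two_ne_zero
  · rw [Ideal.map_le_iff_le_comap]
    intro x hx
    exact Ideal.mem_comap.mpr (map_nonunit (algebraMap 𝒪 A) x hx)

theorem algebraMap_cotQuot_eq_zero (x : 𝒪) (hx : x ∈ maximalIdeal 𝒪) :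
    (algebraMap A (CotQuot 𝒪 A)).comp (algebraMap 𝒪 A) x = 0 := by
  rw [RingHom.comp_apply, Ideal.Quotient.algebraMap_eq, Ideal.Quotient.eq_zero_iff_mem]
  exact Ideal.mem_sup_right (Ideal.mem_map_of_mem _ hx)

variable (𝒪 A) in
/-- The residue field `k` of `𝒪` acts on `A / (m_A ^ 2 + m_𝒪 A)`. -/
@[reducible] noncomputable def cotQuotAlgebra : Algebra (ResidueField 𝒪) (CotQuot 𝒪 A) :=
  (Ideal.Quotient.lift (maximalIdeal 𝒪) ((algebraMap A (CotQuot 𝒪 A)).comp (algebraMap 𝒪 A))
    algebraMap_cotQuot_eq_zero).toAlgebra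

attribute [local instance] cotQuotAlgebra

theorem algebraMap_cotQuot_residue (x : 𝒪) :
    algebraMap (ResidueField 𝒪) (CotQuot 𝒪 A) (residue 𝒪 x) =
      Ideal.Quotient.mk (cotIdeal 𝒪 A) (algebraMap 𝒪 A x) := rfl

variable (𝒪 A) in
/-- The image of `m_A` in `A / (m_A ^ 2 + m_𝒪 A)`. -/
def cotMax : Ideal (CotQuot 𝒪 A) := (maximalIdeal A).map (Ideal.Quotient.mk (cotIdeal 𝒪 A))

theorem mem_cotMax_iff {y : CotQuot 𝒪 A} :
    y ∈ cotMax 𝒪 A ↔ ∃ a ∈ maximalIdeal A, Ideal.Quotient.mk (cotIdeal 𝒪 A) a = y :=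
  Ideal.mem_map_iff_of_surjective _ Ideal.Quotient.mk_surjective

theorem isSqZeroAug_cotMax [IsLocalHom (algebraMap 𝒪 A)]
    (hres : Function.Surjective (residue A ∘ algebraMap 𝒪 A)) :
    IsSqZeroAug (k := ResidueField 𝒪) (cotMax 𝒪 A) where
  sq_zero := by
    intro x hx y hy
    obtain ⟨a, ha, rfl⟩ := mem_cotMax_iff.mp hx
    obtain ⟨b, hb, rfl⟩ := mem_cotMax_iff.mp hy
    rw [← map_mul, Ideal.Quotient.eq_zero_iff_mem]
    refine Ideal.mem_sup_left ?_
    rw [pow_two]
    exact Ideal.mul_mem_mul ha hb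
  aug := by
    intro b
    obtain ⟨a, rfl⟩ := Ideal.Quotient.mk_surjective b
    obtain ⟨x, hx⟩ := hres (residue A a)
    refine ⟨residue 𝒪 x, ?_⟩
    rw [algebraMap_cotQuot_residue, ← map_sub]
    refine Ideal.mem_map_of_mem _ ?_
    rw [← residue_eq_zero_iff, map_sub, sub_eq_zero]
    exact hx.symm
  ne_top := by
    intro htop
    have h1 : (1 : CotQuot 𝒪 A) ∈ cotMax 𝒪 A := htop ▸ Submodule.mem_top
    obtain ⟨a, ha, ha1⟩ := mem_cotMax_iff.mp h1
    have : a - 1 ∈ cotIdeal 𝒪 A := by
      rw [← Ideal.Quotient.eq_zero_iff_mem, map_sub, ha1, map_one, sub_self]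
    have h2 : a - 1 ∈ maximalIdeal A := cotIdeal_le this
    have h3 : (1 : A) ∈ maximalIdeal A := by
      have := (maximalIdeal A).sub_mem ha h2
      rwa [sub_sub_cancel] at this
    exact (Ideal.ne_top_iff_one _).mp (maximalIdeal.isMaximal A).ne_top h3

/-- The hom `A → k[ε]` attached to a functional on the relative cotangent space. -/
noncomputable def homOfFunctional [IsLocalHom (algebraMap 𝒪 A)]
    (hres : Function.Surjective (residue A ∘ algebraMap 𝒪 A))
    (D : (cotMax 𝒪 A).restrictScalars (ResidueField 𝒪) →ₗ[ResidueField 𝒪] ResidueField 𝒪) :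
    DualHom 𝒪 A :=
  ⟨(((isSqZeroAug_cotMax hres).toDual D : CotQuot 𝒪 A →ₐ[ResidueField 𝒪] _) :
      CotQuot 𝒪 A →+* DualNumber (ResidueField 𝒪)).comp (Ideal.Quotient.mk (cotIdeal 𝒪 A)), by
    intro x
    rw [RingHom.comp_apply, ← algebraMap_cotQuot_residue]
    exact ((isSqZeroAug_cotMax hres).toDual D).commutes (residue 𝒪 x)⟩

theorem homOfFunctional_injective [IsLocalHom (algebraMap 𝒪 A)]
    (hres : Function.Surjective (residue A ∘ algebraMap 𝒪 A)) :
    Function.Injective (homOfFunctional (𝒪 := 𝒪) (A := A) hres) := by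
  intro D D' h
  apply (isSqZeroAug_cotMax hres).toDual_injective
  apply AlgHom.ext
  intro b
  obtain ⟨a, rfl⟩ := Ideal.Quotient.mk_surjective b
  exact congrArg (fun f : DualHom 𝒪 A => f.1 a) h

theorem card_cotMax_le_card_dualHom [IsLocalHom (algebraMap 𝒪 A)]
    (hres : Function.Surjective (residue A ∘ algebraMap 𝒪 A)) [Finite A]
    [Finite (ResidueField 𝒪)] :
    Nat.card (cotMax 𝒪 A) ≤ Nat.card (DualHom 𝒪 A) := by
  set W := (cotMax 𝒪 A).restrictScalars (ResidueField 𝒪) with hW
  haveI : Finite (CotQuot 𝒪 A) := Finite.of_surjective _ Ideal.Quotient.mk_surjective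
  haveI : Finite W := Subtype.finite
  haveI : Module.Finite (ResidueField 𝒪) W := Module.Finite.of_finite
  have h1 : Nat.card W = Nat.card (Module.Dual (ResidueField 𝒪) W) := by
    rw [Module.natCard_eq_pow_finrank (K := ResidueField 𝒪) (V := W),
      Module.natCard_eq_pow_finrank (K := ResidueField 𝒪) (V := Module.Dual (ResidueField 𝒪) W),
      Subspace.dual_finrank_eq]
  have h2 : Nat.card (Module.Dual (ResidueField 𝒪) W) ≤ Nat.card (DualHom 𝒪 A) :=
    Nat.card_le_card_of_injective _ (homOfFunctional_injective (𝒪 := 𝒪) (A := A) hres)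
  calc Nat.card (cotMax 𝒪 A) = Nat.card W := rfl
    _ = _ := h1
    _ ≤ _ := h2

/-- If there are at most `c` homs `A → k[ε]`, then `m_A` is generated by `c` elements
modulo `m_𝒪`. -/
theorem exists_generators_of_card_dualHom_le [IsLocalHom (algebraMap 𝒪 A)]
    (hres : Function.Surjective (residue A ∘ algebraMap 𝒪 A)) [Finite A]
    [Finite (ResidueField 𝒪)] (c : ℕ) (hc : Nat.card (DualHom 𝒪 A) ≤ c) :
    ∃ t : Fin c → A, (∀ i, t i ∈ maximalIdeal A) ∧
      maximalIdeal A = Ideal.span (Set.range t) ⊔ (maximalIdeal 𝒪).map (algebraMap 𝒪 A) := by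
  classical
  haveI : Finite (CotQuot 𝒪 A) := Finite.of_surjective _ Ideal.Quotient.mk_surjective
  haveI : Finite (cotMax 𝒪 A) := Subtype.finite
  have hle : Nat.card (cotMax 𝒪 A) ≤ c := (card_cotMax_le_card_dualHom hres).trans hc
  -- an enumeration of `cotMax` by `Fin c`
  obtain ⟨e, he⟩ : ∃ e : Fin c → cotMax 𝒪 A, Function.Surjective e := by
    let eq := Finite.equivFin (cotMax 𝒪 A)
    refine ⟨fun i => if h : (i : ℕ) < Nat.card (cotMax 𝒪 A) then eq.symm ⟨i, h⟩ else 0, ?_⟩
    intro w
    refine ⟨⟨(eq w : ℕ), (eq w).2.trans_le hle⟩, ?_⟩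
    simp
  -- lift to `m_A`
  have hlift : ∀ i, ∃ a ∈ maximalIdeal A, Ideal.Quotient.mk (cotIdeal 𝒪 A) a = (e i : CotQuot 𝒪 A) :=
    fun i => mem_cotMax_iff.mp (e i).2
  choose t ht htm using hlift
  refine ⟨t, ht, ?_⟩
  have hfin : IsNoetherianRing A := by
    haveI : IsArtinianRing A := inferInstance
    infer_instance
  have hspan_le : Ideal.span (Set.range t) ≤ maximalIdeal A :=
    Ideal.span_le.mpr (by rintro _ ⟨i, rfl⟩; exact ht i)
  have hO_le : (maximalIdeal 𝒪).map (algebraMap 𝒪 A) ≤ maximalIdeal A := by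
    rw [Ideal.map_le_iff_le_comap]
    intro x hx
    exact Ideal.mem_comap.mpr (map_nonunit (algebraMap 𝒪 A) x hx)
  apply le_antisymm
  · -- Nakayama
    apply Submodule.le_of_le_smul_of_le_jacobson_bot (I := maximalIdeal A)
      (IsNoetherian.noetherian _) (maximalIdeal_le_jacobson _)
    intro a ha
    obtain ⟨i, hi⟩ := he ⟨Ideal.Quotient.mk (cotIdeal 𝒪 A) a, mem_cotMax_iff.mpr ⟨a, ha, rfl⟩⟩
    have h1 : a - t i ∈ cotIdeal 𝒪 A := by
      rw [← Ideal.Quotient.eq_zero_iff_mem, map_sub, htm i, hi, sub_self]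
    have h2 : a = t i + (a - t i) := by ring
    rw [h2]
    have h3 : t i ∈ Ideal.span (Set.range t) := Ideal.subset_span ⟨i, rfl⟩
    rcases Submodule.mem_sup.mp h1 with ⟨y, hy, z, hz, hyz⟩
    rw [← hyz]
    have hy' : y ∈ maximalIdeal A • maximalIdeal A := by
      rwa [smul_eq_mul, ← pow_two]
    have : t i + (y + z) = (t i + z) + y := by ring
    rw [this]
    exact Submodule.add_mem_sup
      (Submodule.add_mem_sup h3 hz) hy'
  · exact sup_le hspan_le hO_le

end TestAlg

/-! ### Bundled version, for `TestAlg 𝒪` -/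

section Bundled

variable {𝒪 : Type} [CommRing 𝒪] [IsLocalRing 𝒪] (A : Fermat.Agent.S53.TestAlg 𝒪)

/-- `𝒪`-algebra homs `A → k[ε]` (prelude algebra structure) are the same as `DualHom 𝒪 A`. -/
noncomputable def dualHomEquiv :
    DualHom 𝒪 A ≃ (A →ₐ[𝒪] Fermat.Agent.S53.TestAlg.dualNumber 𝒪) where
  toFun f := { toRingHom := f.1, commutes' := fun o => f.2 o }
  invFun g := ⟨g.toRingHom, fun o => g.commutes o⟩
  left_inv f := rfl
  right_inv g := rfl

/-- If a test algebra `A` admits at most `c` homs to the dual numbers `k[ε]`, then its maximal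
ideal is generated by `c` elements together with `m_𝒪`. -/
theorem exists_generators_of_card_algHom_le [Finite (ResidueField 𝒪)] (c : ℕ)
    (hc : Nat.card (A →ₐ[𝒪] Fermat.Agent.S53.TestAlg.dualNumber 𝒪) ≤ c) :
    ∃ t : Fin c → A, (∀ i, t i ∈ maximalIdeal A) ∧
      maximalIdeal A = Ideal.span (Set.range t) ⊔ (maximalIdeal 𝒪).map (algebraMap 𝒪 A) := by
  have hc' : Nat.card (DualHom 𝒪 A) ≤ c := by
    rw [Nat.card_congr (dualHomEquiv A)]
    exact hc
  exact exists_generators_of_card_dualHom_le A.isTest.residue_surjective c hc'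

end Bundled

end Fermat.Agent.S53.Tangent
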