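import Fermat.Agent.S53.Nrm
import Fermat.Agent.S53.Tangent
import Fermat.Agent.S53.FrameLift
import Fermat.Agent.S53.RigidApp
import Fermat.Agent.S53.Admissible
import Fermat.Prelude.Def_GaloisRep_DeformationCondition

set_option autoImplicit false
set_option linter.style.haveILetI false
set_option linter.unusedSectionVars false

/-!
# S53, piece TANAPP: uniform bound on the number of homs to the dual numbers

For an entry-generated normalised lift `(A, r)` of type `𝒟` over an Artinian test algebra, the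
number of `𝒪`-algebra homs `A → k[ε]` is bounded by the cardinality of the (finite) tangent
quotient of `GaloisRep.TangentFinite`.  Consequently the maximal ideal of `A` is generated,
modulo `𝔪_𝒪`, by that many elements.
-/

noncomputable section

namespace Fermat.Agent.S53.TangentApp

open IsLocalRing Fermat.Agent.S53

variable {𝒪 : Type} [CommRing 𝒪] [IsLocalRing 𝒪]

/-- The ring hom `k → ResidueField k[ε]` whose `toAlgebra` is used in `GaloisRep.TangentFinite`. -/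
def tanResHom (𝒪 : Type) [CommRing 𝒪] [IsLocalRing 𝒪] :
    ResidueField 𝒪 →+* ResidueField (DualNumber (ResidueField 𝒪)) :=
  (IsLocalRing.residue (DualNumber (ResidueField 𝒪))).comp
    (algebraMap (ResidueField 𝒪) (DualNumber (ResidueField 𝒪)))

variable (ρbar : ResidualGaloisRep (ResidueField 𝒪))
  (𝒟 : ∀ ⦃A : Type⦄ [CommRing A] [IsLocalRing A] [Algebra 𝒪 A], GaloisRepAdic A → Prop)

/-- The residual representation base-changed to the residue field of `k[ε]`, as in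
`GaloisRep.TangentFinite`. -/
def rbarTan : ResidualGaloisRep (ResidueField (DualNumber (ResidueField 𝒪))) :=
  ρbar.baseChangeAlong (tanResHom 𝒪)

/-- The deformations of `ρbar` of type `𝒟` over `k[ε]` (carrier of the tangent setoid). -/
def TanSub : Type 1 :=
  {ρ : GaloisRepAdic (DualNumber (ResidueField 𝒪)) //
    @𝒟 (DualNumber (ResidueField 𝒪)) _ _ (TestAlg.dualNumberAlgebra 𝒪) ρ ∧
      ρ.residual.IsEquiv (rbarTan ρbar)}

/-- The tangent setoid (`IsEquiv`). -/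
def tanSetoid : Setoid (TanSub ρbar 𝒟) :=
  ⟨fun ρ ρ' => ρ.1.IsEquiv ρ'.1, ⟨fun ρ => ⟨GaloisRepAdic.Equiv.refl ρ.1⟩,
    fun ⟨e⟩ => ⟨e.symm⟩, fun ⟨e⟩ ⟨e'⟩ => ⟨e.trans e'⟩⟩⟩

theorem finite_tanQuot (hfin : GaloisRep.TangentFinite 𝒪 ρbar 𝒟) :
    Finite (Quotient (tanSetoid ρbar 𝒟)) := hfin

/-- The two descriptions of the map `k → ResidueField k[ε]` agree. -/
theorem residueFieldMap_dualNumber :
    ResidueField.map (algebraMap 𝒪 (TestAlg.dualNumber 𝒪)) = tanResHom 𝒪 := by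
  ext x
  obtain ⟨o, rfl⟩ := residue_surjective x
  rw [ResidueField.map_residue]
  rfl

section Push

variable {ρbar 𝒟}
variable {A : TestAlg 𝒪}

/-- Push a matrix representation over `A` forward along `ψ : A → k[ε]`. -/
def push (r : MatRep A) (ψ : A →ₐ[𝒪] TestAlg.dualNumber 𝒪) : MatRep (TestAlg.dualNumber 𝒪) :=
  r.map (ψ : A →+* TestAlg.dualNumber 𝒪) (TestAlg.isLocalHom_algHom ψ)

theorem push_apply (r : MatRep A) (ψ : A →ₐ[𝒪] TestAlg.dualNumber 𝒪) (σ : GQ) (i j : Fin 2) :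
    push r ψ σ i j = ψ (r σ i j) := rfl

theorem push_mem (h𝒟 : GaloisRep.IsDeformationCondition 𝒪 𝒟) {r : MatRep A}
    (hD : 𝒟 r.toAdic) (ψ : A →ₐ[𝒪] TestAlg.dualNumber 𝒪) : 𝒟 (push r ψ).toAdic := by
  have h1 := h𝒟.baseChangeAlong A.isTest (TestAlg.dualNumber 𝒪).isTest ψ
    (TestAlg.isLocalHom_algHom ψ) hD
  exact h𝒟.of_isEquiv (TestAlg.dualNumber 𝒪).isTest
    (MatRep.isEquiv_baseChangeAlong_toAdic _ _ r) h1

theorem push_residual {D : RigidDatum 𝒪} (hrb : IsMatrixFormOf D.rb ρbar) {r : MatRep A}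
    (hr : r.IsLiftOf D.rb) (ψ : A →ₐ[𝒪] TestAlg.dualNumber 𝒪) :
    (push r ψ).toAdic.residual.IsEquiv (rbarTan ρbar) := by
  have h := MatRep.IsLiftOf.residual_isEquiv hrb (hr.map ψ (TestAlg.isLocalHom_algHom ψ))
  rw [residueFieldMap_dualNumber] at h
  exact h

/-- The tangent class of the push-forward of a lift of type `𝒟` along `ψ : A → k[ε]`. -/
def tanClass (h𝒟 : GaloisRep.IsDeformationCondition 𝒪 𝒟) {D : RigidDatum 𝒪}
    (hrb : IsMatrixFormOf D.rb ρbar) {r : MatRep A} (hr : r.IsLiftOf D.rb) (hD : 𝒟 r.toAdic)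
    (ψ : A →ₐ[𝒪] TestAlg.dualNumber 𝒪) : Quotient (tanSetoid ρbar 𝒟) :=
  Quotient.mk _ ⟨(push r ψ).toAdic, push_mem h𝒟 hD ψ, push_residual hrb hr ψ⟩

/-- Two homs `A → k[ε]` with the same push-forward of an entry-generated `r` are equal. -/
theorem eq_of_push_eq {r : MatRep A} (hsurj : Function.Surjective (r.ev (𝒪 := 𝒪)))
    {ψ ψ' : A →ₐ[𝒪] TestAlg.dualNumber 𝒪} (h : push r ψ = push r ψ') : ψ = ψ' := by
  have hcomp : ψ.comp (r.ev (𝒪 := 𝒪)) = ψ'.comp (r.ev (𝒪 := 𝒪)) := by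
    refine MvPolynomial.algHom_ext fun x => ?_
    obtain ⟨σ, i, j⟩ := x
    rw [AlgHom.comp_apply, AlgHom.comp_apply, MatRep.ev_X, ← push_apply, ← push_apply, h]
  refine AlgHom.ext fun a => ?_
  obtain ⟨p, rfl⟩ := hsurj a
  exact DFunLike.congr_fun hcomp p

theorem tanClass_injective (h𝒟 : GaloisRep.IsDeformationCondition 𝒪 𝒟) {D : RigidDatum 𝒪}
    (hrb : IsMatrixFormOf D.rb ρbar) {r : MatRep A} (hr : r.IsLiftOf D.rb)
    (hN : r.IsNormalised D) (hD : 𝒟 r.toAdic)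
    (hsurj : Function.Surjective (r.ev (𝒪 := 𝒪))) :
    Function.Injective (tanClass h𝒟 hrb hr hD) := by
  intro ψ ψ' h
  have h1 : (push r ψ).toAdic.IsEquiv (push r ψ').toAdic := Quotient.exact h
  have h2 : push r ψ = push r ψ' :=
    TestAlg.eq_of_isEquiv_of_isNormalised D (TestAlg.dualNumber 𝒪)
      (hr.map ψ' (TestAlg.isLocalHom_algHom ψ')) (hr.map ψ (TestAlg.isLocalHom_algHom ψ))
      (hN.map ψ' (TestAlg.isLocalHom_algHom ψ')) (hN.map ψ (TestAlg.isLocalHom_algHom ψ)) h1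
  exact eq_of_push_eq hsurj h2

/-- **TANAPP, counting form**: for an entry-generated normalised lift `(A, r)` of type `𝒟`, the
number of `𝒪`-algebra homs `A → k[ε]` is at most the cardinality of the tangent quotient. -/
theorem card_algHom_dualNumber_le (h𝒟 : GaloisRep.IsDeformationCondition 𝒪 𝒟)
    (hfin : GaloisRep.TangentFinite 𝒪 ρbar 𝒟) {D : RigidDatum 𝒪}
    (hrb : IsMatrixFormOf D.rb ρbar) {r : MatRep A} (hr : r.IsLiftOf D.rb)
    (hN : r.IsNormalised D) (hD : 𝒟 r.toAdic)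
    (hsurj : Function.Surjective (r.ev (𝒪 := 𝒪))) :
    Nat.card (A →ₐ[𝒪] TestAlg.dualNumber 𝒪) ≤ Nat.card (Quotient (tanSetoid ρbar 𝒟)) := by
  haveI := finite_tanQuot ρbar 𝒟 hfin
  exact Nat.card_le_card_of_injective _ (tanClass_injective h𝒟 hrb hr hN hD hsurj)

/-- **TANAPP, generator form**: for an entry-generated normalised lift `(A, r)` of type `𝒟`, the
maximal ideal of `A` is generated modulo `𝔪_𝒪` by `c` elements, where `c` is the cardinality of
the tangent quotient (independent of `A` and `r`). -/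
theorem exists_generators [Finite (ResidueField 𝒪)] (h𝒟 : GaloisRep.IsDeformationCondition 𝒪 𝒟)
    (hfin : GaloisRep.TangentFinite 𝒪 ρbar 𝒟) {D : RigidDatum 𝒪}
    (hrb : IsMatrixFormOf D.rb ρbar) {r : MatRep A} (hr : r.IsLiftOf D.rb)
    (hN : r.IsNormalised D) (hD : 𝒟 r.toAdic)
    (hsurj : Function.Surjective (r.ev (𝒪 := 𝒪))) :
    ∃ t : Fin (Nat.card (Quotient (tanSetoid ρbar 𝒟))) → A, (∀ i, t i ∈ maximalIdeal A) ∧
      maximalIdeal A = Ideal.span (Set.range t) ⊔ (maximalIdeal 𝒪).map (algebraMap 𝒪 A) :=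
  Tangent.exists_generators_of_card_algHom_le A _
    (card_algHom_dualNumber_le h𝒟 hfin hrb hr hN hD hsurj)

/-- **TANAPP, quotient form** (the shape consumed by `IsProSystem.of_card_tangent_le`): the
number of `𝒪`-algebra homs `EntryRing 𝒪 ⧸ ker r.ev → k[ε]` is at most the cardinality of the
tangent quotient. -/
theorem card_algHom_quotient_ker_le (h𝒟 : GaloisRep.IsDeformationCondition 𝒪 𝒟)
    (hfin : GaloisRep.TangentFinite 𝒪 ρbar 𝒟) {D : RigidDatum 𝒪}
    (hrb : IsMatrixFormOf D.rb ρbar) {r : MatRep A} (hr : r.IsLiftOf D.rb)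
    (hN : r.IsNormalised D) (hD : 𝒟 r.toAdic)
    (hsurj : Function.Surjective (r.ev (𝒪 := 𝒪))) :
    Nat.card (@AlgHom 𝒪 (EntryRing 𝒪 ⧸ RingHom.ker (r.ev (𝒪 := 𝒪)))
      (DualNumber (ResidueField 𝒪)) _ _ _ _ (TestAlg.dualNumberAlgebra 𝒪))
      ≤ Nat.card (Quotient (tanSetoid ρbar 𝒟)) := by
  refine le_trans (le_of_eq ?_) (card_algHom_dualNumber_le h𝒟 hfin hrb hr hN hD hsurj)
  letI := TestAlg.dualNumberAlgebra 𝒪
  exact Nat.card_congr
    ((Ideal.quotientKerAlgEquivOfSurjective hsurj).arrowCongr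
      (AlgEquiv.refl (R := 𝒪) (A₁ := DualNumber (ResidueField 𝒪))))

/-- **TANAPP for admissible ideals**, given the realisation of admissible ideals by
entry-generated pairs (piece ADM(1)). -/
theorem card_algHom_quotient_le_of_admissible (h𝒟 : GaloisRep.IsDeformationCondition 𝒪 𝒟)
    (hfin : GaloisRep.TangentFinite 𝒪 ρbar 𝒟) {D : RigidDatum 𝒪}
    (hrb : IsMatrixFormOf D.rb ρbar)
    (hadm : ∀ I ∈ admissible D 𝒟, ∃ (A : TestAlg 𝒪) (r : MatRep A), r.IsLiftOf D.rb ∧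
      r.IsNormalised D ∧ 𝒟 r.toAdic ∧ Function.Surjective (r.ev (𝒪 := 𝒪)) ∧
      RingHom.ker (r.ev (𝒪 := 𝒪)) = I)
    (I : Ideal (EntryRing 𝒪)) (hI : I ∈ admissible D 𝒟) :
    Nat.card (@AlgHom 𝒪 (EntryRing 𝒪 ⧸ I)
      (DualNumber (ResidueField 𝒪)) _ _ _ _ (TestAlg.dualNumberAlgebra 𝒪))
      ≤ Nat.card (Quotient (tanSetoid ρbar 𝒟)) := by
  obtain ⟨A, r, hr, hN, hD, hsurj, rfl⟩ := hadm I hI
  exact card_algHom_quotient_ker_le h𝒟 hfin hrb hr hN hD hsurj

/-- **TANAPP for admissible ideals** (unconditional, using ADM(1)): a uniform bound on the number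
of `𝒪`-algebra homs `EntryRing 𝒪 ⧸ I → k[ε]`, `I` admissible. -/
theorem card_algHom_quotient_le [Finite (ResidueField 𝒪)]
    (h𝒟 : GaloisRep.IsDeformationCondition 𝒪 𝒟)
    (hfin : GaloisRep.TangentFinite 𝒪 ρbar 𝒟) {D : RigidDatum 𝒪}
    (hrb : IsMatrixFormOf D.rb ρbar)
    (I : Ideal (EntryRing 𝒪)) (hI : I ∈ admissible D 𝒟) :
    Nat.card (@AlgHom 𝒪 (EntryRing 𝒪 ⧸ I)
      (DualNumber (ResidueField 𝒪)) _ _ _ _ (TestAlg.dualNumberAlgebra 𝒪))
      ≤ Nat.card (Quotient (tanSetoid ρbar 𝒟)) := by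
  obtain ⟨A, r, hr, hN, hD, rfl, hsurj⟩ := exists_entryGenerated_of_mem_admissible h𝒟 hI
  exact card_algHom_quotient_ker_le h𝒟 hfin hrb hr hN hD hsurj

end Push

end Fermat.Agent.S53.TangentApp
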