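import Fermat.Agent.S53.Nrm
import Fermat.Agent.S53.BaseChange
import Fermat.Agent.S53.LimitRing
import Fermat.Prelude.Def_GaloisRep_DeformationCondition

set_option autoImplicit false

/-!
# S53, piece UNIV: the universal normalised matrix representation over the limit ring

We work with an abstract *presentation* `LimPres F R` of a ring `R` as the limit of the
quotients `EntryRing 𝒪 ⧸ I`, `I ∈ F` (to be instantiated with helper29's `limitRing`).

Main results (for `F = admissible D 𝒟`, with surjective witnesses `hadm` supplied by ADM):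
* `univRep L hadm : MatRep R`, with entries `L.ofP (X (σ, i, j))`;
* `univRep_isLiftOf`, `univRep_isNormalised`;
* `univRep_isType` : `𝒟 (univRep L hadm).toAdic`;
* `univ_existsUnique` : the Artinian universal property.
-/

noncomputable section

namespace Fermat.Agent.S53

open IsLocalRing

variable {𝒪 : Type} [CommRing 𝒪] [IsLocalRing 𝒪]

/-- What UNIV needs from LIM: `R` is "the limit" of the quotients `EntryRing 𝒪 ⧸ I`, `I ∈ F`. -/
structure LimPres (F : Set (Ideal (EntryRing 𝒪))) (R : Type) [CommRing R] [Algebra 𝒪 R] where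
  /-- the canonical map from the entry ring -/
  ofP : EntryRing 𝒪 →ₐ[𝒪] R
  /-- the projections -/
  proj : ∀ I : F, R →ₐ[𝒪] EntryRing 𝒪 ⧸ I.1
  proj_ofP : ∀ (I : F) (x : EntryRing 𝒪), proj I (ofP x) = Ideal.Quotient.mk I.1 x
  ext : ∀ x y : R, (∀ I : F, proj I x = proj I y) → x = y
  cont : ∀ a : Ideal R, Finite (R ⧸ a) → ∃ I : F, RingHom.ker (proj I) ≤ a

variable {D : RigidDatum 𝒪}
  {𝒟 : ∀ ⦃A : Type⦄ [CommRing A] [IsLocalRing A] [Algebra 𝒪 A], GaloisRepAdic A → Prop}

/-- Surjective witnesses for admissible ideals (supplied by ADM(1)). -/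
def HasSurjWitness (D : RigidDatum 𝒪)
    (𝒟 : ∀ ⦃A : Type⦄ [CommRing A] [IsLocalRing A] [Algebra 𝒪 A], GaloisRepAdic A → Prop) : Prop :=
  ∀ I ∈ admissible D 𝒟, ∃ (A : TestAlg 𝒪) (r : MatRep A), r.IsLiftOf D.rb ∧ r.IsNormalised D ∧
    𝒟 r.toAdic ∧ RingHom.ker (r.ev (𝒪 := 𝒪)) = I ∧ Function.Surjective (r.ev (𝒪 := 𝒪))

namespace Univ

variable (hadm : HasSurjWitness D 𝒟)

/-- The chosen test algebra for an admissible ideal. -/
def wA (I : admissible D 𝒟) : TestAlg 𝒪 := (hadm I.1 I.2).choose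

/-- The chosen normalised lift for an admissible ideal. -/
def wr (I : admissible D 𝒟) : MatRep (wA hadm I) := (hadm I.1 I.2).choose_spec.choose

theorem wr_isLiftOf (I : admissible D 𝒟) : (wr hadm I).IsLiftOf D.rb :=
  (hadm I.1 I.2).choose_spec.choose_spec.1

theorem wr_isNormalised (I : admissible D 𝒟) : (wr hadm I).IsNormalised D :=
  (hadm I.1 I.2).choose_spec.choose_spec.2.1

theorem wr_isType (I : admissible D 𝒟) : 𝒟 (wr hadm I).toAdic :=
  (hadm I.1 I.2).choose_spec.choose_spec.2.2.1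

theorem wr_ker (I : admissible D 𝒟) : RingHom.ker ((wr hadm I).ev (𝒪 := 𝒪)) = I.1 :=
  (hadm I.1 I.2).choose_spec.choose_spec.2.2.2.1

theorem wr_surjective (I : admissible D 𝒟) : Function.Surjective ((wr hadm I).ev (𝒪 := 𝒪)) :=
  (hadm I.1 I.2).choose_spec.choose_spec.2.2.2.2

/-- The isomorphism-inducing map `P/I → A_I`. -/
def iota (I : admissible D 𝒟) : EntryRing 𝒪 ⧸ I.1 →ₐ[𝒪] wA hadm I :=
  Ideal.Quotient.liftₐ I.1 ((wr hadm I).ev (𝒪 := 𝒪)) (fun a ha => by
    have : a ∈ RingHom.ker ((wr hadm I).ev (𝒪 := 𝒪)) := by rw [wr_ker]; exact ha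
    exact this)

theorem iota_mk (I : admissible D 𝒟) (x : EntryRing 𝒪) :
    iota hadm I (Ideal.Quotient.mk I.1 x) = (wr hadm I).ev x := rfl

theorem iota_injective (I : admissible D 𝒟) : Function.Injective (iota hadm I) := by
  rw [injective_iff_map_eq_zero]
  intro x hx
  obtain ⟨x, rfl⟩ := Ideal.Quotient.mk_surjective x
  rw [iota_mk] at hx
  have : x ∈ RingHom.ker ((wr hadm I).ev (𝒪 := 𝒪)) := hx
  rw [wr_ker] at this
  exact Ideal.Quotient.eq_zero_iff_mem.mpr this

theorem iota_surjective (I : admissible D 𝒟) : Function.Surjective (iota hadm I) := by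
  intro a
  obtain ⟨x, rfl⟩ := wr_surjective hadm I a
  exact ⟨Ideal.Quotient.mk I.1 x, rfl⟩

variable {R : Type} [CommRing R] [Algebra 𝒪 R] (L : LimPres (admissible D 𝒟) R)

/-- The composite `R → P/I → A_I`. -/
def Phi (I : admissible D 𝒟) : R →ₐ[𝒪] wA hadm I := (iota hadm I).comp (L.proj I)

theorem Phi_ofP (I : admissible D 𝒟) (x : EntryRing 𝒪) :
    Phi hadm L I (L.ofP x) = (wr hadm I).ev x := by
  change iota hadm I (L.proj I (L.ofP x)) = _
  rw [L.proj_ofP, iota_mk]

theorem Phi_ofP_X (I : admissible D 𝒟) (σ : GQ) (i j : Fin 2) :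
    Phi hadm L I (L.ofP (MvPolynomial.X (σ, i, j))) = wr hadm I σ i j := by
  rw [Phi_ofP, MatRep.ev_X]

theorem Phi_jointly_injective (x y : R) (h : ∀ I, Phi hadm L I x = Phi hadm L I y) : x = y :=
  L.ext x y fun I => iota_injective hadm I (h I)

theorem proj_surjective (I : admissible D 𝒟) : Function.Surjective (L.proj I) := by
  intro x
  obtain ⟨x, rfl⟩ := Ideal.Quotient.mk_surjective x
  exact ⟨L.ofP x, L.proj_ofP I x⟩

theorem Phi_surjective (I : admissible D 𝒟) : Function.Surjective (Phi hadm L I) :=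
  (iota_surjective hadm I).comp (proj_surjective L I)

theorem ker_Phi (I : admissible D 𝒟) :
    RingHom.ker (Phi hadm L I) = RingHom.ker (L.proj I) := by
  ext x
  simp only [RingHom.mem_ker]
  change iota hadm I (L.proj I x) = 0 ↔ L.proj I x = 0
  exact map_eq_zero_iff _ (iota_injective hadm I)

/-- The matrix of universal entries. -/
def univMat (σ : GQ) : M2 R := Matrix.of fun i j => L.ofP (MvPolynomial.X (σ, i, j))

theorem univMat_apply (σ : GQ) (i j : Fin 2) :
    univMat L σ i j = L.ofP (MvPolynomial.X (σ, i, j)) := rfl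

theorem univMat_map_Phi (I : admissible D 𝒟) (σ : GQ) :
    (univMat L σ).map (Phi hadm L I) = wr hadm I σ := by
  ext i j
  rw [Matrix.map_apply, univMat_apply, Phi_ofP_X]

theorem mat_ext_Phi (X Y : M2 R)
    (h : ∀ I, X.map (Phi hadm L I) = Y.map (Phi hadm L I)) : X = Y := by
  ext i j
  apply Phi_jointly_injective hadm L
  intro I
  have := congrFun (congrFun (h I) i) j
  simpa [Matrix.map_apply] using this

include hadm in
theorem univMat_one : univMat L (1 : GQ) = 1 := by
  apply mat_ext_Phi hadm L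
  intro I
  rw [univMat_map_Phi, MatRep.apply_one]
  have : (1 : M2 R).map (Phi hadm L I) = ((Phi hadm L I : R →+* wA hadm I).mapMatrix) 1 := rfl
  rw [this, map_one]

include hadm in
theorem univMat_mul (σ τ : GQ) : univMat L (σ * τ) = univMat L σ * univMat L τ := by
  apply mat_ext_Phi hadm L
  intro I
  rw [univMat_map_Phi, MatRep.apply_mul]
  have : (univMat L σ * univMat L τ).map (Phi hadm L I) =
      ((Phi hadm L I : R →+* wA hadm I).mapMatrix) (univMat L σ * univMat L τ) := rfl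
  rw [this, map_mul]
  change _ = (univMat L σ).map (Phi hadm L I) * (univMat L τ).map (Phi hadm L I)
  rw [univMat_map_Phi, univMat_map_Phi]

/-- The universal monoid hom `GQ →* M2 R`. -/
def univHom : GQ →* M2 R where
  toFun := univMat L
  map_one' := univMat_one hadm L
  map_mul' := univMat_mul hadm L

theorem univHom_apply (σ : GQ) : univHom hadm L σ = univMat L σ := rfl

variable [IsLocalRing R]

/-- Continuity of the universal matrix representation, given that the quotients
`R ⧸ 𝔪^n` are finite. -/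
theorem univHom_continuous (hfin : ∀ n : ℕ, Finite (R ⧸ maximalIdeal R ^ n)) :
    MatContinuous (A := R) (univHom hadm L) := by
  intro n
  obtain ⟨I, hI⟩ := L.cont (maximalIdeal R ^ n) (hfin n)
  obtain ⟨N, hN⟩ := (wA hadm I).isNilpotent_maximalIdeal
  obtain ⟨K, hK, h⟩ := (wr hadm I).cont N
  refine ⟨K, hK, fun σ hσ i j => ?_⟩
  apply hI
  rw [← ker_Phi hadm L I, RingHom.mem_ker]
  have h1 := h σ hσ i j
  rw [hN, Ideal.zero_eq_bot, Ideal.mem_bot] at h1
  have h2 : Phi hadm L I ((univHom hadm L σ - 1) i j) = (wr hadm I σ - 1) i j := by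
    rw [Matrix.sub_apply, Matrix.sub_apply, map_sub, univHom_apply, univMat_apply, Phi_ofP_X]
    congr 1
    by_cases hij : i = j
    · subst hij; simp
    · simp [Matrix.one_apply_ne hij]
  rw [h2]
  exact h1

/-- The universal matrix representation over `R`. -/
def univRep (hfin : ∀ n : ℕ, Finite (R ⧸ maximalIdeal R ^ n)) : MatRep R where
  toHom := univHom hadm L
  cont := univHom_continuous hadm L hfin

theorem univRep_apply (hfin : ∀ n : ℕ, Finite (R ⧸ maximalIdeal R ^ n)) (σ : GQ) (i j : Fin 2) :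
    univRep hadm L hfin σ i j = L.ofP (MvPolynomial.X (σ, i, j)) := rfl

theorem Phi_univRep (hfin : ∀ n : ℕ, Finite (R ⧸ maximalIdeal R ^ n)) (I : admissible D 𝒟)
    (σ : GQ) (i j : Fin 2) :
    Phi hadm L I (univRep hadm L hfin σ i j) = wr hadm I σ i j := by
  rw [univRep_apply, Phi_ofP_X]

theorem univRep_isNormalised (hfin : ∀ n : ℕ, Finite (R ⧸ maximalIdeal R ^ n)) :
    (univRep hadm L hfin).IsNormalised D := by
  intro j
  apply Phi_jointly_injective hadm L
  intro I
  rw [Phi_univRep, AlgHom.commutes]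
  exact wr_isNormalised hadm I j

variable [IsLocalHom (algebraMap 𝒪 R)]

theorem univRep_isLiftOf (hfin : ∀ n : ℕ, Finite (R ⧸ maximalIdeal R ^ n)) :
    (univRep hadm L hfin).IsLiftOf D.rb := by
  intro σ i j
  obtain ⟨c, hc⟩ := IsLocalRing.residue_surjective (D.rb σ i j)
  rw [← hc, ResidueField.map_residue]
  rw [← sub_eq_zero, ← map_sub, IsLocalRing.residue_eq_zero_iff, mem_maximalIdeal]
  intro hu
  obtain ⟨I, -⟩ := L.cont (maximalIdeal R ^ 1) (hfin 1)
  have h1 : IsUnit (Phi hadm L I (univRep hadm L hfin σ i j - algebraMap 𝒪 R c)) :=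
    hu.map (Phi hadm L I)
  rw [map_sub, Phi_univRep, AlgHom.commutes] at h1
  have h2 : wr hadm I σ i j - algebraMap 𝒪 (wA hadm I) c ∈ maximalIdeal (wA hadm I) := by
    rw [← IsLocalRing.residue_eq_zero_iff, map_sub, sub_eq_zero, wr_isLiftOf hadm I σ i j,
      ← hc, ResidueField.map_residue]
  exact (mem_maximalIdeal _).mp h2 h1

/-! ### The Artinian universal property -/

omit [IsLocalHom (algebraMap 𝒪 R)] in
/-- Existence part of the universal property over Artinian test algebras. -/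
theorem univ_exists (hfin : ∀ n : ℕ, Finite (R ⧸ maximalIdeal R ^ n)) (A : TestAlg 𝒪)
    (r : MatRep A) (hl : r.IsLiftOf D.rb) (hn : r.IsNormalised D) (hD : 𝒟 r.toAdic) :
    ∃ φ : R →ₐ[𝒪] A, IsLocalHom (φ : R →+* A) ∧
      ∀ σ i j, φ (univRep hadm L hfin σ i j) = r σ i j := by
  let I : admissible D 𝒟 := ⟨RingHom.ker (r.ev (𝒪 := 𝒪)), ⟨A, r, hl, hn, hD, rfl⟩⟩
  let e : (EntryRing 𝒪 ⧸ I.1) ≃ₐ[𝒪] wA hadm I :=
    AlgEquiv.ofBijective (iota hadm I) ⟨iota_injective hadm I, iota_surjective hadm I⟩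
  let ψ : wA hadm I →ₐ[𝒪] A :=
    (Ideal.Quotient.liftₐ I.1 (r.ev (𝒪 := 𝒪)) (fun a ha => ha)).comp (e.symm : _ →ₐ[𝒪] _)
  have hψ : ∀ x : EntryRing 𝒪, ψ ((wr hadm I).ev x) = r.ev x := by
    intro x
    have h1 : e.symm ((wr hadm I).ev x) = Ideal.Quotient.mk I.1 x := by
      rw [AlgEquiv.symm_apply_eq]
      rfl
    change (Ideal.Quotient.liftₐ I.1 (r.ev (𝒪 := 𝒪)) (fun a ha => ha))
      (e.symm ((wr hadm I).ev x)) = _
    rw [h1]
    rfl
  refine ⟨ψ.comp (Phi hadm L I), ?_, ?_⟩
  · have h1 : IsLocalHom (Phi hadm L I : R →+* wA hadm I) :=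
      IsLocalHom.of_surjective _ (Phi_surjective hadm L I)
    have h2 : IsLocalHom (ψ : wA hadm I →+* A) := TestAlg.isLocalHom_algHom ψ
    exact isLocalHom_comp' _ h1 _ h2
  · intro σ i j
    change ψ (Phi hadm L I (univRep hadm L hfin σ i j)) = _
    rw [Phi_univRep, ← MatRep.ev_X (𝒪 := 𝒪), hψ, MatRep.ev_X]

omit [IsLocalRing R] [IsLocalHom (algebraMap 𝒪 R)] in
/-- Uniqueness part: two algebra homs to a finite ring agreeing on the image of the
entry ring are equal. -/
theorem univ_unique_of_ofP {B : Type} [CommRing B] [Algebra 𝒪 B] [Finite B]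
    (φ φ' : R →ₐ[𝒪] B) (h : ∀ x : EntryRing 𝒪, φ (L.ofP x) = φ' (L.ofP x)) : φ = φ' := by
  have hfinq : Finite (R ⧸ (RingHom.ker φ ⊓ RingHom.ker φ')) := by
    let g : R ⧸ (RingHom.ker φ ⊓ RingHom.ker φ') →+* B × B :=
      Ideal.Quotient.lift _ ((φ : R →+* B).prod (φ' : R →+* B)) (by
        intro a ha
        have h1 : φ a = 0 := ha.1
        have h2 : φ' a = 0 := ha.2
        ext
        · exact h1
        · exact h2)
    have hg : Function.Injective g := by
      rw [injective_iff_map_eq_zero]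
      intro x hx
      obtain ⟨x, rfl⟩ := Ideal.Quotient.mk_surjective x
      have h0 : ((φ : R →+* B).prod (φ' : R →+* B)) x = 0 := hx
      have h1 : φ x = 0 := congrArg Prod.fst h0
      have h2 : φ' x = 0 := congrArg Prod.snd h0
      exact Ideal.Quotient.eq_zero_iff_mem.mpr ⟨h1, h2⟩
    exact Finite.of_injective g hg
  obtain ⟨I, hI⟩ := L.cont _ hfinq
  ext x
  obtain ⟨p, hp⟩ := Ideal.Quotient.mk_surjective (L.proj I x)
  have hx : x - L.ofP p ∈ RingHom.ker (L.proj I) := by
    rw [RingHom.mem_ker, map_sub, L.proj_ofP, hp, sub_self]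
  have hx' := hI hx
  have h1 : φ (x - L.ofP p) = 0 := hx'.1
  have h2 : φ' (x - L.ofP p) = 0 := hx'.2
  rw [map_sub, sub_eq_zero] at h1 h2
  rw [h1, h2, h]

omit [IsLocalHom (algebraMap 𝒪 R)] in
/-- Uniqueness part of the universal property. -/
theorem univ_unique (hfin : ∀ n : ℕ, Finite (R ⧸ maximalIdeal R ^ n))
    {B : Type} [CommRing B] [Algebra 𝒪 B] [Finite B] (φ φ' : R →ₐ[𝒪] B)
    (h : ∀ σ i j, φ (univRep hadm L hfin σ i j) = φ' (univRep hadm L hfin σ i j)) : φ = φ' := by
  apply univ_unique_of_ofP L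
  have : φ.comp L.ofP = φ'.comp L.ofP := by
    apply MvPolynomial.algHom_ext
    rintro ⟨σ, i, j⟩
    exact h σ i j
  intro x
  exact congrArg (fun f : EntryRing 𝒪 →ₐ[𝒪] B => f x) this

/-! ### The universal representation is of type `𝒟` -/

omit [IsLocalRing R] [IsLocalHom (algebraMap 𝒪 R)] in
/-- Any algebra hom from `R` to a finite ring factors through some `Phi I`. -/
theorem exists_factor_Phi {B : Type} [CommRing B] [Algebra 𝒪 B] [Finite B]
    (q : R →ₐ[𝒪] B) :
    ∃ (I : admissible D 𝒟) (qbar : wA hadm I →ₐ[𝒪] B), ∀ x, qbar (Phi hadm L I x) = q x := by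
  have hfinq : Finite (R ⧸ RingHom.ker q) :=
    Finite.of_injective (Ideal.kerLiftAlg q) (Ideal.kerLiftAlg_injective q)
  obtain ⟨I, hI⟩ := L.cont _ hfinq
  let e' : (R ⧸ RingHom.ker (Phi hadm L I)) ≃ₐ[𝒪] wA hadm I :=
    Ideal.quotientKerAlgEquivOfSurjective (Phi_surjective hadm L I)
  have hle : ∀ a ∈ RingHom.ker (Phi hadm L I), q a = 0 := by
    intro a ha
    rw [ker_Phi] at ha
    exact hI ha
  refine ⟨I, (Ideal.Quotient.liftₐ (RingHom.ker (Phi hadm L I)) q hle).comp
    (e'.symm : _ →ₐ[𝒪] _), fun x => ?_⟩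
  have h1 : e'.symm (Phi hadm L I x) = Ideal.Quotient.mk _ x := by
    rw [AlgEquiv.symm_apply_eq]
    rfl
  change (Ideal.Quotient.liftₐ (RingHom.ker (Phi hadm L I)) q hle)
    (e'.symm (Phi hadm L I x)) = _
  rw [h1]
  rfl

theorem univRep_isType [Finite (ResidueField 𝒪)] [IsNoetherianRing R]
    [IsAdicComplete (maximalIdeal R) R] (h𝒟 : GaloisRep.IsDeformationCondition 𝒪 𝒟)
    (hres : Function.Surjective (IsLocalRing.residue R ∘ algebraMap 𝒪 R))
    (hfin : ∀ n : ℕ, Finite (R ⧸ maximalIdeal R ^ n)) :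
    𝒟 (univRep hadm L hfin).toAdic := by
  rw [h𝒟.iff_forall_surjective inferInstance hres]
  intro B _ _ _ hB q hq _
  let B' : TestAlg 𝒪 := ⟨B, hB⟩
  have : Finite B := TestAlg.finite B'
  obtain ⟨I, qbar, hqbar⟩ := exists_factor_Phi hadm L q
  have hqb : IsLocalHom (qbar : wA hadm I →+* B) :=
    TestAlg.isLocalHom_algHom (A := wA hadm I) (B := B') qbar
  have s1 : 𝒟 ((wr hadm I).toAdic.baseChangeAlong (qbar : wA hadm I →+* B) hqb) :=
    h𝒟.baseChangeAlong (wA hadm I).isTest hB qbar hqb (wr_isType hadm I)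
  have s2 : 𝒟 ((wr hadm I).map (qbar : wA hadm I →+* B) hqb).toAdic :=
    h𝒟.of_isEquiv hB (MatRep.isEquiv_baseChangeAlong_toAdic _ hqb (wr hadm I)) s1
  have heq : (wr hadm I).map (qbar : wA hadm I →+* B) hqb =
      (univRep hadm L hfin).map (q : R →+* B) hq := by
    rw [MatRep.ext_entries]
    intro σ i j
    rw [MatRep.map_apply_apply, MatRep.map_apply_apply, ← Phi_univRep hadm L hfin I]
    exact hqbar _
  rw [heq] at s2
  exact h𝒟.of_isEquiv hB
    (isEquiv_symm (MatRep.isEquiv_baseChangeAlong_toAdic _ hq (univRep hadm L hfin))) s2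

end Univ

/-! ### Instantiation with helper29's `limitRing` -/

open LimitRing in
/-- The limit ring of a family of ideals is presented in the sense of `LimPres` as soon as
finite-index ideals contain the kernel of a projection (LIM continuity). -/
def limPres (F : Set (Ideal (EntryRing 𝒪)))
    (hcont : ∀ a : Ideal (limitRing 𝒪 F), Finite (limitRing 𝒪 F ⧸ a) →
      ∃ I : F, RingHom.ker (proj 𝒪 F I) ≤ a) : LimPres F (limitRing 𝒪 F) where
  ofP := ofP 𝒪 F
  proj := proj 𝒪 F
  proj_ofP := fun _ _ => rfl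
  ext := fun _ _ h => LimitRing.ext h
  cont := hcont

end Fermat.Agent.S53
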