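import Fermat.Agent.S53.Admissible
import Fermat.Agent.S53.AdmissibleInf
import Fermat.Agent.S53.TangentApp
import Fermat.Agent.S53.LimitRing
import Fermat.Agent.S53.LimitRing.Ctors
import Fermat.Agent.S53.Universal

set_option autoImplicit false

/-!
# S53, piece ADM(3): the admissible ideals form a pro-system

`F := admissible D 𝒟` (kernels of evaluation of the entry ring at normalised lifts of type `𝒟`
over Artinian test algebras) satisfies all the hypotheses of the two constructors of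
`LimitRing.IsProSystem` (`IsProSystem.of_card_tangent_le`, `IsProSystem.of_generators`):

* `admissible_nonempty'`, `admissible_inf_mem` : nonempty, closed under `⊓` (piece ADM(2));
* `admissible_finite_quotient`, `admissible_isLocalRing_quotient`, `admissible_residue` :
  each `EntryRing 𝒪 ⧸ I` is a finite local ring with residue field `k`;
* `admissible_card_tangent_le` : the uniform bound on tangent vectors (piece TANAPP);
* `admissible_gen` : the uniform bound on the number of generators of the maximal ideal.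

`hasSurjWitness` is the hypothesis `HasSurjWitness D 𝒟` of `Universal.lean` (piece ADM(1)).

The main theorems `isProSystem_admissible_of_ctor` / `isProSystem_admissible_of_genCtor` take the
relevant constructor (for this `F`) as a hypothesis, in the exact shape of its announced statement;
so `isProSystem_admissible` is a one-liner once the constructor is available.
-/

namespace Fermat.Agent.S53

open IsLocalRing

variable {𝒪 : Type} [CommRing 𝒪] [IsLocalRing 𝒪]
  {𝒟 : ∀ ⦃A : Type⦄ [CommRing A] [IsLocalRing A] [Algebra 𝒪 A], GaloisRepAdic A → Prop}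

/-- ADM(1) in the shape consumed by `Universal.lean`. -/
theorem hasSurjWitness [Finite (ResidueField 𝒪)] (D : RigidDatum 𝒪)
    (h𝒟 : GaloisRep.IsDeformationCondition 𝒪 𝒟) : HasSurjWitness D 𝒟 :=
  fun _ hI => exists_entryGenerated_of_mem_admissible h𝒟 hI

section Quotients

variable [Finite (ResidueField 𝒪)] {D : RigidDatum 𝒪}

/-- `EntryRing 𝒪 ⧸ I` is finite for `I` admissible. -/
theorem admissible_finite_quotient {I : Ideal (EntryRing 𝒪)} (hI : I ∈ admissible D 𝒟) :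
    Finite (EntryRing 𝒪 ⧸ I) := by
  obtain ⟨A, r, -, -, -, rfl⟩ := hI
  exact TestAlg.finite_quotient_ker (r.ev (𝒪 := 𝒪))

/-- `EntryRing 𝒪 ⧸ I` is local for `I` admissible. -/
theorem admissible_isLocalRing_quotient {I : Ideal (EntryRing 𝒪)} (hI : I ∈ admissible D 𝒟) :
    IsLocalRing (EntryRing 𝒪 ⧸ I) := by
  obtain ⟨A, r, -, -, -, rfl⟩ := hI
  exact (inferInstance : IsLocalRing (TestAlg.ofKer (r.ev (𝒪 := 𝒪))))

/-- An admissible ideal is proper. -/
theorem admissible_ne_top {I : Ideal (EntryRing 𝒪)} (hI : I ∈ admissible D 𝒟) : I ≠ ⊤ := by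
  have := admissible_isLocalRing_quotient hI
  intro h
  have : Subsingleton (EntryRing 𝒪 ⧸ I) := Ideal.Quotient.subsingleton_iff.mpr h
  exact not_subsingleton (EntryRing 𝒪 ⧸ I) this

/-- The residue field of `EntryRing 𝒪 ⧸ I` is `k`, for `I` admissible. -/
theorem admissible_residue {I : Ideal (EntryRing 𝒪)} (hI : I ∈ admissible D 𝒟)
    (x : EntryRing 𝒪 ⧸ I) :
    ∃ a : 𝒪, x - algebraMap 𝒪 (EntryRing 𝒪 ⧸ I) a ∈ nonunits (EntryRing 𝒪 ⧸ I) := by
  obtain ⟨A, r, -, -, -, rfl⟩ := hI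
  obtain ⟨a, ha⟩ := TestAlg.exists_algebraMap_sub_mem (TestAlg.ofKer (r.ev (𝒪 := 𝒪))) x
  exact ⟨a, ha⟩

end Quotients

section Main

variable [Finite (ResidueField 𝒪)] {D : RigidDatum 𝒪}
  (ρbar : ResidualGaloisRep (ResidueField 𝒪))

/-- The uniform constant: the number of tangent classes. -/
noncomputable def tanCard (ρbar : ResidualGaloisRep (ResidueField 𝒪))
    (𝒟 : ∀ ⦃A : Type⦄ [CommRing A] [IsLocalRing A] [Algebra 𝒪 A], GaloisRepAdic A → Prop) : ℕ :=
  Nat.card (Quotient (TangentApp.tanSetoid ρbar 𝒟))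

omit [Finite (ResidueField 𝒪)] in
/-- The admissible ideals are nonempty as soon as the residual representation is of type `𝒟`. -/
theorem admissible_nonempty' (h0 : 𝒟 D.matRep.toAdic) : (admissible D 𝒟).Nonempty :=
  admissible_nonempty D h0

/-- The admissible ideals are closed under intersection. -/
theorem admissible_inf_mem (h𝒟 : GaloisRep.IsDeformationCondition 𝒪 𝒟) :
    ∀ I ∈ admissible D 𝒟, ∀ J ∈ admissible D 𝒟, I ⊓ J ∈ admissible D 𝒟 :=
  fun _ hI _ hJ => admissible_inf D h𝒟 hI hJ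

/-- The uniform bound on tangent vectors of the quotients by admissible ideals. -/
theorem admissible_card_tangent_le (h𝒟 : GaloisRep.IsDeformationCondition 𝒪 𝒟)
    (hfin : GaloisRep.TangentFinite 𝒪 ρbar 𝒟) (hrb : IsMatrixFormOf D.rb ρbar)
    (I : Ideal (EntryRing 𝒪)) (hI : I ∈ admissible D 𝒟) :
    Nat.card (@AlgHom 𝒪 (EntryRing 𝒪 ⧸ I) (DualNumber (ResidueField 𝒪)) _ _ _ _
      (TestAlg.dualNumberAlgebra 𝒪)) ≤ tanCard ρbar 𝒟 :=
  TangentApp.card_algHom_quotient_le h𝒟 hfin hrb I hI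

/-- The uniform bound on the number of generators of the maximal ideals of the quotients by
admissible ideals (the `gen` hypothesis of `IsProSystem.of_generators`). -/
theorem admissible_gen (h𝒟 : GaloisRep.IsDeformationCondition 𝒪 𝒟)
    (hfin : GaloisRep.TangentFinite 𝒪 ρbar 𝒟) (hrb : IsMatrixFormOf D.rb ρbar)
    (I : Ideal (EntryRing 𝒪)) (hI : I ∈ admissible D 𝒟) :
    ∃ t : Fin (tanCard ρbar 𝒟) → EntryRing 𝒪 ⧸ I, (∀ i, t i ∈ nonunits (EntryRing 𝒪 ⧸ I)) ∧
      ∀ x ∈ nonunits (EntryRing 𝒪 ⧸ I), x ∈ Ideal.span (Set.range t) ⊔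
        (maximalIdeal 𝒪).map (algebraMap 𝒪 (EntryRing 𝒪 ⧸ I)) := by
  obtain ⟨A, r, hr, hN, hD, rfl⟩ := hI
  obtain ⟨t, ht, hmax⟩ := TangentApp.exists_generators (A := entryAlg r) h𝒟 hfin hrb
    (tautRep_isLiftOf r hr) (tautRep_isNormalised r hN) (tautRep_isOfType r h𝒟 hD)
    (tautRep_ev_surjective r)
  refine ⟨t, fun i => ht i, fun x hx => ?_⟩
  have hx' : x ∈ maximalIdeal (entryAlg r) := hx
  rw [hmax] at hx'
  exact hx'

end Main

section Ctor

variable [Finite (ResidueField 𝒪)]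
  {D : RigidDatum 𝒪} (ρbar : ResidualGaloisRep (ResidueField 𝒪))

/-- ADM(3), given the constructor `IsProSystem.of_card_tangent_le` (for `F = admissible D 𝒟`) as a
hypothesis `hctor`, in the exact shape of its announced statement. -/
theorem isProSystem_admissible_of_ctor
    (hctor : ∀ (F : Set (Ideal (EntryRing 𝒪))) (c : ℕ)
      (inst : Algebra 𝒪 (DualNumber (ResidueField 𝒪))),
      @algebraMap 𝒪 (DualNumber (ResidueField 𝒪)) _ _ inst =
        (algebraMap (ResidueField 𝒪) (DualNumber (ResidueField 𝒪))).comp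
          (algebraMap 𝒪 (ResidueField 𝒪)) →
      F.Nonempty → (∀ I ∈ F, ∀ J ∈ F, I ⊓ J ∈ F) →
      (∀ I ∈ F, Finite (EntryRing 𝒪 ⧸ I)) →
      (∀ I ∈ F, IsLocalRing (EntryRing 𝒪 ⧸ I)) →
      (∀ I ∈ F, ∀ x : EntryRing 𝒪 ⧸ I,
        ∃ a : 𝒪, x - algebraMap 𝒪 (EntryRing 𝒪 ⧸ I) a ∈ nonunits (EntryRing 𝒪 ⧸ I)) →
      (∀ I ∈ F, Nat.card (@AlgHom 𝒪 (EntryRing 𝒪 ⧸ I) (DualNumber (ResidueField 𝒪)) _ _ _ _ inst)
        ≤ c) →
      LimitRing.IsProSystem 𝒪 F c)
    (h𝒟 : GaloisRep.IsDeformationCondition 𝒪 𝒟)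
    (hfin : GaloisRep.TangentFinite 𝒪 ρbar 𝒟) (hrb : IsMatrixFormOf D.rb ρbar)
    (h0 : 𝒟 D.matRep.toAdic) :
    LimitRing.IsProSystem 𝒪 (admissible D 𝒟) (tanCard ρbar 𝒟) :=
  hctor (admissible D 𝒟) (tanCard ρbar 𝒟) (TestAlg.dualNumberAlgebra 𝒪) rfl
    (admissible_nonempty' h0) (admissible_inf_mem h𝒟)
    (fun _ hI => admissible_finite_quotient hI)
    (fun _ hI => admissible_isLocalRing_quotient hI)
    (fun _ hI => admissible_residue hI)
    (admissible_card_tangent_le ρbar h𝒟 hfin hrb)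

/-- ADM(3), given the constructor `IsProSystem.of_generators` (for `F = admissible D 𝒟`) as a
hypothesis `hctor`, in the exact shape of its announced statement. -/
theorem isProSystem_admissible_of_genCtor
    (hctor : ∀ (F : Set (Ideal (EntryRing 𝒪))) (d : ℕ),
      F.Nonempty → (∀ I ∈ F, ∀ J ∈ F, I ⊓ J ∈ F) →
      (∀ I ∈ F, Finite (EntryRing 𝒪 ⧸ I)) →
      (∀ I ∈ F, IsLocalRing (EntryRing 𝒪 ⧸ I)) →
      (∀ I ∈ F, ∀ x : EntryRing 𝒪 ⧸ I,
        ∃ a : 𝒪, x - algebraMap 𝒪 (EntryRing 𝒪 ⧸ I) a ∈ nonunits (EntryRing 𝒪 ⧸ I)) →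
      (∀ I ∈ F, ∃ t : Fin d → EntryRing 𝒪 ⧸ I, (∀ i, t i ∈ nonunits (EntryRing 𝒪 ⧸ I)) ∧
        ∀ x ∈ nonunits (EntryRing 𝒪 ⧸ I), x ∈ Ideal.span (Set.range t) ⊔
          (maximalIdeal 𝒪).map (algebraMap 𝒪 (EntryRing 𝒪 ⧸ I))) →
      LimitRing.IsProSystem 𝒪 F d)
    (h𝒟 : GaloisRep.IsDeformationCondition 𝒪 𝒟)
    (hfin : GaloisRep.TangentFinite 𝒪 ρbar 𝒟) (hrb : IsMatrixFormOf D.rb ρbar)
    (h0 : 𝒟 D.matRep.toAdic) :
    LimitRing.IsProSystem 𝒪 (admissible D 𝒟) (tanCard ρbar 𝒟) :=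
  hctor (admissible D 𝒟) (tanCard ρbar 𝒟)
    (admissible_nonempty' h0) (admissible_inf_mem h𝒟)
    (fun _ hI => admissible_finite_quotient hI)
    (fun _ hI => admissible_isLocalRing_quotient hI)
    (fun _ hI => admissible_residue hI)
    (admissible_gen ρbar h𝒟 hfin hrb)

/-- **ADM(3)**: the admissible ideals form a pro-system, with `d` the number of tangent
classes. -/
theorem isProSystem_admissible
    (h𝒟 : GaloisRep.IsDeformationCondition 𝒪 𝒟)
    (hfin : GaloisRep.TangentFinite 𝒪 ρbar 𝒟) (hrb : IsMatrixFormOf D.rb ρbar)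
    (h0 : 𝒟 D.matRep.toAdic) :
    LimitRing.IsProSystem 𝒪 (admissible D 𝒟) (tanCard ρbar 𝒟) :=
  isProSystem_admissible_of_genCtor ρbar
    (fun F d => LimitRing.IsProSystem.of_generators F d) h𝒟 hfin hrb h0

end Ctor

end Fermat.Agent.S53
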