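import Fermat.Agent.S53.Glue
import Fermat.Agent.S53.Admissible
import Fermat.Agent.S53.Universal

set_option autoImplicit false

/-!
# S53: the deformation ring from the limit ring of the admissible ideals

`nonempty_deformationRingData_of_limitRing` takes the ring-theoretic properties of
`R = limitRing 𝒪 (admissible D 𝒟)` (piece LIM applied to the pro-system of ADM(3)) as hypotheses
and produces the deformation ring datum.
-/

noncomputable section

namespace Fermat.Agent.S53

open IsLocalRing LimitRing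

variable {𝒪 : Type} [CommRing 𝒪] [IsDomain 𝒪] [IsDiscreteValuationRing 𝒪]
  [IsAdicComplete (maximalIdeal 𝒪) 𝒪] [Finite (ResidueField 𝒪)]
  {ρbar : ResidualGaloisRep (ResidueField 𝒪)}
  {𝒟 : ∀ ⦃A : Type⦄ [CommRing A] [IsLocalRing A] [Algebra 𝒪 A], GaloisRepAdic A → Prop}

/-- The deformation ring datum, from the properties of the limit ring of the admissible ideals. -/
theorem nonempty_deformationRingData_of_limitRing
    (habs : ρbar.IsAbsolutelyIrreducible)
    (h𝒟 : GaloisRep.IsDeformationCondition 𝒪 𝒟)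
    (D : RigidDatum 𝒪) (hD : ρbar.IsEquiv D.toResidual)
    [IsLocalRing (limitRing 𝒪 (admissible D 𝒟))]
    [IsNoetherianRing (limitRing 𝒪 (admissible D 𝒟))]
    [IsLocalHom (algebraMap 𝒪 (limitRing 𝒪 (admissible D 𝒟)))]
    [IsAdicComplete (maximalIdeal (limitRing 𝒪 (admissible D 𝒟))) (limitRing 𝒪 (admissible D 𝒟))]
    (hres : Function.Surjective (residue (limitRing 𝒪 (admissible D 𝒟)) ∘
      algebraMap 𝒪 (limitRing 𝒪 (admissible D 𝒟))))
    (hfin : ∀ n : ℕ, Finite (limitRing 𝒪 (admissible D 𝒟) ⧸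
      maximalIdeal (limitRing 𝒪 (admissible D 𝒟)) ^ n))
    (hcont : ∀ a : Ideal (limitRing 𝒪 (admissible D 𝒟)),
      Finite (limitRing 𝒪 (admissible D 𝒟) ⧸ a) →
      ∃ I : admissible D 𝒟, RingHom.ker (proj 𝒪 (admissible D 𝒟) I) ≤ a) :
    Nonempty (GaloisRep.DeformationRingData 𝒪 ρbar 𝒟) := by
  have hadm : HasSurjWitness D 𝒟 := fun I hI => exists_entryGenerated_of_mem_admissible h𝒟 hI
  let L : LimPres (admissible D 𝒟) (limitRing 𝒪 (admissible D 𝒟)) :=
    limPres (admissible D 𝒟) hcont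
  refine nonempty_deformationRingData_of_inputs habs h𝒟 D hD (pieceInputs D)
    (limitRing 𝒪 (admissible D 𝒟)) hres (Univ.univRep hadm L hfin)
    (Univ.univRep_isLiftOf hadm L hfin) (Univ.univRep_isNormalised hadm L hfin)
    (Univ.univRep_isType hadm L h𝒟 hres hfin) ?_
  intro A r hl hn hty
  have : Finite A := TestAlg.finite A
  obtain ⟨φ, hφloc, hφ⟩ := Univ.univ_exists hadm L hfin A r hl hn hty
  refine ⟨φ, ⟨hφloc, MatRep.ext_entries.mpr fun σ i j => ?_⟩, ?_⟩
  · rw [MatRep.map_apply_apply]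
    exact hφ σ i j
  · rintro ψ ⟨hψloc, hψ⟩
    refine Univ.univ_unique hadm L hfin ψ φ fun σ i j => ?_
    rw [hφ σ i j, ← hψ, MatRep.map_apply_apply]
    rfl

end Fermat.Agent.S53
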