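import Fermat.Agent.S53.Nrm
import Fermat.Agent.S53.BaseChange
import Fermat.Agent.S53.FrameLift

set_option autoImplicit false

/-!
# S53: final assembly

From the universal normalised lift `ρR` over a complete Noetherian local `𝒪`-algebra `R`
(universal among Artinian test algebras) we build `GaloisRep.DeformationRingData`.
All inputs from the other pieces are explicit hypotheses of `nonempty_deformationRingData_of_inputs`.
-/

noncomputable section

namespace Fermat.Agent.S53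

open IsLocalRing

variable {𝒪 : Type} [CommRing 𝒪] [IsLocalRing 𝒪]

/-- The residual representation on `k²` defined by the matrix form `D.rb`. -/
def RigidDatum.toResidual (D : RigidDatum 𝒪) : ResidualGaloisRep (ResidueField 𝒪) where
  V := Fin 2 → ResidueField 𝒪
  finrank_eq := by simp
  ρ := (Matrix.toLinAlgEquiv' (R := ResidueField 𝒪) (n := Fin 2) :
      M2 (ResidueField 𝒪) →* Module.End (ResidueField 𝒪) (Fin 2 → ResidueField 𝒪)).comp D.rb
  factorsThroughFiniteLevel := by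
    obtain ⟨L, hL, h⟩ := D.level
    refine ⟨L, hL, fun σ hσ => ?_⟩
    rw [MonoidHom.comp_apply, h σ hσ, map_one]

section QuotPow

variable {A : Type} [CommRing A] [IsLocalRing A] [IsNoetherianRing A] [Algebra 𝒪 A]

theorem maximalIdeal_pow_succ_ne_top (n : ℕ) : maximalIdeal A ^ (n + 1) ≠ ⊤ := by
  intro h
  have h1 : maximalIdeal A ^ (n + 1) ≤ maximalIdeal A := Ideal.pow_le_self (Nat.succ_ne_zero n)
  rw [h] at h1
  exact (maximalIdeal.isMaximal A).ne_top (top_le_iff.mp h1)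

/-- `A ⧸ 𝔪^(n+1)` as a test algebra. -/
def quotPow (hloc : IsLocalHom (algebraMap 𝒪 A))
    (hres : Function.Surjective (residue A ∘ algebraMap 𝒪 A)) (n : ℕ) : TestAlg 𝒪 :=
  TestAlg.ofQuot hloc hres (maximalIdeal A ^ (n + 1)) (maximalIdeal_pow_succ_ne_top n)
    ⟨n + 1, le_rfl⟩

/-- The projection `A → A ⧸ 𝔪^(n+1)`. -/
def quotPowMk (hloc : IsLocalHom (algebraMap 𝒪 A))
    (hres : Function.Surjective (residue A ∘ algebraMap 𝒪 A)) (n : ℕ) :
    A →ₐ[𝒪] quotPow hloc hres n :=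
  Ideal.Quotient.mkₐ 𝒪 (maximalIdeal A ^ (n + 1))

theorem quotPowMk_surjective (hloc : IsLocalHom (algebraMap 𝒪 A))
    (hres : Function.Surjective (residue A ∘ algebraMap 𝒪 A)) (n : ℕ) :
    Function.Surjective (quotPowMk hloc hres n) :=
  Ideal.Quotient.mk_surjective

theorem isLocalHom_quotPowMk (hloc : IsLocalHom (algebraMap 𝒪 A))
    (hres : Function.Surjective (residue A ∘ algebraMap 𝒪 A)) (n : ℕ) :
    IsLocalHom (quotPowMk hloc hres n : A →+* quotPow hloc hres n) :=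
  IsLocalHom.of_surjective _ (quotPowMk_surjective hloc hres n)

theorem quotPowMk_eq_iff (hloc : IsLocalHom (algebraMap 𝒪 A))
    (hres : Function.Surjective (residue A ∘ algebraMap 𝒪 A)) (n : ℕ) (x y : A) :
    quotPowMk hloc hres n x = quotPowMk hloc hres n y ↔ x - y ∈ maximalIdeal A ^ (n + 1) :=
  Ideal.Quotient.eq

/-- Transition maps `A ⧸ 𝔪^(n+1) → A ⧸ 𝔪^(m+1)` for `m ≤ n`. -/
def quotPowTrans (hloc : IsLocalHom (algebraMap 𝒪 A))
    (hres : Function.Surjective (residue A ∘ algebraMap 𝒪 A)) {m n : ℕ} (h : m ≤ n) :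
    quotPow hloc hres n →ₐ[𝒪] quotPow hloc hres m :=
  Ideal.Quotient.factorₐ 𝒪 (Ideal.pow_le_pow_right (Nat.succ_le_succ h))

theorem quotPowTrans_mk (hloc : IsLocalHom (algebraMap 𝒪 A))
    (hres : Function.Surjective (residue A ∘ algebraMap 𝒪 A)) {m n : ℕ} (h : m ≤ n) (x : A) :
    quotPowTrans hloc hres h (quotPowMk hloc hres n x) = quotPowMk hloc hres m x := rfl

theorem quotPowTrans_comp_mk (hloc : IsLocalHom (algebraMap 𝒪 A))
    (hres : Function.Surjective (residue A ∘ algebraMap 𝒪 A)) {m n : ℕ} (h : m ≤ n) :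
    (quotPowTrans hloc hres h).comp (quotPowMk hloc hres n) = quotPowMk hloc hres m :=
  AlgHom.ext fun x => quotPowTrans_mk hloc hres h x

/-- The map `A ⧸ 𝔪^(n+1) → A ⧸ 𝔪^n`. -/
def quotPowDown (hloc : IsLocalHom (algebraMap 𝒪 A))
    (hres : Function.Surjective (residue A ∘ algebraMap 𝒪 A)) (n : ℕ) :
    quotPow hloc hres n →ₐ[𝒪] A ⧸ maximalIdeal A ^ n :=
  Ideal.Quotient.factorₐ 𝒪 (Ideal.pow_le_pow_right (Nat.le_succ n))

theorem quotPowDown_mk (hloc : IsLocalHom (algebraMap 𝒪 A))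
    (hres : Function.Surjective (residue A ∘ algebraMap 𝒪 A)) (n : ℕ) (x : A) :
    quotPowDown hloc hres n (quotPowMk hloc hres n x) = Ideal.Quotient.mk (maximalIdeal A ^ n) x :=
  rfl

/-- In a Noetherian local ring, two elements that agree modulo every power of the maximal ideal
are equal. -/
theorem eq_of_forall_quotPowMk_eq (hloc : IsLocalHom (algebraMap 𝒪 A))
    (hres : Function.Surjective (residue A ∘ algebraMap 𝒪 A)) {x y : A}
    (h : ∀ n, quotPowMk hloc hres n x = quotPowMk hloc hres n y) : x = y := by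
  have hH : IsHausdorff (maximalIdeal A) A := inferInstance
  rw [← sub_eq_zero]
  refine hH.haus' _ fun n => ?_
  have h1 : x - y ∈ maximalIdeal A ^ (n + 1) := (quotPowMk_eq_iff hloc hres n x y).mp (h n)
  have h2 : x - y ∈ maximalIdeal A ^ n := Ideal.pow_le_pow_right (Nat.le_succ n) h1
  rw [SModEq.zero]
  simpa using h2

end QuotPow


section TypeTransfer

variable {𝒟 : ∀ ⦃A : Type⦄ [CommRing A] [IsLocalRing A] [Algebra 𝒪 A], GaloisRepAdic A → Prop}
  {A : Type} [CommRing A] [IsLocalRing A] [IsNoetherianRing A]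
  [IsAdicComplete (maximalIdeal A) A] [Algebra 𝒪 A]

/-- Over a complete Noetherian local `𝒪`-algebra, the deformation condition is invariant under
equivalence. -/
theorem type_of_isEquiv (h𝒟 : GaloisRep.IsDeformationCondition 𝒪 𝒟)
    (hloc : IsLocalHom (algebraMap 𝒪 A))
    (hres : Function.Surjective (residue A ∘ algebraMap 𝒪 A)) {ρ ρ' : GaloisRepAdic A}
    (he : ρ.IsEquiv ρ') (h : 𝒟 ρ) : 𝒟 ρ' := by
  refine (h𝒟.iff_forall_surjective hloc hres ρ').mpr fun B _ _ _ hB q hq hsurj => ?_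
  exact h𝒟.of_isEquiv hB (isEquiv_baseChangeAlong (q : A →+* B) hq he)
    ((h𝒟.iff_forall_surjective hloc hres ρ).mp h hB q hq hsurj)

/-- The deformation condition passes to the quotients `A ⧸ 𝔪^(n+1)`. -/
theorem type_baseChangeAlong_quotPowMk (h𝒟 : GaloisRep.IsDeformationCondition 𝒪 𝒟)
    (hloc : IsLocalHom (algebraMap 𝒪 A))
    (hres : Function.Surjective (residue A ∘ algebraMap 𝒪 A)) {ρ : GaloisRepAdic A}
    (h : 𝒟 ρ) (n : ℕ) :
    𝒟 (ρ.baseChangeAlong (quotPowMk hloc hres n : A →+* quotPow hloc hres n)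
      (isLocalHom_quotPowMk hloc hres n)) :=
  (h𝒟.iff_forall_surjective hloc hres ρ).mp h (quotPow hloc hres n).isTest
    (quotPowMk hloc hres n) (isLocalHom_quotPowMk hloc hres n) (quotPowMk_surjective hloc hres n)

end TypeTransfer

section Main

/-- The inputs from pieces B and RIGAPP, bundled. -/
structure PieceInputs (D : RigidDatum 𝒪) : Prop where
  B1 : ∀ {A B : Type} [CommRing A] [IsLocalRing A] [CommRing B] [IsLocalRing B] (φ : A →+* B)
    (hφ : IsLocalHom φ) (r : MatRep A),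
    (r.toAdic.baseChangeAlong φ hφ).IsEquiv (r.map φ hφ).toAdic
  B2 : ∀ {A : Type} [CommRing A] [IsLocalRing A] (r r' : MatRep A),
    r.toAdic.IsEquiv r'.toAdic ↔ ∃ g : (M2 A)ˣ, r' = r.conj g
  B3 : ∀ {A : Type} [CommRing A] [IsLocalRing A] [Algebra 𝒪 A] [IsLocalHom (algebraMap 𝒪 A)]
    (ρ : GaloisRepAdic A),
    ρ.residual.IsEquiv (D.toResidual.baseChangeAlong (ResidueField.map (algebraMap 𝒪 A))) →
    ∃ r : MatRep A, r.IsLiftOf D.rb ∧ r.toAdic.IsEquiv ρ
  B4 : ∀ {A : Type} [CommRing A] [IsLocalRing A] [Algebra 𝒪 A] [IsLocalHom (algebraMap 𝒪 A)]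
    (r : MatRep A), r.IsLiftOf D.rb →
    r.toAdic.residual.IsEquiv (D.toResidual.baseChangeAlong (ResidueField.map (algebraMap 𝒪 A)))
  R2 : ∀ {A : Type} [CommRing A] [IsLocalRing A] [Algebra 𝒪 A] [IsLocalHom (algebraMap 𝒪 A)]
    [IsAdicComplete (maximalIdeal A) A], Function.Surjective (residue A ∘ algebraMap 𝒪 A) →
    ∀ r : MatRep A, r.IsLiftOf D.rb →
      ∃ g : (M2 A)ˣ, (r.conj g).IsNormalised D ∧ (r.conj g).IsLiftOf D.rb
  R3 : ∀ {A : Type} [CommRing A] [IsLocalRing A] [Algebra 𝒪 A] [IsLocalHom (algebraMap 𝒪 A)]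
    [IsAdicComplete (maximalIdeal A) A], Function.Surjective (residue A ∘ algebraMap 𝒪 A) →
    ∀ r r' : MatRep A, r.IsLiftOf D.rb → r.IsNormalised D → r'.IsLiftOf D.rb →
      r'.IsNormalised D → ∀ g : (M2 A)ˣ, r' = r.conj g → r' = r

variable {ρbar : ResidualGaloisRep (ResidueField 𝒪)}
  {𝒟 : ∀ ⦃A : Type⦄ [CommRing A] [IsLocalRing A] [Algebra 𝒪 A], GaloisRepAdic A → Prop}

/-- The universal property for complete Noetherian local algebras, from the Artinian one. -/
theorem universal_of_inputs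
    (h𝒟 : GaloisRep.IsDeformationCondition 𝒪 𝒟)
    (D : RigidDatum 𝒪) (hD : ρbar.IsEquiv D.toResidual) (P : PieceInputs D)
    (R : Type) [CommRing R] [IsLocalRing R] [IsNoetherianRing R]
    [IsAdicComplete (maximalIdeal R) R] [Algebra 𝒪 R] [IsLocalHom (algebraMap 𝒪 R)]
    (ρR : MatRep R) (hlift : ρR.IsLiftOf D.rb) (hnorm : ρR.IsNormalised D)
    (huniv : ∀ (A : TestAlg 𝒪) (r : MatRep A), r.IsLiftOf D.rb → r.IsNormalised D → 𝒟 r.toAdic →
      ∃! φ : R →ₐ[𝒪] A, ∃ hφ : IsLocalHom (φ : R →+* A), ρR.map (φ : R →+* A) hφ = r)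
    (A : Type) [CommRing A] [IsLocalRing A] [IsNoetherianRing A]
    [IsAdicComplete (maximalIdeal A) A] [Algebra 𝒪 A] [hloc : IsLocalHom (algebraMap 𝒪 A)]
    (hAres : Function.Surjective (residue A ∘ algebraMap 𝒪 A))
    (ρA : GaloisRepAdic A) (hρA : 𝒟 ρA)
    (hresA : ρA.residual.IsEquiv
      (ρbar.baseChangeAlong (ResidueField.map (algebraMap 𝒪 A)))) :
    ∃! φ : R →ₐ[𝒪] A, ∃ hφ : IsLocalHom (φ : R →+* A),
      (ρR.toAdic.baseChangeAlong (φ : R →+* A) hφ).IsEquiv ρA := by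
  -- Step 1: a normalised matrix model `r` of `ρA`
  obtain ⟨r₀, hr₀lift, hr₀eq⟩ := P.B3 ρA
    (res_isEquiv_trans hresA (res_isEquiv_baseChangeAlong _ hD))
  obtain ⟨g, hrnorm, hrlift⟩ := P.R2 hAres r₀ hr₀lift
  set r : MatRep A := r₀.conj g with hr
  have hreq : r.toAdic.IsEquiv ρA :=
    isEquiv_trans (isEquiv_symm ((P.B2 r₀ r).mpr ⟨g, rfl⟩)) hr₀eq
  have hrtype : 𝒟 r.toAdic := type_of_isEquiv h𝒟 hloc hAres (isEquiv_symm hreq) hρA
  -- Step 2: the levels
  let An : ℕ → TestAlg 𝒪 := fun n => quotPow hloc hAres n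
  let π : ∀ n, A →ₐ[𝒪] An n := fun n => quotPowMk hloc hAres n
  have hπ : ∀ n, IsLocalHom (π n : A →+* An n) := fun n => isLocalHom_quotPowMk hloc hAres n
  let rn : ∀ n, MatRep (An n) := fun n => r.map (π n : A →+* An n) (hπ n)
  have hrnlift : ∀ n, (rn n).IsLiftOf D.rb := fun n => hrlift.map (π n) (hπ n)
  have hrnnorm : ∀ n, (rn n).IsNormalised D := fun n => hrnorm.map (π n) (hπ n)
  have hrntype : ∀ n, 𝒟 (rn n).toAdic := fun n =>
    h𝒟.of_isEquiv (An n).isTest (P.B1 (π n : A →+* An n) (hπ n) r)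
      (type_baseChangeAlong_quotPowMk h𝒟 hloc hAres hrtype n)
  -- Step 3: the maps at each level
  choose φn hφn hφn_unique using fun n => huniv (An n) (rn n) (hrnlift n) (hrnnorm n) (hrntype n)
  obtain ⟨hφnloc, hφnmap⟩ : (∀ n, IsLocalHom (φn n : R →+* An n)) ∧
      ∀ n (h : IsLocalHom (φn n : R →+* An n)), ρR.map (φn n : R →+* An n) h = rn n := by
    refine ⟨fun n => (hφn n).1, fun n h => ?_⟩
    obtain ⟨h', e⟩ := hφn n
    exact e
  -- characterisation: an algebra hom whose push-forward of `ρR` is `r` reduces to `φn n`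
  have key : ∀ (ψ : R →ₐ[𝒪] A) (hψ : IsLocalHom (ψ : R →+* A)),
      ρR.map (ψ : R →+* A) hψ = r → ∀ n, (π n).comp ψ = φn n := by
    intro ψ hψ hψr n
    apply hφn_unique n
    have hloc' : IsLocalHom (((π n).comp ψ : R →ₐ[𝒪] An n) : R →+* An n) :=
      isLocalHom_comp' (ψ : R →+* A) hψ (π n : A →+* An n) (hπ n)
    refine ⟨hloc', ?_⟩
    exact (MatRep.map_map (ψ : R →+* A) hψ (π n : A →+* An n) (hπ n) hloc' ρR).symm.trans
      (congrArg (fun t => MatRep.map (π n : A →+* An n) (hπ n) t) hψr)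
  -- compatibility of the `φn`
  have hcompat : ∀ {m n : ℕ} (h : m ≤ n), (quotPowTrans hloc hAres h).comp (φn n) = φn m := by
    intro m n h
    apply hφn_unique m
    have hτ : IsLocalHom (quotPowTrans hloc hAres h : An n →+* An m) :=
      TestAlg.isLocalHom_algHom (quotPowTrans hloc hAres h)
    have hloc' : IsLocalHom ((((quotPowTrans hloc hAres h).comp (φn n) : R →ₐ[𝒪] An m)) :
        R →+* An m) :=
      isLocalHom_comp' (φn n : R →+* An n) (hφnloc n) _ hτ
    refine ⟨hloc', ?_⟩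
    have h1 := (MatRep.map_map (φn n : R →+* An n) (hφnloc n)
      (quotPowTrans hloc hAres h : An n →+* An m) hτ hloc' ρR).symm
    rw [hφnmap n (hφnloc n)] at h1
    refine h1.trans ?_
    have hloc'' : IsLocalHom ((quotPowTrans hloc hAres h : An n →+* An m).comp
        (π n : A →+* An n)) := isLocalHom_comp' _ (hπ n) _ hτ
    refine (MatRep.map_map (π n : A →+* An n) (hπ n)
      (quotPowTrans hloc hAres h : An n →+* An m) hτ hloc'' r).trans ?_
    exact MatRep.ext fun σ => rfl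
  -- the family for `IsAdicComplete.liftAlgHom`
  let f : ∀ n : ℕ, R →ₐ[𝒪] A ⧸ maximalIdeal A ^ n :=
    fun n => (quotPowDown hloc hAres n).comp (φn n)
  have hf : ∀ {m n : ℕ} (hle : m ≤ n),
      (Ideal.Quotient.factorₐ 𝒪 (Ideal.pow_le_pow_right hle)).comp (f n) = f m := by
    intro m n hle
    have h1 : f m = ((quotPowDown hloc hAres m).comp (quotPowTrans hloc hAres hle)).comp (φn n) := by
      rw [AlgHom.comp_assoc, hcompat hle]
    rw [h1]
    refine AlgHom.ext fun x => ?_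
    simp only [AlgHom.comp_apply, f]
    obtain ⟨a, ha⟩ := quotPowMk_surjective hloc hAres n (φn n x)
    rw [← ha]
    rfl
  let φ : R →ₐ[𝒪] A := IsAdicComplete.liftAlgHom (maximalIdeal A) f hf
  have hφπ : ∀ n, (π n).comp φ = φn n := by
    intro n
    refine AlgHom.ext fun x => ?_
    have h1 : Ideal.Quotient.mk (maximalIdeal A ^ (n + 1)) (φ x) = f (n + 1) x :=
      IsAdicComplete.mk_liftAlgHom (maximalIdeal A) f hf (n + 1) x
    have h2 : φn n x = quotPowTrans hloc hAres (Nat.le_succ n) (φn (n + 1) x) := by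
      rw [← hcompat (Nat.le_succ n)]; rfl
    rw [h2]
    exact h1
  -- `φ` is local
  have hφloc : IsLocalHom (φ : R →+* A) := by
    refine ⟨fun x hx => ?_⟩
    have h1 : IsUnit ((π 0) (φ x)) := hx.map (π 0)
    have h2 : (π 0) (φ x) = φn 0 x := congrArg (fun w : R →ₐ[𝒪] An 0 => w x) (hφπ 0)
    rw [h2] at h1
    exact (hφnloc 0).map_nonunit x h1
  -- the push-forward of `ρR` along `φ` is `r`
  have hφr : ρR.map (φ : R →+* A) hφloc = r := by
    refine MatRep.ext fun σ => Matrix.ext fun i j => ?_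
    refine eq_of_forall_quotPowMk_eq hloc hAres fun n => ?_
    have h1 : (π n) (φ (ρR σ i j)) = φn n (ρR σ i j) :=
      congrArg (fun w : R →ₐ[𝒪] An n => w (ρR σ i j)) (hφπ n)
    have h2 : φn n (ρR σ i j) = rn n σ i j :=
      congrArg (fun t : MatRep (An n) => t σ i j) (hφnmap n (hφnloc n))
    exact h1.trans h2
  refine ⟨φ, ⟨hφloc, ?_⟩, ?_⟩
  · exact isEquiv_trans (P.B1 (φ : R →+* A) hφloc ρR) (hφr ▸ hreq)
  · rintro ψ ⟨hψ, heψ⟩
    have h1 : (ρR.map (ψ : R →+* A) hψ).toAdic.IsEquiv r.toAdic :=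
      isEquiv_trans (isEquiv_symm (P.B1 (ψ : R →+* A) hψ ρR))
        (isEquiv_trans heψ (isEquiv_symm hreq))
    obtain ⟨g', hg'⟩ := (P.B2 _ _).mp h1
    have h2 : r = ρR.map (ψ : R →+* A) hψ :=
      P.R3 hAres _ r (hlift.map ψ hψ) (hnorm.map ψ hψ) hrlift hrnorm g' hg'
    refine AlgHom.ext fun x => eq_of_forall_quotPowMk_eq hloc hAres fun n => ?_
    have e1 := congrArg (fun w : R →ₐ[𝒪] An n => w x) (key ψ hψ h2.symm n)
    have e2 := congrArg (fun w : R →ₐ[𝒪] An n => w x) (hφπ n)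
    exact e1.trans e2.symm

end Main

section Assembly

variable {𝒪 : Type} [CommRing 𝒪] [IsDomain 𝒪] [IsDiscreteValuationRing 𝒪]
  [IsAdicComplete (maximalIdeal 𝒪) 𝒪]
  {ρbar : ResidualGaloisRep (ResidueField 𝒪)}
  {𝒟 : ∀ ⦃A : Type⦄ [CommRing A] [IsLocalRing A] [Algebra 𝒪 A], GaloisRepAdic A → Prop}

/-- Assembly of `DeformationRingData` from the universal normalised lift. -/
theorem nonempty_deformationRingData_of_inputs
    (habs : ρbar.IsAbsolutelyIrreducible)
    (h𝒟 : GaloisRep.IsDeformationCondition 𝒪 𝒟)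
    (D : RigidDatum 𝒪) (hD : ρbar.IsEquiv D.toResidual) (P : PieceInputs D)
    (R : Type) [CommRing R] [IsLocalRing R] [IsNoetherianRing R]
    [IsAdicComplete (maximalIdeal R) R] [Algebra 𝒪 R] [IsLocalHom (algebraMap 𝒪 R)]
    (hRres : Function.Surjective (residue R ∘ algebraMap 𝒪 R))
    (ρR : MatRep R) (hlift : ρR.IsLiftOf D.rb) (hnorm : ρR.IsNormalised D)
    (htype : 𝒟 ρR.toAdic)
    (huniv : ∀ (A : TestAlg 𝒪) (r : MatRep A), r.IsLiftOf D.rb → r.IsNormalised D → 𝒟 r.toAdic →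
      ∃! φ : R →ₐ[𝒪] A, ∃ hφ : IsLocalHom (φ : R →+* A), ρR.map (φ : R →+* A) hφ = r) :
    Nonempty (GaloisRep.DeformationRingData 𝒪 ρbar 𝒟) := by
  refine ⟨{ R := R
            residue_surjective := hRres
            absIrr := habs
            ρ := ρR.toAdic
            isOfType := htype
            residual_isEquiv := ?_
            universal := ?_ }⟩
  · exact res_isEquiv_trans (P.B4 ρR hlift)
      (res_isEquiv_symm (res_isEquiv_baseChangeAlong _ hD))
  · intro A _ _ _ _ _ _ hAres ρA hρA hresA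
    exact universal_of_inputs h𝒟 D hD P R ρR hlift hnorm huniv A hAres ρA hρA hresA

end Assembly

end Fermat.Agent.S53
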