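import Mathlib
import Fermat.Prelude.Def_GaloisRep_DeformationCondition

/-!
# S53: basic facts on Artinian test algebras

* `finite_of_isArtinianTestAlgebra` : test algebras are finite rings (finite residue field of `𝒪`).
* `aug` : the augmentation `A →ₐ[𝒪] ResidueField 𝒪` of a test algebra.
* `isLocalHom_subalgebra_val_of_finite`, `isLocalRing_subalgebra_of_finite` :
  subalgebras of finite local rings are local.
* `fibreProd` : the fibre product `A ×ₖ B` of two test algebras, again a test algebra, and it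
  satisfies the hypotheses of `IsDeformationCondition.of_fibreProduct`.
-/

set_option autoImplicit false

namespace Fermat.Agent.S53

open IsLocalRing

section FiniteLength

/-- A module with a finite submodule and finite quotient is finite. -/
theorem finite_of_finite_submodule_quotient {A M : Type*} [Ring A] [AddCommGroup M] [Module A M]
    (N : Submodule A M) [Finite N] [Finite (M ⧸ N)] : Finite M := by
  have e := AddSubgroup.addGroupEquivQuotientProdAddSubgroup (s := N.toAddSubgroup)
  have h1 : Finite (M ⧸ N.toAddSubgroup) := ‹Finite (M ⧸ N)›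
  have h2 : Finite N.toAddSubgroup := ‹Finite N›
  exact Finite.of_equiv _ e.symm

/-- A finite length module over a local ring with finite residue field is finite. -/
theorem finite_of_isFiniteLength {A : Type*} [CommRing A] [IsLocalRing A]
    [Finite (ResidueField A)] {M : Type*} [AddCommGroup M] [Module A M]
    (h : IsFiniteLength A M) : Finite M := by
  induction h with
  | of_subsingleton => exact Finite.of_subsingleton
  | @of_simple_quotient M _ _ N hs _ ih =>
    obtain ⟨I, hI, ⟨e⟩⟩ := isSimpleModule_iff_quot_maximal.mp hs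
    have hIm : I = maximalIdeal A := IsLocalRing.eq_maximalIdeal hI
    subst hIm
    have : Finite (A ⧸ maximalIdeal A) := ‹Finite (ResidueField A)›
    have : Finite (M ⧸ N) := Finite.of_equiv _ e.symm.toEquiv
    exact finite_of_finite_submodule_quotient N

/-- An Artinian local ring with finite residue field is finite. -/
theorem finite_of_isArtinianRing_of_finite_residueField_h5 {A : Type*} [CommRing A] [IsLocalRing A]
    [IsArtinianRing A] [Finite (ResidueField A)] : Finite A := by
  have : IsNoetherianRing A := inferInstance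
  exact finite_of_isFiniteLength (A := A) (M := A)
    (isFiniteLength_iff_isNoetherian_isArtinian.mpr ⟨inferInstance, inferInstance⟩)

end FiniteLength

variable {𝒪 : Type} [CommRing 𝒪] [IsLocalRing 𝒪]

section Basic

variable {A : Type} [CommRing A] [IsLocalRing A] [Algebra 𝒪 A]

/-- The map on residue fields induced by the structure map of a test algebra is surjective. -/
theorem residueFieldMap_surjective (h1 : IsLocalHom (algebraMap 𝒪 A))
    (h2 : Function.Surjective (IsLocalRing.residue A ∘ algebraMap 𝒪 A)) :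
    Function.Surjective (ResidueField.map (algebraMap 𝒪 A)) := by
  intro x
  obtain ⟨o, ho⟩ := h2 x
  exact ⟨residue 𝒪 o, by rw [ResidueField.map_residue]; exact ho⟩

theorem residueFieldMap_bijective (h1 : IsLocalHom (algebraMap 𝒪 A))
    (h2 : Function.Surjective (IsLocalRing.residue A ∘ algebraMap 𝒪 A)) :
    Function.Bijective (ResidueField.map (algebraMap 𝒪 A)) :=
  ⟨(ResidueField.map (algebraMap 𝒪 A)).injective, residueFieldMap_surjective h1 h2⟩

/-- Test algebras over `𝒪` with finite residue field are finite rings. -/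
theorem finite_of_isArtinianTestAlgebra [Finite (ResidueField 𝒪)]
    (hA : GaloisRep.IsArtinianTestAlgebra 𝒪 A) : Finite A := by
  have := hA.isLocalHom
  have := hA.isArtinian
  have : Finite (ResidueField A) :=
    Finite.of_surjective _ (residueFieldMap_surjective hA.isLocalHom hA.residue_surjective)
  exact finite_of_isArtinianRing_of_finite_residueField_h5

end Basic

section Aug

variable (𝒪) (A : Type) [CommRing A] [IsLocalRing A] [Algebra 𝒪 A]

/-- The class of local `𝒪`-algebras with local structure map inducing an isomorphism on residue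
fields (no Artinian hypothesis). -/
structure IsResidueAlgebra : Prop where
  isLocalHom : IsLocalHom (algebraMap 𝒪 A)
  residue_surjective : Function.Surjective (IsLocalRing.residue A ∘ algebraMap 𝒪 A)

variable {𝒪 A}

omit [IsLocalRing 𝒪] in
theorem isResidueAlgebra_of_isArtinianTestAlgebra
    (hA : GaloisRep.IsArtinianTestAlgebra 𝒪 A) : IsResidueAlgebra 𝒪 A :=
  ⟨hA.isLocalHom, hA.residue_surjective⟩

/-- The identification of residue fields `ResidueField 𝒪 ≃+* ResidueField A`. -/
noncomputable def residueEquiv (hA : IsResidueAlgebra 𝒪 A) : ResidueField 𝒪 ≃+* ResidueField A :=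
  haveI := hA.isLocalHom
  RingEquiv.ofBijective (ResidueField.map (algebraMap 𝒪 A))
    (residueFieldMap_bijective hA.isLocalHom hA.residue_surjective)

theorem residueEquiv_residue (hA : IsResidueAlgebra 𝒪 A) (o : 𝒪) :
    residueEquiv hA (residue 𝒪 o) = residue A (algebraMap 𝒪 A o) := by
  have := hA.isLocalHom
  exact ResidueField.map_residue (algebraMap 𝒪 A) o

/-- The augmentation `A →ₐ[𝒪] ResidueField 𝒪`. -/
noncomputable def aug (hA : IsResidueAlgebra 𝒪 A) : A →ₐ[𝒪] ResidueField 𝒪 where
  toRingHom := ((residueEquiv hA).symm : ResidueField A →+* ResidueField 𝒪).comp (residue A)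
  commutes' o := by
    change (residueEquiv hA).symm (residue A (algebraMap 𝒪 A o)) = residue 𝒪 o
    rw [← residueEquiv_residue hA, RingEquiv.symm_apply_apply]

theorem aug_apply (hA : IsResidueAlgebra 𝒪 A) (x : A) :
    aug hA x = (residueEquiv hA).symm (residue A x) := rfl

theorem residueEquiv_aug (hA : IsResidueAlgebra 𝒪 A) (x : A) :
    residueEquiv hA (aug hA x) = residue A x := by
  rw [aug_apply, RingEquiv.apply_symm_apply]

theorem aug_eq_zero_iff (hA : IsResidueAlgebra 𝒪 A) (x : A) :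
    aug hA x = 0 ↔ x ∈ maximalIdeal A := by
  rw [aug_apply, map_eq_zero_iff _ (residueEquiv hA).symm.injective, residue_eq_zero_iff]

theorem aug_surjective (hA : IsResidueAlgebra 𝒪 A) : Function.Surjective (aug hA) := by
  intro y
  obtain ⟨o, rfl⟩ := residue_surjective y
  exact ⟨algebraMap 𝒪 A o, (aug hA).commutes o⟩

theorem isUnit_iff_aug_ne_zero (hA : IsResidueAlgebra 𝒪 A) (x : A) :
    IsUnit x ↔ aug hA x ≠ 0 := by
  rw [Ne, aug_eq_zero_iff, mem_maximalIdeal, mem_nonunits_iff, not_not]

theorem isLocalHom_aug (hA : IsResidueAlgebra 𝒪 A) : IsLocalHom (aug hA : A →+* ResidueField 𝒪) :=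
  ⟨fun x hx => (isUnit_iff_aug_ne_zero hA x).mpr hx.ne_zero⟩

/-- Any `𝒪`-algebra hom between residue algebras commutes with the augmentations. -/
theorem aug_comp {B : Type} [CommRing B] [IsLocalRing B] [Algebra 𝒪 B]
    (hA : IsResidueAlgebra 𝒪 A) (hB : IsResidueAlgebra 𝒪 B) (f : A →ₐ[𝒪] B)
    (hf : IsLocalHom (f : A →+* B)) (x : A) : aug hB (f x) = aug hA x := by
  obtain ⟨o, ho⟩ := residue_surjective (aug hA x)
  have hoA : aug hA (algebraMap 𝒪 A o) = aug hA x := by
    rw [AlgHom.commutes]; exact ho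
  have hoB : aug hB (algebraMap 𝒪 B o) = aug hA x := by
    rw [AlgHom.commutes]; exact ho
  have h1 : aug hA (x - algebraMap 𝒪 A o) = 0 := by rw [map_sub, hoA, sub_self]
  rw [aug_eq_zero_iff] at h1
  have h2 : f (x - algebraMap 𝒪 A o) ∈ maximalIdeal B := by
    rw [mem_maximalIdeal, mem_nonunits_iff]
    intro hu
    exact h1 (hf.map_nonunit _ hu)
  rw [← aug_eq_zero_iff hB, map_sub, map_sub, AlgHom.commutes, hoB, sub_eq_zero] at h2
  exact h2

end Aug

section Subalgebra

variable {A : Type} [CommRing A] [Algebra 𝒪 A]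

omit [IsLocalRing 𝒪] in
/-- In a finite ring, the inverse of a unit lying in a subalgebra lies in that subalgebra. -/
theorem inv_mem_subalgebra_of_finite [Finite A] (S : Subalgebra 𝒪 A) (u : Aˣ)
    (hu : (u : A) ∈ S) : ((u⁻¹ : Aˣ) : A) ∈ S := by
  obtain ⟨n, hn, hun⟩ := (isOfFinOrder_of_finite u).exists_pow_eq_one
  have h1 : u⁻¹ = u ^ (n - 1) := by
    rw [inv_eq_iff_eq_inv, ← mul_eq_one_iff_eq_inv, ← pow_succ', Nat.sub_add_cancel hn, hun]
  rw [h1, Units.val_pow_eq_pow_val]
  exact S.pow_mem hu _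

omit [IsLocalRing 𝒪] in
/-- The inclusion of a subalgebra of a finite ring reflects units. -/
theorem isLocalHom_subalgebra_val_of_finite [Finite A] (S : Subalgebra 𝒪 A) :
    IsLocalHom (S.val : S →+* A) := by
  refine ⟨fun x hx => ?_⟩
  obtain ⟨u, hu⟩ := hx
  have hmem : ((u⁻¹ : Aˣ) : A) ∈ S := inv_mem_subalgebra_of_finite S u (by rw [hu]; exact x.2)
  refine ⟨⟨x, ⟨_, hmem⟩, ?_, ?_⟩, rfl⟩
  · apply Subtype.ext
    change (x : A) * ((u⁻¹ : Aˣ) : A) = 1
    have : (x : A) = u := hu.symm
    rw [this, Units.mul_inv]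
  · apply Subtype.ext
    change ((u⁻¹ : Aˣ) : A) * (x : A) = 1
    have : (x : A) = u := hu.symm
    rw [this, Units.inv_mul]

omit [IsLocalRing 𝒪] in
/-- A subalgebra of a finite local ring is local. -/
theorem isLocalRing_subalgebra_of_finite [IsLocalRing A] [Finite A] (S : Subalgebra 𝒪 A) :
    IsLocalRing S :=
  haveI := isLocalHom_subalgebra_val_of_finite S
  RingHom.domain_isLocalRing (S.val : S →+* A)

/-- A subalgebra of a finite residue algebra is an Artinian test algebra. -/
theorem isArtinianTestAlgebra_subalgebra [IsLocalRing A] [Finite A] (hA : IsResidueAlgebra 𝒪 A)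
    (S : Subalgebra 𝒪 A) [IsLocalRing S] : GaloisRep.IsArtinianTestAlgebra 𝒪 S := by
  have hval := isLocalHom_subalgebra_val_of_finite S
  refine ⟨⟨fun o ho => ?_⟩, ?_, inferInstance⟩
  · have h1 : IsUnit ((S.val : S →+* A) (algebraMap 𝒪 S o)) := ho.map _
    exact hA.isLocalHom.map_nonunit o h1
  · intro x
    obtain ⟨s, rfl⟩ := residue_surjective x
    obtain ⟨o, ho⟩ := residue_surjective (aug hA (s : A))
    refine ⟨o, ?_⟩
    change residue S (algebraMap 𝒪 S o) = residue S s
    rw [← sub_eq_zero, ← map_sub, residue_eq_zero_iff, mem_maximalIdeal, mem_nonunits_iff]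
    intro hu
    have h1 : IsUnit ((S.val : S →+* A) (algebraMap 𝒪 S o - s)) := hu.map _
    rw [isUnit_iff_aug_ne_zero hA] at h1
    apply h1
    change aug hA (algebraMap 𝒪 A o - (s : A)) = 0
    rw [map_sub, AlgHom.commutes, ← ho]
    exact sub_self _

end Subalgebra

section FibreProd

variable {A B : Type} [CommRing A] [IsLocalRing A] [Algebra 𝒪 A]
  [CommRing B] [IsLocalRing B] [Algebra 𝒪 B]

/-- The fibre product `A ×ₖ B` of two residue algebras over the residue field of `𝒪`. -/
noncomputable def fibreProd (hA : IsResidueAlgebra 𝒪 A) (hB : IsResidueAlgebra 𝒪 B) :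
    Subalgebra 𝒪 (A × B) :=
  AlgHom.equalizer ((aug hA).comp (AlgHom.fst 𝒪 A B)) ((aug hB).comp (AlgHom.snd 𝒪 A B))

theorem mem_fibreProd (hA : IsResidueAlgebra 𝒪 A) (hB : IsResidueAlgebra 𝒪 B) (x : A × B) :
    x ∈ fibreProd hA hB ↔ aug hA x.1 = aug hB x.2 := Iff.rfl

/-- First projection of the fibre product. -/
noncomputable def fibreProdFst (hA : IsResidueAlgebra 𝒪 A) (hB : IsResidueAlgebra 𝒪 B) :
    fibreProd hA hB →ₐ[𝒪] A :=
  (AlgHom.fst 𝒪 A B).comp (fibreProd hA hB).val

/-- Second projection of the fibre product. -/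
noncomputable def fibreProdSnd (hA : IsResidueAlgebra 𝒪 A) (hB : IsResidueAlgebra 𝒪 B) :
    fibreProd hA hB →ₐ[𝒪] B :=
  (AlgHom.snd 𝒪 A B).comp (fibreProd hA hB).val

@[simp] theorem fibreProdFst_apply (hA : IsResidueAlgebra 𝒪 A) (hB : IsResidueAlgebra 𝒪 B)
    (x : fibreProd hA hB) : fibreProdFst hA hB x = (x : A × B).1 := rfl

@[simp] theorem fibreProdSnd_apply (hA : IsResidueAlgebra 𝒪 A) (hB : IsResidueAlgebra 𝒪 B)
    (x : fibreProd hA hB) : fibreProdSnd hA hB x = (x : A × B).2 := rfl

theorem fibreProd_aug_eq (hA : IsResidueAlgebra 𝒪 A) (hB : IsResidueAlgebra 𝒪 B)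
    (x : fibreProd hA hB) : aug hA (x : A × B).1 = aug hB (x : A × B).2 := x.2

theorem isUnit_fibreProd_iff (hA : IsResidueAlgebra 𝒪 A) (hB : IsResidueAlgebra 𝒪 B)
    (x : fibreProd hA hB) : IsUnit x ↔ IsUnit (x : A × B).1 := by
  constructor
  · intro h
    exact h.map (fibreProdFst hA hB)
  · intro h
    have h2 : IsUnit (x : A × B).2 := by
      rw [isUnit_iff_aug_ne_zero hB, ← fibreProd_aug_eq hA hB x, ← isUnit_iff_aug_ne_zero hA]
      exact h
    obtain ⟨u, hu⟩ := h
    obtain ⟨v, hv⟩ := h2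
    have hmem : (((u⁻¹ : Aˣ) : A), ((v⁻¹ : Bˣ) : B)) ∈ fibreProd hA hB := by
      rw [mem_fibreProd]
      have h3 := fibreProd_aug_eq hA hB x
      rw [← hu, ← hv] at h3
      have e1 : aug hA ((u⁻¹ : Aˣ) : A) * aug hA (u : A) = 1 := by
        rw [← map_mul, Units.inv_mul, map_one]
      have e2 : aug hB ((v⁻¹ : Bˣ) : B) * aug hB (v : B) = 1 := by
        rw [← map_mul, Units.inv_mul, map_one]
      rw [eq_comm, ← h3] at e2
      have hne : aug hA (u : A) ≠ 0 := by
        intro h0; rw [h0, mul_zero] at e1; exact zero_ne_one e1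
      exact mul_right_cancel₀ hne (e1.trans e2)
    refine ⟨⟨x, ⟨_, hmem⟩, ?_, ?_⟩, rfl⟩
    · apply Subtype.ext
      apply Prod.ext
      · change (x : A × B).1 * ((u⁻¹ : Aˣ) : A) = 1
        rw [← hu, Units.mul_inv]
      · change (x : A × B).2 * ((v⁻¹ : Bˣ) : B) = 1
        rw [← hv, Units.mul_inv]
    · apply Subtype.ext
      apply Prod.ext
      · change ((u⁻¹ : Aˣ) : A) * (x : A × B).1 = 1
        rw [← hu, Units.inv_mul]
      · change ((v⁻¹ : Bˣ) : B) * (x : A × B).2 = 1
        rw [← hv, Units.inv_mul]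

theorem isUnit_fibreProd_iff' (hA : IsResidueAlgebra 𝒪 A) (hB : IsResidueAlgebra 𝒪 B)
    (x : fibreProd hA hB) : IsUnit x ↔ IsUnit (x : A × B).2 := by
  rw [isUnit_fibreProd_iff, isUnit_iff_aug_ne_zero hA, isUnit_iff_aug_ne_zero hB,
    fibreProd_aug_eq hA hB x]

theorem isLocalHom_fibreProdFst (hA : IsResidueAlgebra 𝒪 A) (hB : IsResidueAlgebra 𝒪 B) :
    IsLocalHom (fibreProdFst hA hB : fibreProd hA hB →+* A) :=
  ⟨fun x hx => (isUnit_fibreProd_iff hA hB x).mpr hx⟩

theorem isLocalHom_fibreProdSnd (hA : IsResidueAlgebra 𝒪 A) (hB : IsResidueAlgebra 𝒪 B) :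
    IsLocalHom (fibreProdSnd hA hB : fibreProd hA hB →+* B) :=
  ⟨fun x hx => (isUnit_fibreProd_iff' hA hB x).mpr hx⟩

instance isLocalRing_fibreProd (hA : IsResidueAlgebra 𝒪 A) (hB : IsResidueAlgebra 𝒪 B) :
    IsLocalRing (fibreProd hA hB) :=
  haveI := isLocalHom_fibreProdFst hA hB
  RingHom.domain_isLocalRing (fibreProdFst hA hB : fibreProd hA hB →+* A)

theorem isResidueAlgebra_fibreProd (hA : IsResidueAlgebra 𝒪 A) (hB : IsResidueAlgebra 𝒪 B) :
    IsResidueAlgebra 𝒪 (fibreProd hA hB) := by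
  refine ⟨⟨fun o ho => ?_⟩, ?_⟩
  · have h1 : IsUnit (fibreProdFst hA hB (algebraMap 𝒪 (fibreProd hA hB) o)) := ho.map _
    rw [AlgHom.commutes] at h1
    exact hA.isLocalHom.map_nonunit o h1
  · intro x
    obtain ⟨s, rfl⟩ := residue_surjective x
    obtain ⟨o, ho⟩ := residue_surjective (aug hA (s : A × B).1)
    refine ⟨o, ?_⟩
    change residue _ (algebraMap 𝒪 (fibreProd hA hB) o) = residue _ s
    rw [← sub_eq_zero, ← map_sub, residue_eq_zero_iff, mem_maximalIdeal, mem_nonunits_iff,
      isUnit_fibreProd_iff, isUnit_iff_aug_ne_zero hA, not_not]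
    change aug hA (algebraMap 𝒪 A o - (s : A × B).1) = 0
    rw [map_sub, AlgHom.commutes, ← ho]
    exact sub_self _

theorem isArtinianTestAlgebra_fibreProd [Finite A] [Finite B] (hA : IsResidueAlgebra 𝒪 A)
    (hB : IsResidueAlgebra 𝒪 B) : GaloisRep.IsArtinianTestAlgebra 𝒪 (fibreProd hA hB) :=
  ⟨(isResidueAlgebra_fibreProd hA hB).isLocalHom,
    (isResidueAlgebra_fibreProd hA hB).residue_surjective, inferInstance⟩

theorem fibreProd_comp_eq (hA : IsResidueAlgebra 𝒪 A) (hB : IsResidueAlgebra 𝒪 B) :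
    (aug hA).comp (fibreProdFst hA hB) = (aug hB).comp (fibreProdSnd hA hB) :=
  AlgHom.ext fun x => fibreProd_aug_eq hA hB x

theorem fibreProd_injective (hA : IsResidueAlgebra 𝒪 A) (hB : IsResidueAlgebra 𝒪 B) :
    Function.Injective (fun x : fibreProd hA hB => (fibreProdFst hA hB x, fibreProdSnd hA hB x)) :=
  fun _ _ h => Subtype.ext h

theorem fibreProd_exists (hA : IsResidueAlgebra 𝒪 A) (hB : IsResidueAlgebra 𝒪 B) (a : A) (b : B)
    (h : aug hA a = aug hB b) :
    ∃ x : fibreProd hA hB, fibreProdFst hA hB x = a ∧ fibreProdSnd hA hB x = b :=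
  ⟨⟨(a, b), h⟩, rfl, rfl⟩

end FibreProd

/-- The residue field of `𝒪` is an Artinian test algebra. -/
theorem isArtinianTestAlgebra_residueField :
    GaloisRep.IsArtinianTestAlgebra 𝒪 (ResidueField 𝒪) := by
  refine ⟨?_, ?_, inferInstance⟩
  · exact (inferInstance : IsLocalHom (residue 𝒪))
  · intro x
    obtain ⟨y, rfl⟩ := residue_surjective x
    obtain ⟨o, rfl⟩ := residue_surjective y
    exact ⟨o, rfl⟩

end Fermat.Agent.S53
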