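import Fermat.Agent.S53.Final
import Fermat.Agent.S53.RigidApp
import Fermat.Agent.S53.TestAlgFacts
import Fermat.Agent.S53.AdmissibleInf

set_option autoImplicit false

/-!
# S53: glue between the pieces

* `pieceInputs D : PieceInputs D` from pieces B (`MatModel`, `FrameLift`) and RIGAPP (`RigidApp`).
* `exists_rigidDatum_isEquiv` : the rigidification datum of an absolutely irreducible `ρbar`,
  in the shape needed by `nonempty_deformationRingData_of_inputs`.
* `type_matRep_of_hbar` : the deformation condition holds for `D.matRep.toAdic`.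
-/

noncomputable section

namespace Fermat.Agent.S53

open IsLocalRing

variable {𝒪 : Type} [CommRing 𝒪] [IsLocalRing 𝒪]

/-- `D.toResidual` and the residual representation of `matRepOfLevel D.rb D.level` agree. -/
theorem RigidDatum.matRepOfLevel_toResidual_isEquiv (D : RigidDatum 𝒪) :
    (matRepOfLevel D.rb D.level).toResidual.IsEquiv D.toResidual :=
  ⟨{ toLinearEquiv := LinearEquiv.refl _ _
     map_apply := fun _ _ => rfl }⟩

/-- `D.toResidual` and the residual representation of `D.matRep` agree. -/
theorem RigidDatum.matRep_toResidual_isEquiv (D : RigidDatum 𝒪) :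
    D.matRep.toResidual.IsEquiv D.toResidual :=
  ⟨{ toLinearEquiv := LinearEquiv.refl _ _
     map_apply := fun _ _ => rfl }⟩

/-- The inputs of `Final.lean`, from pieces B and RIGAPP. -/
theorem pieceInputs (D : RigidDatum 𝒪) : PieceInputs D where
  B1 := fun φ hφ r => MatRep.isEquiv_baseChangeAlong_toAdic φ hφ r
  B2 := fun _ _ => MatRep.isEquiv_toAdic_iff
  B3 := fun ρ h =>
    exists_isLiftOf_of_residual_isEquiv' D.level D.matRepOfLevel_toResidual_isEquiv ρ h
  B4 := fun _ hr =>
    MatRep.IsLiftOf.residual_isEquiv' D.level D.matRepOfLevel_toResidual_isEquiv hr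
  R2 := fun {A} _ _ _ hloc _ hres r hr => by
    obtain ⟨g, -, hN, hL⟩ :=
      exists_conj_isNormalised D (residueFieldMap_bijective hloc hres) hr
    exact ⟨g, hN, hL⟩
  R3 := fun {A} _ _ _ hloc _ hres r r' hr hN hr' hN' g h =>
    eq_of_conj_of_isNormalised D (residueFieldMap_bijective hloc hres) hr hr' hN hN' g h

/-- The rigidification datum attached to an absolutely irreducible `ρbar`. -/
theorem exists_rigidDatum_isEquiv (ρbar : ResidualGaloisRep (ResidueField 𝒪))
    (habs : ρbar.IsAbsolutelyIrreducible) :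
    ∃ D : RigidDatum 𝒪, ρbar.IsEquiv D.toResidual := by
  obtain ⟨D, rbM, h1, h2⟩ := exists_rigidDatum ρbar habs
  refine ⟨D, res_isEquiv_symm ?_⟩
  have h3 : rbM = D.matRep := MatRep.ext fun σ => by
    show rbM.toHom σ = D.rb σ
    rw [h1]
  rw [h3] at h2
  exact res_isEquiv_trans (res_isEquiv_symm D.matRep_toResidual_isEquiv) h2

variable {𝒟 : ∀ ⦃A : Type⦄ [CommRing A] [IsLocalRing A] [Algebra 𝒪 A], GaloisRepAdic A → Prop}

/-- The deformation condition holds for the residual matrix representation `D.matRep`. -/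
theorem type_matRep_of_hbar (h𝒟 : GaloisRep.IsDeformationCondition 𝒪 𝒟)
    {ρbar : ResidualGaloisRep (ResidueField 𝒪)} (D : RigidDatum 𝒪)
    (hD : ρbar.IsEquiv D.toResidual)
    (hbar : 𝒟 (GaloisRepAdic.ofResidualGaloisRep ρbar)) : 𝒟 D.matRep.toAdic := by
  obtain ⟨e⟩ := hD
  refine h𝒟.of_isEquiv isArtinianTestAlgebra_residueField ?_ hbar
  exact ⟨{ toLinearEquiv := e.toLinearEquiv
           map_apply := e.map_apply }⟩

end Fermat.Agent.S53
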