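import Mathlib
import Fermat.Agent.S53.LimitRing
import Fermat.Agent.S53.PowerSeriesComplete
import Fermat.Prelude.Thm_IsLocalRing_isAdicComplete_of_module_finite

/-!
# Formal consequences of `limitRing 𝒪 F` being a quotient of a power series ring

Everything here takes a surjective `γ : MvPowerSeries (Fin d) 𝒪 →ₐ[𝒪] limitRing 𝒪 F` as input
(plus nontriviality of the limit ring) and derives: local, Noetherian, local structure map,
residue field, adic completeness, finiteness of `R ⧸ 𝔪 ^ n`.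
-/

set_option autoImplicit false

namespace Fermat.Agent.S53.LimitRing

open IsLocalRing

section General

variable {𝒪 : Type*} [CommRing 𝒪] [IsLocalRing 𝒪] {d : ℕ}
  {R : Type*} [CommRing R] [Algebra 𝒪 R]

/-- A surjective ring hom from a local ring onto a nontrivial ring: the target is local. -/
theorem isLocalRing_of_surj [Nontrivial R] (γ : MvPowerSeries (Fin d) 𝒪 →ₐ[𝒪] R)
    (hγ : Function.Surjective γ) : IsLocalRing R :=
  IsLocalRing.of_surjective' (γ : MvPowerSeries (Fin d) 𝒪 →+* R) hγ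

/-- A surjective ring hom between local rings is a local hom. -/
theorem isLocalHom_of_surj [IsLocalRing R] (γ : MvPowerSeries (Fin d) 𝒪 →ₐ[𝒪] R)
    (hγ : Function.Surjective γ) : IsLocalHom (γ : MvPowerSeries (Fin d) 𝒪 →+* R) := by
  refine ⟨fun f hf => ?_⟩
  by_contra hnu
  obtain ⟨u, hu⟩ := hf
  obtain ⟨g, hg⟩ := hγ ((u⁻¹ : Rˣ) : R)
  have h1 : IsUnit (1 - f * g) := by
    have hmem : f * g ∈ maximalIdeal (MvPowerSeries (Fin d) 𝒪) :=
      Ideal.mul_mem_right _ _ ((mem_maximalIdeal _).mpr hnu)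
    have : 1 - f * g ∉ maximalIdeal (MvPowerSeries (Fin d) 𝒪) := by
      intro h
      have h2 := Ideal.add_mem _ h hmem
      rw [sub_add_cancel] at h2
      exact (Ideal.ne_top_iff_one _).mp (maximalIdeal.isMaximal _).ne_top h2
    rwa [mem_maximalIdeal, mem_nonunits_iff, not_not] at this
  have h3 : (γ : MvPowerSeries (Fin d) 𝒪 →+* R) (1 - f * g) = 0 := by
    change γ (1 - f * g) = 0
    have hfu : γ f = u := hu.symm
    rw [map_sub, map_one, map_mul, hg, hfu, Units.mul_inv, sub_self]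
  have h4 : IsUnit ((γ : MvPowerSeries (Fin d) 𝒪 →+* R) (1 - f * g)) := h1.map _
  rw [h3] at h4
  exact not_isUnit_zero h4

omit [IsLocalRing 𝒪] in
theorem isNoetherianRing_of_surj [IsNoetherianRing 𝒪] (γ : MvPowerSeries (Fin d) 𝒪 →ₐ[𝒪] R)
    (hγ : Function.Surjective γ) : IsNoetherianRing R :=
  isNoetherianRing_of_surjective _ _ (γ : MvPowerSeries (Fin d) 𝒪 →+* R) hγ

theorem map_maximalIdeal_of_surj [IsLocalRing R] (γ : MvPowerSeries (Fin d) 𝒪 →ₐ[𝒪] R)
    (hγ : Function.Surjective γ) :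
    (maximalIdeal (MvPowerSeries (Fin d) 𝒪)).map (γ : MvPowerSeries (Fin d) 𝒪 →+* R) =
      maximalIdeal R := by
  have hloc := isLocalHom_of_surj γ hγ
  apply le_antisymm
  · rw [Ideal.map_le_iff_le_comap]
    intro f hf
    rw [Ideal.mem_comap, mem_maximalIdeal, mem_nonunits_iff]
    intro hu
    exact ((mem_maximalIdeal _).mp hf) (hloc.map_nonunit f hu)
  · intro x hx
    obtain ⟨f, rfl⟩ := hγ x
    refine Ideal.mem_map_of_mem _ ?_
    rw [mem_maximalIdeal, mem_nonunits_iff]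
    intro hu
    exact ((mem_maximalIdeal _).mp hx) (hu.map γ)

theorem isLocalHom_algebraMap_of_surj [IsLocalRing R] (γ : MvPowerSeries (Fin d) 𝒪 →ₐ[𝒪] R)
    (hγ : Function.Surjective γ) : IsLocalHom (algebraMap 𝒪 R) := by
  have hloc := isLocalHom_of_surj γ hγ
  refine ⟨fun o ho => ?_⟩
  have h1 : IsUnit ((γ : MvPowerSeries (Fin d) 𝒪 →+* R) (MvPowerSeries.C o)) := by
    have : (γ : MvPowerSeries (Fin d) 𝒪 →+* R) (MvPowerSeries.C o) = algebraMap 𝒪 R o := by
      change γ (algebraMap 𝒪 (MvPowerSeries (Fin d) 𝒪) o) = _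
      rw [AlgHom.commutes]
    rw [this]; exact ho
  have h2 := hloc.map_nonunit _ h1
  rw [MvPowerSeries.isUnit_iff_constantCoeff, MvPowerSeries.constantCoeff_C] at h2
  exact h2

theorem residue_surjective_of_surj [IsLocalRing R] (γ : MvPowerSeries (Fin d) 𝒪 →ₐ[𝒪] R)
    (hγ : Function.Surjective γ) :
    Function.Surjective (residue R ∘ algebraMap 𝒪 R) := by
  intro x
  obtain ⟨y, rfl⟩ := residue_surjective x
  obtain ⟨f, rfl⟩ := hγ y
  refine ⟨MvPowerSeries.constantCoeff f, ?_⟩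
  change residue R (algebraMap 𝒪 R (MvPowerSeries.constantCoeff f)) = residue R (γ f)
  rw [← sub_eq_zero, ← map_sub, residue_eq_zero_iff, ← map_maximalIdeal_of_surj γ hγ,
    ← AlgHom.commutes γ, ← map_sub]
  refine Ideal.mem_map_of_mem (γ : MvPowerSeries (Fin d) 𝒪 →+* R) ?_
  rw [mem_maximalIdeal_iff_constantCoeff, map_sub]
  have : MvPowerSeries.constantCoeff
      (algebraMap 𝒪 (MvPowerSeries (Fin d) 𝒪) (MvPowerSeries.constantCoeff f)) =
      MvPowerSeries.constantCoeff f := MvPowerSeries.constantCoeff_C _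
  rw [this, sub_self]
  exact zero_mem _

theorem isAdicComplete_of_surj [IsNoetherianRing 𝒪] [IsAdicComplete (maximalIdeal 𝒪) 𝒪]
    [IsLocalRing R] (γ : MvPowerSeries (Fin d) 𝒪 →ₐ[𝒪] R) (hγ : Function.Surjective γ) :
    IsAdicComplete (maximalIdeal R) R := by
  let _ : Algebra (MvPowerSeries (Fin d) 𝒪) R := (γ : MvPowerSeries (Fin d) 𝒪 →+* R).toAlgebra
  have : IsAdicComplete (maximalIdeal (MvPowerSeries (Fin d) 𝒪)) (MvPowerSeries (Fin d) 𝒪) :=
    isAdicComplete_maximalIdeal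
  have : Module.Finite (MvPowerSeries (Fin d) 𝒪) R :=
    Module.Finite.of_surjective (Algebra.linearMap (MvPowerSeries (Fin d) 𝒪) R) hγ
  have : IsLocalHom (algebraMap (MvPowerSeries (Fin d) 𝒪) R) := isLocalHom_of_surj γ hγ
  exact IsLocalRing.isAdicComplete_of_module_finite (𝒪 := MvPowerSeries (Fin d) 𝒪) (T := R)

theorem finite_quotient_maximalIdeal_pow_of_surj [IsNoetherianRing 𝒪] [Finite (ResidueField 𝒪)]
    [IsLocalRing R] (γ : MvPowerSeries (Fin d) 𝒪 →ₐ[𝒪] R) (hγ : Function.Surjective γ) (n : ℕ) :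
    Finite (R ⧸ maximalIdeal R ^ n) := by
  have := finite_quotient_maximalIdeal_pow (σ := Fin d) (𝒪 := 𝒪) n
  have hle : maximalIdeal (MvPowerSeries (Fin d) 𝒪) ^ n ≤
      (maximalIdeal R ^ n).comap (γ : MvPowerSeries (Fin d) 𝒪 →+* R) := by
    rw [← Ideal.map_le_iff_le_comap, Ideal.map_pow, map_maximalIdeal_of_surj γ hγ]
  let q : MvPowerSeries (Fin d) 𝒪 ⧸ maximalIdeal (MvPowerSeries (Fin d) 𝒪) ^ n →+*
      R ⧸ maximalIdeal R ^ n :=
    Ideal.quotientMap (maximalIdeal R ^ n) (γ : MvPowerSeries (Fin d) 𝒪 →+* R) hle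
  have hq : Function.Surjective q := Ideal.quotientMap_surjective hγ
  exact Finite.of_surjective q hq

end General

section Nontrivial

variable {𝒪 : Type*} [CommRing 𝒪] {P : Type*} [CommRing P] [Algebra 𝒪 P] {F : Set (Ideal P)}
  {d : ℕ}

/-- The limit ring of a pro-system is nontrivial. -/
theorem IsProSystem.nontrivial_limitRing (hF : IsProSystem 𝒪 F d) :
    Nontrivial (limitRing 𝒪 F) := by
  obtain ⟨I, hI⟩ := hF.nonempty
  have hnt : Nontrivial (P ⧸ I) := Ideal.Quotient.nontrivial_iff.mpr (hF.ne_top I hI)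
  refine ⟨⟨0, 1, fun h => ?_⟩⟩
  have h1 := congrArg (proj 𝒪 F ⟨I, hI⟩) h
  rw [map_zero, map_one] at h1
  exact zero_ne_one h1

end Nontrivial

end Fermat.Agent.S53.LimitRing
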