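import Fermat.Agent.S53.FrameLift

set_option autoImplicit false

/-!
# S53: bridge between `IsMatrixFormOf` and equivalences with the standard representation on `k²`

`IsMatrixFormOf rb ρbar` (file `FrameLift.lean`) follows from any linear equivalence
`ρbar.V ≃ (Fin 2 → k)` intertwining `ρbar.ρ σ` with multiplication by `rb σ`.
-/

noncomputable section

namespace Fermat.Agent.S53

variable {k : Type} [Field k]

/-- A linear equivalence `ρbar.V ≃ k²` intertwining `ρbar` with the matrices `rb σ` exhibits `rb`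
as a matrix form of `ρbar`. -/
theorem isMatrixFormOf_of_linearEquiv {rb : GQ →* M2 k} {ρbar : ResidualGaloisRep k}
    (e : ρbar.V ≃ₗ[k] (Fin 2 → k))
    (he : ∀ (σ : GQ) (v : ρbar.V), e (ρbar.ρ σ v) = (rb σ).mulVec (e v)) :
    IsMatrixFormOf rb ρbar := by
  classical
  refine ⟨(Pi.basisFun k (Fin 2)).map e.symm, fun σ => ?_⟩
  ext i j
  rw [LinearMap.toMatrix_apply, Module.Basis.map_apply, Pi.basisFun_apply, Module.Basis.map_repr,
    LinearEquiv.trans_apply, LinearEquiv.symm_symm, he, LinearEquiv.apply_symm_apply,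
    Matrix.mulVec_single_one, Pi.basisFun_repr]
  rfl

/-- The standard residual representation on `k²` attached to a monoid hom `rb : GQ →* M2 k` of
finite level. -/
def stdResidual (rb : GQ →* M2 k)
    (hlevel : ∃ L : IntermediateField ℚ (AlgebraicClosure ℚ), FiniteDimensional ℚ L ∧
      ∀ σ : GQ, (∀ x ∈ L, σ x = x) → rb σ = 1) : ResidualGaloisRep k where
  V := Fin 2 → k
  finrank_eq := by simp
  ρ := (Matrix.toLinAlgEquiv' (R := k) (n := Fin 2) : M2 k →* Module.End k (Fin 2 → k)).comp rb
  factorsThroughFiniteLevel := by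
    obtain ⟨L, hL, h⟩ := hlevel
    refine ⟨L, hL, fun σ hσ => ?_⟩
    rw [MonoidHom.comp_apply, h σ hσ, map_one]

theorem stdResidual_ρ_apply (rb : GQ →* M2 k)
    (hlevel : ∃ L : IntermediateField ℚ (AlgebraicClosure ℚ), FiniteDimensional ℚ L ∧
      ∀ σ : GQ, (∀ x ∈ L, σ x = x) → rb σ = 1) (σ : GQ) (v : Fin 2 → k) :
    (stdResidual rb hlevel).ρ σ v = (rb σ).mulVec v := rfl

/-- If `ρbar` is equivalent to the standard representation attached to `rb`, then `rb` is a matrix
form of `ρbar`. -/
theorem isMatrixFormOf_of_isEquiv_stdResidual {rb : GQ →* M2 k} {ρbar : ResidualGaloisRep k}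
    (hlevel : ∃ L : IntermediateField ℚ (AlgebraicClosure ℚ), FiniteDimensional ℚ L ∧
      ∀ σ : GQ, (∀ x ∈ L, σ x = x) → rb σ = 1)
    (h : ρbar.IsEquiv (stdResidual rb hlevel)) : IsMatrixFormOf rb ρbar := by
  obtain ⟨e⟩ := h
  exact isMatrixFormOf_of_linearEquiv e.toLinearEquiv fun σ v => e.map_apply σ v

/-- If the residual representation of a matrix representation `rbM` over `k` is equivalent to
`ρbar`, then `rbM.toHom` is a matrix form of `ρbar`. -/
theorem isMatrixFormOf_of_toResidual_isEquiv {rbM : MatRep k} {ρbar : ResidualGaloisRep k}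
    (h : rbM.toResidual.IsEquiv ρbar) : IsMatrixFormOf rbM.toHom ρbar := by
  obtain ⟨e⟩ := h
  exact isMatrixFormOf_of_linearEquiv e.toLinearEquiv.symm fun σ v => by
    have := e.symm.map_apply σ v
    exact this

/-- The output of `exists_rigidDatum` (file `RigidApp.lean`) gives a matrix form. -/
theorem RigidDatum.isMatrixFormOf_of_matRep {𝒪 : Type} [CommRing 𝒪] [IsLocalRing 𝒪]
    (D : RigidDatum 𝒪) {rbM : MatRep (IsLocalRing.ResidueField 𝒪)}
    {ρbar : ResidualGaloisRep (IsLocalRing.ResidueField 𝒪)} (h1 : rbM.toHom = D.rb)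
    (h2 : rbM.toResidual.IsEquiv ρbar) : IsMatrixFormOf D.rb ρbar :=
  h1 ▸ isMatrixFormOf_of_toResidual_isEquiv h2

/-- A rigidification datum whose standard representation is equivalent to `ρbar` has `D.rb` a
matrix form of `ρbar`. -/
theorem RigidDatum.isMatrixFormOf_of_isEquiv {𝒪 : Type} [CommRing 𝒪] [IsLocalRing 𝒪]
    (D : RigidDatum 𝒪) {ρbar : ResidualGaloisRep (IsLocalRing.ResidueField 𝒪)}
    (h : ρbar.IsEquiv (stdResidual D.rb D.level)) : IsMatrixFormOf D.rb ρbar :=
  isMatrixFormOf_of_isEquiv_stdResidual D.level h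

end Fermat.Agent.S53
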