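import Fermat.Agent.S53.Final
import Fermat.Agent.S53.AdmissibleInf

set_option autoImplicit false

/-!
# S53: the residual representation is of type `𝒟` in matrix form

The frozen statement assumes `hbar : 𝒟 (GaloisRepAdic.ofResidualGaloisRep ρbar)`. The admissible
family needs `𝒟 D.matRep.toAdic` (to be nonempty). This file bridges the two, for a rigidification
datum `D` with `ρbar.IsEquiv D.toResidual`.
-/

namespace Fermat.Agent.S53

open IsLocalRing

variable {𝒪 : Type} [CommRing 𝒪] [IsLocalRing 𝒪]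
  {𝒟 : ∀ ⦃A : Type⦄ [CommRing A] [IsLocalRing A] [Algebra 𝒪 A], GaloisRepAdic A → Prop}
  {ρbar : ResidualGaloisRep (ResidueField 𝒪)}

/-- The adic representation over `k` attached to `ρbar` is equivalent to the matrix form. -/
theorem isEquiv_ofResidualGaloisRep_matRep (D : RigidDatum 𝒪) (hD : ρbar.IsEquiv D.toResidual) :
    (GaloisRepAdic.ofResidualGaloisRep ρbar).IsEquiv D.matRep.toAdic := by
  obtain ⟨e⟩ := hD
  exact ⟨{ toLinearEquiv := e.toLinearEquiv, map_apply := fun σ x => e.map_apply σ x }⟩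

/-- The matrix form of the residual representation is of type `𝒟`. -/
theorem isOfType_matRep [Finite (ResidueField 𝒪)] (h𝒟 : GaloisRep.IsDeformationCondition 𝒪 𝒟)
    (D : RigidDatum 𝒪) (hD : ρbar.IsEquiv D.toResidual)
    (hbar : 𝒟 (GaloisRepAdic.ofResidualGaloisRep ρbar)) : 𝒟 D.matRep.toAdic :=
  h𝒟.of_isEquiv (TestAlg.resField 𝒪).isTest (isEquiv_ofResidualGaloisRep_matRep D hD) hbar

end Fermat.Agent.S53
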